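/-
helper12 — generic (Mathlib + the prelude's `Place`): in a constant field extension
`F' = F K'` (`K'/K` algebraic) there is AT MOST ONE place of `F'/K'` above a place of degree one
of `F/K`.

Setting: `F/K`, `F'/K'` fields with `K ⊆ K'`, `F ⊆ F'` compatible, `F'` spanned over `F` by the
image of `K'` (equivalently, when `K'/K` is algebraic, generated as a field by `F` and `K'`).
Let `w` be a place of `F/K` of degree one, and `V` a valuation ring of `F'` containing `K'` with
`V ∩ F = 𝒪_w`.  Then membership in `V` is decided by `w` alone: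

* `exists_forall_mem_iff` : for `x ≠ 0` in `F'` there is `a ∈ F` with `x ∈ V ↔ a ∈ 𝒪_w` for EVERY
  such `V` (write `x = Σ e_j a_j` over a `K`-basis `(e_j)` of `K'`, divide by the `a_j` of
  smallest order, reduce the quotients modulo `𝔪_w` to constants: `x = a (γ + z)` with
  `γ ∈ K'ˣ`, `z ∈ 𝔪_V`);
* `eq_of_restrict_eq_of_deg_eq_one` : two places `v, v'` of `F'/K'` with
  `𝒪_v ∩ F = 𝒪_w = 𝒪_v' ∩ F`, `deg w = 1`, coincide;
* `span_range_eq_top_of_adjoin_eq_top` : the spanning hypothesis from
  `IntermediateField.adjoin K' (range (algebraMap F F')) = ⊤` for `K'/K` algebraic.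

(For S35, step "Esc is finite": two `Qbar`-places over the same escaping `E`-rational place
coincide.)
-/
import Mathlib
import Fermat.Prelude.Def_AlgebraicCurve_DivisorClassGroup

set_option autoImplicit false

namespace Fermat.Agent.CA.H12

open AlgebraicCurve IsLocalRing

section Rat

variable {k F : Type*} [Field k] [Field F] [Algebra k F]

/-- A place of degree one is rational: every element of `𝒪_v` is congruent to a constant. -/
theorem exists_const_of_deg_eq_one (v : Place k F) (hdeg : v.deg = 1) (x : F)
    (hx : x ∈ v.toValuationSubring) :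
    ∃ c : k, v.toValuationSubring.valuation (x - algebraMap k F c) < 1 := by
  have h1 : (1 : v.ResidueField) ≠ 0 := one_ne_zero
  obtain ⟨c, hc⟩ := (finrank_eq_one_iff_of_nonzero' (1 : v.ResidueField) h1).mp hdeg
    (residue v.toValuationSubring ⟨x, hx⟩)
  refine ⟨c, ?_⟩
  have hmem : (⟨x, hx⟩ : v.toValuationSubring) - algebraMap k v.toValuationSubring c ∈
      maximalIdeal v.toValuationSubring := by
    rw [← residue_eq_zero_iff, map_sub, sub_eq_zero, ← hc, Algebra.smul_def, mul_one,
      IsScalarTower.algebraMap_apply k v.toValuationSubring v.ResidueField,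
      ResidueField.algebraMap_eq]
  have := (ValuationSubring.valuation_lt_one_iff v.toValuationSubring _).1 hmem
  simpa using this

end Rat

section Val

variable {F F' : Type*} [Field F] [Field F'] [Algebra F F']

/-- If `V ∩ F = W`, then `𝔪_W` maps into `𝔪_V`. -/
theorem valuation_algebraMap_lt_one (W : ValuationSubring F) (V : ValuationSubring F')
    (hV : ∀ f : F, f ∈ W ↔ algebraMap F F' f ∈ V) {m : F} (hm : W.valuation m < 1) :
    V.valuation (algebraMap F F' m) < 1 := by
  rcases eq_or_ne m 0 with rfl | hm0
  · simp
  · have hinv : m⁻¹ ∉ W := by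
      intro h
      have h1 := (W.valuation_le_one_iff _).2 h
      rw [map_inv₀] at h1
      have hpos : 0 < W.valuation m := by
        rw [zero_lt_iff, Valuation.ne_zero_iff]
        exact hm0
      rw [inv_le_one₀ hpos] at h1
      exact absurd hm (not_lt.2 h1)
    have hinv' : (algebraMap F F' m)⁻¹ ∉ V := by
      rw [← map_inv₀]
      exact fun h => hinv ((hV _).2 h)
    by_contra hge
    push Not at hge
    apply hinv'
    rw [← V.valuation_le_one_iff, map_inv₀]
    have hpos : 0 < V.valuation (algebraMap F F' m) := lt_of_lt_of_le zero_lt_one hge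
    exact (inv_le_one₀ hpos).2 hge

end Val

section Main

variable {K F K' F' : Type*} [Field K] [Field F] [Algebra K F] [Field K'] [Field F']
  [Algebra K' F'] [Algebra K K'] [Algebra F F'] [Algebra K F'] [IsScalarTower K F F']
  [IsScalarTower K K' F']

/-- The image of `K'` is spanned over `F` by the image of a `K`-basis of `K'`. -/
theorem span_basis_eq_span_range {ι : Type*} (e : Module.Basis ι K K') :
    Submodule.span F (Set.range fun j => algebraMap K' F' (e j)) =
      Submodule.span F (Set.range (algebraMap K' F')) := by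
  apply le_antisymm
  · apply Submodule.span_mono
    rintro _ ⟨j, rfl⟩
    exact ⟨e j, rfl⟩
  · rw [Submodule.span_le]
    rintro _ ⟨c, rfl⟩
    have hc : c ∈ Submodule.span K (Set.range e) := e.mem_span c
    induction hc using Submodule.span_induction with
    | mem x hx =>
      obtain ⟨j, rfl⟩ := hx
      exact Submodule.subset_span ⟨j, rfl⟩
    | zero => rw [map_zero]; exact Submodule.zero_mem _
    | add x y _ _ hx hy => rw [map_add]; exact Submodule.add_mem _ hx hy
    | smul κ x _ hx =>
      have : algebraMap K' F' (κ • x) = algebraMap K F κ • algebraMap K' F' x := by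
        rw [Algebra.smul_def, map_mul, ← IsScalarTower.algebraMap_apply K K' F',
          IsScalarTower.algebraMap_apply K F F', Algebra.smul_def]
      rw [this]
      exact Submodule.smul_mem _ _ hx

/-- **Membership in a valuation ring above a degree-one place is decided below.** -/
theorem exists_forall_mem_iff
    (hspan : Submodule.span F (Set.range (algebraMap K' F')) = ⊤)
    (w : Place K F) (hdeg : w.deg = 1) (x : F') (hx : x ≠ 0) :
    ∃ a : F, ∀ V : ValuationSubring F', (∀ c : K', algebraMap K' F' c ∈ V) →
      (∀ f : F, f ∈ w.toValuationSubring ↔ algebraMap F F' f ∈ V) →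
      (x ∈ V ↔ a ∈ w.toValuationSubring) := by
  classical
  set W := w.toValuationSubring with hW
  obtain ⟨ι, ⟨e⟩⟩ := Module.Basis.exists_basis K K'
  have hxs : x ∈ Submodule.span F (Set.range fun j => algebraMap K' F' (e j)) := by
    rw [span_basis_eq_span_range e, hspan]; trivial
  obtain ⟨c, hc⟩ := (Finsupp.mem_span_range_iff_exists_finsupp).1 hxs
  have hcs : c.support.Nonempty := by
    rw [Finsupp.support_nonempty_iff]
    rintro rfl
    apply hx
    rw [← hc]
    simp
  obtain ⟨j0, hj0, hmax⟩ := Finset.exists_max_image c.support (fun j => W.valuation (c j)) hcs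
  have ha0 : c j0 ≠ 0 := Finsupp.mem_support_iff.1 hj0
  -- the quotients lie in `𝒪_w`
  have hb : ∀ j ∈ c.support, c j / c j0 ∈ W := by
    intro j hj
    rw [← W.valuation_le_one_iff, map_div₀]
    have hpos : 0 < W.valuation (c j0) := by
      rw [zero_lt_iff, Valuation.ne_zero_iff]
      exact ha0
    exact (div_le_one₀ hpos).2 (hmax j hj)
  -- their constant terms
  have hβ : ∀ j : ι, ∃ β : K, j ∈ c.support →
      W.valuation (c j / c j0 - algebraMap K F β) < 1 := by
    intro j
    by_cases hj : j ∈ c.support
    · obtain ⟨β, hβ⟩ := exists_const_of_deg_eq_one w hdeg _ (hb j hj)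
      exact ⟨β, fun _ => hβ⟩
    · exact ⟨0, fun h => absurd h hj⟩
  choose β hβ using hβ
  have hβ0 : β j0 ≠ 0 := by
    intro h0
    have := hβ j0 hj0
    rw [h0, map_zero, sub_zero, div_self ha0, map_one] at this
    exact lt_irrefl _ this
  -- the constant `γ`
  set γ : K' := ∑ j ∈ c.support, β j • e j with hγ
  have hγ0 : γ ≠ 0 := by
    intro h0
    have hli := e.linearIndependent
    rw [linearIndependent_iff'] at hli
    exact hβ0 (hli c.support β h0 j0 hj0)
  -- the remainder `z`
  set z : F' := ∑ j ∈ c.support, (c j / c j0 - algebraMap K F (β j)) • algebraMap K' F' (e j)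
    with hz
  have hdecomp : x = algebraMap F F' (c j0) * (algebraMap K' F' γ + z) := by
    rw [← hc, Finsupp.sum, hγ, hz, map_sum, ← Finset.sum_add_distrib, Finset.mul_sum]
    refine Finset.sum_congr rfl fun j _ => ?_
    have h1 : algebraMap K' F' (β j • e j) = algebraMap K F (β j) • algebraMap K' F' (e j) := by
      rw [Algebra.smul_def, map_mul, ← IsScalarTower.algebraMap_apply K K' F',
        IsScalarTower.algebraMap_apply K F F', Algebra.smul_def]
    rw [h1, ← add_smul, add_sub_cancel, Algebra.smul_def, Algebra.smul_def, ← mul_assoc,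
      ← map_mul, mul_div_cancel₀ _ ha0]
  refine ⟨c j0, fun V hK' hV => ?_⟩
  -- `γ` is a unit of `V`, `z ∈ 𝔪_V`
  have hγV : V.valuation (algebraMap K' F' γ) = 1 := by
    apply le_antisymm
    · exact (V.valuation_le_one_iff _).2 (hK' γ)
    · have h1 : V.valuation (algebraMap K' F' γ⁻¹) ≤ 1 := (V.valuation_le_one_iff _).2 (hK' γ⁻¹)
      rw [map_inv₀, map_inv₀] at h1
      have hpos : 0 < V.valuation (algebraMap K' F' γ) := by
        rw [zero_lt_iff, Valuation.ne_zero_iff]
        exact (map_ne_zero _).2 hγ0
      exact (inv_le_one₀ hpos).1 h1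
  have hzV : V.valuation z < 1 := by
    rw [hz]
    refine Valuation.map_sum_lt _ one_ne_zero fun j hj => ?_
    rw [Algebra.smul_def, map_mul]
    have h1 := valuation_algebraMap_lt_one W V hV (hβ j hj)
    have h2 : V.valuation (algebraMap K' F' (e j)) ≤ 1 := (V.valuation_le_one_iff _).2 (hK' _)
    calc V.valuation (algebraMap F F' (c j / c j0 - algebraMap K F (β j))) *
          V.valuation (algebraMap K' F' (e j))
        ≤ V.valuation (algebraMap F F' (c j / c j0 - algebraMap K F (β j))) * 1 :=
          mul_le_mul_right h2 _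
      _ < 1 := by rw [mul_one]; exact h1
  have hu : V.valuation (algebraMap K' F' γ + z) = 1 := by
    rw [Valuation.map_add_eq_of_lt_left _ (by rw [hγV]; exact hzV), hγV]
  rw [← V.valuation_le_one_iff, hdecomp, map_mul, hu, mul_one, V.valuation_le_one_iff]
  exact (hV _).symm

/-- **Uniqueness of the place above a place of degree one.** -/
theorem eq_of_restrict_eq_of_deg_eq_one
    (hspan : Submodule.span F (Set.range (algebraMap K' F')) = ⊤)
    (w : Place K F) (hdeg : w.deg = 1) (v v' : Place K' F')
    (hv : ∀ f : F, f ∈ w.toValuationSubring ↔ algebraMap F F' f ∈ v.toValuationSubring)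
    (hv' : ∀ f : F, f ∈ w.toValuationSubring ↔ algebraMap F F' f ∈ v'.toValuationSubring) :
    v = v' := by
  apply Place.ext
  ext x
  rcases eq_or_ne x 0 with rfl | hx
  · exact ⟨fun _ => zero_mem _, fun _ => zero_mem _⟩
  · obtain ⟨a, ha⟩ := exists_forall_mem_iff hspan w hdeg x hx
    rw [ha v.toValuationSubring v.algebraMap_mem' hv,
      ha v'.toValuationSubring v'.algebraMap_mem' hv']

/-- `F'` is spanned over `F` by the image of `K'` as soon as it is generated, as a field, by `F`
and `K'`, and `K'/K` is algebraic: the `F`-subalgebra generated by `K'` is integral over the field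
`F`, hence a field. -/
theorem span_range_eq_top_of_adjoin_eq_top [Algebra.IsAlgebraic K K']
    (hgen : IntermediateField.adjoin K' (Set.range (algebraMap F F')) = ⊤) :
    Submodule.span F (Set.range (algebraMap K' F')) = ⊤ := by
  -- the `F`-subalgebra generated by `K'`
  set A : Subalgebra F F' := Algebra.adjoin F (Set.range (algebraMap K' F')) with hA
  have hint : ∀ x ∈ A, IsIntegral F x := by
    have hle : A ≤ integralClosure F F' := by
      rw [hA]
      apply Algebra.adjoin_le
      rintro _ ⟨c, rfl⟩
      have hc : IsIntegral K c := (Algebra.IsAlgebraic.isAlgebraic c).isIntegral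
      have h1 : IsIntegral K (algebraMap K' F' c) := hc.map (IsScalarTower.toAlgHom K K' F')
      exact h1.tower_top
    exact fun x hx => hle hx
  have hinv : ∀ x ∈ A, x⁻¹ ∈ A := by
    intro x hx
    exact A.inv_mem_of_algebraic (x := ⟨x, hx⟩) (hint x hx).isAlgebraic
  -- as an intermediate field of `F'/K'`
  let T : IntermediateField K' F' :=
    { toSubsemiring := A.toSubsemiring
      algebraMap_mem' := fun c => Algebra.subset_adjoin ⟨c, rfl⟩
      inv_mem' := hinv }
  have hT : IntermediateField.adjoin K' (Set.range (algebraMap F F')) ≤ T := by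
    rw [IntermediateField.adjoin_le_iff]
    rintro _ ⟨f, rfl⟩
    exact A.algebraMap_mem f
  have hAtop : A = ⊤ := by
    rw [eq_top_iff]
    intro x _
    have : x ∈ T := hT (by rw [hgen]; trivial)
    exact this
  -- `A` is the span of the submonoid `range (algebraMap K' F')`
  have hspan := Algebra.adjoin_eq_span (R := F) (Set.range (algebraMap K' F'))
  have hcl : (Submonoid.closure (Set.range (algebraMap K' F')) : Set F') =
      Set.range (algebraMap K' F') := by
    have : Set.range (algebraMap K' F') =
        ((MonoidHom.mrange ((algebraMap K' F' : K' →+* F') : K' →* F')) : Set F') :=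
      (MonoidHom.coe_mrange _).symm
    rw [this, Submonoid.closure_eq]
  rw [hcl] at hspan
  rw [← hspan, ← hA, hAtop]
  rfl

/-- **Uniqueness of the place above a place of degree one**, field-generation form. -/
theorem eq_of_restrict_eq_of_deg_eq_one' [Algebra.IsAlgebraic K K']
    (hgen : IntermediateField.adjoin K' (Set.range (algebraMap F F')) = ⊤)
    (w : Place K F) (hdeg : w.deg = 1) (v v' : Place K' F')
    (hv : ∀ f : F, f ∈ w.toValuationSubring ↔ algebraMap F F' f ∈ v.toValuationSubring)
    (hv' : ∀ f : F, f ∈ w.toValuationSubring ↔ algebraMap F F' f ∈ v'.toValuationSubring) :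
    v = v' :=
  eq_of_restrict_eq_of_deg_eq_one (span_range_eq_top_of_adjoin_eq_top (K := K) hgen) w hdeg v v'
    hv hv'

end Main

end Fermat.Agent.CA.H12
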