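import Mathlib

/-!
# The product coordinate `J = a * b` of a monic correspondence (helper13; generic, Mathlib only)

`F` a field, `R → F`, `Φ : R[X][X]` monic in the outer variable, `a b : F` non-zero with
`Φ(a, b) = 0` (inner variable `a`, outer variable `b`).  Then

* `b` is integral over `R[a * b]`;
* `a⁻¹` is integral over `R[(a * b)⁻¹]`.

Used for the modular correspondence `Φ_q(j, j_q) = 0 = Φ_q(j_q, j)`: all of `j, j_q` are integral
over `R[J]` and all of `j⁻¹, j_q⁻¹` are integral over `R[J⁻¹]`, `J = j * j_q`; so the charts of the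
coordinate `J` contain the charts of `j` and of `j_q`.

The proofs go through valuation subrings: the integral closure of `R[s]` in a field is the
intersection of the valuation subrings containing `R` and `s`.
-/

set_option autoImplicit false
set_option linter.unusedSectionVars false

open Polynomial

namespace Fermat.Agent.CA.H13

section Valuative

variable {R : Type*} [CommRing R] {F : Type*} [Field F] [Algebra R F]

/-- **Valuative criterion of integrality** over `R[s]` in a field. -/
theorem isIntegral_adjoin_of_forall_valuationSubring (s : Set F) (x : F)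
    (h : ∀ V : ValuationSubring F, (∀ r : R, algebraMap R F r ∈ V) → (∀ y ∈ s, y ∈ V) → x ∈ V) :
    IsIntegral (Algebra.adjoin R s) x := by
  have key := iInf_valuationSubring_superset (K := F) (s := Set.range (algebraMap R F) ∪ s)
  have hx : x ∈ (⨅ V : {V : ValuationSubring F //
      (Set.range (algebraMap R F) ∪ s) ⊆ V.toSubring}, V.1.toSubring) := by
    rw [Subring.mem_iInf]
    rintro ⟨V, hV⟩
    refine h V (fun r => hV (Or.inl ⟨r, rfl⟩)) (fun y hy => hV (Or.inr hy))
  rw [key] at hx
  have hx' : IsIntegral (Subring.closure (Set.range (algebraMap R F) ∪ s)) x := hx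
  have hle : Subring.closure (Set.range (algebraMap R F) ∪ s) ≤ (Algebra.adjoin R s).toSubring := by
    rw [Algebra.adjoin_eq_ring_closure]
  obtain ⟨p, hp, hpx⟩ := hx'
  refine ⟨p.map (Subring.inclusion hle), hp.map _, ?_⟩
  rw [eval₂_map]
  exact hpx

/-- elements of a valuation subring containing `R` : values of polynomials. -/
theorem aeval_mem_valuationSubring (V : ValuationSubring F) (hR : ∀ r : R, algebraMap R F r ∈ V)
    {a : F} (ha : a ∈ V) (p : R[X]) : aeval a p ∈ V := by
  rw [aeval_eq_sum_range]
  refine Subring.sum_mem V.toSubring fun i _ => ?_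
  rw [Algebra.smul_def]
  exact V.mul_mem _ _ (hR _) (pow_mem ha i)

/-- a root of a monic polynomial with coefficients `c_n(a)`, `a ∈ V`, lies in `V`. -/
theorem mem_valuationSubring_of_eval₂_eq_zero (V : ValuationSubring F)
    (hR : ∀ r : R, algebraMap R F r ∈ V) {Φ : R[X][X]} (hΦ : Φ.Monic) {a b : F} (ha : a ∈ V)
    (h : Φ.eval₂ ((aeval a : R[X] →ₐ[R] F) : R[X] →+* F) b = 0) : b ∈ V := by
  have hmem : ∀ p : R[X], ((aeval a : R[X] →ₐ[R] F) : R[X] →+* F) p ∈ V.toSubring :=
    fun p => aeval_mem_valuationSubring V hR ha p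
  set f : R[X] →+* V.toSubring :=
    (((aeval a : R[X] →ₐ[R] F) : R[X] →+* F)).codRestrict V.toSubring hmem with hf
  have hint : IsIntegral V.toSubring b := by
    refine ⟨Φ.map f, hΦ.map f, ?_⟩
    rw [eval₂_map]
    have : (algebraMap V.toSubring F).comp f = ((aeval a : R[X] →ₐ[R] F) : R[X] →+* F) := by
      ext p <;> rfl
    rw [this]
    exact h
  have hic : IsIntegrallyClosed V := inferInstance
  have hb := (IsIntegrallyClosed.isIntegral_iff (R := V) (K := F)).1 hint
  obtain ⟨y, rfl⟩ := hb
  exact y.2

end Valuative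

section ProdCoord

variable {R : Type*} [CommRing R] {F : Type*} [Field F] [Algebra R F]

/-- **The outer root is integral over `R[a * b]`.** -/
theorem isIntegral_adjoin_mul_right {Φ : R[X][X]} (hΦ : Φ.Monic) {a b : F} (hb : b ≠ 0)
    (h : Φ.eval₂ ((aeval a : R[X] →ₐ[R] F) : R[X] →+* F) b = 0) :
    IsIntegral (Algebra.adjoin R {a * b}) b := by
  refine isIntegral_adjoin_of_forall_valuationSubring _ _ fun V hR hs => ?_
  have hJ : a * b ∈ V := hs _ rfl
  rcases V.mem_or_inv_mem b with hbV | hbV
  · exact hbV
  · have ha : a ∈ V := by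
      have : a = a * b * b⁻¹ := by field_simp
      rw [this]
      exact V.mul_mem _ _ hJ hbV
    exact mem_valuationSubring_of_eval₂_eq_zero V hR hΦ ha h

/-- **The inverse of the inner root is integral over `R[(a * b)⁻¹]`.** -/
theorem isIntegral_adjoin_mul_inv_left {Φ : R[X][X]} (hΦ : Φ.Monic) {a b : F} (ha : a ≠ 0)
    (hb : b ≠ 0) (h : Φ.eval₂ ((aeval a : R[X] →ₐ[R] F) : R[X] →+* F) b = 0) :
    IsIntegral (Algebra.adjoin R {(a * b)⁻¹}) a⁻¹ := by
  refine isIntegral_adjoin_of_forall_valuationSubring _ _ fun V hR hs => ?_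
  have hJ : (a * b)⁻¹ ∈ V := hs _ rfl
  rcases V.mem_or_inv_mem a with haV | haV
  · -- then `b ∈ V`, so `a * b` is a unit of `V`, hence so is `a`
    have hbV : b ∈ V := mem_valuationSubring_of_eval₂_eq_zero V hR hΦ haV h
    have : a⁻¹ = b * (a * b)⁻¹ := by field_simp
    rw [this]
    exact V.mul_mem _ _ hbV hJ
  · exact haV

end ProdCoord

section Charts

variable {R : Type*} [CommRing R] {F : Type*} [Field F] [Algebra R F]

/-- an element integral over `R[s]` lies in every valuation subring containing `R` and `s`. -/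
theorem mem_valuationSubring_of_isIntegral_adjoin (V : ValuationSubring F)
    (hR : ∀ r : R, algebraMap R F r ∈ V) {s : Set F} (hs : ∀ y ∈ s, y ∈ V) {x : F}
    (hx : IsIntegral (Algebra.adjoin R s) x) : x ∈ V := by
  have hle : ∀ w ∈ Algebra.adjoin R s, w ∈ V.toSubring := by
    intro w hw
    induction hw using Algebra.adjoin_induction with
    | mem w hw => exact hs w hw
    | algebraMap r => exact hR r
    | add w₁ w₂ _ _ h₁ h₂ => exact add_mem h₁ h₂
    | mul w₁ w₂ _ _ h₁ h₂ => exact mul_mem h₁ h₂
  obtain ⟨p, hp, hpx⟩ := hx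
  let g : Algebra.adjoin R s →+* V.toSubring :=
    { toFun := fun w => ⟨w.1, hle w.1 w.2⟩
      map_one' := rfl
      map_mul' := fun _ _ => rfl
      map_zero' := rfl
      map_add' := fun _ _ => rfl }
  have hint : IsIntegral V.toSubring x := by
    refine ⟨p.map g, hp.map g, ?_⟩
    rw [eval₂_map]
    exact hpx
  have hb := (IsIntegrallyClosed.isIntegral_iff (R := V) (K := F)).1 hint
  obtain ⟨y, rfl⟩ := hb
  exact y.2

/-- transitivity: if every element of `s` is integral over `R[t]` then everything integral over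
`R[s]` is integral over `R[t]`. -/
theorem isIntegral_adjoin_trans {s t : Set F} (hs : ∀ x ∈ s, IsIntegral (Algebra.adjoin R t) x)
    {z : F} (hz : IsIntegral (Algebra.adjoin R s) z) : IsIntegral (Algebra.adjoin R t) z := by
  refine isIntegral_adjoin_of_forall_valuationSubring _ _ fun V hR ht => ?_
  exact mem_valuationSubring_of_isIntegral_adjoin V hR
    (fun x hx => mem_valuationSubring_of_isIntegral_adjoin V hR ht (hs x hx)) hz

end Charts

end Fermat.Agent.CA.H13
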