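import Mathlib
import Fermat.Agent.S28.H98_UnramClosure

/-!
# Integral closure of a DVR in a simple extension whose defining polynomial has SQUAREFREE reduction

`O` a DVR with fraction field `K`, `L ⊇ K` a field, `θ : L` a root of a monic `f : O[X]` which
generates the ideal of relations of `θ` over `O`, and whose reduction `f̄` is squarefree (e.g. a
product of pairwise coprime irreducibles). Then every element of `K[θ]` integral over `O` lies in
`O[θ]`: the integral closure of `O` in `K(θ)` is `O[θ] ≅ O[X]/(f)`.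
-/

set_option autoImplicit false

open Polynomial IsLocalRing

namespace Fermat.Agent.CA.H99

variable {O : Type*} [CommRing O] [IsDomain O] [IsDiscreteValuationRing O]

/-- A polynomial with vanishing reduction is divisible by the uniformiser. -/
theorem exists_eq_C_mul_of_map_residue_eq_zero {ϖ : O} (hϖ : maximalIdeal O = Ideal.span {ϖ})
    {P : O[X]} (h : P.map (residue O) = 0) : ∃ P' : O[X], P = C ϖ * P' := by
  have : C ϖ ∣ P := by
    rw [Polynomial.C_dvd_iff_dvd_coeff]
    intro i
    have hi : residue O (P.coeff i) = 0 := by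
      rw [← Polynomial.coeff_map, h, Polynomial.coeff_zero]
    rw [residue_eq_zero_iff, hϖ, Ideal.mem_span_singleton] at hi
    exact hi
  exact this

variable {L : Type*} [Field L] [Algebra O L]

/-- **Key step.** If `ϖ w ∈ O[θ]` and `w` is integral over `O`, then `w ∈ O[θ]`. -/
theorem mem_adjoin_of_uniformizer_mul_mem {f : O[X]}
    (hsq : Squarefree (f.map (residue O)))
    {ϖ : O} (hϖ : maximalIdeal O = Ideal.span {ϖ})
    (hOL : Function.Injective (algebraMap O L))
    (θ : L) (hθ : aeval θ f = 0) (hmin : ∀ p : O[X], aeval θ p = 0 → f ∣ p)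
    {w : L} (hw : IsIntegral O w) (hz : algebraMap O L ϖ * w ∈ Algebra.adjoin O {θ}) :
    w ∈ Algebra.adjoin O {θ} := by
  have hϖ0 : ϖ ≠ 0 := by
    rintro rfl
    have : maximalIdeal O = ⊥ := by rw [hϖ]; simp
    exact IsDiscreteValuationRing.not_a_field O this
  have hϖL : algebraMap O L ϖ ≠ 0 := fun h => hϖ0 (hOL (by rw [h, map_zero]))
  rw [Algebra.adjoin_singleton_eq_range_aeval] at hz ⊢
  obtain ⟨P, hP⟩ := hz
  replace hP : aeval θ P = algebraMap O L ϖ * w := hP
  obtain ⟨M, hM, hMw⟩ := hw
  -- `N := M` with roots scaled by `ϖ`: monic, kills `ϖ w`, reduces to `X ^ d`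
  set N := M.scaleRoots ϖ with hN
  have hNroot : aeval (algebraMap O L ϖ * w) N = 0 := by
    have := Polynomial.scaleRoots_eval₂_eq_zero (algebraMap O L) (p := M) (s := ϖ) hMw
    rw [hN, Polynomial.aeval_def]
    exact this
  have hd : M.natDegree ≠ 0 := by
    intro h0
    have h1 : M = 1 := by
      have := Polynomial.eq_C_of_natDegree_eq_zero h0
      rw [this]
      have hc : M.coeff 0 = 1 := by
        have := hM.coeff_natDegree
        rwa [h0] at this
      rw [hc, map_one]
    rw [h1, Polynomial.eval₂_one] at hMw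
    exact one_ne_zero hMw
  have hNred : N.map (residue O) = X ^ M.natDegree := by
    ext i
    rw [Polynomial.coeff_map, hN, Polynomial.coeff_scaleRoots, Polynomial.coeff_X_pow]
    split_ifs with hi
    · subst hi
      rw [Nat.sub_self, pow_zero, mul_one, hM.coeff_natDegree, map_one]
    · by_cases hlt : i < M.natDegree
      · have hpos : M.natDegree - i ≠ 0 := by omega
        rw [map_mul, map_pow]
        have : residue O ϖ = 0 := by
          rw [residue_eq_zero_iff, hϖ]
          exact Ideal.mem_span_singleton_self ϖ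
        rw [this, zero_pow hpos, mul_zero]
      · have : M.coeff i = 0 := Polynomial.coeff_eq_zero_of_natDegree_lt (by omega)
        rw [this, zero_mul, map_zero]
  -- `f ∣ N.comp P`
  have hcomp : aeval θ (N.comp P) = 0 := by
    rw [Polynomial.aeval_comp, hP]
    exact hNroot
  have hdvd : f.map (residue O) ∣ (P.map (residue O)) ^ M.natDegree := by
    have h1 := Polynomial.map_dvd (residue O) (hmin _ hcomp)
    rwa [Polynomial.map_comp, hNred, Polynomial.X_pow_comp] at h1
  have hdvd' : f.map (residue O) ∣ P.map (residue O) :=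
    (hsq.dvd_pow_iff_dvd hd).1 hdvd
  obtain ⟨Wb, hWb⟩ := hdvd'
  obtain ⟨W, rfl⟩ := Polynomial.map_surjective (residue O) residue_surjective Wb
  have hzero : (P - f * W).map (residue O) = 0 := by
    rw [Polynomial.map_sub, Polynomial.map_mul, hWb, sub_self]
  obtain ⟨P', hP'⟩ := exists_eq_C_mul_of_map_residue_eq_zero hϖ hzero
  refine ⟨P', ?_⟩
  change aeval θ P' = w
  have h2 : aeval θ P = algebraMap O L ϖ * aeval θ P' := by
    have : P = f * W + C ϖ * P' := by rw [← hP']; ring
    rw [this, map_add, map_mul, map_mul, hθ, zero_mul, zero_add, Polynomial.aeval_C]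
  rw [hP] at h2
  exact (mul_left_cancel₀ hϖL h2).symm

variable {K : Type*} [Field K] [Algebra O K] [IsFractionRing O K] [Algebra K L]
  [IsScalarTower O K L]

/-- **Integral closure, squarefree reduction**: an element of `K[θ]` that is integral over `O`
lies in `O[θ]`. -/
theorem mem_adjoin_of_isIntegral_of_squarefree {f : O[X]}
    (hsq : Squarefree (f.map (residue O)))
    (θ : L) (hθ : aeval θ f = 0) (hmin : ∀ p : O[X], aeval θ p = 0 → f ∣ p) {x : L}
    (hxint : IsIntegral O x) (hx : x ∈ Algebra.adjoin K {θ}) : x ∈ Algebra.adjoin O {θ} := by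
  have hOL : Function.Injective (algebraMap O L) := S28.H98.algebraMap_injective_of_tower K
  obtain ⟨ϖ, hirr⟩ := IsDiscreteValuationRing.exists_irreducible O
  have hϖ : maximalIdeal O = Ideal.span {ϖ} := hirr.maximalIdeal_eq
  obtain ⟨s, hs0, g, hsg⟩ := S28.H98.exists_smul_mem_adjoin (O := O) (K := K) θ hx
  obtain ⟨n, u, hu⟩ := IsDiscreteValuationRing.eq_unit_mul_pow_irreducible hs0 hirr
  -- `ϖ ^ n * x ∈ O[θ]`
  have hn : algebraMap O L (ϖ ^ n) * x ∈ Algebra.adjoin O {θ} := by
    have h1 : algebraMap O L (ϖ ^ n) * x =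
        algebraMap O L ((u⁻¹ : Oˣ) : O) * (algebraMap O L s * x) := by
      rw [hu, ← mul_assoc, ← map_mul, ← mul_assoc, Units.inv_mul, one_mul]
    rw [h1, hsg]
    exact Subalgebra.mul_mem _ (Subalgebra.algebraMap_mem _ _)
      (by rw [Algebra.adjoin_singleton_eq_range_aeval]; exact ⟨g, rfl⟩)
  clear hsg hu
  induction n generalizing x with
  | zero => simpa using hn
  | succ n ih =>
    have hw : IsIntegral O (algebraMap O L (ϖ ^ n) * x) :=
      IsIntegral.mul isIntegral_algebraMap hxint
    have hmem : algebraMap O L (ϖ ^ n) * x ∈ Algebra.adjoin O {θ} := by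
      apply mem_adjoin_of_uniformizer_mul_mem hsq hϖ hOL θ hθ hmin hw
      rw [← mul_assoc, ← map_mul, ← pow_succ']
      exact hn
    exact ih hxint hx hmem

end Fermat.Agent.CA.H99
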