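import Mathlib
import Fermat.Agent.CA.H99_SqfreeClosure

/-!
# (P-B) abstract core: the places of `K(θ)` over a DVR `O` when the defining polynomial of `θ`
has a coprime factorisation modulo the uniformiser (Kummer–Dedekind, hands-on)

`O` a DVR with uniformiser `ϖ`, fraction field `K`; `L = K(θ)`, `θ` a root of a monic `f : O[X]`
generating the relations of `θ`; `f̄ = ḡ · h̄` with `ḡ` irreducible and coprime to `h̄`.
For every ring hom `ι : O →+* Fk` into a field with `ι ϖ = 0` and every root `θb` of `g` in `Fk`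
there is a place `PlaceOver ϖ θ ι θb`: a valuation subring `O1 ⊆ L` with a reduction map
`res1 : O1 →+* Fk` extending `ι`, `θ ↦ θb`, kernel `ϖ O1`, residue-units invertible.
-/

set_option autoImplicit false
set_option linter.unusedSectionVars false
set_option linter.style.haveILetI false

open Polynomial IsLocalRing

namespace Fermat.Agent.CA.H99

section Basic

variable {O : Type*} [CommRing O] [IsDomain O] [IsDiscreteValuationRing O]
variable {Fk : Type*} [Field Fk]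

theorem map_eq_zero_of_mem_maximalIdeal {ϖ : O} (hϖ : maximalIdeal O = Ideal.span {ϖ})
    (ι : O →+* Fk) (hιϖ : ι ϖ = 0) : ∀ a ∈ maximalIdeal O, ι a = 0 := by
  intro a ha
  rw [hϖ, Ideal.mem_span_singleton] at ha
  obtain ⟨b, rfl⟩ := ha
  rw [map_mul, hιϖ, zero_mul]

/-- a ring hom killing the uniformiser factors through the residue field. -/
noncomputable def resLift {ϖ : O} (hϖ : maximalIdeal O = Ideal.span {ϖ}) (ι : O →+* Fk)
    (hιϖ : ι ϖ = 0) : ResidueField O →+* Fk :=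
  Ideal.Quotient.lift (maximalIdeal O) ι (map_eq_zero_of_mem_maximalIdeal hϖ ι hιϖ)

theorem resLift_comp_residue {ϖ : O} (hϖ : maximalIdeal O = Ideal.span {ϖ}) (ι : O →+* Fk)
    (hιϖ : ι ϖ = 0) : (resLift hϖ ι hιϖ).comp (residue O) = ι := by
  ext a; rfl

theorem eval₂_eq_eval₂_map_residue {ϖ : O} (hϖ : maximalIdeal O = Ideal.span {ϖ}) (ι : O →+* Fk)
    (hιϖ : ι ϖ = 0) (p : O[X]) (x : Fk) :
    p.eval₂ ι x = (p.map (residue O)).eval₂ (resLift hϖ ι hιϖ) x := by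
  rw [Polynomial.eval₂_map, resLift_comp_residue]

/-- `ḡ` irreducible with root `θb`: a polynomial vanishing at `θb` is `g W + ϖ p'`. -/
theorem exists_eq_mul_add_of_eval₂_eq_zero {g : O[X]} (hirr : Irreducible (g.map (residue O)))
    {ϖ : O} (hϖ : maximalIdeal O = Ideal.span {ϖ}) (ι : O →+* Fk) (hιϖ : ι ϖ = 0) (θb : Fk)
    (hθb : g.eval₂ ι θb = 0) {p : O[X]} (hp : p.eval₂ ι θb = 0) :
    ∃ W p' : O[X], p = g * W + C ϖ * p' := by
  have hdvd : g.map (residue O) ∣ p.map (residue O) := by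
    by_contra hnd
    obtain ⟨u, v, huv⟩ := (hirr.coprime_iff_not_dvd).2 hnd
    have h1 := congrArg (Polynomial.eval₂ (resLift hϖ ι hιϖ) θb) huv
    rw [eval₂_add, eval₂_mul, eval₂_mul, ← eval₂_eq_eval₂_map_residue hϖ ι hιϖ,
      ← eval₂_eq_eval₂_map_residue hϖ ι hιϖ, hθb, hp, mul_zero, mul_zero, add_zero,
      eval₂_one] at h1
    exact zero_ne_one h1
  obtain ⟨Wb, hWb⟩ := hdvd
  obtain ⟨W, rfl⟩ := Polynomial.map_surjective (residue O) residue_surjective Wb
  have hzero : (p - g * W).map (residue O) = 0 := by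
    rw [Polynomial.map_sub, Polynomial.map_mul, hWb, sub_self]
  obtain ⟨p', hp'⟩ := exists_eq_C_mul_of_map_residue_eq_zero hϖ hzero
  exact ⟨W, p', by rw [← hp']; ring⟩

/-- coprimality: `h̄(θb) ≠ 0` at a root `θb` of `ḡ`. -/
theorem eval₂_ne_zero_of_isCoprime {g h : O[X]}
    (hcop : IsCoprime (g.map (residue O)) (h.map (residue O)))
    {ϖ : O} (hϖ : maximalIdeal O = Ideal.span {ϖ}) (ι : O →+* Fk) (hιϖ : ι ϖ = 0) (θb : Fk)
    (hθb : g.eval₂ ι θb = 0) : h.eval₂ ι θb ≠ 0 := by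
  intro hh
  obtain ⟨u, v, huv⟩ := hcop
  have h1 := congrArg (Polynomial.eval₂ (resLift hϖ ι hιϖ) θb) huv
  rw [eval₂_add, eval₂_mul, eval₂_mul, ← eval₂_eq_eval₂_map_residue hϖ ι hιϖ,
    ← eval₂_eq_eval₂_map_residue hϖ ι hιϖ, hθb, hh, mul_zero, mul_zero, add_zero,
    eval₂_one] at h1
  exact zero_ne_one h1

end Basic

/-- A **place of `L` over `O`** with prescribed reduction: a valuation subring `O1 ⊆ L` containing
`O` and `θ`, with a reduction map `res1 : O1 →+* Fk` extending `ι`, sending `θ ↦ θb`, with kernel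
`ϖ O1`, and such that elements with non-zero residue are invertible in `O1`. -/
structure PlaceOver {O : Type*} [CommRing O] {L : Type*} [Field L] [Algebra O L] {Fk : Type*}
    [Field Fk] (ϖ : O) (θ : L) (ι : O →+* Fk) (θb : Fk) where
  /-- the valuation ring -/
  O1 : Subring L
  /-- its reduction map -/
  res1 : O1 →+* Fk
  algebraMap_mem : ∀ a : O, algebraMap O L a ∈ O1
  res1_algebraMap : ∀ a : O, res1 ⟨algebraMap O L a, algebraMap_mem a⟩ = ι a
  θ_mem : θ ∈ O1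
  res1_θ : res1 ⟨θ, θ_mem⟩ = θb
  res1_eq_zero_iff : ∀ (y : L) (hy : y ∈ O1),
    res1 ⟨y, hy⟩ = 0 ↔ ∃ z ∈ O1, y = algebraMap O L ϖ * z
  inv_mem : ∀ (y : L) (hy : y ∈ O1), res1 ⟨y, hy⟩ ≠ 0 → y⁻¹ ∈ O1
  mem_or_inv_mem : ∀ y : L, y ∈ O1 ∨ y⁻¹ ∈ O1
  exists_repr : ∀ y ∈ O1, ∃ a s : O[X], s.eval₂ ι θb ≠ 0 ∧ y * aeval θ s = aeval θ a

section Construction

variable {O : Type*} [CommRing O] [IsDomain O] [IsDiscreteValuationRing O]
variable {K : Type*} [Field K] [Algebra O K] [IsFractionRing O K]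
variable {L : Type*} [Field L] [Algebra O L] [Algebra K L] [IsScalarTower O K L]
variable {Fk : Type*} [Field Fk]

/-- injectivity of `O[X]/(f) → L` from minimality of `f`. -/
theorem evalRoot_injective_of_min {f : O[X]} (θ : L) (hθ : aeval θ f = 0)
    (hmin : ∀ p : O[X], aeval θ p = 0 → f ∣ p) :
    Function.Injective (S28.H98.evalRoot f θ hθ) := by
  rw [injective_iff_map_eq_zero]
  intro b hb
  obtain ⟨p, rfl⟩ := AdjoinRoot.mk_surjective b
  rw [S28.H98.evalRoot_mk] at hb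
  exact AdjoinRoot.mk_eq_zero.mpr (hmin p hb)

/-- `f(θb) = 0` from `f̄ = ḡ h̄` and `g(θb) = 0`. -/
theorem eval₂_eq_zero_of_factor {f g h : O[X]}
    (hfac : f.map (residue O) = g.map (residue O) * h.map (residue O))
    {ϖ : O} (hϖ : maximalIdeal O = Ideal.span {ϖ}) (ι : O →+* Fk) (hιϖ : ι ϖ = 0) (θb : Fk)
    (hθb : g.eval₂ ι θb = 0) : f.eval₂ ι θb = 0 := by
  rw [eval₂_eq_eval₂_map_residue hϖ ι hιϖ, hfac, eval₂_mul,
    ← eval₂_eq_eval₂_map_residue hϖ ι hιϖ, hθb, zero_mul]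

/-- `g h = f + ϖ r`. -/
theorem exists_mul_eq_add {f g h : O[X]}
    (hfac : f.map (residue O) = g.map (residue O) * h.map (residue O))
    {ϖ : O} (hϖ : maximalIdeal O = Ideal.span {ϖ}) : ∃ r : O[X], g * h = f + C ϖ * r := by
  have hzero : (g * h - f).map (residue O) = 0 := by
    rw [Polynomial.map_sub, Polynomial.map_mul, hfac, sub_self]
  obtain ⟨r, hr⟩ := exists_eq_C_mul_of_map_residue_eq_zero hϖ hzero
  exact ⟨r, by rw [← hr]; ring⟩

set_option maxHeartbeats 1600000 in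
/-- **One place for each coprime irreducible factor of the reduction.** -/
theorem nonempty_placeOver {f g h : O[X]} (hf : f.Monic)
    (hfac : f.map (residue O) = g.map (residue O) * h.map (residue O))
    (hirr : Irreducible (g.map (residue O)))
    (hcop : IsCoprime (g.map (residue O)) (h.map (residue O)))
    {ϖ : O} (hϖ : maximalIdeal O = Ideal.span {ϖ})
    (θ : L) (hθ : aeval θ f = 0) (hmin : ∀ p : O[X], aeval θ p = 0 → f ∣ p)
    (hgen : Algebra.adjoin K {θ} = ⊤)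
    (ι : O →+* Fk) (hιϖ : ι ϖ = 0) (θb : Fk) (hθb : g.eval₂ ι θb = 0) :
    Nonempty (PlaceOver ϖ θ ι θb) := by
  have hOL : Function.Injective (algebraMap O L) := S28.H98.algebraMap_injective_of_tower K
  have hϖ0 : ϖ ≠ 0 := by
    rintro rfl
    have : maximalIdeal O = ⊥ := by rw [hϖ]; simp
    exact IsDiscreteValuationRing.not_a_field O this
  set φ : AdjoinRoot f →ₐ[O] L := S28.H98.evalRoot f θ hθ with hφ
  have hinj : Function.Injective φ := evalRoot_injective_of_min θ hθ hmin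
  haveI hdom : IsDomain (AdjoinRoot f) := hinj.isDomain (φ : AdjoinRoot f →+* L)
  haveI hnoeth : IsNoetherianRing (AdjoinRoot f) := S28.H98.isNoetherianRing_adjoinRoot hf
  have hfθb : f.eval₂ ι θb = 0 := eval₂_eq_zero_of_factor hfac hϖ ι hιϖ θb hθb
  set ρ : AdjoinRoot f →+* Fk := AdjoinRoot.lift ι θb hfθb with hρ
  have hρmk : ∀ p : O[X], ρ (AdjoinRoot.mk f p) = p.eval₂ ι θb := fun p => AdjoinRoot.lift_mk hfθb p
  set P : Ideal (AdjoinRoot f) := RingHom.ker ρ with hP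
  haveI hPprime : P.IsPrime := RingHom.ker_isPrime ρ
  have hmemP : ∀ a, a ∈ P ↔ ρ a = 0 := fun a => RingHom.mem_ker
  -- the localisation
  let Λ := Localization.AtPrime P
  haveI hΛdom : IsDomain Λ :=
    IsLocalization.isDomain_of_le_nonZeroDivisors (M := P.primeCompl) Λ
      P.primeCompl_le_nonZeroDivisors
  haveI hΛnoeth : IsNoetherianRing Λ := IsLocalization.isNoetherianRing P.primeCompl Λ hnoeth
  have hAΛinj : Function.Injective (algebraMap (AdjoinRoot f) Λ) :=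
    IsLocalization.injective Λ P.primeCompl_le_nonZeroDivisors
  have hφunit : ∀ s : P.primeCompl, IsUnit ((φ : AdjoinRoot f →+* L) s) := by
    intro s
    apply IsUnit.mk0
    intro h0
    have : (s : AdjoinRoot f) = 0 := hinj (by rw [map_zero]; exact h0)
    exact s.2 (by rw [this]; exact P.zero_mem)
  have hρunit : ∀ s : P.primeCompl, IsUnit (ρ s) := by
    intro s
    apply IsUnit.mk0
    intro h0
    exact s.2 ((hmemP _).2 h0)
  let Φ : Λ →+* L := IsLocalization.lift (M := P.primeCompl) hφunit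
  let ρΛ : Λ →+* Fk := IsLocalization.lift (M := P.primeCompl) hρunit
  have hΦalg : ∀ a : AdjoinRoot f, Φ (algebraMap (AdjoinRoot f) Λ a) = φ a :=
    fun a => IsLocalization.lift_eq hφunit a
  have hρalg : ∀ a : AdjoinRoot f, ρΛ (algebraMap (AdjoinRoot f) Λ a) = ρ a :=
    fun a => IsLocalization.lift_eq hρunit a
  have hΦinj : Function.Injective Φ := by
    rw [IsLocalization.lift_injective_iff]
    intro x y
    exact ⟨fun hxy => congrArg _ (hAΛinj hxy), fun hxy => congrArg _ (hinj hxy)⟩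
  -- the uniformiser
  set ϖA : AdjoinRoot f := AdjoinRoot.of f ϖ with hϖA
  set ϖΛ : Λ := algebraMap (AdjoinRoot f) Λ ϖA with hϖΛ
  have hρϖ : ρ ϖA = 0 := by rw [hϖA, hρ, AdjoinRoot.lift_of, hιϖ]
  have hϖP : ϖA ∈ P := (hmemP _).2 hρϖ
  have hφϖ : φ ϖA = algebraMap O L ϖ := S28.H98.evalRoot_of f θ hθ ϖ
  have hΦϖ : Φ ϖΛ = algebraMap O L ϖ := by rw [hϖΛ, hΦalg, hφϖ]
  have hϖL : algebraMap O L ϖ ≠ 0 := fun h0 => hϖ0 (hOL (by rw [h0, map_zero]))
  have hϖΛ0 : ϖΛ ≠ 0 := by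
    intro h0
    apply hϖL
    rw [← hΦϖ, h0, map_zero]
  -- `g(root) ∈ ϖ Λ`
  obtain ⟨r, hr⟩ := exists_mul_eq_add hfac hϖ
  have hhP : AdjoinRoot.mk f h ∉ P := by
    rw [hmemP, hρmk]
    exact eval₂_ne_zero_of_isCoprime hcop hϖ ι hιϖ θb hθb
  have hhunit : IsUnit (algebraMap (AdjoinRoot f) Λ (AdjoinRoot.mk f h)) :=
    IsLocalization.map_units Λ (⟨AdjoinRoot.mk f h, hhP⟩ : P.primeCompl)
  have hgΛ : algebraMap (AdjoinRoot f) Λ (AdjoinRoot.mk f g) ∈ Ideal.span {ϖΛ} := by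
    have h1 : AdjoinRoot.mk f g * AdjoinRoot.mk f h = ϖA * AdjoinRoot.mk f r := by
      rw [← map_mul, hr, map_add, AdjoinRoot.mk_self, zero_add, map_mul, AdjoinRoot.mk_C]
    obtain ⟨u, hu⟩ := hhunit
    rw [Ideal.mem_span_singleton]
    refine ⟨algebraMap (AdjoinRoot f) Λ (AdjoinRoot.mk f r) * ((u⁻¹ : Λˣ) : Λ), ?_⟩
    have h2 := congrArg (algebraMap (AdjoinRoot f) Λ) h1
    rw [map_mul, map_mul, ← hu] at h2
    calc algebraMap (AdjoinRoot f) Λ (AdjoinRoot.mk f g)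
        = algebraMap (AdjoinRoot f) Λ (AdjoinRoot.mk f g) * (u : Λ) * ((u⁻¹ : Λˣ) : Λ) := by
          rw [mul_assoc, Units.mul_inv, mul_one]
      _ = ϖΛ * (algebraMap (AdjoinRoot f) Λ (AdjoinRoot.mk f r) * ((u⁻¹ : Λˣ) : Λ)) := by
          rw [h2, hϖΛ, mul_assoc]
  -- the maximal ideal of `Λ` is `(ϖ)`
  have hmax : maximalIdeal Λ = Ideal.span {ϖΛ} := by
    apply le_antisymm
    · rw [← IsLocalization.AtPrime.map_eq_maximalIdeal P Λ, Ideal.map_le_iff_le_comap]
      intro a ha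
      rw [Ideal.mem_comap]
      obtain ⟨p, rfl⟩ := AdjoinRoot.mk_surjective a
      rw [hmemP, hρmk] at ha
      obtain ⟨W, p', hp⟩ := exists_eq_mul_add_of_eval₂_eq_zero hirr hϖ ι hιϖ θb hθb ha
      rw [hp, map_add, map_mul, map_mul, AdjoinRoot.mk_C, map_add, map_mul, map_mul]
      exact Ideal.add_mem _ (Ideal.mul_mem_right _ _ hgΛ)
        (Ideal.mul_mem_right _ _ (Ideal.mem_span_singleton_self _))
    · rw [Ideal.span_singleton_le_iff_mem, ← IsLocalization.AtPrime.map_eq_maximalIdeal P Λ]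
      exact Ideal.mem_map_of_mem _ hϖP
  have hnf : ¬ IsField Λ := by
    intro hF
    have h0 : maximalIdeal Λ = ⊥ := IsLocalRing.isField_iff_maximalIdeal_eq.mp hF
    have : ϖΛ ∈ maximalIdeal Λ := by rw [hmax]; exact Ideal.mem_span_singleton_self _
    rw [h0, Ideal.mem_bot] at this
    exact hϖΛ0 this
  haveI hdvr : IsDiscreteValuationRing Λ := by
    have hprinc : (maximalIdeal Λ).IsPrincipal := by rw [hmax]; exact ⟨⟨_, rfl⟩⟩
    exact ((IsDiscreteValuationRing.TFAE Λ hnf).out 4 0).mp hprinc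
  -- kernel of the reduction on `Λ`
  have hker : ∀ x : Λ, ρΛ x = 0 ↔ ∃ z : Λ, x = ϖΛ * z := by
    intro x
    have hk : RingHom.ker ρΛ = maximalIdeal Λ := by
      apply le_antisymm
      · exact IsLocalRing.le_maximalIdeal (RingHom.ker_ne_top ρΛ)
      · rw [hmax, Ideal.span_singleton_le_iff_mem, RingHom.mem_ker, hϖΛ, hρalg, hρϖ]
    rw [← RingHom.mem_ker, hk, hmax, Ideal.mem_span_singleton]
    rfl
  have hunitΛ : ∀ x : Λ, ρΛ x ≠ 0 → IsUnit x := by
    intro x hx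
    by_contra hnu
    have : x ∈ maximalIdeal Λ := (IsLocalRing.mem_maximalIdeal x).mpr hnu
    rw [hmax, Ideal.mem_span_singleton] at this
    exact hx ((hker x).2 this)
  -- transport to the subring `Φ(Λ) ⊆ L`
  have hbij : Function.Bijective Φ.rangeRestrict :=
    ⟨fun a b hab => hΦinj (congrArg Subtype.val hab), Φ.rangeRestrict_surjective⟩
  let e : Λ ≃+* Φ.range := RingEquiv.ofBijective Φ.rangeRestrict hbij
  have he : ∀ x : Λ, ((e x : Φ.range) : L) = Φ x := fun x => rfl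
  have hes : ∀ (x : Λ) (hx : Φ x ∈ Φ.range), e.symm ⟨Φ x, hx⟩ = x := by
    intro x hx
    apply e.injective
    rw [RingEquiv.apply_symm_apply]
    exact Subtype.ext (he x).symm
  let res1 : Φ.range →+* Fk := ρΛ.comp (e.symm : Φ.range →+* Λ)
  have hres : ∀ (x : Λ) (hx : Φ x ∈ Φ.range), res1 ⟨Φ x, hx⟩ = ρΛ x := by
    intro x hx
    change ρΛ (e.symm ⟨Φ x, hx⟩) = ρΛ x
    rw [hes]
  have hmemr : ∀ x : Λ, Φ x ∈ Φ.range := fun x => ⟨x, rfl⟩
  refine ⟨⟨Φ.range, res1, ?_, ?_, ?_, ?_, ?_, ?_, ?_, ?_⟩⟩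
  · intro a
    have h1 : Φ (algebraMap (AdjoinRoot f) Λ (AdjoinRoot.of f a)) = algebraMap O L a := by
      rw [hΦalg]; exact S28.H98.evalRoot_of f θ hθ a
    exact h1 ▸ hmemr _
  · intro a
    have h1 : Φ (algebraMap (AdjoinRoot f) Λ (AdjoinRoot.of f a)) = algebraMap O L a := by
      rw [hΦalg]; exact S28.H98.evalRoot_of f θ hθ a
    have h2 := hres (algebraMap (AdjoinRoot f) Λ (AdjoinRoot.of f a)) (hmemr _)
    rw [hρalg, hρ, AdjoinRoot.lift_of] at h2
    rw [← h2]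
    congr 1
    exact Subtype.ext h1.symm
  · have h1 : Φ (algebraMap (AdjoinRoot f) Λ (AdjoinRoot.root f)) = θ := by
      rw [hΦalg]; exact S28.H98.evalRoot_root f θ hθ
    exact h1 ▸ hmemr _
  · have h1 : Φ (algebraMap (AdjoinRoot f) Λ (AdjoinRoot.root f)) = θ := by
      rw [hΦalg]; exact S28.H98.evalRoot_root f θ hθ
    have h2 := hres (algebraMap (AdjoinRoot f) Λ (AdjoinRoot.root f)) (hmemr _)
    rw [hρalg, hρ, AdjoinRoot.lift_root] at h2
    rw [← h2]
    congr 1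
    exact Subtype.ext h1.symm
  · rintro y ⟨x, rfl⟩
    rw [hres x, hker x]
    constructor
    · rintro ⟨z, rfl⟩
      exact ⟨Φ z, hmemr z, by rw [map_mul, hΦϖ]⟩
    · rintro ⟨_, ⟨z, rfl⟩, hz⟩
      refine ⟨z, hΦinj ?_⟩
      rw [hz, map_mul, hΦϖ]
  · rintro y ⟨x, rfl⟩ hne
    rw [hres x] at hne
    obtain ⟨u, rfl⟩ := hunitΛ x hne
    refine ⟨((u⁻¹ : Λˣ) : Λ), ?_⟩
    have h1 : Φ (u : Λ) * Φ ((u⁻¹ : Λˣ) : Λ) = 1 := by rw [← map_mul, Units.mul_inv, map_one]
    exact (eq_inv_of_mul_eq_one_right h1)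
  · intro y
    obtain ⟨s, hs0, gy, hsg⟩ := S28.H98.exists_smul_mem_adjoin (O := O) (K := K) θ
      (show y ∈ Algebra.adjoin K {θ} by rw [hgen]; trivial)
    have hsL : algebraMap O L s ≠ 0 := fun h0 => hs0 (hOL (by rw [h0, map_zero]))
    set a : Λ := algebraMap (AdjoinRoot f) Λ (AdjoinRoot.mk f gy) with ha
    set b : Λ := algebraMap (AdjoinRoot f) Λ (AdjoinRoot.of f s) with hb
    have hΦa : Φ a = aeval θ gy := by rw [ha, hΦalg]; rfl
    have hΦb : Φ b = algebraMap O L s := by rw [hb, hΦalg]; exact S28.H98.evalRoot_of f θ hθ s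
    have hy : y = Φ a / Φ b := by
      rw [hΦa, hΦb, ← hsg, mul_div_cancel_left₀ _ hsL]
    rcases ValuationRing.dvd_total a b with ⟨c, hc⟩ | ⟨c, hc⟩
    · -- `b = a c`, so `y⁻¹ = Φ c` unless `a = 0`
      by_cases ha0 : Φ a = 0
      · left
        rw [hy, ha0, zero_div]
        exact Subring.zero_mem _
      · right
        refine ⟨c, ?_⟩
        rw [hy, inv_div, hc, map_mul, mul_div_cancel_left₀ _ ha0]
    · left
      refine ⟨c, ?_⟩
      have hb0 : Φ b ≠ 0 := by rw [hΦb]; exact hsL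
      rw [hy, hc, map_mul, mul_div_cancel_left₀ _ hb0]
  · rintro y ⟨x, rfl⟩
    obtain ⟨⟨a, s⟩, rfl⟩ := IsLocalization.mk'_surjective P.primeCompl x
    obtain ⟨pa, rfl⟩ := AdjoinRoot.mk_surjective a
    obtain ⟨ps, hps⟩ := AdjoinRoot.mk_surjective (s : AdjoinRoot f)
    refine ⟨pa, ps, ?_, ?_⟩
    · rw [← hρmk, hps]
      exact fun h0 => s.2 ((hmemP _).2 h0)
    · have h1 := congrArg Φ (IsLocalization.mk'_spec Λ (AdjoinRoot.mk f pa) s)
      rw [map_mul, hΦalg, hΦalg, ← hps] at h1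
      exact h1

end Construction

end Fermat.Agent.CA.H99
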