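import Mathlib
import Fermat.Agent.CA.H99_TwoPlaces

/-!
# (P-B) abstract core, part 2: exactly two places, their intersection, reducedness, CRT

Setting of `H99_TwoPlaces`, with `f̄ = ḡ₁ ḡ₂`, both factors irreducible and coprime, and places
`P₁ : PlaceOver ϖ θ ι₁ θb₁`, `P₂ : PlaceOver ϖ θ ι₂ θb₂` (`gᵢ(θbᵢ) = 0`).

* `PlaceOver.aeval_mem`, `PlaceOver.res1_aeval` : `res1 (p(θ)) = p^ι(θb)`.
* `mem_adjoin_of_mem_of_mem` : `P₁.O1 ∩ P₂.O1 = O[θ]`.
* `eq_or_eq_of_valuationSubring` : every valuation subring of `L` containing `O` in which `ϖ` is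
  not invertible is `P₁.O1` or `P₂.O1`.
* `dvd_of_res1_eq_zero` : `y ∈ O[θ]`, `res₁ y = 0 = res₂ y` ⟹ `y ∈ ϖ O[θ]`; `dvd_of_pow_dvd`:
  `O[θ]/ϖ` is reduced.
* `exists_crt` : the two reductions are jointly onto `κ[θb₁] × κ[θb₂]`.
-/

set_option autoImplicit false
set_option linter.unusedSectionVars false
set_option linter.style.haveILetI false

open Polynomial IsLocalRing

namespace Fermat.Agent.CA.H99

namespace PlaceOver

variable {O : Type*} [CommRing O] {L : Type*} [Field L] [Algebra O L] {Fk : Type*} [Field Fk]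
  {ϖ : O} {θ : L} {ι : O →+* Fk} {θb : Fk} (P : PlaceOver ϖ θ ι θb)

theorem res1_congr {y z : L} (hy : y ∈ P.O1) (hz : z ∈ P.O1) (h : y = z) :
    P.res1 ⟨y, hy⟩ = P.res1 ⟨z, hz⟩ := by
  subst h; rfl

theorem aeval_mem (p : O[X]) : aeval θ p ∈ P.O1 := by
  rw [aeval_def, eval₂_eq_sum_range]
  exact Subring.sum_mem _ fun i _ =>
    Subring.mul_mem _ (P.algebraMap_mem _) (Subring.pow_mem _ P.θ_mem _)

/-- `O[X] → O1`, `p ↦ p(θ)`. -/
noncomputable def aevalHom : O[X] →+* P.O1 :=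
  ((aeval θ : O[X] →ₐ[O] L) : O[X] →+* L).codRestrict P.O1 P.aeval_mem

theorem res1_aeval (p : O[X]) : P.res1 ⟨aeval θ p, P.aeval_mem p⟩ = p.eval₂ ι θb := by
  have h : P.res1.comp P.aevalHom = Polynomial.eval₂RingHom ι θb := by
    apply Polynomial.ringHom_ext
    · intro a
      change P.res1 ⟨aeval θ (C a), _⟩ = (C a).eval₂ ι θb
      rw [eval₂_C]
      exact (P.res1_congr _ _ (aeval_C θ a)).trans (P.res1_algebraMap a)
    · change P.res1 ⟨aeval θ X, _⟩ = (X : O[X]).eval₂ ι θb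
      rw [eval₂_X]
      exact (P.res1_congr _ _ (aeval_X θ)).trans P.res1_θ
  exact congrFun (congrArg DFunLike.coe h) p

theorem zero_mem_aux : (0 : L) ∈ P.O1 := Subring.zero_mem _

/-- elements with zero residue are `ϖ ·` (element of `O1`). -/
theorem exists_eq_mul_of_res1_eq_zero {y : L} (hy : y ∈ P.O1) (h : P.res1 ⟨y, hy⟩ = 0) :
    ∃ z ∈ P.O1, y = algebraMap O L ϖ * z :=
  (P.res1_eq_zero_iff y hy).1 h

theorem res1_uniformizer : P.res1 ⟨algebraMap O L ϖ, P.algebraMap_mem ϖ⟩ = 0 := by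
  rw [P.res1_eq_zero_iff]
  exact ⟨1, Subring.one_mem _, (mul_one _).symm⟩

end PlaceOver

section Two

variable {O : Type*} [CommRing O] [IsDomain O] [IsDiscreteValuationRing O]
variable {K : Type*} [Field K] [Algebra O K] [IsFractionRing O K]
variable {L : Type*} [Field L] [Algebra O L] [Algebra K L] [IsScalarTower O K L]
variable {Fk₁ Fk₂ : Type*} [Field Fk₁] [Field Fk₂]

/-- if `ḡ ∤ s̄` then `u s + v g = 1 + ϖ w`. -/
theorem exists_bezout_of_eval₂_ne_zero {Fk : Type*} [Field Fk] {g : O[X]}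
    (hirr : Irreducible (g.map (residue O)))
    {ϖ : O} (hϖ : maximalIdeal O = Ideal.span {ϖ}) (ι : O →+* Fk) (hιϖ : ι ϖ = 0) (θb : Fk)
    (hθb : g.eval₂ ι θb = 0) {s : O[X]} (hs : s.eval₂ ι θb ≠ 0) :
    ∃ u v w : O[X], u * s + v * g = 1 + C ϖ * w := by
  have hnd : ¬ g.map (residue O) ∣ s.map (residue O) := by
    rintro ⟨c, hc⟩
    apply hs
    rw [eval₂_eq_eval₂_map_residue hϖ ι hιϖ, hc, eval₂_mul,
      ← eval₂_eq_eval₂_map_residue hϖ ι hιϖ, hθb, zero_mul]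
  obtain ⟨vb, ub, huv⟩ := (hirr.coprime_iff_not_dvd).2 hnd
  obtain ⟨u, rfl⟩ := Polynomial.map_surjective (residue O) residue_surjective ub
  obtain ⟨v, rfl⟩ := Polynomial.map_surjective (residue O) residue_surjective vb
  have hzero : (u * s + v * g - 1).map (residue O) = 0 := by
    rw [Polynomial.map_sub, Polynomial.map_add, Polynomial.map_mul, Polynomial.map_mul,
      Polynomial.map_one, add_comm, huv, sub_self]
  obtain ⟨w, hw⟩ := exists_eq_C_mul_of_map_residue_eq_zero hϖ hzero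
  exact ⟨u, v, w, by rw [← hw]; ring⟩

/-- powers of the uniformiser clear denominators. -/
theorem exists_pow_mul_eq_aeval {ϖ : O} (hϖ : maximalIdeal O = Ideal.span {ϖ})
    (θ : L) (hgen : Algebra.adjoin K {θ} = ⊤) (y : L) :
    ∃ (n : ℕ) (p : O[X]), algebraMap O L ϖ ^ n * y = aeval θ p := by
  have hirrϖ : Irreducible ϖ := by
    have hne : maximalIdeal O ≠ ⊥ := IsDiscreteValuationRing.not_a_field O
    exact (IsDiscreteValuationRing.irreducible_iff_uniformizer ϖ).2 hϖ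
  obtain ⟨s, hs0, gy, hsg⟩ := S28.H98.exists_smul_mem_adjoin (O := O) (K := K) θ
    (show y ∈ Algebra.adjoin K {θ} by rw [hgen]; trivial)
  obtain ⟨n, u, hu⟩ := IsDiscreteValuationRing.eq_unit_mul_pow_irreducible hs0 hirrϖ
  refine ⟨n, C ((u⁻¹ : Oˣ) : O) * gy, ?_⟩
  rw [map_mul, aeval_C, ← hsg, hu, map_mul, map_pow, ← mul_assoc, ← mul_assoc, ← map_mul,
    Units.inv_mul, map_one, one_mul]

set_option maxHeartbeats 800000 in
/-- **The intersection of the two places is `O[θ]`.** -/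
theorem exists_eq_aeval_of_mem_of_mem {f g₁ g₂ : O[X]}
    (hfac : f.map (residue O) = g₁.map (residue O) * g₂.map (residue O))
    (hirr₁ : Irreducible (g₁.map (residue O))) (hirr₂ : Irreducible (g₂.map (residue O)))
    (hcop : IsCoprime (g₁.map (residue O)) (g₂.map (residue O)))
    {ϖ : O} (hϖ : maximalIdeal O = Ideal.span {ϖ})
    (θ : L) (hθ : aeval θ f = 0) (hgen : Algebra.adjoin K {θ} = ⊤)
    {ι₁ : O →+* Fk₁} (hι₁ : ι₁ ϖ = 0) {θb₁ : Fk₁} (hθb₁ : g₁.eval₂ ι₁ θb₁ = 0)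
    {ι₂ : O →+* Fk₂} (hι₂ : ι₂ ϖ = 0) {θb₂ : Fk₂} (hθb₂ : g₂.eval₂ ι₂ θb₂ = 0)
    (P₁ : PlaceOver ϖ θ ι₁ θb₁) (P₂ : PlaceOver ϖ θ ι₂ θb₂) {y : L}
    (h₁ : y ∈ P₁.O1) (h₂ : y ∈ P₂.O1) : ∃ p : O[X], y = aeval θ p := by
  obtain ⟨a1, s1, hs1, e1⟩ := P₁.exists_repr y h₁
  obtain ⟨a2, s2, hs2, e2⟩ := P₂.exists_repr y h₂
  have hg21 : g₂.eval₂ ι₁ θb₁ ≠ 0 := eval₂_ne_zero_of_isCoprime hcop hϖ ι₁ hι₁ θb₁ hθb₁
  have hg12 : g₁.eval₂ ι₂ θb₂ ≠ 0 := eval₂_ne_zero_of_isCoprime hcop.symm hϖ ι₂ hι₂ θb₂ hθb₂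
  set d : O[X] := s1 * g₂ + s2 * g₁ with hd
  have hd1 : d.eval₂ ι₁ θb₁ ≠ 0 := by
    rw [hd, eval₂_add, eval₂_mul, eval₂_mul, hθb₁, mul_zero, add_zero]
    exact mul_ne_zero hs1 hg21
  have hd2 : d.eval₂ ι₂ θb₂ ≠ 0 := by
    rw [hd, eval₂_add, eval₂_mul, eval₂_mul, hθb₂, mul_zero, zero_add]
    exact mul_ne_zero hs2 hg12
  obtain ⟨u1, v1, w1, hb1⟩ := exists_bezout_of_eval₂_ne_zero hirr₁ hϖ ι₁ hι₁ θb₁ hθb₁ hd1
  obtain ⟨u2, v2, w2, hb2⟩ := exists_bezout_of_eval₂_ne_zero hirr₂ hϖ ι₂ hι₂ θb₂ hθb₂ hd2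
  obtain ⟨r, hr⟩ := exists_mul_eq_add hfac hϖ
  -- `d E + v1 v2 f = 1 - ϖ Wn`
  set E : O[X] := u1 * u2 * d + u1 * v2 * g₂ + v1 * u2 * g₁ with hE
  set Wn : O[X] := -(w1 + w2 + C ϖ * w1 * w2 - v1 * v2 * r) with hWn
  have hkey : d * E + v1 * v2 * f = 1 - C ϖ * Wn := by
    have h3 : (u1 * d + v1 * g₁) * (u2 * d + v2 * g₂) = (1 + C ϖ * w1) * (1 + C ϖ * w2) := by
      rw [hb1, hb2]
    have h4 : v1 * v2 * (g₁ * g₂) = v1 * v2 * (f + C ϖ * r) := by rw [hr]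
    rw [hE, hWn]
    linear_combination h3 - h4
  -- evaluate at `θ`
  set x : L := aeval θ (C ϖ * Wn) with hx
  have hyd : y * aeval θ d = aeval θ (a1 * g₂ + a2 * g₁) := by
    rw [hd, map_add, map_mul, map_mul, map_add, map_mul, map_mul, ← e1, ← e2]
    ring
  have hdE : aeval θ d * aeval θ E = 1 - x := by
    have := congrArg (aeval θ) hkey
    rw [map_add, map_mul, map_mul (aeval θ) (v1 * v2) f, hθ, mul_zero, add_zero, map_sub,
      map_one] at this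
    rw [this]
  have hy1 : y * (1 - x) = aeval θ ((a1 * g₂ + a2 * g₁) * E) := by
    rw [← hdE, ← mul_assoc, hyd, map_mul]
  obtain ⟨n, p2, hp2⟩ := exists_pow_mul_eq_aeval (K := K) hϖ θ hgen y
  refine ⟨(a1 * g₂ + a2 * g₁) * E * (∑ i ∈ Finset.range n, (C ϖ * Wn) ^ i) + p2 * Wn ^ n, ?_⟩
  rw [map_add, map_mul, ← hy1, map_sum, map_mul, ← hp2, map_pow]
  have h5 : ∑ i ∈ Finset.range n, aeval θ ((C ϖ * Wn) ^ i) = ∑ i ∈ Finset.range n, x ^ i := by
    apply Finset.sum_congr rfl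
    intro i _
    rw [map_pow]
  have h6 : x ^ n = algebraMap O L ϖ ^ n * aeval θ Wn ^ n := by
    rw [hx, map_mul, aeval_C, mul_pow]
  rw [h5, mul_assoc, mul_neg_geom_sum, h6]
  ring

/-- the two reductions are jointly injective modulo `ϖ` on `O[θ]`. -/
theorem exists_eq_mul_of_eval₂_eq_zero {f g₁ g₂ : O[X]}
    (hfac : f.map (residue O) = g₁.map (residue O) * g₂.map (residue O))
    (hirr₁ : Irreducible (g₁.map (residue O))) (hirr₂ : Irreducible (g₂.map (residue O)))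
    (hcop : IsCoprime (g₁.map (residue O)) (g₂.map (residue O)))
    {ϖ : O} (hϖ : maximalIdeal O = Ideal.span {ϖ})
    (θ : L) (hθ : aeval θ f = 0) (hgen : Algebra.adjoin K {θ} = ⊤)
    {ι₁ : O →+* Fk₁} (hι₁ : ι₁ ϖ = 0) {θb₁ : Fk₁} (hθb₁ : g₁.eval₂ ι₁ θb₁ = 0)
    {ι₂ : O →+* Fk₂} (hι₂ : ι₂ ϖ = 0) {θb₂ : Fk₂} (hθb₂ : g₂.eval₂ ι₂ θb₂ = 0)
    (P₁ : PlaceOver ϖ θ ι₁ θb₁) (P₂ : PlaceOver ϖ θ ι₂ θb₂) (p : O[X])
    (h₁ : p.eval₂ ι₁ θb₁ = 0) (h₂ : p.eval₂ ι₂ θb₂ = 0) :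
    ∃ p' : O[X], aeval θ p = algebraMap O L ϖ * aeval θ p' := by
  have hOL : Function.Injective (algebraMap O L) := S28.H98.algebraMap_injective_of_tower K
  have hϖ0 : ϖ ≠ 0 := by
    rintro rfl
    have : maximalIdeal O = ⊥ := by rw [hϖ]; simp
    exact IsDiscreteValuationRing.not_a_field O this
  have hϖL : algebraMap O L ϖ ≠ 0 := fun h0 => hϖ0 (hOL (by rw [h0, map_zero]))
  obtain ⟨z1, hz1, e1⟩ := (P₁.res1_eq_zero_iff _ (P₁.aeval_mem p)).1
    ((P₁.res1_aeval p).trans h₁)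
  obtain ⟨z2, hz2, e2⟩ := (P₂.res1_eq_zero_iff _ (P₂.aeval_mem p)).1
    ((P₂.res1_aeval p).trans h₂)
  have hz : z1 = z2 := mul_left_cancel₀ hϖL (e1.symm.trans e2)
  subst hz
  obtain ⟨p', hp'⟩ := exists_eq_aeval_of_mem_of_mem (K := K) hfac hirr₁ hirr₂ hcop hϖ θ hθ hgen
    hι₁ hθb₁ hι₂ hθb₂ P₁ P₂ hz1 hz2
  exact ⟨p', by rw [e1, hp']⟩

/-- a power with vanishing residue has vanishing residue. -/
theorem eval₂_eq_zero_of_pow_eq_mul {Fk : Type*} [Field Fk] {ϖ : O} {θ : L} {ι : O →+* Fk}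
    (hι : ι ϖ = 0) {θb : Fk} (P : PlaceOver ϖ θ ι θb) (p p'' : O[X]) (n : ℕ)
    (hpow : aeval θ p ^ n = algebraMap O L ϖ * aeval θ p'') : p.eval₂ ι θb = 0 := by
  have hcomp : aeval θ (p ^ n) = aeval θ (C ϖ * p'') := by
    rw [map_pow, hpow, map_mul, aeval_C]
  have h1 := P.res1_aeval (p ^ n)
  have h2 := P.res1_aeval (C ϖ * p'')
  have h3 := P.res1_congr (P.aeval_mem (p ^ n)) (P.aeval_mem (C ϖ * p'')) hcomp
  rw [h1, h2, eval₂_pow, eval₂_mul, eval₂_C, hι, zero_mul] at h3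
  exact pow_eq_zero_iff (fun hn => by subst hn; rw [pow_zero] at h3; exact one_ne_zero h3) |>.1 h3

/-- **`O[θ]/ϖ` is reduced.** -/
theorem exists_eq_mul_of_pow_eq_mul {f g₁ g₂ : O[X]}
    (hfac : f.map (residue O) = g₁.map (residue O) * g₂.map (residue O))
    (hirr₁ : Irreducible (g₁.map (residue O))) (hirr₂ : Irreducible (g₂.map (residue O)))
    (hcop : IsCoprime (g₁.map (residue O)) (g₂.map (residue O)))
    {ϖ : O} (hϖ : maximalIdeal O = Ideal.span {ϖ})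
    (θ : L) (hθ : aeval θ f = 0) (hgen : Algebra.adjoin K {θ} = ⊤)
    {ι₁ : O →+* Fk₁} (hι₁ : ι₁ ϖ = 0) {θb₁ : Fk₁} (hθb₁ : g₁.eval₂ ι₁ θb₁ = 0)
    {ι₂ : O →+* Fk₂} (hι₂ : ι₂ ϖ = 0) {θb₂ : Fk₂} (hθb₂ : g₂.eval₂ ι₂ θb₂ = 0)
    (P₁ : PlaceOver ϖ θ ι₁ θb₁) (P₂ : PlaceOver ϖ θ ι₂ θb₂) (p p'' : O[X]) (n : ℕ)
    (hpow : aeval θ p ^ n = algebraMap O L ϖ * aeval θ p'') :
    ∃ p' : O[X], aeval θ p = algebraMap O L ϖ * aeval θ p' := by
  exact exists_eq_mul_of_eval₂_eq_zero (K := K) hfac hirr₁ hirr₂ hcop hϖ θ hθ hgen hι₁ hθb₁ hι₂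
    hθb₂ P₁ P₂ p (eval₂_eq_zero_of_pow_eq_mul hι₁ P₁ p p'' n hpow)
    (eval₂_eq_zero_of_pow_eq_mul hι₂ P₂ p p'' n hpow)

/-- **CRT**: the two reductions are jointly onto `κ[θb₁] × κ[θb₂]`. -/
theorem exists_crt {g₁ g₂ : O[X]}
    (hcop : IsCoprime (g₁.map (residue O)) (g₂.map (residue O)))
    {ϖ : O} (hϖ : maximalIdeal O = Ideal.span {ϖ})
    {ι₁ : O →+* Fk₁} (hι₁ : ι₁ ϖ = 0) {θb₁ : Fk₁} (hθb₁ : g₁.eval₂ ι₁ θb₁ = 0)
    {ι₂ : O →+* Fk₂} (hι₂ : ι₂ ϖ = 0) {θb₂ : Fk₂} (hθb₂ : g₂.eval₂ ι₂ θb₂ = 0) (a b : O[X]) :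
    ∃ c : O[X], c.eval₂ ι₁ θb₁ = a.eval₂ ι₁ θb₁ ∧ c.eval₂ ι₂ θb₂ = b.eval₂ ι₂ θb₂ := by
  obtain ⟨ub, vb, huv⟩ := hcop
  obtain ⟨u, rfl⟩ := Polynomial.map_surjective (residue O) residue_surjective ub
  obtain ⟨v, rfl⟩ := Polynomial.map_surjective (residue O) residue_surjective vb
  have hzero : (u * g₁ + v * g₂ - 1).map (residue O) = 0 := by
    rw [Polynomial.map_sub, Polynomial.map_add, Polynomial.map_mul, Polynomial.map_mul,
      Polynomial.map_one, huv, sub_self]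
  obtain ⟨w, hw⟩ := exists_eq_C_mul_of_map_residue_eq_zero hϖ hzero
  have hrel : u * g₁ + v * g₂ = 1 + C ϖ * w := by rw [← hw]; ring
  have e1 := congrArg (Polynomial.eval₂ ι₁ θb₁) hrel
  have e2 := congrArg (Polynomial.eval₂ ι₂ θb₂) hrel
  rw [eval₂_add, eval₂_mul, eval₂_mul, hθb₁, mul_zero, zero_add, eval₂_add, eval₂_one, eval₂_mul,
    eval₂_C, hι₁, zero_mul, add_zero] at e1
  rw [eval₂_add, eval₂_mul, eval₂_mul, hθb₂, mul_zero, add_zero, eval₂_add, eval₂_one, eval₂_mul,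
    eval₂_C, hι₂, zero_mul, add_zero] at e2
  refine ⟨a * (v * g₂) + b * (u * g₁), ?_, ?_⟩
  · simp only [eval₂_add, eval₂_mul, hθb₁, mul_zero, add_zero, e1, mul_one]
  · simp only [eval₂_add, eval₂_mul, hθb₂, mul_zero, zero_add, e2, mul_one]

end Two

section Unique

variable {O : Type*} [CommRing O] [IsDomain O] [IsDiscreteValuationRing O]
variable {L : Type*} [Field L] [Algebra O L]
variable {Fk : Type*} [Field Fk]

/-- a valuation subring containing the image of `R` contains every element integral over `R`. -/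
theorem mem_valuationSubring_of_isIntegral {R : Type*} [CommRing R] [Algebra R L]
    (V : ValuationSubring L) (hRV : ∀ a : R, algebraMap R L a ∈ V) {x : L}
    (hx : IsIntegral R x) : x ∈ V := by
  obtain ⟨p, hp, hpx⟩ := hx
  let jV : R →+* V := (algebraMap R L).codRestrict V.toSubring hRV
  have hint : IsIntegral V x := by
    refine ⟨p.map jV, hp.map _, ?_⟩
    rw [eval₂_map]
    exact hpx
  obtain ⟨y, hy⟩ := IsIntegrallyClosed.isIntegral_iff.mp hint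
  rw [← hy]
  exact y.2

theorem aeval_mem_valuationSubring (V : ValuationSubring L)
    (hOV : ∀ a : O, algebraMap O L a ∈ V) {θ : L} (hθV : θ ∈ V) (p : O[X]) : aeval θ p ∈ V := by
  rw [aeval_def, eval₂_eq_sum_range]
  exact V.toSubring.sum_mem fun i _ => V.mul_mem _ _ (hOV _) (V.toSubring.pow_mem hθV i)

/-- **Uniqueness**: a valuation subring of `L` containing `O`, in which `ϖ` and `g(θ)` are
non-units, is the place attached to `g`. -/
theorem eq_of_valuationSubring {f g : O[X]} (hf : f.Monic)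
    (hirr : Irreducible (g.map (residue O)))
    {ϖ : O} (hϖ : maximalIdeal O = Ideal.span {ϖ})
    (θ : L) (hθ : aeval θ f = 0)
    {ι : O →+* Fk} (hι : ι ϖ = 0) {θb : Fk} (hθb : g.eval₂ ι θb = 0)
    (P : PlaceOver ϖ θ ι θb) (V : ValuationSubring L)
    (hOV : ∀ a : O, algebraMap O L a ∈ V) (hϖV : algebraMap O L ϖ ∈ V.nonunits)
    (hgV : aeval θ g ∈ V.nonunits) : V.toSubring = P.O1 := by
  have hθV : θ ∈ V := mem_valuationSubring_of_isIntegral V hOV ⟨f, hf, hθ⟩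
  have hS : ∀ p : O[X], aeval θ p ∈ V := aeval_mem_valuationSubring V hOV hθV
  rw [ValuationSubring.mem_nonunits_iff] at hϖV hgV
  have hle : P.O1 ≤ V.toSubring := by
    intro y hy
    obtain ⟨a, s, hs, e⟩ := P.exists_repr y hy
    obtain ⟨u, v', w, hb⟩ := exists_bezout_of_eval₂_ne_zero hirr hϖ ι hι θb hθb hs
    have hb' := congrArg (aeval θ) hb
    rw [map_add, map_mul, map_mul, map_add, map_one, map_mul, aeval_C] at hb'
    -- `u(θ) s(θ) = 1 + (ϖ w(θ) - v'(θ) g(θ))`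
    have hn : V.valuation (algebraMap O L ϖ * aeval θ w - aeval θ v' * aeval θ g) < 1 := by
      apply Valuation.map_sub_lt
      · rw [map_mul]
        exact mul_lt_one_of_lt_of_le hϖV ((V.valuation_le_one_iff _).2 (hS w))
      · rw [map_mul]
        calc V.valuation (aeval θ v') * V.valuation (aeval θ g)
            ≤ 1 * V.valuation (aeval θ g) :=
              mul_le_mul' ((V.valuation_le_one_iff _).2 (hS v')) le_rfl
          _ < 1 := by rw [one_mul]; exact hgV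
    have hus : aeval θ u * aeval θ s =
        1 + (algebraMap O L ϖ * aeval θ w - aeval θ v' * aeval θ g) := by
      rw [← sub_eq_zero] at hb' ⊢
      rw [← hb']; ring
    have hval : V.valuation (aeval θ u) * V.valuation (aeval θ s) = 1 := by
      rw [← map_mul, hus]
      exact Valuation.map_one_add_of_lt _ hn
    have hs1 : V.valuation (aeval θ s) = 1 := by
      apply le_antisymm ((V.valuation_le_one_iff _).2 (hS s))
      calc (1 : _) = V.valuation (aeval θ u) * V.valuation (aeval θ s) := hval.symm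
        _ ≤ 1 * V.valuation (aeval θ s) :=
            mul_le_mul' ((V.valuation_le_one_iff _).2 (hS u)) le_rfl
        _ = V.valuation (aeval θ s) := one_mul _
    have hs0 : aeval θ s ≠ 0 := by
      intro h0
      rw [h0, map_zero] at hs1
      exact zero_ne_one hs1
    have hy' : y = aeval θ a * (aeval θ s)⁻¹ := by
      rw [← e, mul_assoc, mul_inv_cancel₀ hs0, mul_one]
    change y ∈ V
    rw [hy', ← V.valuation_le_one_iff, map_mul, map_inv₀, hs1, inv_one, mul_one]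
    exact (V.valuation_le_one_iff _).2 (hS a)
  apply le_antisymm _ hle
  intro y hy
  by_contra hyO
  have hyinv : y⁻¹ ∈ P.O1 := (P.mem_or_inv_mem y).resolve_left hyO
  have hres : P.res1 ⟨y⁻¹, hyinv⟩ = 0 := by
    by_contra hne
    have := P.inv_mem _ hyinv hne
    rw [inv_inv] at this
    exact hyO this
  obtain ⟨z, hz, e⟩ := (P.res1_eq_zero_iff _ hyinv).1 hres
  have hy0 : y ≠ 0 := by
    rintro rfl
    exact hyO (Subring.zero_mem _)
  have h1 : V.valuation y⁻¹ < 1 := by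
    rw [e, map_mul]
    exact mul_lt_one_of_lt_of_le hϖV ((V.valuation_le_one_iff _).2 (hle hz))
  have h2 : V.valuation y ≤ 1 := (V.valuation_le_one_iff _).2 hy
  rw [map_inv₀] at h1
  have h3 : V.valuation y ≠ 0 := (Valuation.ne_zero_iff _).2 hy0
  have h4 : (1 : _) < V.valuation y := by
    by_contra hle1
    replace hle1 := not_lt.1 hle1
    have : 1 ≤ (V.valuation y)⁻¹ := by
      rw [one_le_inv₀ (zero_lt_iff.2 h3)]
      exact hle1
    exact absurd h1 (not_lt.2 this)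
  exact absurd h2 (not_le.2 h4)

/-- **Exactly two places**: a valuation subring of `L` containing `O` in which `ϖ` is a
non-unit is one of the two places. -/
theorem eq_or_eq_of_valuationSubring {Fk₁ Fk₂ : Type*} [Field Fk₁] [Field Fk₂] {f g₁ g₂ : O[X]}
    (hf : f.Monic) (hfac : f.map (residue O) = g₁.map (residue O) * g₂.map (residue O))
    (hirr₁ : Irreducible (g₁.map (residue O))) (hirr₂ : Irreducible (g₂.map (residue O)))
    {ϖ : O} (hϖ : maximalIdeal O = Ideal.span {ϖ})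
    (θ : L) (hθ : aeval θ f = 0)
    {ι₁ : O →+* Fk₁} (hι₁ : ι₁ ϖ = 0) {θb₁ : Fk₁} (hθb₁ : g₁.eval₂ ι₁ θb₁ = 0)
    {ι₂ : O →+* Fk₂} (hι₂ : ι₂ ϖ = 0) {θb₂ : Fk₂} (hθb₂ : g₂.eval₂ ι₂ θb₂ = 0)
    (P₁ : PlaceOver ϖ θ ι₁ θb₁) (P₂ : PlaceOver ϖ θ ι₂ θb₂) (V : ValuationSubring L)
    (hOV : ∀ a : O, algebraMap O L a ∈ V) (hϖV : algebraMap O L ϖ ∈ V.nonunits) :
    V.toSubring = P₁.O1 ∨ V.toSubring = P₂.O1 := by
  have hθV : θ ∈ V := mem_valuationSubring_of_isIntegral V hOV ⟨f, hf, hθ⟩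
  have hS : ∀ p : O[X], aeval θ p ∈ V := aeval_mem_valuationSubring V hOV hθV
  obtain ⟨r, hr⟩ := exists_mul_eq_add hfac hϖ
  have h1 := congrArg (aeval θ) hr
  rw [map_mul, map_add, hθ, zero_add, map_mul, aeval_C] at h1
  have hlt : V.valuation (aeval θ g₁) * V.valuation (aeval θ g₂) < 1 := by
    rw [← map_mul, h1, map_mul]
    exact mul_lt_one_of_lt_of_le ((ValuationSubring.mem_nonunits_iff V).1 hϖV)
      ((V.valuation_le_one_iff _).2 (hS r))
  by_cases hg1 : V.valuation (aeval θ g₁) < 1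
  · left
    exact eq_of_valuationSubring hf hirr₁ hϖ θ hθ hι₁ hθb₁ P₁ V hOV hϖV
      ((ValuationSubring.mem_nonunits_iff V).2 hg1)
  · right
    have hg1' : V.valuation (aeval θ g₁) = 1 :=
      le_antisymm ((V.valuation_le_one_iff _).2 (hS g₁)) (not_lt.1 hg1)
    rw [hg1', one_mul] at hlt
    exact eq_of_valuationSubring hf hirr₂ hϖ θ hθ hι₂ hθb₂ P₂ V hOV hϖV
      ((ValuationSubring.mem_nonunits_iff V).2 hlt)

end Unique

/-- The valuation subring of a place. -/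
def PlaceOver.toValuationSubring {O : Type*} [CommRing O] {L : Type*} [Field L] [Algebra O L]
    {Fk : Type*} [Field Fk] {ϖ : O} {θ : L} {ι : O →+* Fk} {θb : Fk}
    (P : PlaceOver ϖ θ ι θb) : ValuationSubring L :=
  { P.O1 with mem_or_inv_mem' := P.mem_or_inv_mem }

theorem PlaceOver.toValuationSubring_toSubring {O : Type*} [CommRing O] {L : Type*} [Field L]
    [Algebra O L] {Fk : Type*} [Field Fk] {ϖ : O} {θ : L} {ι : O →+* Fk} {θb : Fk}
    (P : PlaceOver ϖ θ ι θb) : P.toValuationSubring.toSubring = P.O1 := rfl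

end Fermat.Agent.CA.H99
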