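import Mathlib
import Fermat.Agent.CA.H99_TwoPlacesThm

/-!
CA / helper16: COMPARISON of two `CA.H99.PlaceOver` structures on the same field `L`, possibly for
two DIFFERENT base rings / algebra structures `O → L`, `O' → L` (instance: the inclusion
`F_M ⊆ F_N` and `V_q : F_M → F_N`).

If `P` is a place for `(O, θ, ι, θb)` and `Q` a place for `(O', θ', ι', θb')` with the same target
field `Fk`, and `P` "sees" the data of `Q`:

* `hO : ∀ a : O', algebraMap O' L a ∈ P.O1` with `P.res1 (algebraMap O' L a) = ι' a`,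
* `hθ : θ' ∈ P.O1` with `P.res1 θ' = θb'`,

then `Q.O1 = P.O1` and `Q.res1 = P.res1`.
-/

set_option autoImplicit false
set_option linter.unusedSectionVars false

namespace Fermat.Agent.CA.H16

open Polynomial

section Compare

variable {O O' : Type*} [CommRing O] [CommRing O'] {L : Type*} [Field L]
  [iP : Algebra O L] [iQ : Algebra O' L] {Fk : Type*} [Field Fk]
  {ϖ : O} {θ : L} {ι : O →+* Fk} {θb : Fk}
  {ϖ' : O'} {θ' : L} {ι' : O' →+* Fk} {θb' : Fk}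
  (P : CA.H99.PlaceOver ϖ θ ι θb) (Q : CA.H99.PlaceOver ϖ' θ' ι' θb')
  (hO : ∀ a : O', ∃ h : algebraMap O' L a ∈ P.O1, P.res1 ⟨_, h⟩ = ι' a)
  (hθ : ∃ h : θ' ∈ P.O1, P.res1 ⟨_, h⟩ = θb')

include hO hθ

/-- polynomials in `θ'` over `O'` lie in `P.O1`, with the expected residue. -/
theorem aeval_mem_of_transport (s : O'[X]) :
    ∃ h : aeval θ' s ∈ P.O1, P.res1 ⟨_, h⟩ = s.eval₂ ι' θb' := by
  let g : O' →+* P.O1 := (algebraMap O' L).codRestrict P.O1 (fun a => (hO a).1)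
  let t : P.O1 := ⟨θ', hθ.1⟩
  have hsub : ((eval₂ g t s : P.O1) : L) = aeval θ' s := by
    have h1 := Polynomial.hom_eval₂ s g P.O1.subtype t
    rw [aeval_def]
    exact h1
  have hres : P.res1 (eval₂ g t s) = s.eval₂ ι' θb' := by
    have h1 := Polynomial.hom_eval₂ s g P.res1 t
    rw [h1]
    have h2 : P.res1.comp g = ι' := by
      ext a
      exact (hO a).2
    have h3 : P.res1 t = θb' := hθ.2
    rw [h2, h3]
  have hmem : aeval θ' s ∈ P.O1 := by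
    rw [← hsub]
    exact (eval₂ g t s).2
  refine ⟨hmem, ?_⟩
  rw [← hres]
  exact congrArg P.res1 (Subtype.ext hsub.symm)

/-- `Q.O1 ⊆ P.O1`, with the same residues. -/
theorem le_of_transport {y : L} (hy : y ∈ Q.O1) :
    ∃ h : y ∈ P.O1, P.res1 ⟨y, h⟩ = Q.res1 ⟨y, hy⟩ := by
  obtain ⟨a, s, hs, e⟩ := Q.exists_repr y hy
  obtain ⟨hsP, esP⟩ := aeval_mem_of_transport P hO hθ s
  obtain ⟨haP, eaP⟩ := aeval_mem_of_transport P hO hθ a
  have hsne : P.res1 ⟨aeval θ' s, hsP⟩ ≠ 0 := by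
    rw [esP]
    exact hs
  have hs0 : aeval θ' s ≠ 0 := by
    intro h0
    apply hsne
    have : (⟨aeval θ' s, hsP⟩ : P.O1) = 0 := Subtype.ext h0
    rw [this, map_zero]
  have hinv := P.inv_mem _ hsP hsne
  have hy' : y = aeval θ' a * (aeval θ' s)⁻¹ := by
    rw [← e, mul_assoc, mul_inv_cancel₀ hs0, mul_one]
  have hyP : y ∈ P.O1 := by
    rw [hy']
    exact P.O1.mul_mem haP hinv
  refine ⟨hyP, ?_⟩
  have h1 : P.res1 ⟨y, hyP⟩ * P.res1 ⟨aeval θ' s, hsP⟩ = P.res1 ⟨aeval θ' a, haP⟩ := by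
    have : (⟨y, hyP⟩ : P.O1) * ⟨aeval θ' s, hsP⟩ = ⟨aeval θ' a, haP⟩ := Subtype.ext e
    rw [← map_mul, this]
  have h2 : Q.res1 ⟨y, hy⟩ * Q.res1 ⟨aeval θ' s, Q.aeval_mem s⟩ =
      Q.res1 ⟨aeval θ' a, Q.aeval_mem a⟩ := by
    have : (⟨y, hy⟩ : Q.O1) * ⟨aeval θ' s, Q.aeval_mem s⟩ = ⟨aeval θ' a, Q.aeval_mem a⟩ :=
      Subtype.ext e
    rw [← map_mul, this]
  rw [Q.res1_aeval, Q.res1_aeval] at h2
  rw [esP, eaP] at h1
  exact mul_right_cancel₀ hs (h1.trans h2.symm)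

/-- **The two places coincide.** -/
theorem O1_eq_of_transport : Q.O1 = P.O1 := by
  apply le_antisymm
  · intro y hy
    exact (le_of_transport P Q hO hθ hy).1
  · intro y hy
    by_contra hyQ
    have hyinv : y⁻¹ ∈ Q.O1 := (Q.mem_or_inv_mem y).resolve_left hyQ
    have hres : Q.res1 ⟨y⁻¹, hyinv⟩ = 0 := by
      by_contra hne
      have := Q.inv_mem _ hyinv hne
      rw [inv_inv] at this
      exact hyQ this
    obtain ⟨hP, eP⟩ := le_of_transport P Q hO hθ hyinv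
    have hy0 : y ≠ 0 := by
      rintro rfl
      exact hyQ (Subring.zero_mem _)
    have h1 : P.res1 ⟨y, hy⟩ * P.res1 ⟨y⁻¹, hP⟩ = 1 := by
      have : (⟨y, hy⟩ : P.O1) * ⟨y⁻¹, hP⟩ = 1 := Subtype.ext (mul_inv_cancel₀ hy0)
      rw [← map_mul, this, map_one]
    rw [eP, hres, mul_zero] at h1
    exact zero_ne_one h1

theorem mem_iff_of_transport {y : L} : y ∈ Q.O1 ↔ y ∈ P.O1 := by
  rw [O1_eq_of_transport P Q hO hθ]

/-- **... with the same reduction maps.** -/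
theorem res1_eq_of_transport {y : L} (hy : y ∈ Q.O1) (hy' : y ∈ P.O1) :
    Q.res1 ⟨y, hy⟩ = P.res1 ⟨y, hy'⟩ := by
  obtain ⟨_, e⟩ := le_of_transport P Q hO hθ hy
  exact e.symm

end Compare

end Fermat.Agent.CA.H16
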