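import Mathlib

/-!
# A Nakayama lemma for differences of ring homomorphisms and for point derivations

Let `O`, `A'` be commutative rings, `A'` local and noetherian, `Q Q' : O →+* A'` ring
homomorphisms and `δ : O →+ A'` a `(Q, Q')`-derivation: `δ (a b) = Q a * δ b + δ a * Q' b`
(examples: `δ = Q - Q'`; a `Q`-derivation with `Q' = Q`).  Assume that `δ` kills a set `C` of
"constants" and elements `t j`, that `Q (z i)` and `Q (t j)` lie in the maximal ideal of `A'`
and that `O = C + ∑ z i O + ∑ t j O`.  Then the ideal of `A'` generated by `δ O` is generated by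
the `δ (z i)`:  every `δ a` lies in `Ideal.span (Set.range fun i => δ (z i))`.

Consequence (`eq_of_apply_eq`): two such homomorphisms that agree on `C`, the `t j` and the `z i`
are equal.
-/

set_option autoImplicit false

namespace Fermat.Agent.CA.H38

variable {O A' : Type*} [CommRing O] [CommRing A'] [IsLocalRing A'] [IsNoetherianRing A']

/-- **Twisted Nakayama.** -/
theorem twisted_derivation_mem_span {ι κ : Type*} (Q Q' : O →+* A') (δ : O →+ A')
    (hδ : ∀ a b : O, δ (a * b) = Q a * δ b + δ a * Q' b)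
    (C : Set O) (hC : ∀ c ∈ C, δ c = 0)
    (z : ι → O) (hz : ∀ i, Q (z i) ∈ IsLocalRing.maximalIdeal A')
    (t : κ → O) (ht : ∀ j, Q (t j) ∈ IsLocalRing.maximalIdeal A') (htδ : ∀ j, δ (t j) = 0)
    (hdec : ∀ a : O, ∃ c ∈ C, ∃ (s : Finset ι) (b : ι → O) (s' : Finset κ) (b' : κ → O),
      a = c + ∑ i ∈ s, z i * b i + ∑ j ∈ s', t j * b' j)
    (a : O) : δ a ∈ Ideal.span (Set.range fun i => δ (z i)) := by
  set J : Ideal A' := Ideal.span (Set.range fun i => δ (z i)) with hJ
  set I : Ideal A' := Ideal.span (Set.range δ) with hI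
  have hle : I ≤ J ⊔ IsLocalRing.maximalIdeal A' • I := by
    rw [hI, Ideal.span_le]
    rintro _ ⟨a, rfl⟩
    obtain ⟨c, hc, s, b, s', b', rfl⟩ := hdec a
    rw [SetLike.mem_coe, map_add, map_add, hC c hc, zero_add, map_sum, map_sum]
    refine Submodule.add_mem _ (Submodule.sum_mem _ fun i _ => ?_)
      (Submodule.sum_mem _ fun j _ => ?_)
    · rw [hδ]
      refine Submodule.add_mem _ (Submodule.mem_sup_right ?_) (Submodule.mem_sup_left ?_)
      · exact Submodule.smul_mem_smul (hz i) (Ideal.subset_span ⟨b i, rfl⟩)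
      · exact Ideal.mul_mem_right _ _ (Ideal.subset_span ⟨i, rfl⟩)
    · rw [hδ, htδ, zero_mul, add_zero]
      exact Submodule.mem_sup_right
        (Submodule.smul_mem_smul (ht j) (Ideal.subset_span ⟨b' j, rfl⟩))
  have hfg : (I : Submodule A' A').FG := IsNoetherian.noetherian I
  have hjac : IsLocalRing.maximalIdeal A' ≤ Ideal.jacobson ⊥ :=
    (IsLocalRing.jacobson_eq_maximalIdeal ⊥ bot_ne_top).ge
  have := Submodule.le_of_le_smul_of_le_jacobson_bot hfg hjac hle
  exact this (Ideal.subset_span ⟨a, rfl⟩)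

omit [IsLocalRing A'] [IsNoetherianRing A'] in
/-- The difference of two ring homomorphisms as a twisted derivation. -/
theorem sub_mul_eq (Q Q' : O →+* A') (a b : O) :
    Q (a * b) - Q' (a * b) = Q a * (Q b - Q' b) + (Q a - Q' a) * Q' b := by
  rw [map_mul, map_mul]; ring

/-- **Hom-difference form**: `Q a - Q' a` lies in the ideal generated by the `Q (z i) - Q' (z i)`. -/
theorem sub_mem_span {ι κ : Type*} (Q Q' : O →+* A')
    (C : Set O) (hC : ∀ c ∈ C, Q c = Q' c)
    (z : ι → O) (hz : ∀ i, Q (z i) ∈ IsLocalRing.maximalIdeal A')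
    (t : κ → O) (ht : ∀ j, Q (t j) ∈ IsLocalRing.maximalIdeal A') (htQ : ∀ j, Q (t j) = Q' (t j))
    (hdec : ∀ a : O, ∃ c ∈ C, ∃ (s : Finset ι) (b : ι → O) (s' : Finset κ) (b' : κ → O),
      a = c + ∑ i ∈ s, z i * b i + ∑ j ∈ s', t j * b' j)
    (a : O) : Q a - Q' a ∈ Ideal.span (Set.range fun i => Q (z i) - Q' (z i)) := by
  have := twisted_derivation_mem_span Q Q' ((Q : O →+ A') - (Q' : O →+ A'))
    (fun a b => by
      show Q (a * b) - Q' (a * b) = Q a * (Q b - Q' b) + (Q a - Q' a) * Q' b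
      exact sub_mul_eq Q Q' a b)
    C (fun c hc => by simp [hC c hc]) z hz t ht (fun j => by simp [htQ j]) hdec a
  simpa using this

/-- Two local points that agree on the constants and on generators of the maximal ideal are
equal. -/
theorem eq_of_apply_eq {ι κ : Type*} (Q Q' : O →+* A')
    (C : Set O) (hC : ∀ c ∈ C, Q c = Q' c)
    (z : ι → O) (hz : ∀ i, Q (z i) ∈ IsLocalRing.maximalIdeal A') (hzQ : ∀ i, Q (z i) = Q' (z i))
    (t : κ → O) (ht : ∀ j, Q (t j) ∈ IsLocalRing.maximalIdeal A') (htQ : ∀ j, Q (t j) = Q' (t j))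
    (hdec : ∀ a : O, ∃ c ∈ C, ∃ (s : Finset ι) (b : ι → O) (s' : Finset κ) (b' : κ → O),
      a = c + ∑ i ∈ s, z i * b i + ∑ j ∈ s', t j * b' j) :
    Q = Q' := by
  ext a
  have h := sub_mem_span Q Q' C hC z hz t ht htQ hdec a
  have h0 : (Set.range fun i => Q (z i) - Q' (z i)) ⊆ {0} := by
    rintro _ ⟨i, rfl⟩
    simp [hzQ i]
  have := Ideal.span_mono h0 h
  rw [Ideal.span_singleton_eq_bot.mpr rfl, Ideal.mem_bot, sub_eq_zero] at this
  exact this

end Fermat.Agent.CA.H38
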