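import Mathlib
import Fermat.Agent.CA.H38_TwistedNakayama

/-!
# Finite-order Morse coordinates at a node, and the single-zero lemma

Abstract algebra for a "node" of an arithmetic surface, with no completions and no power series.

`O` is a commutative ring, `C ⊆ O` a subring of "constants", `q ∈ C`, and `x y : O` with
`O = C + x O + y O + q O` and `x * y ∈ q O`.

* `morse_step` / `exists_morse` : for every `N` there are `x' ≡ x`, `y' ≡ y` mod `q O` and
  `c ∈ q C` with `x' * y' = c + q ^ (N + 1) * G`.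
* `eq_of_apply_eq_of_lt` (single-zero lemma): two points `P Q : O →+* A'` into a local noetherian
  domain that agree on `C` and on `x`, with `q ^ (N + 1) ∈ P x • 𝔪`, are equal.
* `eq_zero_of_apply_eq_zero_of_lt` (simple zero): a `P`-derivation `D` killing `C` with `D x = 0`
  is zero, under the same hypothesis.
-/

set_option autoImplicit false

namespace Fermat.Agent.CA.H38

section Morse

variable {O : Type*} [CommRing O]

/-- The decomposition hypothesis `O = C + x O + y O + q O`. -/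
def NodeDec (C : Subring O) (q x y : O) : Prop :=
  ∀ g : O, ∃ c ∈ C, ∃ a b r : O, g = c + x * a + y * b + q * r

theorem NodeDec.of_sub_mem {C : Subring O} {q x y x' y' : O} (h : NodeDec C q x y)
    (hx : ∃ u, x' = x + q * u) (hy : ∃ u, y' = y + q * u) : NodeDec C q x' y' := by
  obtain ⟨u, rfl⟩ := hx
  obtain ⟨w, rfl⟩ := hy
  intro g
  obtain ⟨c, hc, a, b, r, rfl⟩ := h g
  exact ⟨c, hc, a, b, r - u * a - w * b, by ring⟩

/-- **One Morse step**: from `x y = c + q^N G` (`N ≥ 1`) to `x' y' = c' + q^(N+1) G'`. -/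
theorem morse_step {C : Subring O} {q x y : O} (hq : q ∈ C) (h : NodeDec C q x y)
    {N : ℕ} (hN : 1 ≤ N) {c G : O} (hc : ∃ c₀ ∈ C, c = q * c₀) (hxy : x * y = c + q ^ N * G) :
    ∃ x' y' c' G' : O, (∃ u, x' = x + q * u) ∧ (∃ u, y' = y + q * u) ∧
      (∃ c₀ ∈ C, c' = q * c₀) ∧ x' * y' = c' + q ^ (N + 1) * G' := by
  obtain ⟨g₀, hg₀, a, b, r, hG⟩ := h G
  obtain ⟨c₀, hc₀, rfl⟩ := hc
  obtain ⟨M, rfl⟩ : ∃ M, N = M + 1 := ⟨N - 1, by omega⟩
  refine ⟨x - q ^ (M + 1) * b, y - q ^ (M + 1) * a, q * (c₀ + q ^ M * g₀), r + q ^ M * (a * b),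
    ⟨-(q ^ M * b), by ring⟩, ⟨-(q ^ M * a), by ring⟩,
    ⟨c₀ + q ^ M * g₀, C.add_mem hc₀ (C.mul_mem (C.pow_mem hq M) hg₀), rfl⟩, ?_⟩
  have e : (x - q ^ (M + 1) * b) * (y - q ^ (M + 1) * a)
      = x * y - q ^ (M + 1) * (x * a + y * b) + q ^ (M + 1) * q ^ (M + 1) * (a * b) := by ring
  rw [e, hxy, hG]
  ring

/-- **Morse coordinates to every finite order.** -/
theorem exists_morse {C : Subring O} {q x y : O} (hq : q ∈ C) (h : NodeDec C q x y)
    (hxy : ∃ G, x * y = q * G) (N : ℕ) :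
    ∃ x' y' c' G' : O, (∃ u, x' = x + q * u) ∧ (∃ u, y' = y + q * u) ∧
      (∃ c₀ ∈ C, c' = q * c₀) ∧ x' * y' = c' + q ^ (N + 1) * G' := by
  induction N with
  | zero =>
    obtain ⟨G, hG⟩ := hxy
    exact ⟨x, y, 0, G, ⟨0, by ring⟩, ⟨0, by ring⟩, ⟨0, C.zero_mem, by ring⟩, by rw [hG]; ring⟩
  | succ N ih =>
    obtain ⟨x₁, y₁, c₁, G₁, hx₁, hy₁, hc₁, h₁⟩ := ih
    obtain ⟨x₂, y₂, c₂, G₂, hx₂, hy₂, hc₂, h₂⟩ :=
      morse_step hq (h.of_sub_mem hx₁ hy₁) (Nat.succ_le_succ (Nat.zero_le N)) hc₁ h₁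
    obtain ⟨u₁, rfl⟩ := hx₁
    obtain ⟨w₁, rfl⟩ := hy₁
    obtain ⟨u₂, rfl⟩ := hx₂
    obtain ⟨w₂, rfl⟩ := hy₂
    exact ⟨_, _, c₂, G₂, ⟨u₁ + u₂, by ring⟩, ⟨w₁ + w₂, by ring⟩, hc₂, h₂⟩

end Morse

section Points

variable {O A' : Type*} [CommRing O] [CommRing A'] [IsLocalRing A'] [IsNoetherianRing A']

/-- The decomposition in the shape consumed by `twisted_derivation_mem_span`. -/
theorem NodeDec.hdec {C : Subring O} {q x y : O} (h : NodeDec C q x y) :
    ∀ a : O, ∃ c ∈ (C : Set O), ∃ (s : Finset Bool) (b : Bool → O) (s' : Finset Unit)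
      (b' : Unit → O),
      a = c + ∑ i ∈ s, (fun i : Bool => if i then x else y) i * b i
        + ∑ j ∈ s', (fun _ : Unit => q) j * b' j := by
  intro g
  obtain ⟨c, hc, a, b, r, rfl⟩ := h g
  refine ⟨c, hc, Finset.univ, fun i => if i then a else b, Finset.univ, fun _ => r, ?_⟩
  simp
  ring

/-- **Twisted Nakayama at a node**: a `(P, Q)`-derivation killing the constants with `δ x = 0`
has all its values in the ideal generated by `δ y`. -/
theorem node_derivation_mem_span {C : Subring O} {q x y : O} (hq : q ∈ C)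
    (h : NodeDec C q x y) (P Q : O →+* A') (δ : O →+ A')
    (hδ : ∀ a b : O, δ (a * b) = P a * δ b + δ a * Q b) (hC : ∀ c ∈ C, δ c = 0)
    (hPx : P x ∈ IsLocalRing.maximalIdeal A') (hPy : P y ∈ IsLocalRing.maximalIdeal A')
    (hPq : P q ∈ IsLocalRing.maximalIdeal A') (hδx : δ x = 0) (a : O) :
    δ a ∈ Ideal.span {δ y} := by
  have := twisted_derivation_mem_span P Q δ hδ (C : Set O) hC
    (fun i : Bool => if i then x else y) (fun i => by cases i <;> simpa)
    (fun _ : Unit => q) (fun _ => hPq) (fun _ => hC q hq) h.hdec a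
  refine Ideal.span_le.mpr ?_ this
  rintro _ ⟨i, rfl⟩
  cases i
  · exact Ideal.subset_span (by simp)
  · simp only [if_true, hδx]
    exact Ideal.zero_mem _

variable [IsDomain A']

omit [IsNoetherianRing A'] in
/-- Core computation: if `ξ * d ∈ q^(N+1) • (d)` and `q^(N+1) ∈ ξ • 𝔪` then `d = 0` or `ξ = 0`. -/
theorem eq_zero_of_mul_mem {ξ d qN : A'}
    (hlt : ∃ μ ∈ IsLocalRing.maximalIdeal A', qN = ξ * μ)
    (h : ∃ u : A', ξ * d = qN * (u * d)) (hξ : ξ ≠ 0) : d = 0 := by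
  obtain ⟨μ, hμ, rfl⟩ := hlt
  obtain ⟨u, hu⟩ := h
  have h1 : ξ * (d * (1 - μ * u)) = 0 := by
    have : ξ * (d * (1 - μ * u)) = ξ * d - ξ * μ * (u * d) := by ring
    rw [this, hu, sub_self]
  have hunit : IsUnit (1 - μ * u) := by
    have hm : μ * u ∈ IsLocalRing.maximalIdeal A' := Ideal.mul_mem_right _ _ hμ
    by_contra hnu
    have h1m : 1 - μ * u ∈ IsLocalRing.maximalIdeal A' := hnu
    have : (1 : A') ∈ IsLocalRing.maximalIdeal A' := by
      have := Ideal.add_mem _ h1m hm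
      rwa [sub_add_cancel] at this
    exact (Ideal.ne_top_iff_one _).mp (IsLocalRing.maximalIdeal.isMaximal A').ne_top this
  rcases mul_eq_zero.mp h1 with h0 | h0
  · exact absurd h0 hξ
  · rcases mul_eq_zero.mp h0 with h0 | h0
    · exact h0
    · exact absurd h0 hunit.ne_zero

/-- **Single-zero lemma.** Two points agreeing on the constants and on `x`, where
`x * y = c + q^(N+1) G` with `c` constant and `v(P x) < (N+1) v(q)`, are equal. -/
theorem eq_of_apply_eq_of_lt {C : Subring O} {q x y c G : O} {N : ℕ} (hq : q ∈ C)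
    (h : NodeDec C q x y) (hc : c ∈ C) (hxy : x * y = c + q ^ (N + 1) * G)
    (P Q : O →+* A') (hC : ∀ c ∈ C, P c = Q c)
    (hPx : P x ∈ IsLocalRing.maximalIdeal A') (hPy : P y ∈ IsLocalRing.maximalIdeal A')
    (hPq : P q ∈ IsLocalRing.maximalIdeal A') (hx : P x = Q x) (hξ : P x ≠ 0)
    (hlt : ∃ μ ∈ IsLocalRing.maximalIdeal A', P q ^ (N + 1) = P x * μ) : P = Q := by
  have key : ∀ a : O, P a - Q a ∈ Ideal.span {P y - Q y} := by
    intro a
    have := node_derivation_mem_span hq h P Q ((P : O →+ A') - (Q : O →+ A'))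
      (fun a b => by
        show P (a * b) - Q (a * b) = P a * (P b - Q b) + (P a - Q a) * Q b
        exact sub_mul_eq P Q a b)
      (fun c hc => by
        show P c - Q c = 0
        rw [hC c hc, sub_self]) hPx hPy hPq
      (by show P x - Q x = 0; rw [hx, sub_self]) a
    exact this
  -- the relation
  have hrel : P x * (P y - Q y) = P q ^ (N + 1) * (P G - Q G) := by
    have h1 : P (x * y) - Q (x * y) = P q ^ (N + 1) * (P G - Q G) := by
      rw [hxy, map_add, map_add, map_mul, map_mul, map_pow, map_pow, hC c hc, hC q hq]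
      ring
    rw [map_mul, map_mul, ← hx] at h1
    rw [← h1]; ring
  obtain ⟨u, hu⟩ := Ideal.mem_span_singleton'.mp (key G)
  have hd : P y - Q y = 0 :=
    eq_zero_of_mul_mem hlt ⟨u, by rw [hrel, ← hu]⟩ hξ
  ext a
  have := key a
  rw [hd, Ideal.span_singleton_eq_bot.mpr rfl, Ideal.mem_bot, sub_eq_zero] at this
  exact this

/-- **Simple zero.** A `P`-derivation killing the constants with `D x = 0` vanishes, under the same
hypothesis `v(P x) < (N+1) v(q)`. -/
theorem eq_zero_of_apply_eq_zero_of_lt {C : Subring O} {q x y c G : O} {N : ℕ} (hq : q ∈ C)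
    (h : NodeDec C q x y) (hc : c ∈ C) (hxy : x * y = c + q ^ (N + 1) * G)
    (P : O →+* A') (D : O →+ A') (hD : ∀ a b : O, D (a * b) = P a * D b + D a * P b)
    (hC : ∀ c ∈ C, D c = 0)
    (hPx : P x ∈ IsLocalRing.maximalIdeal A') (hPy : P y ∈ IsLocalRing.maximalIdeal A')
    (hPq : P q ∈ IsLocalRing.maximalIdeal A') (hx : D x = 0) (hξ : P x ≠ 0)
    (hlt : ∃ μ ∈ IsLocalRing.maximalIdeal A', P q ^ (N + 1) = P x * μ) (a : O) : D a = 0 := by
  have key : ∀ a : O, D a ∈ Ideal.span {D y} :=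
    node_derivation_mem_span hq h P P D hD hC hPx hPy hPq hx
  have hpow : ∀ n : ℕ, D (q ^ n) = 0 := fun n => hC _ (C.pow_mem hq n)
  have hrel : P x * D y = P q ^ (N + 1) * D G := by
    have h1 : D (x * y) = P q ^ (N + 1) * D G := by
      rw [hxy, map_add, hC c hc, zero_add, hD, hpow, zero_mul, add_zero, map_pow]
    rw [hD, hx, zero_mul, add_zero] at h1
    exact h1
  obtain ⟨u, hu⟩ := Ideal.mem_span_singleton'.mp (key G)
  have hd : D y = 0 := eq_zero_of_mul_mem hlt ⟨u, by rw [hrel, ← hu]⟩ hξ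
  have := key a
  rw [hd, Ideal.span_singleton_eq_bot.mpr rfl, Ideal.mem_bot] at this
  exact this

end Points

end Fermat.Agent.CA.H38
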