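/-
Local algebra for points of a two-dimensional local ring over a DVR with maximal ideal
`(q, z₁, …, z_r)`  (helper47, Mathlib only).

* `GenBy q z` : `O = A₁ + q O + ∑ zᵢ O`  (residue field of `O` is `A₁ / q`).
* `span_range_le_of_genBy` : a twisted derivation `δ : O → M` over a local base `A'`
  (`δ (a b) = P a • δ b + Q b • δ a`, `δ = 0` on `A₁`) is controlled by the `δ zᵢ`  (Nakayama).
* `sub_mem_span_of_genBy` : two points `P Q : O →ₐ[A₁] A'` differ by the ideal `(P zᵢ - Q zᵢ)`.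
* `eq_of_forall_apply_eq` : a point is determined by its coordinates.
* `exists_morse` : finite order Morse coordinates  `x_N y_N = c_N + q ^ (N+1) G_N`, algebraic in `O`.
* `eq_of_apply_eq_of_not_dvd` : the function `x_N - ξ` has at most one zero (single-zero lemma).
* `deriv_eq_zero_of_not_dvd` : … and that zero is simple.
* `morse_dichotomy` : a point is either separated by some `x_N` / `y_N`, or all its coordinates are
  `q`-adically approximated by elements of `A₁`.
-/
import Mathlib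

set_option autoImplicit false

namespace Fermat.Agent.CA.H47

open IsLocalRing

section Gen

variable {A₁ O : Type*} [CommRing A₁] [CommRing O] [Algebra A₁ O]

/-- `O = A₁ + q O + ∑ zᵢ O`. -/
def GenBy (q : A₁) {ι : Type*} [Fintype ι] (z : ι → O) : Prop :=
  ∀ b : O, ∃ (a : A₁) (c : O) (d : ι → O),
    b = algebraMap A₁ O a + algebraMap A₁ O q * c + ∑ i, z i * d i

/-- Changing the coordinates by multiples of `q` keeps `GenBy`. -/
theorem GenBy.of_sub {q : A₁} {ι : Type*} [Fintype ι] {z z' : ι → O} (h : GenBy q z)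
    (hz : ∀ i, ∃ u : O, z' i = z i + algebraMap A₁ O q * u) : GenBy q z' := by
  choose u hu using hz
  intro b
  obtain ⟨a, c, d, rfl⟩ := h b
  refine ⟨a, c - ∑ i, u i * d i, d, ?_⟩
  have : ∑ i, z' i * d i = ∑ i, z i * d i + algebraMap A₁ O q * ∑ i, u i * d i := by
    rw [Finset.mul_sum, ← Finset.sum_add_distrib]
    refine Finset.sum_congr rfl fun i _ => ?_
    rw [hu i]; ring
  rw [this]; ring

/-- Iterating: `O = A₁ + q ^ n O + ∑ zᵢ O`. -/
theorem GenBy.pow {q : A₁} {ι : Type*} [Fintype ι] {z : ι → O} (h : GenBy q z) (n : ℕ) :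
    ∀ b : O, ∃ (a : A₁) (c : O) (d : ι → O),
      b = algebraMap A₁ O a + algebraMap A₁ O q ^ n * c + ∑ i, z i * d i := by
  induction n with
  | zero =>
    intro b
    exact ⟨0, b, 0, by simp⟩
  | succ n ih =>
    intro b
    obtain ⟨a, c, d, rfl⟩ := ih b
    obtain ⟨a', c', d', rfl⟩ := h c
    refine ⟨a + q ^ n * a', c', fun i => d i + algebraMap A₁ O q ^ n * d' i, ?_⟩
    have : ∑ i, z i * (d i + algebraMap A₁ O q ^ n * d' i)
        = ∑ i, z i * d i + algebraMap A₁ O q ^ n * ∑ i, z i * d' i := by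
      rw [Finset.mul_sum, ← Finset.sum_add_distrib]
      exact Finset.sum_congr rfl fun i _ => by ring
    rw [this, map_add, map_mul, map_pow, pow_succ]; ring

end Gen

section Deriv

variable {A₁ O A' M : Type*} [CommRing A₁] [CommRing O] [Algebra A₁ O] [CommRing A']
  [Algebra A₁ A'] [AddCommGroup M] [Module A' M]

/-- **Nakayama for twisted derivations.** -/
theorem span_range_le_of_genBy [IsLocalRing A'] {ι : Type*} [Fintype ι] {q : A₁} {z : ι → O}
    (hgen : GenBy q z) (P Q : O →ₐ[A₁] A') (δ : O →+ M)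
    (hδmul : ∀ a b, δ (a * b) = P a • δ b + Q b • δ a)
    (hδalg : ∀ a : A₁, δ (algebraMap A₁ O a) = 0)
    (hq : algebraMap A₁ A' q ∈ maximalIdeal A')
    (hP : ∀ i, P (z i) ∈ maximalIdeal A')
    (hfg : (Submodule.span A' (Set.range δ)).FG) :
    Submodule.span A' (Set.range δ) ≤ Submodule.span A' (Set.range fun i => δ (z i)) := by
  refine Submodule.le_of_le_smul_of_le_jacobson_bot (I := maximalIdeal A') hfg
    (IsLocalRing.maximalIdeal_le_jacobson ⊥) ?_
  rw [Submodule.span_le]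
  rintro _ ⟨b, rfl⟩
  obtain ⟨a, c, d, rfl⟩ := hgen b
  have hmemΔ : ∀ x : O, δ x ∈ Submodule.span A' (Set.range δ) := fun x =>
    Submodule.subset_span ⟨x, rfl⟩
  have hsm : ∀ (r : A') (x : O), r ∈ maximalIdeal A' →
      r • δ x ∈ maximalIdeal A' • Submodule.span A' (Set.range δ) := fun r x hr =>
    Submodule.smul_mem_smul hr (hmemΔ x)
  simp only [map_add, map_sum, hδmul, hδalg, smul_zero, add_zero, zero_add, SetLike.mem_coe]
  have hPq : P (algebraMap A₁ O q) = algebraMap A₁ A' q := P.commutes q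
  refine Submodule.add_mem _ ?_ (Submodule.sum_mem _ fun i _ => Submodule.add_mem _ ?_ ?_)
  · rw [hPq]
    exact Submodule.mem_sup_right (hsm _ _ hq)
  · exact Submodule.mem_sup_right (hsm _ _ (hP i))
  · exact Submodule.mem_sup_left (Submodule.smul_mem _ _ (Submodule.subset_span ⟨i, rfl⟩))

/-- Two points differ by the ideal generated by the differences of their coordinates. -/
theorem sub_mem_span_of_genBy [IsLocalRing A'] [IsNoetherianRing A'] {ι : Type*} [Fintype ι]
    {q : A₁} {z : ι → O} (hgen : GenBy q z) (P Q : O →ₐ[A₁] A')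
    (hq : algebraMap A₁ A' q ∈ maximalIdeal A') (hP : ∀ i, P (z i) ∈ maximalIdeal A') (b : O) :
    P b - Q b ∈ Ideal.span (Set.range fun i => P (z i) - Q (z i)) := by
  let δ : O →+ A' := (P : O →+ A') - (Q : O →+ A')
  have hδ : ∀ x, δ x = P x - Q x := fun x => rfl
  have := span_range_le_of_genBy (M := A') hgen P Q δ
    (fun a b => by simp only [hδ, map_mul, smul_eq_mul]; ring)
    (fun a => by simp only [hδ, AlgHom.commutes, sub_self]) hq hP
    (IsNoetherian.noetherian _)
  exact this (Submodule.subset_span ⟨b, rfl⟩)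

/-- A point is determined by its coordinates. -/
theorem eq_of_forall_apply_eq [IsLocalRing A'] [IsNoetherianRing A'] {ι : Type*} [Fintype ι]
    {q : A₁} {z : ι → O} (hgen : GenBy q z) (P Q : O →ₐ[A₁] A')
    (hq : algebraMap A₁ A' q ∈ maximalIdeal A') (hP : ∀ i, P (z i) ∈ maximalIdeal A')
    (h : ∀ i, P (z i) = Q (z i)) : P = Q := by
  refine AlgHom.ext fun b => ?_
  have hb := sub_mem_span_of_genBy hgen P Q hq hP b
  have : (Set.range fun i => P (z i) - Q (z i)) ⊆ {0} := by
    rintro _ ⟨i, rfl⟩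
    simp [h i]
  have h0 : P b - Q b ∈ Ideal.span ({0} : Set A') := Ideal.span_mono this hb
  rw [Ideal.span_singleton_eq_bot.mpr rfl, Ideal.mem_bot, sub_eq_zero] at h0
  exact h0

end Deriv

section Morse

variable {A₁ O : Type*} [CommRing A₁] [CommRing O] [Algebra A₁ O]

/-- Morse data of order `N` for coordinates `x y` with `x y ∈ q O`:
`x_N ≡ x`, `y_N ≡ y` mod `q` and `x_N y_N = c + q ^ (N+1) G` with `c ∈ A₁`. -/
def IsMorse (q : A₁) (x y : O) (N : ℕ) (xN yN G : O) (c : A₁) : Prop :=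
  (∃ u : O, xN = x + algebraMap A₁ O q * u) ∧ (∃ v : O, yN = y + algebraMap A₁ O q * v) ∧
    xN * yN = algebraMap A₁ O c + algebraMap A₁ O q ^ (N + 1) * G

theorem IsMorse.genBy {q : A₁} {x y : O} {N : ℕ} {xN yN G : O} {c : A₁}
    (hM : IsMorse q x y N xN yN G c) (hgen : GenBy q ![x, y]) : GenBy q ![xN, yN] := by
  refine hgen.of_sub fun i => ?_
  fin_cases i
  · exact hM.1
  · exact hM.2.1

/-- **Finite order Morse lemma**, inside `O` (no completion). -/
theorem exists_morse {q : A₁} {x y : O} (hgen : GenBy q ![x, y])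
    (hxy : ∃ G, x * y = algebraMap A₁ O q * G) (N : ℕ) :
    ∃ (xN yN G : O) (c : A₁), IsMorse q x y N xN yN G c := by
  induction N with
  | zero =>
    obtain ⟨G, hG⟩ := hxy
    exact ⟨x, y, G, 0, ⟨0, by simp⟩, ⟨0, by simp⟩, by rw [hG]; simp⟩
  | succ N ih =>
    obtain ⟨xN, yN, G, c, hM⟩ := ih
    obtain ⟨a, r, d, hd⟩ := hM.genBy hgen G
    rw [Fin.sum_univ_two] at hd
    simp only [Matrix.cons_val_zero, Matrix.cons_val_one] at hd
    obtain ⟨⟨u, hu⟩, ⟨v, hv⟩, hmul⟩ := hM
    set Q := algebraMap A₁ O q with hQ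
    refine ⟨xN - Q ^ (N + 1) * d 1, yN - Q ^ (N + 1) * d 0, r + Q ^ N * (d 0 * d 1),
      c + q ^ (N + 1) * a, ⟨u - Q ^ N * d 1, ?_⟩, ⟨v - Q ^ N * d 0, ?_⟩, ?_⟩
    · rw [hu]; ring
    · rw [hv]; ring
    · have e1 : (xN - Q ^ (N + 1) * d 1) * (yN - Q ^ (N + 1) * d 0)
          = xN * yN - Q ^ (N + 1) * (xN * d 0 + yN * d 1)
            + Q ^ (N + 1 + 1) * (Q ^ N * (d 0 * d 1)) := by ring
      rw [e1, hmul, hd, map_add, map_mul, map_pow, ← hQ]
      ring

end Morse

section SingleZero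

variable {A₁ O A' : Type*} [CommRing A₁] [CommRing O] [Algebra A₁ O] [CommRing A']
  [Algebra A₁ A']

theorem IsMorse.apply_mem {q : A₁} {x y : O} {N : ℕ} {xN yN G : O} {c : A₁} [IsLocalRing A']
    (hM : IsMorse q x y N xN yN G c) (P : O →ₐ[A₁] A')
    (hq : algebraMap A₁ A' q ∈ maximalIdeal A') (hPx : P x ∈ maximalIdeal A')
    (hPy : P y ∈ maximalIdeal A') :
    ∀ i, P (![xN, yN] i) ∈ maximalIdeal A' := by
  obtain ⟨⟨u, hu⟩, ⟨v, hv⟩, -⟩ := hM
  intro i
  fin_cases i
  · show P xN ∈ maximalIdeal A'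
    rw [hu, map_add, map_mul, AlgHom.commutes]
    exact Ideal.add_mem _ hPx (Ideal.mul_mem_right _ _ hq)
  · show P yN ∈ maximalIdeal A'
    rw [hv, map_add, map_mul, AlgHom.commutes]
    exact Ideal.add_mem _ hPy (Ideal.mul_mem_right _ _ hq)

/-- **Single-zero lemma.** If `x_N (P)` is not divisible by `q ^ (N+1)` then `P` is the only point
with this `x_N`-coordinate. -/
theorem eq_of_apply_eq_of_not_dvd [IsDomain A'] [IsLocalRing A'] [IsNoetherianRing A']
    {q : A₁} {x y : O} {N : ℕ} {xN yN G : O} {c : A₁} (hgen : GenBy q ![x, y])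
    (hM : IsMorse q x y N xN yN G c) (P Q : O →ₐ[A₁] A')
    (hq : algebraMap A₁ A' q ∈ maximalIdeal A') (hPx : P x ∈ maximalIdeal A')
    (hPy : P y ∈ maximalIdeal A')
    (hndvd : ¬ algebraMap A₁ A' q ^ (N + 1) ∣ P xN) (h : P xN = Q xN) : P = Q := by
  have hgenN := hM.genBy hgen
  have hmem := hM.apply_mem P hq hPx hPy
  have hG := sub_mem_span_of_genBy hgenN P Q hq hmem G
  have hrange : (Set.range fun i => P (![xN, yN] i) - Q (![xN, yN] i))
      ⊆ {P yN - Q yN} ∪ {0} := by
    rintro _ ⟨i, rfl⟩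
    fin_cases i
    · right; simp [h]
    · left; simp
  have hG' : P G - Q G ∈ Ideal.span ({P yN - Q yN} : Set A') := by
    have := Ideal.span_mono hrange hG
    rwa [Ideal.span_union, Ideal.span_singleton_eq_bot.mpr rfl, sup_bot_eq] at this
  obtain ⟨a, ha⟩ := Ideal.mem_span_singleton'.mp hG'
  obtain ⟨-, -, hmul⟩ := hM
  have hPm := congrArg P hmul
  have hQm := congrArg Q hmul
  simp only [map_add, map_mul, map_pow, AlgHom.commutes] at hPm hQm
  have key : (P xN - algebraMap A₁ A' q ^ (N + 1) * a) * (P yN - Q yN) = 0 := by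
    have : P xN * (P yN - Q yN) = algebraMap A₁ A' q ^ (N + 1) * (P G - Q G) := by
      have hQm' : P xN * Q yN = algebraMap A₁ A' c + algebraMap A₁ A' q ^ (N + 1) * Q G := by
        rw [h]; exact hQm
      rw [mul_sub, hPm, hQm']; ring
    rw [sub_mul, this, ← ha]; ring
  rcases mul_eq_zero.mp key with h0 | h0
  · exact absurd ⟨a, by rw [sub_eq_zero] at h0; exact h0⟩ hndvd
  · refine eq_of_forall_apply_eq hgenN P Q hq hmem fun i => ?_
    fin_cases i
    · exact h
    · exact sub_eq_zero.mp h0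

/-- **Simple-zero lemma.** A derivation at `P` killing `x_N` vanishes, if `x_N (P)` is not
divisible by `q ^ (N+1)`. -/
theorem deriv_eq_zero_of_not_dvd {M : Type*} [AddCommGroup M] [Module A' M]
    [IsDomain A'] [IsLocalRing A'] [NoZeroSMulDivisors A' M]
    {q : A₁} {x y : O} {N : ℕ} {xN yN G : O} {c : A₁} (hgen : GenBy q ![x, y])
    (hM : IsMorse q x y N xN yN G c) (P : O →ₐ[A₁] A') (D : O →+ M)
    (hDmul : ∀ a b, D (a * b) = P a • D b + P b • D a)
    (hDalg : ∀ a : A₁, D (algebraMap A₁ O a) = 0)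
    (hfg : (Submodule.span A' (Set.range D)).FG)
    (hq : algebraMap A₁ A' q ∈ maximalIdeal A') (hPx : P x ∈ maximalIdeal A')
    (hPy : P y ∈ maximalIdeal A')
    (hndvd : ¬ algebraMap A₁ A' q ^ (N + 1) ∣ P xN) (h : D xN = 0) (b : O) : D b = 0 := by
  have hgenN := hM.genBy hgen
  have hmem := hM.apply_mem P hq hPx hPy
  have hle := span_range_le_of_genBy hgenN P P D hDmul hDalg hq hmem hfg
  have hrange : (Set.range fun i => D (![xN, yN] i)) ⊆ {D yN} ∪ {0} := by
    rintro _ ⟨i, rfl⟩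
    fin_cases i
    · right; simp [h]
    · left; simp
  have hspan : Submodule.span A' (Set.range D) ≤ Submodule.span A' {D yN} := by
    refine hle.trans ((Submodule.span_mono hrange).trans ?_)
    rw [Submodule.span_union, Submodule.span_singleton_eq_bot.mpr rfl, sup_bot_eq]
  obtain ⟨a, ha⟩ := Submodule.mem_span_singleton.mp (hspan (Submodule.subset_span ⟨G, rfl⟩))
  obtain ⟨-, -, hmul⟩ := hM
  have hDm := congrArg D hmul
  have hpow : algebraMap A₁ O q ^ (N + 1) = algebraMap A₁ O (q ^ (N + 1)) := by rw [map_pow]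
  rw [hDmul, h, smul_zero, add_zero, map_add, hDalg, zero_add, hpow, hDmul, hDalg, smul_zero,
    add_zero, AlgHom.commutes, map_pow, ← ha, smul_smul] at hDm
  have key : (P xN - algebraMap A₁ A' q ^ (N + 1) * a) • D yN = 0 := by
    rw [sub_smul, hDm, sub_self]
  rcases smul_eq_zero.mp key with h0 | h0
  · exact absurd ⟨a, by rw [sub_eq_zero] at h0; exact h0⟩ hndvd
  · have : Submodule.span A' (Set.range D) ≤ ⊥ := by
      refine hspan.trans ?_
      rw [h0, Submodule.span_singleton_eq_bot.mpr rfl]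
    exact (Submodule.mem_bot A').mp (this (Submodule.subset_span ⟨b, rfl⟩))

/-- **Dichotomy.** Either some finite order Morse coordinate separates `P`, or every coordinate of
`P` is `q`-adically approximated by elements of `A₁` (so `P` is fixed by every automorphism of
`A'` over `A₁` when `A'` is `q`-adically separated). -/
theorem morse_dichotomy {q : A₁} {x y : O} (hgen : GenBy q ![x, y])
    (hxy : ∃ G, x * y = algebraMap A₁ O q * G) (P : O →ₐ[A₁] A') :
    (∃ (N : ℕ) (xN yN G : O) (c : A₁), IsMorse q x y N xN yN G c ∧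
      (¬ algebraMap A₁ A' q ^ (N + 1) ∣ P xN ∨ ¬ algebraMap A₁ A' q ^ (N + 1) ∣ P yN)) ∨
    ∀ (N : ℕ) (b : O), ∃ a : A₁, algebraMap A₁ A' q ^ (N + 1) ∣ P b - algebraMap A₁ A' a := by
  by_cases hex : ∃ (N : ℕ) (xN yN G : O) (c : A₁), IsMorse q x y N xN yN G c ∧
      (¬ algebraMap A₁ A' q ^ (N + 1) ∣ P xN ∨ ¬ algebraMap A₁ A' q ^ (N + 1) ∣ P yN)
  · exact Or.inl hex
  · right
    intro N b
    obtain ⟨xN, yN, G, c, hM⟩ := exists_morse hgen hxy N
    have hdvd : algebraMap A₁ A' q ^ (N + 1) ∣ P xN ∧ algebraMap A₁ A' q ^ (N + 1) ∣ P yN := by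
      by_contra hcon
      exact hex ⟨N, xN, yN, G, c, hM, not_and_or.mp hcon⟩
    obtain ⟨a, c', d, hb⟩ := (hM.genBy hgen).pow (N + 1) b
    rw [Fin.sum_univ_two] at hb
    simp only [Matrix.cons_val_zero, Matrix.cons_val_one] at hb
    refine ⟨a, ?_⟩
    have : P b - algebraMap A₁ A' a
        = algebraMap A₁ A' q ^ (N + 1) * P c' + (P xN * P (d 0) + P yN * P (d 1)) := by
      rw [hb]; simp only [map_add, map_mul, map_pow, AlgHom.commutes]; ring
    rw [this]
    exact dvd_add (Dvd.intro _ rfl)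
      (dvd_add (Dvd.dvd.mul_right hdvd.1 _) (Dvd.dvd.mul_right hdvd.2 _))

end SingleZero

end Fermat.Agent.CA.H47
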