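/-
Served-or-stable dichotomy for the points of a node (helper47; Mathlib + the two Morse files).

Setting: `A₁ → A₂` (`A₂` a local noetherian domain, e.g. the DVR `A''`), `O` the local ring of the
`A₁`-chart at a closed point `n` of the special fibre, with the node decomposition
`O = A₁ + q O + x O + y O`, `x y ∈ q O` (output of L1).

* `genBy_of_nodeDec` : bridge from `CA.H38.NodeDec` to `CA.H47.GenBy`.
* `exists_morseTower` : a *compatible* tower of finite order Morse coordinates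
  `x_N y_N = c_N + q^(N+1) G_N`, `x_{N+1} ≡ x_N`, `y_{N+1} ≡ y_N mod q^(N+1)`.
* `IsMorseTower.served_mono` : a point served at level `N` is served at every level `≥ N`.
* `IsMorseTower.served_or_approx` : a point is served at some level or all its coordinates are
  `q`-adically approximated by `A₁`.
* `apply_eq_of_approx` + `apply_map_eq_of_fixed` + `stable_of_approx` : in the second case the point
  commutes with any automorphism `sR` of `R = B[A₂]` which is the identity on `B` and `σ` on `A₂`;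
  in particular its kernel is `sR`-stable.
* `exists_eq_mul_of_not_dvd` : in a valuation ring, `¬ a ∣ b → b ∣ a` with non-unit quotient.
-/
import Mathlib
import Fermat.Agent.CA.H47_MorsePoints
import Fermat.Agent.CA.H38_MorseStep

set_option autoImplicit false

namespace Fermat.Agent.CA.H47

open IsLocalRing

section Bridge

variable {A₁ O : Type*} [CommRing A₁] [CommRing O] [Algebra A₁ O]

/-- `CA.H38.NodeDec` over the image of `A₁` is `GenBy`. -/
theorem genBy_of_nodeDec {q : A₁} {x y : O}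
    (h : H38.NodeDec (algebraMap A₁ O).range (algebraMap A₁ O q) x y) : GenBy q ![x, y] := by
  intro b
  obtain ⟨c, ⟨a, rfl⟩, a', b', r, rfl⟩ := h b
  refine ⟨a, r, ![a', b'], ?_⟩
  rw [Fin.sum_univ_two]
  simp only [Matrix.cons_val_zero, Matrix.cons_val_one]
  ring

theorem nodeDec_of_genBy {q : A₁} {x y : O} (h : GenBy q ![x, y]) :
    H38.NodeDec (algebraMap A₁ O).range (algebraMap A₁ O q) x y := by
  intro b
  obtain ⟨a, c, d, rfl⟩ := h b
  refine ⟨algebraMap A₁ O a, ⟨a, rfl⟩, d 0, d 1, c, ?_⟩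
  rw [Fin.sum_univ_two]
  simp only [Matrix.cons_val_zero, Matrix.cons_val_one]
  ring

end Bridge

section Tower

variable {A₁ O : Type*} [CommRing A₁] [CommRing O] [Algebra A₁ O]

/-- One Morse step, remembering the congruence with the previous coordinates. -/
theorem morse_succ {q : A₁} {x y : O} (hgen : GenBy q ![x, y]) {N : ℕ} {xN yN G : O} {c : A₁}
    (hM : IsMorse q x y N xN yN G c) :
    ∃ (xN' yN' G' : O) (c' : A₁), IsMorse q x y (N + 1) xN' yN' G' c' ∧
      (∃ u : O, xN' = xN + algebraMap A₁ O q ^ (N + 1) * u) ∧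
      (∃ v : O, yN' = yN + algebraMap A₁ O q ^ (N + 1) * v) := by
  obtain ⟨a, r, d, hd⟩ := hM.genBy hgen G
  rw [Fin.sum_univ_two] at hd
  simp only [Matrix.cons_val_zero, Matrix.cons_val_one] at hd
  obtain ⟨⟨u, hu⟩, ⟨v, hv⟩, hmul⟩ := hM
  set Q := algebraMap A₁ O q with hQ
  refine ⟨xN - Q ^ (N + 1) * d 1, yN - Q ^ (N + 1) * d 0, r + Q ^ N * (d 0 * d 1),
    c + q ^ (N + 1) * a, ⟨⟨u - Q ^ N * d 1, ?_⟩, ⟨v - Q ^ N * d 0, ?_⟩, ?_⟩,
    ⟨-d 1, by ring⟩, ⟨-d 0, by ring⟩⟩
  · rw [hu]; ring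
  · rw [hv]; ring
  · have e1 : (xN - Q ^ (N + 1) * d 1) * (yN - Q ^ (N + 1) * d 0)
        = xN * yN - Q ^ (N + 1) * (xN * d 0 + yN * d 1)
          + Q ^ (N + 1 + 1) * (Q ^ N * (d 0 * d 1)) := by ring
    rw [e1, hmul, hd, map_add, map_mul, map_pow, ← hQ]
    ring

/-- A compatible tower of finite order Morse coordinates. -/
def IsMorseTower (q : A₁) (x y : O) (xs ys Gs : ℕ → O) (cs : ℕ → A₁) : Prop :=
  ∀ N, IsMorse q x y N (xs N) (ys N) (Gs N) (cs N) ∧
    (∃ u : O, xs (N + 1) = xs N + algebraMap A₁ O q ^ (N + 1) * u) ∧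
    (∃ v : O, ys (N + 1) = ys N + algebraMap A₁ O q ^ (N + 1) * v)

theorem exists_morseTower {q : A₁} {x y : O} (hgen : GenBy q ![x, y])
    (hxy : ∃ G, x * y = algebraMap A₁ O q * G) :
    ∃ (xs ys Gs : ℕ → O) (cs : ℕ → A₁), IsMorseTower q x y xs ys Gs cs := by
  classical
  -- the state at level `N`
  let T : ℕ → Type _ := fun N =>
    {t : O × O × O × A₁ // IsMorse q x y N t.1 t.2.1 t.2.2.1 t.2.2.2}
  have hstep : ∀ (N : ℕ) (t : T N), ∃ t' : T (N + 1),
      (∃ u : O, t'.1.1 = t.1.1 + algebraMap A₁ O q ^ (N + 1) * u) ∧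
      (∃ v : O, t'.1.2.1 = t.1.2.1 + algebraMap A₁ O q ^ (N + 1) * v) := by
    intro N t
    obtain ⟨xN', yN', G', c', hM', hu, hv⟩ := morse_succ hgen t.2
    exact ⟨⟨(xN', yN', G', c'), hM'⟩, hu, hv⟩
  choose next hnext using hstep
  obtain ⟨x0, y0, G0, c0, hM0⟩ := exists_morse hgen hxy 0
  let seq : (N : ℕ) → T N := fun N =>
    Nat.rec (motive := T) ⟨(x0, y0, G0, c0), hM0⟩ (fun N t => next N t) N
  refine ⟨fun N => (seq N).1.1, fun N => (seq N).1.2.1, fun N => (seq N).1.2.2.1,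
    fun N => (seq N).1.2.2.2, fun N => ⟨(seq N).2, ?_, ?_⟩⟩
  · exact (hnext N (seq N)).1
  · exact (hnext N (seq N)).2

end Tower

section Served

variable {A₁ O A' : Type*} [CommRing A₁] [CommRing O] [Algebra A₁ O] [CommRing A']
  [Algebra A₁ A']

/-- `P` is served at level `N` by the tower: one of the two Morse coordinates takes a value at `P`
which is not divisible by `q ^ (N+1)`. -/
def Served (q : A₁) (xs ys : ℕ → O) (P : O →ₐ[A₁] A') (N : ℕ) : Prop :=
  ¬ algebraMap A₁ A' q ^ (N + 1) ∣ P (xs N) ∨ ¬ algebraMap A₁ A' q ^ (N + 1) ∣ P (ys N)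

theorem IsMorseTower.served_succ {q : A₁} {x y : O} {xs ys Gs : ℕ → O} {cs : ℕ → A₁}
    (hT : IsMorseTower q x y xs ys Gs cs) (P : O →ₐ[A₁] A') {N : ℕ}
    (h : Served q xs ys P N) : Served q xs ys P (N + 1) := by
  obtain ⟨-, ⟨u, hu⟩, ⟨v, hv⟩⟩ := hT N
  have key : ∀ (a b w : O), b = a + algebraMap A₁ O q ^ (N + 1) * w →
      ¬ algebraMap A₁ A' q ^ (N + 1) ∣ P a → ¬ algebraMap A₁ A' q ^ (N + 1 + 1) ∣ P b := by
    intro a b w hb hna hdvd
    apply hna
    have h1 : algebraMap A₁ A' q ^ (N + 1) ∣ P b :=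
      dvd_trans (pow_dvd_pow _ (Nat.le_succ _)) hdvd
    have h2 : P a = P b - algebraMap A₁ A' q ^ (N + 1) * P w := by
      rw [hb]; simp only [map_add, map_mul, map_pow, AlgHom.commutes]; ring
    rw [h2]
    exact dvd_sub h1 (Dvd.intro _ rfl)
  rcases h with h | h
  · exact Or.inl (key _ _ u hu h)
  · exact Or.inr (key _ _ v hv h)

theorem IsMorseTower.served_mono {q : A₁} {x y : O} {xs ys Gs : ℕ → O} {cs : ℕ → A₁}
    (hT : IsMorseTower q x y xs ys Gs cs) (P : O →ₐ[A₁] A') {N N' : ℕ} (hNN' : N ≤ N')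
    (h : Served q xs ys P N) : Served q xs ys P N' := by
  induction N', hNN' using Nat.le_induction with
  | base => exact h
  | succ M _ ih => exact hT.served_succ P ih

/-- **Dichotomy along a tower.** -/
theorem IsMorseTower.served_or_approx {q : A₁} {x y : O} {xs ys Gs : ℕ → O} {cs : ℕ → A₁}
    (hT : IsMorseTower q x y xs ys Gs cs) (hgen : GenBy q ![x, y]) (P : O →ₐ[A₁] A') :
    (∃ N, Served q xs ys P N) ∨
      ∀ (N : ℕ) (b : O), ∃ a : A₁, algebraMap A₁ A' q ^ (N + 1) ∣ P b - algebraMap A₁ A' a := by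
  by_cases hex : ∃ N, Served q xs ys P N
  · exact Or.inl hex
  · right
    intro N b
    have hM := (hT N).1
    have hdvd : algebraMap A₁ A' q ^ (N + 1) ∣ P (xs N) ∧
        algebraMap A₁ A' q ^ (N + 1) ∣ P (ys N) := by
      by_contra hcon
      exact hex ⟨N, not_and_or.mp hcon⟩
    obtain ⟨a, c', d, hb⟩ := (hM.genBy hgen).pow (N + 1) b
    rw [Fin.sum_univ_two] at hb
    simp only [Matrix.cons_val_zero, Matrix.cons_val_one] at hb
    refine ⟨a, ?_⟩
    have : P b - algebraMap A₁ A' a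
        = algebraMap A₁ A' q ^ (N + 1) * P c' + (P (xs N) * P (d 0) + P (ys N) * P (d 1)) := by
      rw [hb]; simp only [map_add, map_mul, map_pow, AlgHom.commutes]; ring
    rw [this]
    exact dvd_add (Dvd.intro _ rfl)
      (dvd_add (Dvd.dvd.mul_right hdvd.1 _) (Dvd.dvd.mul_right hdvd.2 _))

/-- A common level serving finitely many served points. -/
theorem IsMorseTower.exists_common_level {q : A₁} {x y : O} {xs ys Gs : ℕ → O} {cs : ℕ → A₁}
    (hT : IsMorseTower q x y xs ys Gs cs) {ι : Type*} (S : Finset ι) (P : ι → O →ₐ[A₁] A')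
    (h : ∀ j ∈ S, ∃ N, Served q xs ys (P j) N) : ∃ N, ∀ j ∈ S, Served q xs ys (P j) N := by
  classical
  induction S using Finset.induction_on with
  | empty => exact ⟨0, fun j hj => absurd hj (Finset.notMem_empty j)⟩
  | insert a S ha ih =>
    obtain ⟨N₁, hN₁⟩ := ih fun j hj => h j (Finset.mem_insert_of_mem hj)
    obtain ⟨N₂, hN₂⟩ := h a (Finset.mem_insert_self a S)
    refine ⟨max N₁ N₂, fun j hj => ?_⟩
    rcases Finset.mem_insert.mp hj with rfl | hj
    · exact hT.served_mono _ (le_max_right _ _) hN₂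
    · exact hT.served_mono _ (le_max_left _ _) (hN₁ j hj)

end Served

section Stable

variable {A₁ A₂ B R : Type*} [CommRing A₁] [CommRing A₂] [IsLocalRing A₂] [IsNoetherianRing A₂]
  [Algebra A₁ A₂] [CommRing B] [CommRing R] [Algebra A₂ R] [Algebra B R]

/-- An element of `A₂` which is `q`-adically approximated by `A₁` is fixed by every automorphism
of `A₂` over `A₁`. -/
theorem apply_eq_of_approx (σ : A₂ ≃+* A₂)
    (hσ : ∀ a : A₁, σ (algebraMap A₁ A₂ a) = algebraMap A₁ A₂ a) {q : A₁}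
    (hq : algebraMap A₁ A₂ q ∈ maximalIdeal A₂) {z : A₂}
    (h : ∀ N : ℕ, ∃ a : A₁, algebraMap A₁ A₂ q ^ (N + 1) ∣ z - algebraMap A₁ A₂ a) :
    σ z = z := by
  have hmem : ∀ N : ℕ, σ z - z ∈ maximalIdeal A₂ ^ (N + 1) := by
    intro N
    obtain ⟨a, t, ht⟩ := h N
    have h1 : σ z - algebraMap A₁ A₂ a = algebraMap A₁ A₂ q ^ (N + 1) * σ t := by
      have := congrArg σ ht
      rwa [map_sub, hσ, map_mul, map_pow, hσ] at this
    have h2 : σ z - z = algebraMap A₁ A₂ q ^ (N + 1) * (σ t - t) := by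
      rw [mul_sub, ← h1, ← ht]; ring
    rw [h2]
    exact Ideal.mul_mem_right _ _ (Ideal.pow_mem_pow hq _)
  have hbot : (⨅ i, maximalIdeal A₂ ^ i) = ⊥ :=
    Ideal.iInf_pow_eq_bot_of_isLocalRing _ (IsLocalRing.maximalIdeal.isMaximal A₂).ne_top
  have : σ z - z ∈ (⨅ i, maximalIdeal A₂ ^ i) := by
    rw [Ideal.mem_iInf]
    intro i
    cases i with
    | zero => simp
    | succ i => exact hmem i
  rw [hbot, Ideal.mem_bot, sub_eq_zero] at this
  exact this

omit [IsLocalRing A₂] [IsNoetherianRing A₂] in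
/-- If the values of the point `P` on `B` are fixed by `σ`, then `P ∘ sR = σ ∘ P` on `R = B[A₂]`. -/
theorem apply_map_eq_of_fixed (σ : A₂ ≃+* A₂) (sR : R ≃+* R)
    (hsB : ∀ b : B, sR (algebraMap B R b) = algebraMap B R b)
    (hsA : ∀ a : A₂, sR (algebraMap A₂ R a) = algebraMap A₂ R (σ a))
    (hgen : Algebra.adjoin B (Set.range (algebraMap A₂ R)) = ⊤)
    (P : R →ₐ[A₂] A₂) (hfix : ∀ b : B, σ (P (algebraMap B R b)) = P (algebraMap B R b))
    (r : R) : P (sR r) = σ (P r) := by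
  have hr : r ∈ Algebra.adjoin B (Set.range (algebraMap A₂ R)) := by rw [hgen]; trivial
  induction hr using Algebra.adjoin_induction with
  | mem x hx =>
    obtain ⟨a, rfl⟩ := hx
    rw [hsA, AlgHom.commutes, AlgHom.commutes]
    rfl
  | algebraMap b => rw [hsB, hfix]
  | add x y _ _ hx hy => rw [map_add, map_add, hx, hy, map_add, map_add]
  | mul x y _ _ hx hy => rw [map_mul, map_mul, hx, hy, map_mul, map_mul]

/-- **Stable case.** A point all of whose `B`-coordinates are `q`-adically approximated by `A₁`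
has an `sR`-stable kernel. -/
theorem stable_of_approx (σ : A₂ ≃+* A₂)
    (hσ : ∀ a : A₁, σ (algebraMap A₁ A₂ a) = algebraMap A₁ A₂ a) {q : A₁}
    (hq : algebraMap A₁ A₂ q ∈ maximalIdeal A₂) (sR : R ≃+* R)
    (hsB : ∀ b : B, sR (algebraMap B R b) = algebraMap B R b)
    (hsA : ∀ a : A₂, sR (algebraMap A₂ R a) = algebraMap A₂ R (σ a))
    (hgen : Algebra.adjoin B (Set.range (algebraMap A₂ R)) = ⊤)
    (P : R →ₐ[A₂] A₂)
    (happrox : ∀ (N : ℕ) (b : B), ∃ a : A₁,
      algebraMap A₁ A₂ q ^ (N + 1) ∣ P (algebraMap B R b) - algebraMap A₁ A₂ a) :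
    (∀ r : R, P (sR r) = σ (P r)) ∧
      ∀ r : R, sR r ∈ RingHom.ker (P : R →+* A₂) ↔ r ∈ RingHom.ker (P : R →+* A₂) := by
  have hfix : ∀ b : B, σ (P (algebraMap B R b)) = P (algebraMap B R b) := fun b =>
    apply_eq_of_approx σ hσ hq fun N => happrox N b
  have hcomm := apply_map_eq_of_fixed σ sR hsB hsA hgen P hfix
  refine ⟨hcomm, fun r => ?_⟩
  rw [RingHom.mem_ker, RingHom.mem_ker]
  show P (sR r) = 0 ↔ P r = 0
  rw [hcomm r]
  exact map_eq_zero_iff σ σ.injective

end Stable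

section Combined

variable {A₁ A₂ B O R : Type*} [CommRing A₁] [CommRing A₂] [IsLocalRing A₂] [IsNoetherianRing A₂]
  [Algebra A₁ A₂] [CommRing B] [CommRing O] [Algebra A₁ O] [Algebra B O] [CommRing R]
  [Algebra A₂ R] [Algebra B R]

/-- **Served or stable.** `O` the local ring of the `A₁`-chart `B` at a node with Morse tower
`(xs, ys)`, `R = B[A₂]` the `A₂`-chart with the automorphism `sR` (`id` on `B`, `σ` on `A₂`),
`P` a point of `R` and `PO` its extension to `O`.  Either `P` is served at some level of the tower,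
or `P ∘ sR = σ ∘ P` and `ker P` is `sR`-stable. -/
theorem served_or_stable {q : A₁} {x y : O} {xs ys Gs : ℕ → O} {cs : ℕ → A₁}
    (hT : IsMorseTower q x y xs ys Gs cs) (hgen : GenBy q ![x, y])
    (σ : A₂ ≃+* A₂) (hσ : ∀ a : A₁, σ (algebraMap A₁ A₂ a) = algebraMap A₁ A₂ a)
    (hq : algebraMap A₁ A₂ q ∈ maximalIdeal A₂) (sR : R ≃+* R)
    (hsB : ∀ b : B, sR (algebraMap B R b) = algebraMap B R b)
    (hsA : ∀ a : A₂, sR (algebraMap A₂ R a) = algebraMap A₂ R (σ a))
    (hgenR : Algebra.adjoin B (Set.range (algebraMap A₂ R)) = ⊤)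
    (P : R →ₐ[A₂] A₂) (PO : O →ₐ[A₁] A₂)
    (hPO : ∀ b : B, PO (algebraMap B O b) = P (algebraMap B R b)) :
    (∃ N, Served q xs ys PO N) ∨
      ((∀ r : R, P (sR r) = σ (P r)) ∧
        ∀ r : R, sR r ∈ RingHom.ker (P : R →+* A₂) ↔ r ∈ RingHom.ker (P : R →+* A₂)) := by
  rcases hT.served_or_approx hgen PO with h | h
  · exact Or.inl h
  · right
    refine stable_of_approx σ hσ hq sR hsB hsA hgenR P fun N b => ?_
    obtain ⟨a, ha⟩ := h N (algebraMap B O b)
    exact ⟨a, by rwa [hPO] at ha⟩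

end Combined

section ValuationRing

variable {A : Type*} [CommRing A] [IsDomain A] [ValuationRing A]

/-- In a valuation ring, `¬ a ∣ b` gives `a = b * δ` with `δ` a non-unit: this turns
`¬ q ^ (N+1) ∣ β` into `q ^ (N+1) = β * δ`, `δ ∈ 𝔪`. -/
theorem exists_eq_mul_of_not_dvd {a b : A} (h : ¬ a ∣ b) : ∃ δ : A, ¬ IsUnit δ ∧ a = b * δ := by
  rcases ValuationRing.dvd_total a b with hab | ⟨δ, hδ⟩
  · exact absurd hab h
  · refine ⟨δ, fun hu => h ?_, hδ⟩
    obtain ⟨u, rfl⟩ := hu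
    exact ⟨↑u⁻¹, by rw [hδ, mul_assoc, Units.mul_inv, mul_one]⟩

end ValuationRing

end Fermat.Agent.CA.H47
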