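/-
helper18 — generic (Mathlib + helper47's Morse files): the NEVER-SERVED point of a node is unique.

Setting of `CA.H47_ServedOrStable`: `O` the local ring of the `A₁`-chart at a node, with
`O = A₁ + q O + x O + y O` (`GenBy q ![x, y]`) and ONE fixed compatible tower of finite order Morse
coordinates `x_N y_N = c_N + q^(N+1) G_N` (`IsMorseTower`).  A point `P : O →ₐ[A₁] A'` is *never
served* if `q^(N+1) ∣ P x_N` and `q^(N+1) ∣ P y_N` for every `N`.

* `exists_approx_uniform` : the `q`-adic approximants of `P b` by elements of `A₁`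
  can be chosen INDEPENDENTLY of the never-served point `P` (and of the target ring `A'`);
* `eq_of_neverServed` : two never-served points with values in a `q`-adically
  separated ring coincide;
* `comp_eq_of_neverServed` : never-served points with values in different rings
  `A' → A''` coincide after composition (so all never-served points at one node define the SAME
  point with values in the valuation ring of `Qbar`);
* `neverServed_comp` : never-servedness is preserved by enlarging the ring of values.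

(For S35 row G2: the set `Esc` of escaping points has at most one element per node.)
-/
import Mathlib
import Fermat.Agent.CA.H47_ServedOrStable

set_option autoImplicit false

namespace Fermat.Agent.CA.H18

open Fermat.Agent.CA.H47

universe u v w

variable {A₁ : Type u} {O : Type v} [CommRing A₁] [CommRing O] [Algebra A₁ O]

/-- `P` is never served by the tower. -/
def NeverServed {A' : Type*} [CommRing A'] [Algebra A₁ A'] (q : A₁) (xs ys : ℕ → O)
    (P : O →ₐ[A₁] A') : Prop :=
  ∀ N, ¬ Served q xs ys P N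

theorem NeverServed.dvd {A' : Type*} [CommRing A'] [Algebra A₁ A'] {q : A₁} {xs ys : ℕ → O}
    {P : O →ₐ[A₁] A'} (h : NeverServed q xs ys P) (N : ℕ) :
    algebraMap A₁ A' q ^ (N + 1) ∣ P (xs N) ∧ algebraMap A₁ A' q ^ (N + 1) ∣ P (ys N) := by
  by_contra hcon
  exact h N (not_and_or.mp hcon)

theorem neverServed_iff {A' : Type*} [CommRing A'] [Algebra A₁ A'] {q : A₁} {xs ys : ℕ → O}
    {P : O →ₐ[A₁] A'} :
    NeverServed q xs ys P ↔ ∀ N, algebraMap A₁ A' q ^ (N + 1) ∣ P (xs N) ∧
      algebraMap A₁ A' q ^ (N + 1) ∣ P (ys N) := by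
  constructor
  · intro h N
    exact h.dvd N
  · intro h N hs
    rcases hs with hs | hs
    · exact hs (h N).1
    · exact hs (h N).2

/-- Never-servedness is preserved by enlarging the ring of values. -/
theorem neverServed_comp {A' A'' : Type*} [CommRing A'] [Algebra A₁ A'] [CommRing A'']
    [Algebra A₁ A''] {q : A₁} {xs ys : ℕ → O} {P : O →ₐ[A₁] A'} (j : A' →ₐ[A₁] A'')
    (h : NeverServed q xs ys P) : NeverServed q xs ys (j.comp P) := by
  rw [neverServed_iff]
  intro N
  obtain ⟨⟨a, ha⟩, ⟨b, hb⟩⟩ := h.dvd N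
  constructor
  · refine ⟨j a, ?_⟩
    rw [AlgHom.comp_apply, ha, map_mul, map_pow, AlgHom.commutes]
  · refine ⟨j b, ?_⟩
    rw [AlgHom.comp_apply, hb, map_mul, map_pow, AlgHom.commutes]

/-- **Uniform approximation.** The approximant `a` of `P b` modulo `q^(N+1)` depends only on
`(N, b)`, not on the point `P` which is not served at level `N`, nor on its ring of values. -/
theorem exists_approx_uniform
    {q : A₁} {x y : O} {xs ys Gs : ℕ → O} {cs : ℕ → A₁}
    (hT : IsMorseTower q x y xs ys Gs cs) (hgen : GenBy q ![x, y]) (N : ℕ) (b : O) :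
    ∃ a : A₁, ∀ (A' : Type w) [CommRing A'] [Algebra A₁ A'] (P : O →ₐ[A₁] A'),
      ¬ Served q xs ys P N → algebraMap A₁ A' q ^ (N + 1) ∣ P b - algebraMap A₁ A' a := by
  have hM := (hT N).1
  obtain ⟨a, c', d, hb⟩ := (hM.genBy hgen).pow (N + 1) b
  rw [Fin.sum_univ_two] at hb
  simp only [Matrix.cons_val_zero, Matrix.cons_val_one] at hb
  refine ⟨a, fun A' _ _ P hP => ?_⟩
  have hdvd : algebraMap A₁ A' q ^ (N + 1) ∣ P (xs N) ∧
      algebraMap A₁ A' q ^ (N + 1) ∣ P (ys N) := by
    by_contra hcon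
    exact hP (not_and_or.mp hcon)
  have : P b - algebraMap A₁ A' a
      = algebraMap A₁ A' q ^ (N + 1) * P c' + (P (xs N) * P (d 0) + P (ys N) * P (d 1)) := by
    rw [hb]; simp only [map_add, map_mul, map_pow, AlgHom.commutes]; ring
  rw [this]
  exact dvd_add (Dvd.intro _ rfl)
    (dvd_add (Dvd.dvd.mul_right hdvd.1 _) (Dvd.dvd.mul_right hdvd.2 _))

/-- Two points not served at level `N` agree modulo `q^(N+1)`. -/
theorem dvd_sub_of_not_served
    {q : A₁} {x y : O} {xs ys Gs : ℕ → O} {cs : ℕ → A₁}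
    (hT : IsMorseTower q x y xs ys Gs cs) (hgen : GenBy q ![x, y]) {A' : Type w} [CommRing A']
    [Algebra A₁ A'] (P P' : O →ₐ[A₁] A') (N : ℕ) (hP : ¬ Served q xs ys P N)
    (hP' : ¬ Served q xs ys P' N) (b : O) : algebraMap A₁ A' q ^ (N + 1) ∣ P b - P' b := by
  obtain ⟨a, ha⟩ := exists_approx_uniform.{u, v, w} hT hgen N b
  have h1 := ha A' P hP
  have h2 := ha A' P' hP'
  have : P b - P' b = (P b - algebraMap A₁ A' a) - (P' b - algebraMap A₁ A' a) := by ring
  rw [this]
  exact dvd_sub h1 h2

/-- **Uniqueness of the never-served point** (values in a `q`-adically separated ring). -/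
theorem eq_of_neverServed
    {q : A₁} {x y : O} {xs ys Gs : ℕ → O} {cs : ℕ → A₁}
    (hT : IsMorseTower q x y xs ys Gs cs) (hgen : GenBy q ![x, y]) {A' : Type w} [CommRing A']
    [Algebra A₁ A']
    (hsep : ∀ z : A', (∀ N : ℕ, algebraMap A₁ A' q ^ (N + 1) ∣ z) → z = 0)
    (P P' : O →ₐ[A₁] A') (hP : NeverServed q xs ys P) (hP' : NeverServed q xs ys P') :
    P = P' := by
  refine AlgHom.ext fun b => ?_
  exact sub_eq_zero.mp
    (hsep _ fun N => dvd_sub_of_not_served hT hgen P P' N (hP N) (hP' N) b)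

/-- Never-served points with values in different rings coincide in a common separated
overring. -/
theorem comp_eq_of_neverServed
    {q : A₁} {x y : O} {xs ys Gs : ℕ → O} {cs : ℕ → A₁}
    (hT : IsMorseTower q x y xs ys Gs cs) (hgen : GenBy q ![x, y])
    {A' A'' : Type*} [CommRing A'] [Algebra A₁ A'] [CommRing A''] [Algebra A₁ A'']
    {A : Type w} [CommRing A] [Algebra A₁ A]
    (hsep : ∀ z : A, (∀ N : ℕ, algebraMap A₁ A q ^ (N + 1) ∣ z) → z = 0)
    (j' : A' →ₐ[A₁] A) (j'' : A'' →ₐ[A₁] A)
    (P' : O →ₐ[A₁] A') (P'' : O →ₐ[A₁] A'') (hP' : NeverServed q xs ys P')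
    (hP'' : NeverServed q xs ys P'') : j'.comp P' = j''.comp P'' :=
  eq_of_neverServed hT hgen hsep _ _ (neverServed_comp j' hP') (neverServed_comp j'' hP'')

/-- A valuation ring in which `q` is a nonzero non-unit and which has rank one in the weak sense
`∀ z ≠ 0, ∃ N, ¬ q^(N+1) ∣ z` is `q`-adically separated (the hypothesis `hsep` above); stated
for convenience. -/
theorem sep_of_forall_exists_not_dvd {A : Type*} [CommRing A] (Q : A)
    (h : ∀ z : A, z ≠ 0 → ∃ N : ℕ, ¬ Q ^ (N + 1) ∣ z) :
    ∀ z : A, (∀ N : ℕ, Q ^ (N + 1) ∣ z) → z = 0 := by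
  intro z hz
  by_contra hz0
  obtain ⟨N, hN⟩ := h z hz0
  exact hN (hz N)

/-- In a local noetherian domain (e.g. the DVR `A ∩ E'`) a non-unit `Q` gives a separated
topology. -/
theorem sep_of_isLocalRing {A : Type*} [CommRing A] [IsDomain A] [IsLocalRing A]
    [IsNoetherianRing A] (Q : A) (hQ : Q ∈ IsLocalRing.maximalIdeal A) :
    ∀ z : A, (∀ N : ℕ, Q ^ (N + 1) ∣ z) → z = 0 := by
  intro z hz
  have hbot : (⨅ i, IsLocalRing.maximalIdeal A ^ i) = ⊥ :=
    Ideal.iInf_pow_eq_bot_of_isLocalRing _ (IsLocalRing.maximalIdeal.isMaximal A).ne_top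
  have : z ∈ (⨅ i, IsLocalRing.maximalIdeal A ^ i) := by
    rw [Ideal.mem_iInf]
    intro i
    obtain ⟨t, ht⟩ := hz i
    rw [ht]
    exact Ideal.mul_mem_right _ _
      (Ideal.pow_le_pow_right (Nat.le_succ i) (Ideal.pow_mem_pow hQ _))
  rw [hbot, Ideal.mem_bot] at this
  exact this

end Fermat.Agent.CA.H18
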