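/-
Generic, Mathlib-only: the induction `m → m / l` of the Kummer-cover chain (step L8).

`LocalDatum π O ψ m u` : for every local index `n`, `u = ε_n * ψ_n ^ m` with `ε_n ∈ 1 + π O_n`.
`exists_normalised`   : from `u = c * g ^ l` and a local datum of exponent `l * m'` for `u`,
                        rescale `(c, g)` so that `g` carries a local datum of exponent `m'`.
`exists_const_mul_pow`: if every local datum of exponent `l ^ (k+1)` forces an `l`-th power up to a
                        constant, then every local datum of exponent `l ^ k` forces an `l ^ k`-th power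
                        up to a constant.
-/
import Mathlib

namespace Fermat.Agent.CA.H21

open Polynomial

section LocalRoot

variable {A R : Type*} [CommRing A] [CommRing R] [IsLocalRing R] [Algebra A R]

/-- In a local ring, if `T ^ l - 1` splits over `A` with roots `S` whose pairwise differences are
units, then an element `t` with `t ^ l ≡ 1 mod π` (`π` a non-unit) is congruent mod `π` to exactly
one root. -/
theorem exists_root_congr {l : ℕ} {S : Finset A}
    (hsplit : (X ^ l - 1 : A[X]) = ∏ s ∈ S, (X - C s))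
    (hdiff : ∀ s ∈ S, ∀ s' ∈ S, s ≠ s' → IsUnit (s - s'))
    {π : R} (hπ : ¬ IsUnit π) {t e : R} (ht : t ^ l - 1 = π * e) :
    ∃ s ∈ S, ∃ a : R, t - algebraMap A R s = π * a := by
  classical
  have hprod : t ^ l - 1 = ∏ s ∈ S, (t - algebraMap A R s) := by
    have := congrArg (Polynomial.aeval t) hsplit
    simpa [map_prod] using this
  have hnu : ¬ IsUnit (∏ s ∈ S, (t - algebraMap A R s)) := by
    rw [← hprod, ht]
    intro h
    exact hπ (isUnit_of_mul_isUnit_left h)
  obtain ⟨s₀, hs₀, hs₀nu⟩ : ∃ s ∈ S, ¬ IsUnit (t - algebraMap A R s) := by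
    by_contra hcon
    simp only [not_exists, not_and, not_not] at hcon
    exact hnu (Finset.prod_induction _ IsUnit (fun _ _ => IsUnit.mul) isUnit_one hcon)
  refine ⟨s₀, hs₀, ?_⟩
  have hothers : IsUnit (∏ s ∈ S.erase s₀, (t - algebraMap A R s)) := by
    refine Finset.prod_induction _ IsUnit (fun _ _ => IsUnit.mul) isUnit_one ?_
    intro s hs
    rw [Finset.mem_erase] at hs
    by_contra hnus
    have h1 : t - algebraMap A R s₀ ∈ IsLocalRing.maximalIdeal R :=
      (IsLocalRing.mem_maximalIdeal _).2 hs₀nu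
    have h2 : t - algebraMap A R s ∈ IsLocalRing.maximalIdeal R :=
      (IsLocalRing.mem_maximalIdeal _).2 hnus
    have h3 : algebraMap A R (s - s₀) ∈ IsLocalRing.maximalIdeal R := by
      have := (IsLocalRing.maximalIdeal R).sub_mem h1 h2
      have e : t - algebraMap A R s₀ - (t - algebraMap A R s) = algebraMap A R (s - s₀) := by
        rw [map_sub]; ring
      rwa [e] at this
    exact (IsLocalRing.mem_maximalIdeal _).1 h3 ((hdiff s hs.2 s₀ hs₀ hs.1).map (algebraMap A R))
  obtain ⟨U, hU⟩ := hothers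
  refine ⟨e * ↑U⁻¹, ?_⟩
  have hmul : (t - algebraMap A R s₀) * (U : R) = π * e := by
    rw [hU, Finset.mul_prod_erase S (fun s => t - algebraMap A R s) hs₀, ← hprod, ht]
  calc t - algebraMap A R s₀ = (t - algebraMap A R s₀) * (U : R) * ↑U⁻¹ := by
        rw [mul_assoc, Units.mul_inv, mul_one]
    _ = π * (e * ↑U⁻¹) := by rw [hmul, mul_assoc]

end LocalRoot

section Roots

variable {A : Type*} [CommRing A] [IsDomain A]

/-- Producer of the field `split` of `Setup` from a primitive root of unity. -/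
theorem split_of_isPrimitiveRoot {ζ : A} {l : ℕ} (hl : 0 < l) (hζ : IsPrimitiveRoot ζ l) :
    (X ^ l - 1 : A[X]) = ∏ s ∈ nthRootsFinset l (1 : A), (X - C s) :=
  X_pow_sub_one_eq_prod hl hζ

/-- Producer of the field `diff` of `Setup`: if `l` is a unit, distinct `l`-th roots of unity differ
by units. -/
theorem diff_of_isPrimitiveRoot {ζ : A} {l : ℕ} (hl : 0 < l) (hζ : IsPrimitiveRoot ζ l)
    (hlu : IsUnit (l : A)) :
    ∀ s ∈ nthRootsFinset l (1 : A), ∀ s' ∈ nthRootsFinset l (1 : A), s ≠ s' → IsUnit (s - s') := by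
  obtain ⟨n, rfl⟩ : ∃ n, l = n + 1 := ⟨l - 1, by omega⟩
  have hζu : IsUnit ζ := hζ.isUnit (Nat.succ_ne_zero n)
  -- each `1 - ζ ^ (k+1)`, `k < n`, is a unit
  have hfac : ∀ k, k < n → IsUnit (1 - ζ ^ (k + 1)) := by
    intro k hk
    have hprod := hζ.prod_one_sub_pow_eq_order
    have hdvd : (1 - ζ ^ (k + 1)) ∣ ∏ k ∈ Finset.range n, (1 - ζ ^ (k + 1)) :=
      Finset.dvd_prod_of_mem _ (Finset.mem_range.2 hk)
    rw [hprod] at hdvd
    refine isUnit_of_dvd_unit hdvd ?_
    simpa using hlu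
  -- the ordered case
  have key : ∀ i j, j < i → i < n + 1 → IsUnit (ζ ^ i - ζ ^ j) := by
    intro i j hji hi
    obtain ⟨k, rfl⟩ : ∃ k, i = j + (k + 1) := ⟨i - j - 1, by omega⟩
    have e : ζ ^ (j + (k + 1)) - ζ ^ j = -(ζ ^ j * (1 - ζ ^ (k + 1))) := by ring
    rw [e]
    exact ((hζu.pow j).mul (hfac k (by omega))).neg
  intro s hs s' hs' hne
  rw [mem_nthRootsFinset hl] at hs hs'
  obtain ⟨i, hi, rfl⟩ := hζ.eq_pow_of_pow_eq_one hs
  obtain ⟨j, hj, rfl⟩ := hζ.eq_pow_of_pow_eq_one hs'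
  rcases lt_trichotomy i j with hij | hij | hij
  · have := (key j i hij hj).neg
    rwa [neg_sub] at this
  · exact (hne (by rw [hij])).elim
  · exact key i j hij hi

end Roots

section Normalise

variable {A K F : Type*} [CommRing A] [IsDomain A] [ValuationRing A]
  [Field K] [Algebra A K] [IsFractionRing A K]
  [Field F] [Algebra A F] [Algebra K F] [IsScalarTower A K F]
  {ι κ : Type*}

/-- `u = ε_n * ψ_n ^ m` with `ε_n ∈ 1 + π O_n`, for every local index `n`. -/
def LocalDatum (π : A) (O : ι → Subalgebra A F) (ψ : ι → F) (m : ℕ) (u : F) : Prop :=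
  ∀ n, ∃ a ∈ O n, u = (1 + algebraMap A F π * a) * ψ n ^ m

/-- The standing hypotheses of step L8.  `A` is the base valuation ring with uniformiser `π`,
`S` the roots of `T ^ l - 1` in `A`, `O n` the (normal, local) Zariski local rings of the model,
`V P` the valuation rings of the vertical primes, `thr n` the vertical primes through `n`,
`ψ n` the local generators (`≡ 1` at every vertical prime through `n`). -/
structure Setup (π : A) (l : ℕ) (S : Finset A) (O : ι → Subalgebra A F)
    (V : κ → ValuationSubring F) (thr : ι → Set κ) (ψ : ι → F) : Prop where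
  maxIdeal : IsLocalRing.maximalIdeal A = Ideal.span {π}
  split : (X ^ l - 1 : A[X]) = ∏ s ∈ S, (X - C s)
  diff : ∀ s ∈ S, ∀ s' ∈ S, s ≠ s' → IsUnit (s - s')
  root : ∀ a : Aˣ, ∃ b : Aˣ, ((b : A) ^ l - (a : A)) ∈ Ideal.span {π}
  isLocal : ∀ n, IsLocalRing (O n)
  closed : ∀ n (x : F), x ^ l ∈ O n → x ∈ O n
  psi_ne : ∀ n, ψ n ≠ 0
  thr_ne : ∀ n, (thr n).Nonempty
  le : ∀ n, ∀ P ∈ thr n, ∀ x ∈ O n, x ∈ V P
  pi_lt : ∀ n, ∀ P ∈ thr n, (V P).valuation (algebraMap A F π) < 1
  unif : ∀ n, ∀ P ∈ thr n, ∀ x : F, x ≠ 0 →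
    ∃ b : ℤ, (V P).valuation (x * (algebraMap A F π) ^ (-b)) = 1
  psi_one : ∀ n, ∀ P ∈ thr n, (V P).valuation (ψ n - 1) < 1
  conn : ∀ (i : ι → A) (iP : κ → A), (∀ n, ∀ P ∈ thr n, i n = iP P) → ∀ n n', i n = i n'

section ValAux

variable {Γ : Type*} [LinearOrderedCommGroupWithZero Γ] (v : Valuation F Γ)

theorem val_mul_lt_one {x y : F} (hx : v x < 1) (hy : v y ≤ 1) : v (x * y) < 1 := by
  rw [map_mul]; exact mul_lt_one_of_nonneg_of_lt_one_left zero_le hx hy

theorem val_eq_one_of_sub_one_lt {x : F} (hx : v (x - 1) < 1) : v x = 1 := by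
  have := v.map_one_add_of_lt hx
  rwa [add_sub_cancel] at this

theorem val_pow_sub_one_lt {x : F} (hx : v (x - 1) < 1) (k : ℕ) : v (x ^ k - 1) < 1 := by
  induction k with
  | zero => simp
  | succ k ih =>
    have e : x ^ (k + 1) - 1 = (x - 1) * x ^ k + (x ^ k - 1) := by ring
    rw [e]
    refine v.map_add_lt (val_mul_lt_one v hx ?_) ih
    rw [map_pow, val_eq_one_of_sub_one_lt v hx, one_pow]

end ValAux

namespace Setup

variable {π : A} {l : ℕ} {S : Finset A} {O : ι → Subalgebra A F}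
  {V : κ → ValuationSubring F} {thr : ι → Set κ} {ψ : ι → F}

theorem val_algebraMap_le (h : Setup π l S O V thr ψ) {n : ι} {P : κ} (hP : P ∈ thr n) (a : A) :
    (V P).valuation (algebraMap A F a) ≤ 1 :=
  ((V P).valuation_le_one_iff _).2 (h.le n P hP _ ((O n).algebraMap_mem a))

theorem val_mem_le (h : Setup π l S O V thr ψ) {n : ι} {P : κ} (hP : P ∈ thr n) {x : F}
    (hx : x ∈ O n) : (V P).valuation x ≤ 1 :=
  ((V P).valuation_le_one_iff _).2 (h.le n P hP _ hx)

theorem val_unit (h : Setup π l S O V thr ψ) {n : ι} {P : κ} (hP : P ∈ thr n) {a : A}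
    (ha : IsUnit a) : (V P).valuation (algebraMap A F a) = 1 := by
  obtain ⟨a, rfl⟩ := ha
  have h1 := h.val_algebraMap_le hP (a : A)
  have h2 := h.val_algebraMap_le hP ((a⁻¹ : Aˣ) : A)
  have h3 : (V P).valuation (algebraMap A F a) * (V P).valuation (algebraMap A F ((a⁻¹ : Aˣ) : A))
      = 1 := by
    rw [← map_mul, ← map_mul, Units.mul_inv, map_one, map_one]
  refine le_antisymm h1 ?_
  calc (1 : (V P).ValueGroup) = _ := h3.symm
    _ ≤ (V P).valuation (algebraMap A F a) * 1 := by gcongr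
    _ = _ := mul_one _

theorem isUnit_of_val_eq_one (h : Setup π l S O V thr ψ) {n : ι} {P : κ} (hP : P ∈ thr n) {a : A}
    (hv : (V P).valuation (algebraMap A F a) = 1) : IsUnit a := by
  by_contra hnu
  have hmem : a ∈ IsLocalRing.maximalIdeal A := (IsLocalRing.mem_maximalIdeal _).2 hnu
  rw [h.maxIdeal, Ideal.mem_span_singleton] at hmem
  obtain ⟨a', rfl⟩ := hmem
  have : (V P).valuation (algebraMap A F (π * a')) < 1 := by
    rw [map_mul]
    exact val_mul_lt_one _ (h.pi_lt n P hP) (h.val_algebraMap_le hP a')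
  rw [hv] at this
  exact lt_irrefl _ this

theorem pi_nonunit (h : Setup π l S O V thr ψ) (n : ι) : ¬ IsUnit (algebraMap A (O n) π) := by
  intro hu
  obtain ⟨P, hP⟩ := h.thr_ne n
  obtain ⟨w, hw⟩ := hu.exists_right_inv
  have hw' : algebraMap A F π * (w : F) = 1 := by
    have := congrArg (Subtype.val) hw
    simpa using this
  have h1 : (V P).valuation (algebraMap A F π * (w : F)) < 1 :=
    val_mul_lt_one _ (h.pi_lt n P hP) (h.val_mem_le hP w.2)
  rw [hw', map_one] at h1
  exact lt_irrefl _ h1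

/-- `exists_root_congr` inside `O n`, stated in the ambient field. -/
theorem exists_root_congr_mem (h : Setup π l S O V thr ψ) (n : ι) {t e : F} (ht : t ∈ O n)
    (he : e ∈ O n) (hte : t ^ l - 1 = algebraMap A F π * e) :
    ∃ s ∈ S, ∃ a ∈ O n, t - algebraMap A F s = algebraMap A F π * a := by
  have := h.isLocal n
  have key : (⟨t, ht⟩ : O n) ^ l - 1 = algebraMap A (O n) π * ⟨e, he⟩ := by
    apply Subtype.ext
    simpa using hte
  obtain ⟨s, hs, a, ha⟩ := exists_root_congr h.split h.diff (h.pi_nonunit n) key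
  refine ⟨s, hs, a, a.2, ?_⟩
  have := congrArg Subtype.val ha
  simpa using this

theorem root_pow_eq_one (h : Setup π l S O V thr ψ) {s : A} (hs : s ∈ S) : s ^ l = 1 := by
  have := congrArg (Polynomial.eval s) h.split
  rw [Polynomial.eval_prod, Finset.prod_eq_zero hs (by simp)] at this
  simpa [sub_eq_zero] using this

theorem val_datum_eq_one (h : Setup π l S O V thr ψ) {n : ι} {P : κ} (hP : P ∈ thr n) {m : ℕ}
    {u a : F} (ha : a ∈ O n) (hu : u = (1 + algebraMap A F π * a) * ψ n ^ m) :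
    (V P).valuation u = 1 := by
  rw [hu, map_mul, map_pow, val_eq_one_of_sub_one_lt _ (h.psi_one n P hP), one_pow, mul_one]
  exact Valuation.map_one_add_of_lt _ (val_mul_lt_one _ (h.pi_lt n P hP) (h.val_mem_le hP ha))

/-- Step 1: the constant can be taken to be a unit of `A`. -/
theorem exists_unit_const (h : Setup π l S O V thr ψ) (hl : 0 < l) [Nonempty ι] {m : ℕ} {u : F}
    (hu : u ≠ 0) (hLD : LocalDatum π O ψ m u) {c : K} {g : F}
    (hcg : u = algebraMap K F c * g ^ l) :
    ∃ (c₀ : Aˣ) (g₁ : F), u = algebraMap A F (c₀ : A) * g₁ ^ l := by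
  obtain ⟨n₀⟩ := ‹Nonempty ι›
  obtain ⟨P₀, hP₀⟩ := h.thr_ne n₀
  have hg0 : g ≠ 0 := by
    rintro rfl
    rw [zero_pow hl.ne', mul_zero] at hcg
    exact hu hcg
  obtain ⟨b, hb⟩ := h.unif n₀ P₀ hP₀ g hg0
  set v := (V P₀).valuation with hv
  set ϖ : F := algebraMap A F π with hϖ
  have hne : g * ϖ ^ (-b) ≠ 0 := by
    intro h0
    rw [h0, map_zero] at hb
    exact zero_ne_one hb
  have hϖb : ϖ ^ b ≠ 0 := by
    intro h0
    apply hne
    rw [zpow_neg, h0, inv_zero, mul_zero]
  -- the rescaled pair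
  set g₁ : F := g * ϖ ^ (-b) with hg₁
  set c₁ : K := c * ((algebraMap A K π) ^ b) ^ l with hc₁
  have hmap : algebraMap K F c₁ = algebraMap K F c * (ϖ ^ b) ^ l := by
    rw [hc₁, map_mul, map_pow, map_zpow₀, ← IsScalarTower.algebraMap_apply]
  have hu1 : u = algebraMap K F c₁ * g₁ ^ l := by
    rw [hmap, hg₁, hcg, zpow_neg, mul_pow, inv_pow]
    field_simp
  -- `v c₁ = 1`
  obtain ⟨a₀, ha₀, hua₀⟩ := hLD n₀
  have hvu : v u = 1 := h.val_datum_eq_one hP₀ ha₀ hua₀
  have hvc : v (algebraMap K F c₁) = 1 := by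
    have := hvu
    rw [hu1, map_mul, map_pow, hb, one_pow, mul_one] at this
    exact this
  -- `c₁` or its inverse is in `A`
  rcases ValuationRing.isInteger_or_isInteger A c₁ with ⟨a, ha⟩ | ⟨a, ha⟩
  · have hau : IsUnit a := by
      apply h.isUnit_of_val_eq_one hP₀
      rw [IsScalarTower.algebraMap_apply A K F, ha]
      exact hvc
    obtain ⟨a, rfl⟩ := hau
    refine ⟨a, g₁, ?_⟩
    rw [IsScalarTower.algebraMap_apply A K F, ha]
    exact hu1
  · have hau : IsUnit a := by
      apply h.isUnit_of_val_eq_one hP₀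
      rw [IsScalarTower.algebraMap_apply A K F, ha, map_inv₀, map_inv₀, hvc, inv_one]
    obtain ⟨a, rfl⟩ := hau
    refine ⟨a⁻¹, g₁, ?_⟩
    have e : algebraMap A F ((a⁻¹ : Aˣ) : A) = algebraMap K F c₁ := by
      have h1 : algebraMap A F ((a⁻¹ : Aˣ) : A) * algebraMap A F (a : A) = 1 := by
        rw [← map_mul, Units.inv_mul, map_one]
      have h2 : algebraMap A F (a : A) = (algebraMap K F c₁)⁻¹ := by
        rw [IsScalarTower.algebraMap_apply A K F, ha, map_inv₀]
      have h3 : algebraMap K F c₁ ≠ 0 := by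
        intro h0
        rw [h0, map_zero] at hvc
        exact zero_ne_one hvc
      rw [h2] at h1
      field_simp at h1
      exact h1
    rw [e]
    exact hu1

/-- Step 2: after multiplying by a suitable unit `b'` of `A`, the local quotient
`b' g₁ / ψ_n ^ m'` is congruent mod `π O_n` to a root `s` of `T ^ l - 1`. -/
theorem exists_root_datum (h : Setup π l S O V thr ψ) {m' : ℕ} {u : F}
    (hLD : LocalDatum π O ψ (l * m') u) {c₀ : Aˣ} {g₁ : F}
    (hu1 : u = algebraMap A F (c₀ : A) * g₁ ^ l) {b' : Aˣ} {d : A}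
    (hb' : (b' : A) ^ l - (c₀ : A) = π * d) (n : ι) :
    ∃ s ∈ S, ∃ a ∈ O n,
      algebraMap A F (b' : A) * g₁ = (algebraMap A F s + algebraMap A F π * a) * ψ n ^ m' := by
  obtain ⟨a, ha, hua⟩ := hLD n
  have hψ : ψ n ≠ 0 := h.psi_ne n
  set ϖ : F := algebraMap A F π with hϖ
  set C₀ : F := algebraMap A F (c₀ : A) with hC₀
  set Ci : F := algebraMap A F ((c₀⁻¹ : Aˣ) : A) with hCi
  set B : F := algebraMap A F (b' : A) with hB
  set D : F := algebraMap A F d with hD
  have hCC : Ci * C₀ = 1 := by rw [hCi, hC₀, ← map_mul, Units.inv_mul, map_one]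
  have hBl : B ^ l = C₀ + ϖ * D := by
    rw [hB, hC₀, hϖ, hD, ← map_pow, ← map_mul, ← map_add, ← hb']
    congr 1; ring
  have hCimem : Ci ∈ O n := (O n).algebraMap_mem _
  have hDmem : D ∈ O n := (O n).algebraMap_mem _
  have hϖmem : ϖ ∈ O n := (O n).algebraMap_mem _
  have hBmem : B ∈ O n := (O n).algebraMap_mem _
  -- `ε' ^ l = Ci * (1 + ϖ a)`
  have hgl : g₁ ^ l = Ci * (1 + ϖ * a) * ψ n ^ (l * m') := by
    have : Ci * u = g₁ ^ l := by rw [hu1, ← mul_assoc, hCC, one_mul]
    rw [← this, hua]; ring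
  have hεl : (g₁ / ψ n ^ m') ^ l = Ci * (1 + ϖ * a) := by
    rw [div_pow, ← pow_mul, mul_comm m' l, hgl, mul_div_assoc, div_self (pow_ne_zero _ hψ), mul_one]
  have hεmem : g₁ / ψ n ^ m' ∈ O n := by
    apply h.closed n
    rw [hεl]
    exact mul_mem hCimem (add_mem (one_mem _) (mul_mem hϖmem ha))
  have htmem : B * (g₁ / ψ n ^ m') ∈ O n := mul_mem hBmem hεmem
  have hemem : a + D * Ci * (1 + ϖ * a) ∈ O n :=
    add_mem ha (mul_mem (mul_mem hDmem hCimem) (add_mem (one_mem _) (mul_mem hϖmem ha)))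
  have hte : (B * (g₁ / ψ n ^ m')) ^ l - 1 = ϖ * (a + D * Ci * (1 + ϖ * a)) := by
    rw [mul_pow, hεl, hBl]
    have : (C₀ + ϖ * D) * (Ci * (1 + ϖ * a)) = (Ci * C₀) * (1 + ϖ * a) + ϖ * (D * Ci * (1 + ϖ * a)) := by
      ring
    rw [this, hCC]; ring
  obtain ⟨s, hs, a', ha', hsa'⟩ := h.exists_root_congr_mem n htmem hemem hte
  refine ⟨s, hs, a', ha', ?_⟩
  have : algebraMap A F s + ϖ * a' = B * (g₁ / ψ n ^ m') := by rw [← hsa']; ring
  rw [this, mul_assoc, div_mul_cancel₀ _ (pow_ne_zero _ hψ)]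

theorem root_unique (h : Setup π l S O V thr ψ) {G : F} {n : ι} {P : κ} (hP : P ∈ thr n)
    {s s' : A} (hs : s ∈ S) (hs' : s' ∈ S)
    (h1 : (V P).valuation (G - algebraMap A F s) < 1)
    (h2 : (V P).valuation (G - algebraMap A F s') < 1) : s = s' := by
  by_contra hne
  have hu := h.val_unit hP (h.diff s hs s' hs' hne)
  have e : algebraMap A F (s - s') = (G - algebraMap A F s') + -(G - algebraMap A F s) := by
    rw [map_sub]; ring
  have : (V P).valuation (algebraMap A F (s - s')) < 1 := by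
    rw [e]
    exact Valuation.map_add_lt _ h2 (by rw [Valuation.map_neg]; exact h1)
  rw [hu] at this
  exact lt_irrefl _ this

theorem val_sub_root_lt (h : Setup π l S O V thr ψ) {G : F} {n : ι} {P : κ} (hP : P ∈ thr n)
    {m' : ℕ} {s : A} {a : F} (ha : a ∈ O n)
    (hG : G = (algebraMap A F s + algebraMap A F π * a) * ψ n ^ m') :
    (V P).valuation (G - algebraMap A F s) < 1 := by
  have e : G - algebraMap A F s = (ψ n ^ m' - 1) * (algebraMap A F s + algebraMap A F π * a)
      + algebraMap A F π * a := by rw [hG]; ring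
  rw [e]
  refine Valuation.map_add_lt _ (val_mul_lt_one _ (val_pow_sub_one_lt _ (h.psi_one n P hP) m') ?_)
    (val_mul_lt_one _ (h.pi_lt n P hP) (h.val_mem_le hP ha))
  exact h.val_mem_le hP (add_mem ((O n).algebraMap_mem s)
    (mul_mem ((O n).algebraMap_mem π) ha))

/-- **Step L8 (normalisation).**  If `u` carries a local datum of exponent `l * m'` and
`u = c * g ^ l` with `c` a constant, then after rescaling `u = c' * g' ^ l` where `g'` carries a local
datum of exponent `m'` (with the same `ψ`). -/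
theorem exists_normalised (h : Setup π l S O V thr ψ) (hl : 0 < l) {m' : ℕ} {u : F} (hu : u ≠ 0)
    (hLD : LocalDatum π O ψ (l * m') u) {c : K} {g : F} (hcg : u = algebraMap K F c * g ^ l) :
    ∃ (c' : K) (g' : F), u = algebraMap K F c' * g' ^ l ∧ LocalDatum π O ψ m' g' := by
  classical
  rcases isEmpty_or_nonempty ι with hι | hι
  · exact ⟨c, g, hcg, fun n => (hι.false n).elim⟩
  obtain ⟨c₀, g₁, hu1⟩ := h.exists_unit_const hl hu hLD hcg
  obtain ⟨b', hb'⟩ := h.root c₀
  rw [Ideal.mem_span_singleton] at hb'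
  obtain ⟨d, hd⟩ := hb'
  choose s hs a ha hsa using fun n => h.exists_root_datum hLD hu1 hd n
  set G : F := algebraMap A F (b' : A) * g₁ with hG
  -- all the roots agree
  have hconst : ∀ n n', s n = s n' := by
    refine h.conn s (fun P => if hx : ∃ r ∈ S, (V P).valuation (G - algebraMap A F r) < 1
      then hx.choose else 0) ?_
    intro n P hP
    have hx : ∃ r ∈ S, (V P).valuation (G - algebraMap A F r) < 1 :=
      ⟨s n, hs n, h.val_sub_root_lt hP (ha n) (hsa n)⟩
    rw [dif_pos hx]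
    exact h.root_unique hP (hs n) hx.choose_spec.1 (h.val_sub_root_lt hP (ha n) (hsa n))
      hx.choose_spec.2
  obtain ⟨n₀⟩ := hι
  set r : A := s n₀ with hr
  have hrl : r ^ l = 1 := h.root_pow_eq_one (hs n₀)
  obtain ⟨l', rfl⟩ : ∃ l', l = l' + 1 := ⟨l - 1, by omega⟩
  -- `r * r ^ l' = 1`
  have hrr : algebraMap A F r * algebraMap A F (r ^ l') = 1 := by
    rw [← map_mul, ← pow_succ', hrl, map_one]
  have hrinvl : algebraMap A F (r ^ l') ^ (l' + 1) = 1 := by
    rw [← map_pow, ← pow_mul, mul_comm, pow_mul, hrl, one_pow, map_one]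
  have hbb : algebraMap A F (b' : A) * algebraMap A F ((b'⁻¹ : Aˣ) : A) = 1 := by
    rw [← map_mul, Units.mul_inv, map_one]
  refine ⟨algebraMap A K ((c₀ : A) * ((b'⁻¹ : Aˣ) : A) ^ (l' + 1)), G * algebraMap A F (r ^ l'), ?_, ?_⟩
  · rw [← IsScalarTower.algebraMap_apply A K F, hu1, hG, map_mul, map_pow, mul_pow, mul_pow, hrinvl,
      mul_one]
    have : algebraMap A F ((b'⁻¹ : Aˣ) : A) ^ (l' + 1) * algebraMap A F (b' : A) ^ (l' + 1) = 1 := by
      rw [← mul_pow, mul_comm, hbb, one_pow]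
    calc algebraMap A F (c₀ : A) * g₁ ^ (l' + 1)
        = algebraMap A F (c₀ : A) * (algebraMap A F ((b'⁻¹ : Aˣ) : A) ^ (l' + 1) *
            algebraMap A F (b' : A) ^ (l' + 1)) * g₁ ^ (l' + 1) := by rw [this, mul_one]
      _ = _ := by ring
  · intro n
    refine ⟨a n * algebraMap A F (r ^ l'), mul_mem (ha n) ((O n).algebraMap_mem _), ?_⟩
    rw [hsa n, hconst n n₀]
    have : (algebraMap A F r + algebraMap A F π * a n) * algebraMap A F (r ^ l')
        = 1 + algebraMap A F π * (a n * algebraMap A F (r ^ l')) := by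
      rw [add_mul, hrr]; ring
    rw [← this]; ring

/-- **Step L8 (induction).**  If every local datum of exponent `l ^ (k+1)` forces `u` to be an
`l`-th power up to a constant (the Kummer-cover step), then every local datum of exponent `l ^ k`
forces `u` to be an `l ^ k`-th power up to a constant; the root again carries a local datum of
exponent `1`. -/
theorem exists_const_mul_pow (h : Setup π l S O V thr ψ) (hl : 0 < l)
    (hK : ∀ (k : ℕ) (u : F), u ≠ 0 → LocalDatum π O ψ (l ^ (k + 1)) u →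
      ∃ (c : K) (g : F), u = algebraMap K F c * g ^ l) :
    ∀ (k : ℕ) (u : F), u ≠ 0 → LocalDatum π O ψ (l ^ k) u →
      ∃ (c : K) (g : F), g ≠ 0 ∧ u = algebraMap K F c * g ^ (l ^ k) ∧ LocalDatum π O ψ 1 g := by
  intro k
  induction k with
  | zero =>
    intro u hu hLD
    refine ⟨1, u, hu, by simp, ?_⟩
    simpa using hLD
  | succ k ih =>
    intro u hu hLD
    obtain ⟨c, g, hcg⟩ := hK k u hu hLD
    have hLD' : LocalDatum π O ψ (l * l ^ k) u := by rwa [← pow_succ']
    obtain ⟨c', g', hcg', hLDg'⟩ := h.exists_normalised hl hu hLD' hcg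
    have hg' : g' ≠ 0 := by
      rintro rfl
      rw [zero_pow hl.ne', mul_zero] at hcg'
      exact hu hcg'
    obtain ⟨c'', g'', hg'', hcg'', hLD''⟩ := ih g' hg' hLDg'
    refine ⟨c' * c'' ^ l, g'', hg'', ?_, hLD''⟩
    rw [hcg', hcg'', map_mul, map_pow, mul_pow, ← pow_mul, ← pow_succ, mul_assoc]

end Setup

end Normalise

end Fermat.Agent.CA.H21
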