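import Mathlib

/-!
# A normalised derivation preserves the local ring at a point  (helper26, S36 row (M2-abs1)(i))

Setting: `k` a field, `D` a finitely generated `k`-algebra, `O` the localisation of `D` at a prime
`a`, assumed to be a discrete valuation ring with uniformiser `s` and residue field `k`
(`hres`), `κ = Frac O`.  If `del : Derivation k κ κ` satisfies `del s = 1`, then `del` maps `O`
into `O`.

No separability, no completion, no Kähler differentials:

* **uniform bound** (`exists_pow_mul_del_mem`): there is `N` with `s ^ N * del x ∈ O` for all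
  `x ∈ O` (finitely many generators of `D`, Leibniz rule, quotient rule);
* **expansion** (`exists_aeval_add_pow_mul`): every `x ∈ O` is `p(s) + s ^ n * x'` with
  `p ∈ k[X]`, `x' ∈ O`;
* **conclusion** (`del_mem`): `del x = p'(s) + (N+1) s^N x' + s^(N+1) del x' ∈ O`.

Also: the constructor `normalise` (`(θ s)⁻¹ • θ` for a `k`-derivation `θ` with `θ s ≠ 0`) and the
contrapositive `not_mem_of_del_not_mem`.
-/

set_option autoImplicit false

namespace Fermat.Agent.CA.H26

open IsLocalRing Polynomial

section FractionDVR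

variable {O κ : Type*} [CommRing O] [IsDomain O] [IsDiscreteValuationRing O]
  [Field κ] [Algebra O κ] [IsFractionRing O κ]

/-- In the fraction field of a DVR with uniformiser `s`, every element becomes integral after
multiplication by a power of `s`. -/
theorem exists_pow_mul_mem {s : O} (hs : Irreducible s) (t : κ) :
    ∃ (N : ℕ) (y : O), algebraMap O κ s ^ N * t = algebraMap O κ y := by
  obtain ⟨a, b, hb, rfl⟩ := IsFractionRing.div_surjective (A := O) t
  have hb0 : b ≠ 0 := nonZeroDivisors.ne_zero hb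
  obtain ⟨m, u, hu⟩ := IsDiscreteValuationRing.eq_unit_mul_pow_irreducible hb0 hs
  refine ⟨m, a * ((u⁻¹ : Oˣ) : O), ?_⟩
  have hbκ : algebraMap O κ b ≠ 0 := by
    simpa using (IsFractionRing.injective O κ).ne hb0
  rw [hu] at hbκ ⊢
  rw [map_mul, map_pow] at hbκ ⊢
  have hsκ : algebraMap O κ s ^ m ≠ 0 := right_ne_zero_of_mul hbκ
  have huκ : algebraMap O κ (u : O) ≠ 0 := left_ne_zero_of_mul hbκ
  have hinv : algebraMap O κ ((u⁻¹ : Oˣ) : O) = (algebraMap O κ (u : O))⁻¹ := by
    refine eq_inv_of_mul_eq_one_left ?_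
    rw [← map_mul]
    simp
  rw [map_mul, hinv]
  field_simp

omit [IsDomain O] [IsDiscreteValuationRing O] [IsFractionRing O κ] in
/-- Monotonicity of the previous bound. -/
theorem pow_mul_mem_of_le {s : O} {t : κ} {N N' : ℕ} (h : N ≤ N')
    (ht : ∃ y : O, algebraMap O κ s ^ N * t = algebraMap O κ y) :
    ∃ y : O, algebraMap O κ s ^ N' * t = algebraMap O κ y := by
  obtain ⟨y, hy⟩ := ht
  refine ⟨s ^ (N' - N) * y, ?_⟩
  rw [map_mul, map_pow, ← hy, ← mul_assoc, ← pow_add, Nat.sub_add_cancel h]

end FractionDVR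

section Main

variable {k D O κ : Type*} [Field k] [CommRing D] [Algebra k D] [Algebra.FiniteType k D]
  [CommRing O] [IsDomain O] [IsDiscreteValuationRing O] [Algebra D O]
  (a : Ideal D) [a.IsPrime] [IsLocalization.AtPrime O a]
  [Field κ] [Algebra O κ] [IsFractionRing O κ]
  [Algebra k O] [Algebra k κ] [IsScalarTower k D O] [IsScalarTower k O κ]

/-- The `k`-subalgebra of `O` of elements `x` with `s ^ N * del x ∈ O`. -/
def boundSubalgebra (s : O) (del : Derivation k κ κ) (N : ℕ) : Subalgebra k O where
  carrier := {x | ∃ y : O, algebraMap O κ s ^ N * del (algebraMap O κ x) = algebraMap O κ y}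
  mul_mem' := by
    rintro x x' ⟨y, hy⟩ ⟨y', hy'⟩
    refine ⟨x * y' + x' * y, ?_⟩
    rw [map_mul, Derivation.leibniz, smul_eq_mul, smul_eq_mul, mul_add, map_add, map_mul, map_mul,
      ← hy, ← hy']
    ring
  add_mem' := by
    rintro x x' ⟨y, hy⟩ ⟨y', hy'⟩
    refine ⟨y + y', ?_⟩
    rw [map_add, map_add, mul_add, hy, hy', map_add]
  algebraMap_mem' := by
    intro c
    refine ⟨0, ?_⟩
    rw [← IsScalarTower.algebraMap_apply k O κ, Derivation.map_algebraMap, mul_zero, map_zero]

omit [IsDomain O] [IsDiscreteValuationRing O] [IsFractionRing O κ] in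
theorem mem_boundSubalgebra {s : O} {del : Derivation k κ κ} {N : ℕ} {x : O} :
    x ∈ boundSubalgebra s del N ↔
      ∃ y : O, algebraMap O κ s ^ N * del (algebraMap O κ x) = algebraMap O κ y :=
  Iff.rfl

omit [IsDomain O] [IsDiscreteValuationRing O] [IsFractionRing O κ] in
theorem boundSubalgebra_mono {s : O} {del : Derivation k κ κ} {N N' : ℕ} (h : N ≤ N') :
    boundSubalgebra s del N ≤ boundSubalgebra s del N' := fun _ hx =>
  pow_mul_mem_of_le h hx

/-- **Uniform bound on the image of `D`.** -/
theorem exists_forall_algebraMap_mem_boundSubalgebra {s : O} (hs : Irreducible s)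
    (del : Derivation k κ κ) :
    ∃ N : ℕ, ∀ d : D, algebraMap D O d ∈ boundSubalgebra s del N := by
  classical
  obtain ⟨t, ht⟩ := (Algebra.FiniteType.out : (⊤ : Subalgebra k D).FG)
  -- a bound for each generator
  have hgen : ∀ z : D, ∃ N : ℕ, algebraMap D O z ∈ boundSubalgebra s del N := fun z =>
    let ⟨N, y, hy⟩ := exists_pow_mul_mem (κ := κ) hs (del (algebraMap O κ (algebraMap D O z)))
    ⟨N, y, hy⟩
  choose Nz hNz using hgen
  refine ⟨t.sup Nz, fun d => ?_⟩
  have hle : Algebra.adjoin k (t : Set D) ≤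
      (boundSubalgebra s del (t.sup Nz)).comap (IsScalarTower.toAlgHom k D O) := by
    refine Algebra.adjoin_le fun z hz => ?_
    exact boundSubalgebra_mono (Finset.le_sup (f := Nz) hz) (hNz z)
  have : d ∈ Algebra.adjoin k (t : Set D) := by rw [ht]; exact Algebra.mem_top
  exact hle this

include a in
/-- **Uniform bound on all of `O`** (quotient rule). -/
theorem exists_pow_mul_del_mem {s : O} (hs : Irreducible s) (del : Derivation k κ κ) :
    ∃ N : ℕ, ∀ x : O, ∃ y : O, algebraMap O κ s ^ N * del (algebraMap O κ x) = algebraMap O κ y := by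
  obtain ⟨N, hN⟩ := exists_forall_algebraMap_mem_boundSubalgebra (k := k) (D := D) hs del
  refine ⟨N, fun x => ?_⟩
  obtain ⟨d, u, rfl⟩ := IsLocalization.exists_mk'_eq a.primeCompl x
  obtain ⟨yd, hyd⟩ := hN d
  obtain ⟨yu, hyu⟩ := hN (u : D)
  have hunit : IsUnit (algebraMap D O (u : D)) := IsLocalization.map_units O u
  obtain ⟨v, hv⟩ := hunit
  set x := IsLocalization.mk' O d u with hx
  have hxu : x * algebraMap D O (u : D) = algebraMap D O d := IsLocalization.mk'_spec O d u
  -- Leibniz on `x * u = d`
  have hleib : del (algebraMap O κ (algebraMap D O d)) =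
      algebraMap O κ x * del (algebraMap O κ (algebraMap D O (u : D))) +
        algebraMap O κ (algebraMap D O (u : D)) * del (algebraMap O κ x) := by
    rw [← hxu, map_mul, Derivation.leibniz, smul_eq_mul, smul_eq_mul]
  refine ⟨((v⁻¹ : Oˣ) : O) * (yd - x * yu), ?_⟩
  have hvκ : algebraMap O κ ((v⁻¹ : Oˣ) : O) * algebraMap O κ (algebraMap D O (u : D)) = 1 := by
    rw [← hv, ← map_mul]
    simp
  rw [map_mul, map_sub, map_mul, ← hyd, ← hyu, hleib]
  have : algebraMap O κ s ^ N * del (algebraMap O κ x) =
      (algebraMap O κ ((v⁻¹ : Oˣ) : O) * algebraMap O κ (algebraMap D O (u : D))) *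
        (algebraMap O κ s ^ N * del (algebraMap O κ x)) := by
    rw [hvκ, one_mul]
  rw [this]
  ring

omit [IsFractionRing O κ] [IsScalarTower k O κ] in
/-- **Expansion**: every element of `O` is a polynomial in `s` with coefficients in `k` modulo
`s ^ n`. -/
theorem exists_aeval_add_pow_mul
    (hres : ∀ x : O, ∃ c : k, x - algebraMap k O c ∈ maximalIdeal O)
    {s : O} (hs : Irreducible s) (n : ℕ) (x : O) :
    ∃ (p : k[X]) (x' : O), x = aeval s p + s ^ n * x' := by
  induction n with
  | zero => exact ⟨0, x, by simp⟩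
  | succ n ih =>
    obtain ⟨p, x', hx⟩ := ih
    obtain ⟨c, hc⟩ := hres x'
    rw [hs.maximalIdeal_eq, Ideal.mem_span_singleton'] at hc
    obtain ⟨x'', hx''⟩ := hc
    refine ⟨p + C c * X ^ n, x'', ?_⟩
    have : x' = algebraMap k O c + x'' * s := by rw [hx'']; ring
    rw [hx, this, map_add, map_mul, aeval_C, map_pow, aeval_X]
    ring

include a in
/-- **A normalised derivation preserves the local ring.**  `O = D_a` a DVR with uniformiser `s`
and residue field `k`, `D` a finitely generated `k`-algebra, `del` a `k`-derivation of `Frac O`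
with `del s = 1`: then `del O ⊆ O`. -/
theorem del_mem
    (hres : ∀ x : O, ∃ c : k, x - algebraMap k O c ∈ maximalIdeal O)
    {s : O} (hs : Irreducible s) (del : Derivation k κ κ)
    (hdel : del (algebraMap O κ s) = 1) (x : O) :
    ∃ y : O, del (algebraMap O κ x) = algebraMap O κ y := by
  obtain ⟨N, hN⟩ := exists_pow_mul_del_mem (k := k) (D := D) a hs del
  obtain ⟨p, x', hx⟩ := exists_aeval_add_pow_mul (k := k) hres hs (N + 1) x
  obtain ⟨y', hy'⟩ := hN x'
  refine ⟨aeval s (derivative p) + ((N + 1 : ℕ) : O) * s ^ N * x' + s * y', ?_⟩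
  have h1 : del (algebraMap O κ (aeval s p)) = algebraMap O κ (aeval s (derivative p)) := by
    rw [← aeval_algebraMap_apply, Derivation.map_aeval, hdel, smul_eq_mul, mul_one,
      aeval_algebraMap_apply]
  have h2 : del (algebraMap O κ (s ^ (N + 1) * x')) =
      algebraMap O κ (((N + 1 : ℕ) : O) * s ^ N * x' + s * y') := by
    rw [map_mul, Derivation.leibniz, map_pow, Derivation.leibniz_pow, hdel, smul_eq_mul,
      smul_eq_mul, Nat.add_sub_cancel, map_add, map_mul, map_mul, map_mul, map_pow, ← hy',
      map_natCast, nsmul_eq_mul, smul_eq_mul, mul_one]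
    ring
  rw [hx, map_add, map_add, h1, h2]
  simp only [map_add]
  ring

include a in
/-- Contrapositive form: an element of `Frac O` whose normalised derivative is not in `O` is not
in `O`. -/
theorem not_mem_of_del_not_mem
    (hres : ∀ x : O, ∃ c : k, x - algebraMap k O c ∈ maximalIdeal O)
    {s : O} (hs : Irreducible s) (del : Derivation k κ κ)
    (hdel : del (algebraMap O κ s) = 1) {g : κ}
    (hg : ¬ ∃ y : O, del g = algebraMap O κ y) :
    ¬ ∃ x : O, g = algebraMap O κ x := by
  rintro ⟨x, rfl⟩
  exact hg (del_mem (k := k) (D := D) a hres hs del hdel x)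

end Main

section Normalise

variable {k κ : Type*} [Field k] [Field κ] [Algebra k κ]

/-- Normalising a `k`-derivation `θ` of a field at an element `σ` with `θ σ ≠ 0`:
`(θ σ)⁻¹ • θ`. -/
noncomputable def normalise (θ : Derivation k κ κ) (σ : κ) : Derivation k κ κ :=
  (θ σ)⁻¹ • θ

theorem normalise_apply (θ : Derivation k κ κ) (σ x : κ) :
    normalise θ σ x = (θ σ)⁻¹ * θ x := rfl

theorem normalise_self (θ : Derivation k κ κ) {σ : κ} (hσ : θ σ ≠ 0) :
    normalise θ σ σ = 1 := by
  rw [normalise_apply, inv_mul_cancel₀ hσ]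

end Normalise

end Fermat.Agent.CA.H26
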