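import Mathlib

/-!
# Restricting a derivation of a big field to a separable algebraic subextension of `k(s)`
(helper26; S36 rows (M2) intrinsic (A) and (M4) (C): "the derivation `d/ds`")

Setting: `k ⊆ L` fields, `θ : Derivation k L L` (e.g. `L = K((t))`, `θ = t d/dt`), `s : L` with
`θ s ≠ 0`.  For an intermediate field `κ` write `RatioStable θ s κ` for
`∀ x ∈ κ, θ x / θ s ∈ κ` ("`dx/ds ∈ κ`").

* `ratioStable_adjoin_simple` : `k(s)` is ratio-stable;
* `RatioStable.of_isSeparable` : a separable algebraic extension of a ratio-stable field is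
  ratio-stable (implicit differentiation of the minimal polynomial);
* `ratioStable_of_isSeparable_adjoin` : so every `κ` separable algebraic over `k(s)` is;
* `ratioDeriv` : the resulting derivation `d/ds : Derivation k κ κ`, with
  `ratioDeriv_mul_eq : (d/ds x) * θ s = θ x` (chain rule) and `ratioDeriv_self : d/ds s = 1`;
* `exists_algebraMap_mul_eq` : the same for an abstract field `κ` with `[Algebra κ L]`.

Nothing here uses characteristic zero: in characteristic `q` the separability hypothesis is the
only input.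
-/

set_option autoImplicit false

namespace Fermat.Agent.CA.H26

open Polynomial IntermediateField

section Stable

variable {k L : Type*} [Field k] [Field L] [Algebra k L] (θ : Derivation k L L) (s : L)

/-- `κ` is stable under `x ↦ θ x / θ s`. -/
def RatioStable (κ : IntermediateField k L) : Prop := ∀ x ∈ κ, θ x / θ s ∈ κ

variable {θ s}

theorem ratioStable_adjoin_simple (hs : θ s ≠ 0) : RatioStable θ s k⟮s⟯ := by
  intro x hx
  induction hx using IntermediateField.adjoin_induction with
  | mem x hx =>
    rw [Set.mem_singleton_iff] at hx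
    subst hx
    rw [div_self hs]
    exact one_mem _
  | algebraMap c =>
    rw [Derivation.map_algebraMap, zero_div]
    exact zero_mem _
  | add x y hx hy ihx ihy =>
    rw [map_add, add_div]
    exact add_mem ihx ihy
  | inv x hx ihx =>
    rw [Derivation.leibniz_inv, smul_eq_mul, mul_div_assoc]
    exact mul_mem (neg_mem (pow_mem (inv_mem hx) 2)) ihx
  | mul x y hx hy ihx ihy =>
    rw [Derivation.leibniz, smul_eq_mul, smul_eq_mul, add_div, mul_div_assoc, mul_div_assoc]
    exact add_mem (mul_mem hx ihy) (mul_mem hy ihx)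

/-- Implicit differentiation: `θ (p(x)) = θ s * r + p'(x) * θ x` with `r ∈ κ`, for `p` with
coefficients in a ratio-stable subfield `κ₀ ≤ κ` and `x ∈ κ`. -/
theorem exists_mem_deriv_aeval {κ₀ κ : IntermediateField k L} (h0 : RatioStable θ s κ₀)
    (hle : κ₀ ≤ κ) (hs : θ s ≠ 0) {x : L} (hx : x ∈ κ) (p : (↥κ₀)[X]) :
    ∃ r ∈ κ, θ (aeval x p) = θ s * r + aeval x (derivative p) * θ x := by
  induction p using Polynomial.induction_on' with
  | add p₁ p₂ h₁ h₂ =>
    obtain ⟨r₁, hr₁, e₁⟩ := h₁
    obtain ⟨r₂, hr₂, e₂⟩ := h₂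
    refine ⟨r₁ + r₂, add_mem hr₁ hr₂, ?_⟩
    rw [map_add, map_add, e₁, e₂, derivative_add, map_add]
    ring
  | monomial n c =>
    refine ⟨x ^ n * (θ (c : L) / θ s), mul_mem (pow_mem hx n) (hle (h0 _ c.2)), ?_⟩
    rw [aeval_monomial, derivative_monomial, aeval_monomial, Derivation.leibniz,
      Derivation.leibniz_pow, smul_eq_mul, smul_eq_mul, smul_eq_mul, nsmul_eq_mul, map_mul,
      map_natCast]
    have : (algebraMap (↥κ₀) L) c = (c : L) := rfl
    rw [this]
    field_simp
    ring

/-- A separable algebraic extension of a ratio-stable field is ratio-stable. -/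
theorem RatioStable.of_isSeparable {κ₀ κ : IntermediateField k L} (h0 : RatioStable θ s κ₀)
    (hle : κ₀ ≤ κ) (hs : θ s ≠ 0) (hsep : ∀ x ∈ κ, IsSeparable (↥κ₀) x) :
    RatioStable θ s κ := by
  intro x hx
  have hsepx := hsep x hx
  obtain ⟨r, hr, e⟩ := exists_mem_deriv_aeval h0 hle hs hx (minpoly (↥κ₀) x)
  rw [minpoly.aeval, map_zero] at e
  have hder : aeval x (derivative (minpoly (↥κ₀) x)) ≠ 0 :=
    hsepx.aeval_derivative_ne_zero (minpoly.aeval _ x)
  have hdermem : aeval x (derivative (minpoly (↥κ₀) x)) ∈ κ := by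
    rw [aeval_eq_sum_range]
    refine sum_mem fun i _ => ?_
    rw [Algebra.smul_def]
    exact mul_mem (hle (SetLike.coe_mem _)) (pow_mem hx i)
  have : θ x / θ s = -r / aeval x (derivative (minpoly (↥κ₀) x)) := by
    rw [div_eq_div_iff hs hder]
    linear_combination -e
  rw [this]
  exact div_mem (neg_mem hr) hdermem

/-- Every intermediate field that is separable algebraic over `k(s)` is ratio-stable. -/
theorem ratioStable_of_isSeparable_adjoin {κ : IntermediateField k L} (hs : θ s ≠ 0)
    (hsκ : s ∈ κ) (hsep : ∀ x ∈ κ, IsSeparable (↥k⟮s⟯) x) : RatioStable θ s κ :=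
  (ratioStable_adjoin_simple hs).of_isSeparable
    (adjoin_simple_le_iff.2 hsκ) hs hsep

end Stable

section Deriv

variable {k L : Type*} [Field k] [Field L] [Algebra k L] {θ : Derivation k L L} {s : L}
  {κ : IntermediateField k L}

/-- The derivation `d/ds = θ(·)/θ(s)` of a ratio-stable intermediate field. -/
noncomputable def ratioDeriv (h : RatioStable θ s κ) : Derivation k κ κ :=
  Derivation.mk'
    { toFun := fun x => ⟨θ (x : L) / θ s, h x x.2⟩
      map_add' := fun x y => by
        ext
        simp [add_div]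
      map_smul' := fun c x => by
        ext
        simp [smul_div_assoc] }
    (fun x y => by
      ext
      simp only [LinearMap.coe_mk, AddHom.coe_mk, MulMemClass.coe_mul, Derivation.leibniz,
        smul_eq_mul, AddMemClass.coe_add]
      ring)

@[simp] theorem coe_ratioDeriv (h : RatioStable θ s κ) (x : κ) :
    ((ratioDeriv h x : κ) : L) = θ (x : L) / θ s := rfl

/-- **Chain rule**: `(dx/ds) * θ s = θ x`. -/
theorem ratioDeriv_mul_eq (h : RatioStable θ s κ) (hs : θ s ≠ 0) (x : κ) :
    ((ratioDeriv h x : κ) : L) * θ s = θ (x : L) := by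
  rw [coe_ratioDeriv, div_mul_cancel₀ _ hs]

theorem ratioDeriv_self (h : RatioStable θ s κ) (hs : θ s ≠ 0) (hsκ : s ∈ κ) :
    ratioDeriv h ⟨s, hsκ⟩ = 1 := by
  ext
  rw [coe_ratioDeriv]
  exact div_self hs

end Deriv

section Abstract

variable {k κ L : Type*} [Field k] [Field κ] [Field L] [Algebra k κ] [Algebra k L] [Algebra κ L]
  [IsScalarTower k κ L]

/-- Abstract form: `κ` a field with `[Algebra κ L]`, separable algebraic over `k(s)`; then
`θ x ∈ κ * θ s` for all `x ∈ κ` ("`dx/ds ∈ κ`"). -/
theorem exists_algebraMap_mul_eq (θ : Derivation k L L) (s : κ)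
    (hs : θ (algebraMap κ L s) ≠ 0)
    (hsep : ∀ x : κ, IsSeparable (↥k⟮algebraMap κ L s⟯) (algebraMap κ L x)) (x : κ) :
    ∃ y : κ, θ (algebraMap κ L x) = algebraMap κ L y * θ (algebraMap κ L s) := by
  let κ' : IntermediateField k L := (IsScalarTower.toAlgHom k κ L).fieldRange
  have hmem : ∀ z : κ, algebraMap κ L z ∈ κ' := fun z => ⟨z, rfl⟩
  have hst : RatioStable θ (algebraMap κ L s) κ' := by
    refine ratioStable_of_isSeparable_adjoin hs (hmem s) ?_
    rintro _ ⟨z, rfl⟩
    exact hsep z
  obtain ⟨y, hy⟩ := hst _ (hmem x)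
  refine ⟨y, ?_⟩
  have : algebraMap κ L y = θ (algebraMap κ L x) / θ (algebraMap κ L s) := hy
  rw [this, div_mul_cancel₀ _ hs]

end Abstract

end Fermat.Agent.CA.H26
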