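import Mathlib
import Fermat.Agent.CA.H26_DerivRestrict

/-!
# Separability from a derivation  (helper26; S36, derivation layer for an intrinsic parameter `s`)

Setting: `k` a perfect field of characteristic `p`, `L ⊇ k` a field, `θ : Derivation k L L`
(e.g. `L = k((t))`, `θ = t d/dt`), `s : L` with `θ s ≠ 0`.

* `transcendental_of_deriv_ne_zero` : `s` is transcendental over `k`;
* `exists_pow_eq_of_derivative_eq_zero` : a polynomial with zero derivative whose coefficients are
  `p`-th powers is a `p`-th power;
* `exists_pow_eq_of_deriv_eq_zero_of_mem_adjoin` : the constants of `θ` in `k(s)` are the `p`-th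
  powers of `k(s)`;
* `isSeparable_adjoin_simple_of_deriv_ne_zero` : **every `x : L` algebraic over `k(s)` is separable
  over `k(s)`**;
* `ratioStable_of_isAlgebraic` : hence every intermediate field algebraic over `k(s)` is
  ratio-stable (`dx/ds ∈ κ`), with no separability hypothesis.
-/

set_option autoImplicit false

namespace Fermat.Agent.CA.H26

open Polynomial IntermediateField

section PolyPow

variable {R : Type*} [CommRing R] [IsDomain R] (p : ℕ) [Fact p.Prime] [CharP R p]

/-- A polynomial with zero derivative all of whose coefficients are `p`-th powers is a `p`-th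
power. -/
theorem exists_pow_eq_of_derivative_eq_zero {f : R[X]} (hf : derivative f = 0)
    (hc : ∀ i, ∃ b : R, b ^ p = f.coeff i) : ∃ g : R[X], g ^ p = f := by
  classical
  have hp : p ≠ 0 := (Fact.out : p.Prime).ne_zero
  choose β hβ using hc
  set G := contract p f with hG
  refine ⟨∑ j ∈ G.support, monomial j (β (j * p)), ?_⟩
  have hmap : map (frobenius R p) (∑ j ∈ G.support, monomial j (β (j * p))) = G := by
    ext j
    rw [coeff_map, finsetSum_coeff]
    simp only [coeff_monomial]
    rw [Finset.sum_ite_eq' G.support j]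
    split_ifs with hj
    · rw [frobenius_def, hβ, hG, coeff_contract hp]
    · rw [map_zero]
      exact (notMem_support_iff.1 hj).symm
  rw [← map_frobenius_expand, map_expand, hmap, hG, expand_contract p hf hp]

end PolyPow

section Sep

variable {k L : Type*} [Field k] [Field L] [Algebra k L] (θ : Derivation k L L) {s : L}

/-- If `θ s ≠ 0` for a `k`-derivation `θ` and `k` is perfect, then `s` is transcendental over
`k`. -/
theorem transcendental_of_deriv_ne_zero [PerfectField k] (hs : θ s ≠ 0) : Transcendental k s := by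
  intro halg
  have hint : IsIntegral k s := halg.isIntegral
  have hsep : (minpoly k s).Separable :=
    PerfectField.separable_of_irreducible (minpoly.irreducible hint)
  have h := Derivation.map_aeval θ (minpoly k s) s
  rw [minpoly.aeval, map_zero, smul_eq_mul] at h
  have hne : aeval s (derivative (minpoly k s)) ≠ 0 :=
    hsep.aeval_derivative_ne_zero (minpoly.aeval k s)
  rcases mul_eq_zero.1 h.symm with h' | h'
  · exact hne h'
  · exact hs h'

variable (p : ℕ) [Fact p.Prime] [CharP k p] [PerfectRing k p]

include p in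
/-- The constants of `θ` in `k(s)` are `p`-th powers in `k(s)`. -/
theorem exists_pow_eq_of_deriv_eq_zero_of_mem_adjoin (hs : θ s ≠ 0) {c : L} (hc : c ∈ k⟮s⟯)
    (hθc : θ c = 0) : ∃ b ∈ k⟮s⟯, b ^ p = c := by
  have hpr : p.Prime := Fact.out
  have : PerfectField k := PerfectRing.toPerfectField k p
  have htr : Transcendental k s := transcendental_of_deriv_ne_zero θ hs
  obtain ⟨f, g, rfl⟩ := (mem_adjoin_simple_iff k c).1 hc
  by_cases hg : aeval s g = 0
  · refine ⟨0, zero_mem _, ?_⟩
    rw [hg, div_zero, zero_pow hpr.ne_zero]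
  -- the polynomial identity `f' g - f g' = 0`
  have hpoly : derivative f * g - f * derivative g = 0 := by
    by_contra hne
    apply htr
    refine ⟨_, hne, ?_⟩
    have h1 := hθc
    rw [Derivation.leibniz_div, Derivation.map_aeval, Derivation.map_aeval, smul_eq_mul,
      smul_eq_mul, smul_eq_mul, smul_eq_mul, smul_eq_mul] at h1
    have h2 : aeval s g * (aeval s (derivative f) * θ s) -
        aeval s f * (aeval s (derivative g) * θ s) = 0 := by
      rcases mul_eq_zero.1 h1 with h | h
      · exact absurd (inv_eq_zero.1 ((pow_eq_zero_iff (two_ne_zero)).1 h)) hg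
      · exact h
    have h3 : (aeval s (derivative f) * aeval s g - aeval s f * aeval s (derivative g)) * θ s
        = 0 := by linear_combination h2
    rcases mul_eq_zero.1 h3 with h | h
    · rw [map_sub, map_mul, map_mul]; exact h
    · exact absurd h hs
  -- `N := f * g^(p-1)` has zero derivative
  obtain ⟨m, hm⟩ : ∃ m, p = m + 2 := ⟨p - 2, by have := hpr.two_le; omega⟩
  have hcast : ((m + 1 : ℕ) : k[X]) = -1 := by
    have : ((m + 2 : ℕ) : k[X]) = 0 := by
      rw [← hm, ← C_eq_natCast, CharP.cast_eq_zero k p, C_0]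
    have h' : ((m + 2 : ℕ) : k[X]) = ((m + 1 : ℕ) : k[X]) + 1 := by push_cast; ring
    rw [h'] at this
    linear_combination this
  have hN : derivative (f * g ^ (m + 1)) = 0 := by
    rw [derivative_mul, derivative_pow, Nat.add_sub_cancel, C_eq_natCast, hcast]
    have : derivative f * g ^ (m + 1) + f * (-1 * g ^ m * derivative g) =
        g ^ m * (derivative f * g - f * derivative g) := by ring
    rw [this, hpoly, mul_zero]
  obtain ⟨F, hF⟩ := exists_pow_eq_of_derivative_eq_zero p hN
    (fun i => by
      obtain ⟨b, hb⟩ := surjective_frobenius k p ((f * g ^ (m + 1)).coeff i)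
      exact ⟨b, by rwa [frobenius_def] at hb⟩)
  refine ⟨aeval s F / aeval s g, (mem_adjoin_simple_iff k _).2 ⟨F, g, rfl⟩, ?_⟩
  rw [div_pow, ← map_pow, hF, map_mul, map_pow, hm]
  field_simp
  ring

include p in
/-- **Separability criterion.**  `k` perfect of characteristic `p`, `θ s ≠ 0`: every element of `L`
algebraic over `k(s)` is separable over `k(s)`. -/
theorem isSeparable_adjoin_simple_of_deriv_ne_zero (hs : θ s ≠ 0) {x : L}
    (hx : IsAlgebraic (↥k⟮s⟯) x) : IsSeparable (↥k⟮s⟯) x := by
  classical
  have hpr : p.Prime := Fact.out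
  have hst : RatioStable θ s k⟮s⟯ := ratioStable_adjoin_simple hs
  let d : Derivation k (↥k⟮s⟯) (↥k⟮s⟯) := ratioDeriv hst
  let δ : Derivation k L L := (θ s)⁻¹ • θ
  let _ : Differential (↥k⟮s⟯) := ⟨d.restrictScalars ℤ⟩
  let _ : Differential L := ⟨δ.restrictScalars ℤ⟩
  have : DifferentialAlgebra (↥k⟮s⟯) L := ⟨fun c => by
    change δ ((c : L)) = ((d c : ↥k⟮s⟯) : L)
    rw [coe_ratioDeriv, div_eq_inv_mul]
    rfl⟩
  have : CharP (↥k⟮s⟯) p := charP_of_injective_algebraMap (algebraMap k (↥k⟮s⟯)).injective p
  have hint : IsIntegral (↥k⟮s⟯) x := hx.isIntegral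
  have hirr : Irreducible (minpoly (↥k⟮s⟯) x) := minpoly.irreducible hint
  have hmonic : (minpoly (↥k⟮s⟯) x).Monic := minpoly.monic hint
  rw [IsSeparable]
  by_contra hns
  have hder : derivative (minpoly (↥k⟮s⟯) x) = 0 := by
    by_contra h
    exact hns ((separable_iff_derivative_ne_zero hirr).2 h)
  have h1 := Differential.deriv_aeval_eq x (minpoly (↥k⟮s⟯) x)
  have h0 : aeval x (Differential.mapCoeffs (minpoly (↥k⟮s⟯) x)) = 0 := by
    have e1 : Differential.deriv (aeval x (minpoly (↥k⟮s⟯) x)) = 0 := by
      rw [minpoly.aeval]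
      exact map_zero (Differential.deriv (R := L))
    rw [e1, hder] at h1
    simpa using h1.symm
  -- the coefficientwise derivative of the minimal polynomial vanishes (degree drop)
  have hzero : Differential.mapCoeffs (minpoly (↥k⟮s⟯) x) = 0 := by
    by_contra hne
    have hle := minpoly.degree_le_of_ne_zero (↥k⟮s⟯) x hne h0
    have hlt : (Differential.mapCoeffs (minpoly (↥k⟮s⟯) x)).degree <
        (minpoly (↥k⟮s⟯) x).degree := by
      rw [degree_eq_natDegree hmonic.ne_zero, degree_lt_iff_coeff_zero]
      intro m hm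
      rw [Differential.coeff_mapCoeffs]
      rcases hm.eq_or_lt with h | h
      · rw [← h, coeff_natDegree, hmonic.leadingCoeff]
        exact Derivation.map_one_eq_zero (Differential.deriv (R := ↥k⟮s⟯))
      · rw [coeff_eq_zero_of_natDegree_lt h]
        exact map_zero (Differential.deriv (R := ↥k⟮s⟯))
    exact absurd hle (not_le.2 hlt)
  -- so every coefficient is a constant of `θ`, hence a `p`-th power in `k(s)`
  have hcoef : ∀ i, ∃ b : ↥k⟮s⟯, b ^ p = (minpoly (↥k⟮s⟯) x).coeff i := by
    intro i
    have hi : d ((minpoly (↥k⟮s⟯) x).coeff i) = 0 := by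
      have h3 := congrArg (fun q => coeff q i) hzero
      simp only [Differential.coeff_mapCoeffs, coeff_zero] at h3
      exact h3
    have hθ : θ (((minpoly (↥k⟮s⟯) x).coeff i : ↥k⟮s⟯) : L) = 0 := by
      have h2 := ratioDeriv_mul_eq hst hs ((minpoly (↥k⟮s⟯) x).coeff i)
      change ((d ((minpoly (↥k⟮s⟯) x).coeff i) : ↥k⟮s⟯) : L) * θ s = _ at h2
      rw [hi] at h2
      simpa using h2.symm
    obtain ⟨b, hb, hbp⟩ := exists_pow_eq_of_deriv_eq_zero_of_mem_adjoin θ p hs
      ((minpoly (↥k⟮s⟯) x).coeff i).2 hθ
    exact ⟨⟨b, hb⟩, Subtype.ext hbp⟩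
  obtain ⟨g, hg⟩ := exists_pow_eq_of_derivative_eq_zero p hder hcoef
  rw [← hg] at hirr
  exact not_irreducible_pow hpr.one_lt.ne' hirr

include p in
/-- Every intermediate field algebraic over `k(s)` is ratio-stable: `θ x / θ s ∈ κ` for `x ∈ κ`
(`k` perfect of characteristic `p`, `θ s ≠ 0`; no separability hypothesis). -/
theorem ratioStable_of_isAlgebraic (hs : θ s ≠ 0) {κ : IntermediateField k L} (hsκ : s ∈ κ)
    (halg : ∀ x ∈ κ, IsAlgebraic (↥k⟮s⟯) x) : RatioStable θ s κ :=
  ratioStable_of_isSeparable_adjoin hs hsκ fun x hx =>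
    isSeparable_adjoin_simple_of_deriv_ne_zero θ p hs (halg x hx)

end Sep

end Fermat.Agent.CA.H26
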