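import Mathlib
import Fermat.Agent.CA.H26_DerivSep

/-!
# `p`-th roots stay in an algebraic subextension; a uniformiser has nonzero derivative
(helper26; S36 derivation layer, "θ s̄ ≠ 0 for a uniformiser s̄")

Setting as in `CA/H26_DerivSep`: `k` perfect of characteristic `p`, `θ : Derivation k L L`,
`s₀ : L` with `θ s₀ ≠ 0` (think `L = k((t))`, `θ = t d/dt`, `s₀ = j̄`), `κ` an intermediate field
algebraic over `k(s₀)`.

* `mem_of_pow_mem` : `z : L`, `z ^ p ∈ κ` ⟹ `z ∈ κ`  (`z` is separable over `k(s₀)` by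
  `isSeparable_adjoin_simple_of_deriv_ne_zero`, hence over `κ`, and purely inseparable over `κ`);
* `not_exists_pow_eq_of_irreducible` : in the fraction field of a DVR, a uniformiser is not an
  `n`-th power (`n ≥ 2`);
* `deriv_ne_zero_of_irreducible` : if every `θ`-constant of `L` is a `p`-th power in `L`
  (`L = k((t))`: `θ y = 0 ⟹ y ∈ k((t^p)) = L^p`), then `θ s̄ ≠ 0` for every uniformiser `s̄` of a DVR
  `O ⊆ κ` with fraction field `κ`.
-/

set_option autoImplicit false

namespace Fermat.Agent.CA.H26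

open Polynomial IntermediateField

section PthRoot

variable {k L : Type*} [Field k] [Field L] [Algebra k L] (θ : Derivation k L L) {s₀ : L}
  (p : ℕ) [Fact p.Prime] [CharP k p] [PerfectRing k p]

include p in
/-- `p`-th roots (taken in `L`) of elements of `κ` lie in `κ`, for `κ` algebraic over `k(s₀)` with
`θ s₀ ≠ 0`. -/
theorem mem_of_pow_mem (hs : θ s₀ ≠ 0) {κ : IntermediateField k L}
    (hle : k⟮s₀⟯ ≤ κ) (halg : ∀ x ∈ κ, IsAlgebraic (↥k⟮s₀⟯) x) {z : L} (hz : z ^ p ∈ κ) :
    z ∈ κ := by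
  have hpr : p.Prime := Fact.out
  have : CharP L p := charP_of_injective_algebraMap (algebraMap k L).injective p
  -- `z` is separable over `k(s₀)`
  have hzalg : IsAlgebraic (↥k⟮s₀⟯) z := (halg _ hz).of_pow hpr.pos
  have hzsep : IsSeparable (↥k⟮s₀⟯) z :=
    isSeparable_adjoin_simple_of_deriv_ne_zero θ p hs hzalg
  -- its minimal polynomial over `κ` divides the (separable) one over `k(s₀)` ...
  let incl : (↥k⟮s₀⟯) →+* (↥κ) := (IntermediateField.inclusion hle).toRingHom
  have hdvd1 : minpoly (↥κ) z ∣ (minpoly (↥k⟮s₀⟯) z).map incl := by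
    refine minpoly.dvd _ _ ?_
    rw [aeval_def, eval₂_map]
    have : (algebraMap (↥κ) L).comp incl = algebraMap (↥k⟮s₀⟯) L := by
      ext x
      rfl
    rw [this, ← aeval_def, minpoly.aeval]
  have hsepκ : (minpoly (↥κ) z).Separable := (Separable.map hzsep).of_dvd hdvd1
  -- ... and `(X - z)^p`
  have hdvd2 : minpoly (↥κ) z ∣ X ^ p - C (⟨z ^ p, hz⟩ : ↥κ) := by
    refine minpoly.dvd _ _ ?_
    simp
  have hdvd3 : (minpoly (↥κ) z).map (algebraMap (↥κ) L) ∣ (X - C z) ^ p := by
    have h := Polynomial.map_dvd (algebraMap (↥κ) L) hdvd2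
    have e : (X ^ p - C (⟨z ^ p, hz⟩ : ↥κ)).map (algebraMap (↥κ) L) = (X - C z) ^ p := by
      rw [sub_pow_char, Polynomial.map_sub, Polynomial.map_pow, map_X, map_C, ← C_pow]
      rfl
    rwa [e] at h
  have hsq : Squarefree ((minpoly (↥κ) z).map (algebraMap (↥κ) L)) :=
    (Separable.map hsepκ).squarefree
  have hdvd4 : (minpoly (↥κ) z).map (algebraMap (↥κ) L) ∣ X - C z :=
    (hsq.dvd_pow_iff_dvd hpr.ne_zero).1 hdvd3
  have hint : IsIntegral (↥κ) z := by
    refine ⟨X ^ p - C (⟨z ^ p, hz⟩ : ↥κ), monic_X_pow_sub_C _ hpr.ne_zero, ?_⟩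
    simp
  have hdeg : (minpoly (↥κ) z).degree = 1 := by
    have h1 : ((minpoly (↥κ) z).map (algebraMap (↥κ) L)).degree ≤ (X - C z).degree :=
      degree_le_of_dvd hdvd4 (X_sub_C_ne_zero z)
    rw [degree_map, degree_X_sub_C] at h1
    have h2 : 0 < (minpoly (↥κ) z).degree := minpoly.degree_pos hint
    have h3 : (minpoly (↥κ) z).degree = (minpoly (↥κ) z).natDegree :=
      degree_eq_natDegree (minpoly.ne_zero hint)
    rw [h3] at h1 h2 ⊢
    have h1' : (minpoly (↥κ) z).natDegree ≤ 1 := by exact_mod_cast h1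
    have h2' : 0 < (minpoly (↥κ) z).natDegree := by exact_mod_cast h2
    have : (minpoly (↥κ) z).natDegree = 1 := le_antisymm h1' h2'
    rw [this]
    rfl
  obtain ⟨y, hy⟩ := minpoly.mem_range_of_degree_eq_one (↥κ) z hdeg
  rw [← hy]
  exact y.2

end PthRoot

section Uniformiser

variable {O κ : Type*} [CommRing O] [IsDomain O] [IsDiscreteValuationRing O]
  [Field κ] [Algebra O κ] [IsFractionRing O κ]

/-- In the fraction field of a DVR a uniformiser is not an `n`-th power, `n ≥ 2`. -/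
theorem not_exists_pow_eq_of_irreducible {s : O} (hs : Irreducible s) {n : ℕ} (hn : 2 ≤ n) :
    ¬ ∃ z : κ, z ^ n = algebraMap O κ s := by
  rintro ⟨z, hz⟩
  have hs0 : algebraMap O κ s ≠ 0 := by
    simpa using (IsFractionRing.injective O κ).ne hs.ne_zero
  have hz0 : z ≠ 0 := by
    rintro rfl
    rw [zero_pow (by omega)] at hz
    exact hs0 hz.symm
  -- `z` or `z⁻¹` is integral (valuation ring)
  rcases ValuationRing.isInteger_or_isInteger O z with ⟨w, hw⟩ | ⟨w, hw⟩
  · -- `z = w ∈ O`: then `w ^ n = s` is irreducible, impossible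
    have : w ^ n = s := by
      apply IsFractionRing.injective O κ
      rw [map_pow, hw, hz]
    rw [← this] at hs
    exact not_irreducible_pow (by omega) hs
  · -- `z⁻¹ = w ∈ O`: then `s * w ^ n = 1`, so `s` is a unit
    have : s * w ^ n = 1 := by
      apply IsFractionRing.injective O κ
      rw [map_mul, map_pow, hw, ← hz, map_one, ← mul_pow, mul_inv_cancel₀ hz0, one_pow]
    exact hs.not_isUnit (IsUnit.of_mul_eq_one _ this)

end Uniformiser

section Combined

variable {k L : Type*} [Field k] [Field L] [Algebra k L] (θ : Derivation k L L) {s₀ : L}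
  (p : ℕ) [Fact p.Prime] [CharP k p] [PerfectRing k p]

include p in
/-- **A uniformiser has nonzero derivative.**  `κ ⊆ L` algebraic over `k(s₀)`, `θ s₀ ≠ 0`, every
`θ`-constant of `L` a `p`-th power in `L`; `O` a DVR with fraction field (the type) `↥κ`.  Then
`θ s ≠ 0` for every uniformiser `s` of `O`. -/
theorem deriv_ne_zero_of_irreducible (hs₀ : θ s₀ ≠ 0) {κ : IntermediateField k L}
    (hle : k⟮s₀⟯ ≤ κ) (halg : ∀ x ∈ κ, IsAlgebraic (↥k⟮s₀⟯) x)
    (hconst : ∀ y : L, θ y = 0 → ∃ z : L, z ^ p = y)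
    {O : Type*} [CommRing O] [IsDomain O] [IsDiscreteValuationRing O] [Algebra O (↥κ)]
    [IsFractionRing O (↥κ)] {s : O} (hs : Irreducible s) :
    θ ((algebraMap O (↥κ) s : ↥κ) : L) ≠ 0 := by
  have hpr : p.Prime := Fact.out
  intro h0
  obtain ⟨z, hz⟩ := hconst _ h0
  have hzκ : z ∈ κ := by
    refine mem_of_pow_mem θ p hs₀ hle halg ?_
    rw [hz]
    exact (algebraMap O (↥κ) s).2
  exact not_exists_pow_eq_of_irreducible (κ := ↥κ) hs hpr.two_le
    ⟨⟨z, hzκ⟩, Subtype.ext (by simpa using hz)⟩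

end Combined

end Fermat.Agent.CA.H26
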