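import Mathlib

/-!
# Descending reduction maps along a base change with the same special fibre (helper27)

`ψ : B₁ →+* B`, `π : B` with `B = ψ(B₁) + π B` (`hdec`), e.g. `B₁` a chart over a DVR `A₁`,
`B = B₁·A''` the chart over a bigger DVR `A''` with the same residue field and uniformiser `π`
(`CA.H79.exists_add_mul_of_mem_genRing`, `S34.H70.exists_add_mul_of_adjoin_eq_top`).

A ring hom `red : B₁ →+* R` killing `ψ⁻¹(π B)` (`hker`) descends uniquely to
`redE : B →+* R` with `redE ∘ ψ = red`, `redE π = 0`: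

* `redE_eq`        : `redE z = red b` for ANY decomposition `z = ψ b + π z'`;
* `redE_map`       : intertwining with (semilinear) endomorphisms is inherited:
  `red ∘ Φ₁ = PhiR ∘ red`, `Φ ∘ ψ = ψ ∘ Φ₁`, `π ∣ Φ π` ⟹ `redE ∘ Φ = PhiR ∘ redE`;
* `dvd_of_redE_eq_zero` : with two reductions, `ker red₁ ∩ ker red₂ = (q₁)` and `π ∣ ψ q₁`
  ⟹ `ker redE₁ ∩ ker redE₂ = (π)`;
* `eq_ker_of_mem_minimalPrimes` : (`R` a domain) every minimal prime over `π` is `ker redE₁` or
  `ker redE₂`  (the vertical primes of `B` are the two components);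
* `stable_of_mem_minimalPrimes` : every minimal prime over `π` is stable under `Φ`
  (= the `hstab` field of `S35.H46.ChartFrob`), and `stable_ker` for a single kernel.
-/

set_option autoImplicit false

namespace Fermat.Agent.CA.H27

section Descend

variable {B₁ B R : Type*} [CommRing B₁] [CommRing B] [CommRing R]
  (ψ : B₁ →+* B) (π : B)
  (hdec : ∀ z : B, ∃ b : B₁, ∃ z' : B, z = ψ b + π * z')
  (red : B₁ →+* R) (hker : ∀ b : B₁, π ∣ ψ b → red b = 0)

include hker in
/-- two decompositions of the same element have the same reduction. -/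
theorem red_eq_of_decomp {z : B} {b b' : B₁} {z' z'' : B} (h : z = ψ b + π * z')
    (h' : z = ψ b' + π * z'') : red b = red b' := by
  have h1 : π ∣ ψ (b - b') := by
    refine ⟨z'' - z', ?_⟩
    rw [map_sub]
    have : ψ b - ψ b' = (ψ b + π * z') - (ψ b' + π * z'') + π * (z'' - z') := by ring
    rw [this, ← h, ← h', sub_self, zero_add]
  have h2 := hker _ h1
  rw [map_sub, sub_eq_zero] at h2
  exact h2

/-- the underlying function of `redE`. -/
noncomputable def redEFun (z : B) : R := red (hdec z).choose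

include hker in
theorem redEFun_eq {z : B} {b : B₁} {z' : B} (h : z = ψ b + π * z') :
    redEFun ψ π hdec red z = red b := by
  obtain ⟨z0, hz0⟩ := (hdec z).choose_spec
  exact red_eq_of_decomp ψ π red hker hz0 h

/-- **The descended reduction map** `B →+* R`. -/
noncomputable def redE : B →+* R where
  toFun := redEFun ψ π hdec red
  map_one' := by
    have h : (1 : B) = ψ 1 + π * 0 := by rw [map_one, mul_zero, add_zero]
    rw [redEFun_eq ψ π hdec red hker h, map_one]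
  map_zero' := by
    have h : (0 : B) = ψ 0 + π * 0 := by rw [map_zero, mul_zero, add_zero]
    rw [redEFun_eq ψ π hdec red hker h, map_zero]
  map_add' x y := by
    obtain ⟨x0, hx0⟩ := (hdec x).choose_spec
    obtain ⟨y0, hy0⟩ := (hdec y).choose_spec
    have h : x + y = ψ ((hdec x).choose + (hdec y).choose) + π * (x0 + y0) := by
      rw [map_add]
      calc x + y = (ψ (hdec x).choose + π * x0) + (ψ (hdec y).choose + π * y0) := by
            rw [← hx0, ← hy0]
        _ = _ := by ring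
    rw [redEFun_eq ψ π hdec red hker h, map_add]
    rfl
  map_mul' x y := by
    obtain ⟨x0, hx0⟩ := (hdec x).choose_spec
    obtain ⟨y0, hy0⟩ := (hdec y).choose_spec
    have h : x * y = ψ ((hdec x).choose * (hdec y).choose) +
        π * (ψ (hdec x).choose * y0 + x0 * ψ (hdec y).choose + π * x0 * y0) := by
      rw [map_mul]
      calc x * y = (ψ (hdec x).choose + π * x0) * (ψ (hdec y).choose + π * y0) := by
            rw [← hx0, ← hy0]
        _ = _ := by ring
    rw [redEFun_eq ψ π hdec red hker h, map_mul]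
    rfl

/-- **`redE z = red b` for any decomposition `z = ψ b + π z'`.** -/
theorem redE_eq {z : B} {b : B₁} {z' : B} (h : z = ψ b + π * z') :
    redE ψ π hdec red hker z = red b :=
  redEFun_eq ψ π hdec red hker h

@[simp] theorem redE_comp (b : B₁) : redE ψ π hdec red hker (ψ b) = red b :=
  redE_eq ψ π hdec red hker (by rw [mul_zero, add_zero])

@[simp] theorem redE_pi : redE ψ π hdec red hker π = 0 := by
  have h : π = ψ 0 + π * 1 := by rw [map_zero, zero_add, mul_one]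
  rw [redE_eq ψ π hdec red hker h, map_zero]

theorem redE_eq_zero_of_dvd {z : B} (h : π ∣ z) : redE ψ π hdec red hker z = 0 := by
  obtain ⟨c, rfl⟩ := h
  rw [map_mul, redE_pi, zero_mul]

theorem redE_surjective (hred : Function.Surjective red) :
    Function.Surjective (redE ψ π hdec red hker) := fun r => by
  obtain ⟨b, rfl⟩ := hred r
  exact ⟨ψ b, redE_comp ψ π hdec red hker b⟩

/-- uniqueness: a ring hom `B →+* R` extending `red` and killing `π` is `redE`. -/
theorem eq_redE (ρ : B →+* R) (hρψ : ∀ b, ρ (ψ b) = red b) (hρπ : ρ π = 0) :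
    ρ = redE ψ π hdec red hker := by
  ext z
  obtain ⟨b, z', h⟩ := hdec z
  rw [redE_eq ψ π hdec red hker h, h, map_add, map_mul, hρπ, zero_mul, add_zero, hρψ]

/-- **Intertwining is inherited.** -/
theorem redE_map (Φ : B →+* B) (Φ₁ : B₁ →+* B₁) (PhiR : R →+* R)
    (hΦψ : ∀ b, Φ (ψ b) = ψ (Φ₁ b)) (hΦπ : π ∣ Φ π)
    (hint : ∀ b, red (Φ₁ b) = PhiR (red b)) (z : B) :
    redE ψ π hdec red hker (Φ z) = PhiR (redE ψ π hdec red hker z) := by
  obtain ⟨b, z', h⟩ := hdec z
  obtain ⟨c, hc⟩ := hΦπ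
  have h' : Φ z = ψ (Φ₁ b) + π * (c * Φ z') := by
    rw [h, map_add, map_mul, hΦψ, hc]; ring
  rw [redE_eq ψ π hdec red hker h', redE_eq ψ π hdec red hker h, hint]

/-- **a single kernel is stable** under `Φ` when `PhiR` is injective. -/
theorem stable_ker (Φ : B →+* B) (Φ₁ : B₁ →+* B₁) (PhiR : R →+* R)
    (hPhiR : Function.Injective PhiR)
    (hΦψ : ∀ b, Φ (ψ b) = ψ (Φ₁ b)) (hΦπ : π ∣ Φ π)
    (hint : ∀ b, red (Φ₁ b) = PhiR (red b)) (z : B) :
    Φ z ∈ RingHom.ker (redE ψ π hdec red hker) ↔ z ∈ RingHom.ker (redE ψ π hdec red hker) := by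
  rw [RingHom.mem_ker, RingHom.mem_ker, redE_map ψ π hdec red hker Φ Φ₁ PhiR hΦψ hΦπ hint,
    map_eq_zero_iff PhiR hPhiR]

end Descend

section Two

variable {B₁ B R : Type*} [CommRing B₁] [CommRing B] [CommRing R]
  (ψ : B₁ →+* B) (π : B)
  (hdec : ∀ z : B, ∃ b : B₁, ∃ z' : B, z = ψ b + π * z')
  (red₁ red₂ : B₁ →+* R)
  (hker₁ : ∀ b : B₁, π ∣ ψ b → red₁ b = 0) (hker₂ : ∀ b : B₁, π ∣ ψ b → red₂ b = 0)

/-- **`ker redE₁ ∩ ker redE₂ = (π)`** from `ker red₁ ∩ ker red₂ = (q₁)`, `π ∣ ψ q₁`. -/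
theorem dvd_of_redE_eq_zero (q₁ : B₁) (h3 : π ∣ ψ q₁)
    (hinf : ∀ b : B₁, red₁ b = 0 → red₂ b = 0 → q₁ ∣ b) {z : B}
    (h₁ : redE ψ π hdec red₁ hker₁ z = 0) (h₂ : redE ψ π hdec red₂ hker₂ z = 0) : π ∣ z := by
  obtain ⟨b, z', h⟩ := hdec z
  rw [redE_eq ψ π hdec red₁ hker₁ h] at h₁
  rw [redE_eq ψ π hdec red₂ hker₂ h] at h₂
  obtain ⟨c, rfl⟩ := hinf b h₁ h₂
  rw [h, map_mul]
  exact dvd_add (Dvd.dvd.mul_right h3 _) (dvd_mul_right π z')

variable [IsDomain R]

/-- **the vertical primes are the two components**: every minimal prime over `π` is the kernel of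
one of the two descended reductions. -/
theorem eq_ker_of_mem_minimalPrimes (q₁ : B₁) (h3 : π ∣ ψ q₁)
    (hinf : ∀ b : B₁, red₁ b = 0 → red₂ b = 0 → q₁ ∣ b)
    {P : Ideal B} (hP : P ∈ (Ideal.span {π} : Ideal B).minimalPrimes) :
    P = RingHom.ker (redE ψ π hdec red₁ hker₁) ∨ P = RingHom.ker (redE ψ π hdec red₂ hker₂) := by
  have hPprime : P.IsPrime := hP.1.1
  have hπP : π ∈ P := hP.1.2 (Ideal.mem_span_singleton_self π)
  have hle : RingHom.ker (redE ψ π hdec red₁ hker₁) * RingHom.ker (redE ψ π hdec red₂ hker₂) ≤ P := by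
    refine le_trans Ideal.mul_le_inf ?_
    intro z hz
    obtain ⟨c, rfl⟩ := dvd_of_redE_eq_zero ψ π hdec red₁ red₂ hker₁ hker₂ q₁ h3 hinf
      (RingHom.mem_ker.1 hz.1) (RingHom.mem_ker.1 hz.2)
    exact P.mul_mem_right _ hπP
  have hπk₁ : Ideal.span {π} ≤ RingHom.ker (redE ψ π hdec red₁ hker₁) := by
    rw [Ideal.span_le, Set.singleton_subset_iff]
    exact RingHom.mem_ker.2 (redE_pi ψ π hdec red₁ hker₁)
  have hπk₂ : Ideal.span {π} ≤ RingHom.ker (redE ψ π hdec red₂ hker₂) := by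
    rw [Ideal.span_le, Set.singleton_subset_iff]
    exact RingHom.mem_ker.2 (redE_pi ψ π hdec red₂ hker₂)
  rcases (Ideal.IsPrime.mul_le hPprime).1 hle with h | h
  · left
    exact le_antisymm (hP.2 ⟨RingHom.ker_isPrime _, hπk₁⟩ h) h
  · right
    exact le_antisymm (hP.2 ⟨RingHom.ker_isPrime _, hπk₂⟩ h) h

include hdec hker₁ hker₂ in
/-- **`hstab`**: every minimal prime over `π` is stable under a ring endomorphism `Φ` of `B` which
is compatible with `Φ₁` on `B₁`, preserves `(π)`, and whose action is intertwined by both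
reductions with an injective `PhiR`. -/
theorem stable_of_mem_minimalPrimes (q₁ : B₁) (h3 : π ∣ ψ q₁)
    (hinf : ∀ b : B₁, red₁ b = 0 → red₂ b = 0 → q₁ ∣ b)
    (Φ : B →+* B) (Φ₁ : B₁ →+* B₁) (PhiR : R →+* R) (hPhiR : Function.Injective PhiR)
    (hΦψ : ∀ b, Φ (ψ b) = ψ (Φ₁ b)) (hΦπ : π ∣ Φ π)
    (hint₁ : ∀ b, red₁ (Φ₁ b) = PhiR (red₁ b)) (hint₂ : ∀ b, red₂ (Φ₁ b) = PhiR (red₂ b))
    {P : Ideal B} (hP : P ∈ (Ideal.span {π} : Ideal B).minimalPrimes) (z : B) :
    Φ z ∈ P ↔ z ∈ P := by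
  rcases eq_ker_of_mem_minimalPrimes ψ π hdec red₁ red₂ hker₁ hker₂ q₁ h3 hinf hP with h | h
  · rw [h]
    exact stable_ker ψ π hdec red₁ hker₁ Φ Φ₁ PhiR hPhiR hΦψ hΦπ hint₁ z
  · rw [h]
    exact stable_ker ψ π hdec red₂ hker₂ Φ Φ₁ PhiR hPhiR hΦψ hΦπ hint₂ z

end Two

section Same

/-! ### The case `B₁ = B` (no base change): kernels of intertwined reductions are stable -/

variable {B R : Type*} [CommRing B] [CommRing R]

theorem stable_ker_of_intertwine (red : B →+* R) (Φ : B →+* B) (PhiR : R →+* R)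
    (hPhiR : Function.Injective PhiR) (hint : ∀ b, red (Φ b) = PhiR (red b)) (z : B) :
    Φ z ∈ RingHom.ker red ↔ z ∈ RingHom.ker red := by
  rw [RingHom.mem_ker, RingHom.mem_ker, hint, map_eq_zero_iff PhiR hPhiR]

/-- every minimal prime over `q` is `ker red₁` or `ker red₂` when `ker red₁ ∩ ker red₂ = (q)`. -/
theorem eq_ker_of_mem_minimalPrimes_same [IsDomain R] (red₁ red₂ : B →+* R) (q : B)
    (hq₁ : red₁ q = 0) (hq₂ : red₂ q = 0)
    (hinf : ∀ b : B, red₁ b = 0 → red₂ b = 0 → q ∣ b)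
    {P : Ideal B} (hP : P ∈ (Ideal.span {q} : Ideal B).minimalPrimes) :
    P = RingHom.ker red₁ ∨ P = RingHom.ker red₂ := by
  have hPprime : P.IsPrime := hP.1.1
  have hqP : q ∈ P := hP.1.2 (Ideal.mem_span_singleton_self q)
  have hle : RingHom.ker red₁ * RingHom.ker red₂ ≤ P := by
    refine le_trans Ideal.mul_le_inf ?_
    intro z hz
    obtain ⟨c, rfl⟩ := hinf z (RingHom.mem_ker.1 hz.1) (RingHom.mem_ker.1 hz.2)
    exact P.mul_mem_right _ hqP
  have hk₁ : Ideal.span {q} ≤ RingHom.ker red₁ := by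
    rw [Ideal.span_le, Set.singleton_subset_iff]; exact RingHom.mem_ker.2 hq₁
  have hk₂ : Ideal.span {q} ≤ RingHom.ker red₂ := by
    rw [Ideal.span_le, Set.singleton_subset_iff]; exact RingHom.mem_ker.2 hq₂
  rcases (Ideal.IsPrime.mul_le hPprime).1 hle with h | h
  · left
    exact le_antisymm (hP.2 ⟨RingHom.ker_isPrime _, hk₁⟩ h) h
  · right
    exact le_antisymm (hP.2 ⟨RingHom.ker_isPrime _, hk₂⟩ h) h

/-- `hstab` without base change. -/
theorem stable_of_mem_minimalPrimes_same [IsDomain R] (red₁ red₂ : B →+* R) (q : B)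
    (hq₁ : red₁ q = 0) (hq₂ : red₂ q = 0)
    (hinf : ∀ b : B, red₁ b = 0 → red₂ b = 0 → q ∣ b)
    (Φ : B →+* B) (PhiR : R →+* R) (hPhiR : Function.Injective PhiR)
    (hint₁ : ∀ b, red₁ (Φ b) = PhiR (red₁ b)) (hint₂ : ∀ b, red₂ (Φ b) = PhiR (red₂ b))
    {P : Ideal B} (hP : P ∈ (Ideal.span {q} : Ideal B).minimalPrimes) (z : B) :
    Φ z ∈ P ↔ z ∈ P := by
  rcases eq_ker_of_mem_minimalPrimes_same red₁ red₂ q hq₁ hq₂ hinf hP with h | h
  · rw [h]; exact stable_ker_of_intertwine red₁ Φ PhiR hPhiR hint₁ z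
  · rw [h]; exact stable_ker_of_intertwine red₂ Φ PhiR hPhiR hint₂ z

end Same

end Fermat.Agent.CA.H27
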