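import Mathlib
import Fermat.Agent.CA.H99_TwoPlacesThm

/-!
# Automorphisms and places (`PlaceOver` vocabulary of `CA.H99_TwoPlaces`)

`P : PlaceOver ϖ θ ι θb` a place of `L` over `O` with reduction `res1 : O1 →+* Fk`.
Let `s : L →+* L` be a ring endomorphism of `L` which is semilinear over a ring endomorphism
`sO` of `O`, fixes the generator `θ`, and let `τ : Fk →+* Fk` be a ring endomorphism of the residue
side with `τ ∘ ι = ι ∘ sO`, `τ θb = θb`.  Then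

* `PlaceOver.map_mem`   : `s` maps `P.O1` into itself;
* `PlaceOver.res1_map`  : `res1 (s y) = τ (res1 y)`  (reduction intertwines `s` and `τ`);
* `PlaceOver.map_mem_iff` : for a ring automorphism `s` (with the same data for `s.symm`),
  `s y ∈ P.O1 ↔ y ∈ P.O1`, i.e. `s (P.O1) = P.O1`.

No uniqueness-of-places argument is used: the proof is the fraction representation
`P.exists_repr` (`y · s₀(θ) = a₀(θ)`, `s̄₀(θb) ≠ 0`).
-/

set_option autoImplicit false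

open Polynomial

namespace Fermat.Agent.CA.H27

open Fermat.Agent.CA.H99

namespace PlaceOver

variable {O : Type*} [CommRing O] {L : Type*} [Field L] [Algebra O L] {Fk : Type*} [Field Fk]
  {ϖ : O} {θ : L} {ι : O →+* Fk} {θb : Fk} (P : H99.PlaceOver ϖ θ ι θb)

/-- `s (p(θ)) = (sO · p)(θ)` for a semilinear ring endomorphism fixing `θ`. -/
theorem map_aeval (s : L →+* L) (sO : O →+* O)
    (hsO : ∀ a : O, s (algebraMap O L a) = algebraMap O L (sO a)) (hsθ : s θ = θ) (p : O[X]) :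
    s (aeval θ p) = aeval θ (p.map sO) := by
  rw [aeval_def, aeval_def, Polynomial.hom_eval₂, Polynomial.eval₂_map, hsθ]
  congr 1
  ext a
  exact hsO a

/-- `τ (p^ι(θb)) = (sO · p)^ι(θb)`. -/
theorem map_eval₂ (sO : O →+* O) (τ : Fk →+* Fk) (hτ : ∀ a : O, τ (ι a) = ι (sO a))
    (hτθ : τ θb = θb) (p : O[X]) :
    τ (p.eval₂ ι θb) = (p.map sO).eval₂ ι θb := by
  rw [Polynomial.hom_eval₂, Polynomial.eval₂_map, hτθ]
  congr 1
  ext a
  exact hτ a

/-- a polynomial expression in `θ` with nonzero residue is a unit of `O1`. -/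
theorem inv_aeval_mem (p : O[X]) (hp : p.eval₂ ι θb ≠ 0) : (aeval θ p)⁻¹ ∈ P.O1 := by
  apply P.inv_mem _ (P.aeval_mem p)
  rw [P.res1_aeval]
  exact hp

include P in
theorem aeval_ne_zero_of_eval₂_ne_zero (p : O[X]) (hp : p.eval₂ ι θb ≠ 0) : aeval θ p ≠ 0 := by
  intro h0
  apply hp
  rw [← P.res1_aeval p]
  have : (⟨aeval θ p, P.aeval_mem p⟩ : P.O1) = 0 := Subtype.ext h0
  rw [this, map_zero]

/-- **`s` preserves the valuation ring of the place.** -/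
theorem map_mem (s : L →+* L) (sO : O →+* O)
    (hsO : ∀ a : O, s (algebraMap O L a) = algebraMap O L (sO a)) (hsθ : s θ = θ)
    (τ : Fk →+* Fk) (hτ : ∀ a : O, τ (ι a) = ι (sO a)) (hτθ : τ θb = θb)
    {y : L} (hy : y ∈ P.O1) : s y ∈ P.O1 := by
  obtain ⟨a, d, hd, e⟩ := P.exists_repr y hy
  have hd' : (d.map sO).eval₂ ι θb ≠ 0 := by
    rw [← map_eval₂ sO τ hτ hτθ]
    exact (map_ne_zero τ).2 hd
  have e' : s y * aeval θ (d.map sO) = aeval θ (a.map sO) := by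
    rw [← map_aeval s sO hsO hsθ, ← map_aeval s sO hsO hsθ, ← map_mul, e]
  have hne : aeval θ (d.map sO) ≠ 0 := aeval_ne_zero_of_eval₂_ne_zero P _ hd'
  have : s y = aeval θ (a.map sO) * (aeval θ (d.map sO))⁻¹ := by
    rw [← e', mul_assoc, mul_inv_cancel₀ hne, mul_one]
  rw [this]
  exact P.O1.mul_mem (P.aeval_mem _) (inv_aeval_mem P _ hd')

/-- **reduction intertwines `s` and `τ`.** -/
theorem res1_map (s : L →+* L) (sO : O →+* O)
    (hsO : ∀ a : O, s (algebraMap O L a) = algebraMap O L (sO a)) (hsθ : s θ = θ)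
    (τ : Fk →+* Fk) (hτ : ∀ a : O, τ (ι a) = ι (sO a)) (hτθ : τ θb = θb)
    {y : L} (hy : y ∈ P.O1) :
    P.res1 ⟨s y, map_mem P s sO hsO hsθ τ hτ hτθ hy⟩ = τ (P.res1 ⟨y, hy⟩) := by
  obtain ⟨a, d, hd, e⟩ := P.exists_repr y hy
  have hd' : (d.map sO).eval₂ ι θb ≠ 0 := by
    rw [← map_eval₂ sO τ hτ hτθ]
    exact (map_ne_zero τ).2 hd
  have e' : s y * aeval θ (d.map sO) = aeval θ (a.map sO) := by
    rw [← map_aeval s sO hsO hsθ, ← map_aeval s sO hsO hsθ, ← map_mul, e]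
  have hsy := map_mem P s sO hsO hsθ τ hτ hτθ hy
  -- residues of the two fraction identities
  have r1 : P.res1 ⟨y, hy⟩ * d.eval₂ ι θb = a.eval₂ ι θb := by
    rw [← P.res1_aeval d, ← P.res1_aeval a, ← map_mul]
    exact P.res1_congr _ _ e
  have r2 : P.res1 ⟨s y, hsy⟩ * (d.map sO).eval₂ ι θb = (a.map sO).eval₂ ι θb := by
    rw [← P.res1_aeval (d.map sO), ← P.res1_aeval (a.map sO), ← map_mul]
    exact P.res1_congr _ _ e'
  have r3 : τ (P.res1 ⟨y, hy⟩) * (d.map sO).eval₂ ι θb = (a.map sO).eval₂ ι θb := by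
    rw [← map_eval₂ sO τ hτ hτθ, ← map_eval₂ sO τ hτ hτθ, ← map_mul, r1]
  exact mul_right_cancel₀ hd' (r2.trans r3.symm)

/-- **`s (P.O1) = P.O1`** for a ring automorphism `s` (data for `s` and for `s.symm`). -/
theorem map_mem_iff (s : L ≃+* L) (sO sO' : O →+* O)
    (hsO : ∀ a : O, s (algebraMap O L a) = algebraMap O L (sO a))
    (hsO' : ∀ a : O, s.symm (algebraMap O L a) = algebraMap O L (sO' a)) (hsθ : s θ = θ)
    (τ τ' : Fk →+* Fk) (hτ : ∀ a : O, τ (ι a) = ι (sO a)) (hτ' : ∀ a : O, τ' (ι a) = ι (sO' a))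
    (hτθ : τ θb = θb) (hτ'θ : τ' θb = θb) {y : L} : s y ∈ P.O1 ↔ y ∈ P.O1 := by
  constructor
  · intro h
    have hsθ' : s.symm θ = θ := by
      rw [RingEquiv.symm_apply_eq, hsθ]
    have := map_mem P (s.symm : L →+* L) sO' hsO' hsθ' τ' hτ' hτ'θ h
    simpa using this
  · intro h
    exact map_mem P (s : L →+* L) sO hsO hsθ τ hτ hτθ h

/-- units of `O1` go to units of `O1`: if `y, y⁻¹ ∈ P.O1` then `(s y)⁻¹ ∈ P.O1`. -/
theorem map_inv_mem (s : L →+* L) (sO : O →+* O)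
    (hsO : ∀ a : O, s (algebraMap O L a) = algebraMap O L (sO a)) (hsθ : s θ = θ)
    (τ : Fk →+* Fk) (hτ : ∀ a : O, τ (ι a) = ι (sO a)) (hτθ : τ θb = θb)
    {y : L} (hy : y⁻¹ ∈ P.O1) : (s y)⁻¹ ∈ P.O1 := by
  rw [← map_inv₀]
  exact map_mem P s sO hsO hsθ τ hτ hτθ hy

/-- the residue of `s y / y`-type ratios: `res1 (s y) = τ (res1 y)` in the form used for ratios
`res1 (s y * y⁻¹) = τ (res1 y) * (res1 y)⁻¹` (for `y` a unit of `O1`). -/
theorem res1_map_mul_inv (s : L →+* L) (sO : O →+* O)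
    (hsO : ∀ a : O, s (algebraMap O L a) = algebraMap O L (sO a)) (hsθ : s θ = θ)
    (τ : Fk →+* Fk) (hτ : ∀ a : O, τ (ι a) = ι (sO a)) (hτθ : τ θb = θb)
    {y : L} (hy : y ∈ P.O1) (hy' : y⁻¹ ∈ P.O1) (hy0 : y ≠ 0) :
    P.res1 ⟨s y * y⁻¹, P.O1.mul_mem (map_mem P s sO hsO hsθ τ hτ hτθ hy) hy'⟩ =
      τ (P.res1 ⟨y, hy⟩) * (P.res1 ⟨y, hy⟩)⁻¹ := by
  have h1 : (⟨s y * y⁻¹, P.O1.mul_mem (map_mem P s sO hsO hsθ τ hτ hτθ hy) hy'⟩ : P.O1) =
      ⟨s y, map_mem P s sO hsO hsθ τ hτ hτθ hy⟩ * ⟨y⁻¹, hy'⟩ := rfl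
  rw [h1, map_mul, res1_map P s sO hsO hsθ τ hτ hτθ hy]
  congr 1
  have h2 : P.res1 ⟨y, hy⟩ * P.res1 ⟨y⁻¹, hy'⟩ = 1 := by
    rw [← map_mul]
    have : (⟨y, hy⟩ : P.O1) * ⟨y⁻¹, hy'⟩ = 1 := Subtype.ext (mul_inv_cancel₀ hy0)
    rw [this, map_one]
  exact eq_inv_of_mul_eq_one_right h2

end PlaceOver

end Fermat.Agent.CA.H27
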