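/-
S36 bricks (Der-3) and (Der-4) of coordination note 3 (helper78), Mathlib only.

`K ⊆ F` fields of characteristic zero, `v` a valuation on `F` whose valuation ring contains `K`,
with residue field algebraic over `K` (stated elementwise), a uniformiser `π` (generator of the
maximal ideal, archimedean), and a `K`-derivation `δ` of `F` with bounded poles on the valuation
ring and `δ π` integral.  Then `δ` preserves the valuation ring (Der-3).  If moreover `δ s = 1`
for some integral `s`, then `δ π` is a unit and `δ` lowers the order of every non-unit by exactly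
one (Der-4).

Core statements are for an arbitrary valuation; wrappers for a `ValuationSubring` that is a
discrete valuation ring are at the end.
-/
import Mathlib

set_option autoImplicit false

namespace Fermat.Agent.CA.H32

open Polynomial

section Core

variable {K F Γ : Type*} [Field K] [Field F] [Algebra K F] [CharZero K]
  [LinearOrderedCommGroupWithZero Γ] (v : Valuation F Γ)

omit [CharZero K] in
/-- Constants from `K` are units of the valuation ring. -/
theorem val_algebraMap_eq_one (hK : ∀ c : K, v (algebraMap K F c) ≤ 1) {c : K} (hc : c ≠ 0) :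
    v (algebraMap K F c) = 1 := by
  refine le_antisymm (hK c) ?_
  have h1 : v (algebraMap K F c) * v (algebraMap K F c⁻¹) = 1 := by
    rw [← map_mul, ← map_mul, mul_inv_cancel₀ hc, map_one, map_one]
  have h2 := hK c⁻¹
  by_contra hlt
  have hlt' : v (algebraMap K F c) < 1 := lt_of_not_ge hlt
  have hne : v (algebraMap K F c⁻¹) ≠ 0 := by
    intro h0
    rw [h0, mul_zero] at h1
    exact zero_ne_one h1
  have : v (algebraMap K F c) * v (algebraMap K F c⁻¹) < 1 := by
    calc v (algebraMap K F c) * v (algebraMap K F c⁻¹)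
        ≤ v (algebraMap K F c) * 1 := by gcongr
      _ = v (algebraMap K F c) := mul_one _
      _ < 1 := hlt'
  exact absurd h1 this.ne

omit [CharZero K] in
/-- Polynomials with coefficients in `K` map integral elements to integral elements. -/
theorem val_aeval_le_one (hK : ∀ c : K, v (algebraMap K F c) ≤ 1) {x : F} (hx : v x ≤ 1)
    (p : K[X]) : v (aeval x p) ≤ 1 := by
  rw [aeval_eq_sum_range]
  refine v.map_sum_le fun i _ => ?_
  rw [Algebra.smul_def, map_mul, map_pow]
  calc v (algebraMap K F (p.coeff i)) * v x ^ i ≤ 1 * 1 :=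
        mul_le_mul' (hK _) (pow_le_one' hx i)
    _ = 1 := one_mul 1

/-- Minimal-degree trick: an integral `x` whose residue is algebraic over `K` satisfies a
polynomial `μ` over `K` with `μ(x)` in the maximal ideal and `μ'(x)` a unit. -/
theorem exists_poly_val_lt_one_deriv_unit (hK : ∀ c : K, v (algebraMap K F c) ≤ 1)
    {x : F} (hx : v x ≤ 1) (hres : ∃ μ : K[X], μ ≠ 0 ∧ v (aeval x μ) < 1) :
    ∃ μ : K[X], v (aeval x μ) < 1 ∧ v (aeval x (derivative μ)) = 1 := by
  classical
  have hex : ∃ n : ℕ, ∃ μ : K[X], μ ≠ 0 ∧ μ.natDegree = n ∧ v (aeval x μ) < 1 := by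
    obtain ⟨μ, hμ0, hμ⟩ := hres
    exact ⟨μ.natDegree, μ, hμ0, rfl, hμ⟩
  obtain ⟨μ, hμ0, hdeg, hμ⟩ := Nat.find_spec hex
  have hmin : ∀ m < Nat.find hex, ¬ ∃ ν : K[X], ν ≠ 0 ∧ ν.natDegree = m ∧ v (aeval x ν) < 1 :=
    fun m hm => Nat.find_min hex hm
  -- `μ` is not constant
  have hpos : μ.natDegree ≠ 0 := by
    intro h0
    rw [eq_C_of_natDegree_eq_zero h0, aeval_C] at hμ
    have hc : μ.coeff 0 ≠ 0 := by
      intro hc
      apply hμ0
      rw [eq_C_of_natDegree_eq_zero h0, hc, map_zero]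
    rw [val_algebraMap_eq_one v hK hc] at hμ
    exact lt_irrefl _ hμ
  refine ⟨μ, hμ, le_antisymm (val_aeval_le_one v hK hx _) ?_⟩
  by_contra hlt
  have hlt' : v (aeval x (derivative μ)) < 1 := lt_of_not_ge hlt
  have hlt2 : (derivative μ).natDegree < Nat.find hex := by
    rw [← hdeg]
    exact natDegree_derivative_lt hpos
  exact hmin _ hlt2 ⟨derivative μ, derivative_ne_zero.mpr hpos, rfl, hlt'⟩

variable (δ : Derivation K F F)

/-- Downward induction step of (Der-3). -/
theorem val_pow_mul_deriv_le_one_step (hK : ∀ c : K, v (algebraMap K F c) ≤ 1)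
    (hres : ∀ x : F, v x ≤ 1 → ∃ μ : K[X], μ ≠ 0 ∧ v (aeval x μ) < 1)
    {π : F} (hπ0 : π ≠ 0) (hπ : v π < 1) (hgen : ∀ y : F, v y < 1 → v y ≤ v π)
    (hδπ : v (δ π) ≤ 1) (k : ℕ)
    (hk : ∀ x : F, v x ≤ 1 → v (π ^ (k + 1) * δ x) ≤ 1) :
    ∀ x : F, v x ≤ 1 → v (π ^ k * δ x) ≤ 1 := by
  intro x hx
  obtain ⟨μ, hμ, hμ'⟩ := exists_poly_val_lt_one_deriv_unit v hK hx (hres x hx)
  set a : F := aeval x μ with ha
  set b : F := aeval x (derivative μ) with hb
  -- `a = π * z` with `z` integral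
  set z : F := a / π with hz
  have hvπ0 : v π ≠ 0 := (v.ne_zero_iff).mpr hπ0
  have hzle : v z ≤ 1 := by
    rw [hz, map_div₀]
    exact div_le_one_of_le₀ (hgen a hμ) zero_le
  have haz : a = π * z := by rw [hz]; field_simp
  -- derivation of `a` in two ways
  have h1 : δ a = b * δ x := by
    rw [ha, Derivation.map_aeval, smul_eq_mul]
  have h2 : δ a = π * δ z + z * δ π := by
    rw [haz, Derivation.leibniz, smul_eq_mul, smul_eq_mul]
  have h3 : b * (π ^ k * δ x) = π ^ (k + 1) * δ z + π ^ k * z * δ π := by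
    have : b * δ x = π * δ z + z * δ π := by rw [← h1, h2]
    calc b * (π ^ k * δ x) = π ^ k * (b * δ x) := by ring
      _ = π ^ k * (π * δ z + z * δ π) := by rw [this]
      _ = π ^ (k + 1) * δ z + π ^ k * z * δ π := by ring
  have h4 : v (b * (π ^ k * δ x)) ≤ 1 := by
    rw [h3]
    refine le_trans (v.map_add _ _) (max_le (hk z hzle) ?_)
    rw [map_mul, map_mul, map_pow]
    calc v π ^ k * v z * v (δ π) ≤ 1 * 1 * 1 :=
          mul_le_mul' (mul_le_mul' (pow_le_one' hπ.le k) hzle) hδπ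
      _ = 1 := by rw [one_mul, one_mul]
  rwa [map_mul, hμ', one_mul] at h4

/-- **(Der-3)**, valuation form.  A `K`-derivation with bounded poles on the valuation ring of a
discrete (archimedean, principal maximal ideal) valuation with residue field algebraic over `K`
(characteristic zero) preserves the valuation ring as soon as it maps the uniformiser into it. -/
theorem val_deriv_le_one (hK : ∀ c : K, v (algebraMap K F c) ≤ 1)
    (hres : ∀ x : F, v x ≤ 1 → ∃ μ : K[X], μ ≠ 0 ∧ v (aeval x μ) < 1)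
    {π : F} (hπ0 : π ≠ 0) (hπ : v π < 1) (hgen : ∀ y : F, v y < 1 → v y ≤ v π)
    (harch : ∀ d : F, d ≠ 0 → ∃ k : ℕ, v π ^ k ≤ v d)
    (hδπ : v (δ π) ≤ 1)
    (hbdd : ∃ d : F, d ≠ 0 ∧ ∀ x : F, v x ≤ 1 → v (d * δ x) ≤ 1) :
    ∀ x : F, v x ≤ 1 → v (δ x) ≤ 1 := by
  obtain ⟨d, hd0, hd⟩ := hbdd
  obtain ⟨k, hk⟩ := harch d hd0
  have hstart : ∀ x : F, v x ≤ 1 → v (π ^ k * δ x) ≤ 1 := by
    intro x hx
    rw [map_mul, map_pow]
    calc v π ^ k * v (δ x) ≤ v d * v (δ x) := mul_le_mul' hk le_rfl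
      _ = v (d * δ x) := (map_mul _ _ _).symm
      _ ≤ 1 := hd x hx
  have hall : ∀ j : ℕ, j ≤ k → ∀ x : F, v x ≤ 1 → v (π ^ (k - j) * δ x) ≤ 1 := by
    intro j
    induction j with
    | zero => intro _; simpa using hstart
    | succ j ih =>
      intro hj
      have hj' : j ≤ k := Nat.le_of_succ_le hj
      have hkj : k - j = (k - (j + 1)) + 1 := by omega
      have := ih hj'
      rw [hkj] at this
      exact val_pow_mul_deriv_le_one_step v δ hK hres hπ0 hπ hgen hδπ _ this
  intro x hx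
  have := hall k le_rfl x hx
  simpa using this

/-- **(Der-4)**, first half, valuation form: if moreover `δ s = 1` for an integral `s`, then
`δ π` is a unit. -/
theorem val_deriv_uniformiser_eq_one (hK : ∀ c : K, v (algebraMap K F c) ≤ 1)
    (hres : ∀ x : F, v x ≤ 1 → ∃ μ : K[X], μ ≠ 0 ∧ v (aeval x μ) < 1)
    {π : F} (hπ0 : π ≠ 0) (hπ : v π < 1) (hgen : ∀ y : F, v y < 1 → v y ≤ v π)
    (hδπ : v (δ π) ≤ 1)
    (hδ : ∀ x : F, v x ≤ 1 → v (δ x) ≤ 1)
    {s : F} (hs : v s ≤ 1) (hδs : δ s = 1) :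
    v (δ π) = 1 := by
  refine le_antisymm hδπ ?_
  by_contra hlt
  have hlt' : v (δ π) < 1 := lt_of_not_ge hlt
  obtain ⟨μ, hμ, hμ'⟩ := exists_poly_val_lt_one_deriv_unit v hK hs (hres s hs)
  set a : F := aeval s μ with ha
  set z : F := a / π with hz
  have hvπ0 : v π ≠ 0 := (v.ne_zero_iff).mpr hπ0
  have hzle : v z ≤ 1 := by
    rw [hz, map_div₀]
    exact div_le_one_of_le₀ (hgen a hμ) zero_le
  have haz : a = π * z := by rw [hz]; field_simp
  have h1 : δ a = aeval s (derivative μ) := by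
    rw [ha, Derivation.map_aeval, hδs, smul_eq_mul, mul_one]
  have h2 : δ a = π * δ z + z * δ π := by
    rw [haz, Derivation.leibniz, smul_eq_mul, smul_eq_mul]
  have h3 : v (δ a) < 1 := by
    rw [h2]
    refine lt_of_le_of_lt (v.map_add _ _) (max_lt ?_ ?_)
    · rw [map_mul]
      calc v π * v (δ z) ≤ v π * 1 := mul_le_mul' le_rfl (hδ z hzle)
        _ = v π := mul_one _
        _ < 1 := hπ
    · rw [map_mul]
      calc v z * v (δ π) ≤ 1 * v (δ π) := mul_le_mul' hzle le_rfl
        _ = v (δ π) := one_mul _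
        _ < 1 := hlt'
  rw [h1, hμ'] at h3
  exact lt_irrefl _ h3

/-- **(Der-4)**, second half, valuation form: `δ (u π ^ n) = (unit) π ^ (n - 1)` for a unit `u`
and `n ≠ 0`: the derivation lowers the order of a non-unit by exactly one. -/
theorem val_deriv_unit_mul_zpow (hK : ∀ c : K, v (algebraMap K F c) ≤ 1)
    {π : F} (hπ0 : π ≠ 0) (hπ : v π < 1)
    (hδπ1 : v (δ π) = 1)
    (hδ : ∀ x : F, v x ≤ 1 → v (δ x) ≤ 1)
    {u : F} (hu : v u = 1) {n : ℤ} (hn : n ≠ 0) :
    v (δ (u * π ^ n)) = v π ^ (n - 1) := by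
  have hvπ0 : v π ≠ 0 := (v.ne_zero_iff).mpr hπ0
  -- derivation of an integer power
  have hzpow : δ (π ^ n) = (n : F) * π ^ (n - 1) * δ π := by
    have h := Derivation.leibniz_zpow δ π n
    rw [h, zsmul_eq_mul, smul_eq_mul]
    ring
  have hcalc : δ (u * π ^ n) = π ^ (n - 1) * (π * δ u + (n : F) * u * δ π) := by
    rw [Derivation.leibniz, smul_eq_mul, smul_eq_mul, hzpow]
    have hπn : π ^ n = π ^ (n - 1) * π := by
      rw [← zpow_add_one₀ hπ0]; congr 1; ring
    rw [hπn]
    ring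
  rw [hcalc, map_mul, map_zpow₀]
  have hn' : ((n : ℚ) : K) ≠ 0 := by
    exact_mod_cast (Int.cast_ne_zero (α := K)).mpr hn
  have hnF : v ((n : F)) = 1 := by
    have h1 : (n : F) = algebraMap K F (n : K) := by simp
    rw [h1]
    exact val_algebraMap_eq_one v hK (Int.cast_ne_zero.mpr hn)
  have hunit : v ((n : F) * u * δ π) = 1 := by
    rw [map_mul, map_mul, hnF, hu, hδπ1, one_mul, one_mul]
  have hsmall : v (π * δ u) < 1 := by
    rw [map_mul]
    calc v π * v (δ u) ≤ v π * 1 := mul_le_mul' le_rfl (hδ u hu.le)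
      _ = v π := mul_one _
      _ < 1 := hπ
  have hsum : v (π * δ u + (n : F) * u * δ π) = 1 := by
    rw [add_comm]
    have := v.map_add_eq_of_lt_left (x := (n : F) * u * δ π) (y := π * δ u)
      (by rw [hunit]; exact hsmall)
    rw [this, hunit]
  rw [hsum, mul_one]

end Core

section DVR

variable {K F : Type*} [Field K] [Field F] [Algebra K F] [CharZero K]
  (O : ValuationSubring F) [IsDiscreteValuationRing O]

omit [Field K] [Algebra K F] [CharZero K] in
/-- The uniformiser has the largest valuation among non-units. -/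
theorem valuation_le_of_lt_one {ϖ : O} (hϖ : Irreducible ϖ) (y : F) (hy : O.valuation y < 1) :
    O.valuation y ≤ O.valuation (ϖ : F) := by
  have hyO : y ∈ O := (O.valuation_le_one_iff y).mp hy.le
  have hmem : (⟨y, hyO⟩ : O) ∈ IsLocalRing.maximalIdeal O :=
    (O.valuation_lt_one_iff ⟨y, hyO⟩).mpr hy
  rw [hϖ.maximalIdeal_eq, Ideal.mem_span_singleton'] at hmem
  obtain ⟨z, hz⟩ := hmem
  have hy' : y = (z : F) * (ϖ : F) := by
    have := congrArg (Subtype.val) hz
    simpa using this.symm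
  rw [hy', map_mul]
  calc O.valuation (z : F) * O.valuation (ϖ : F) ≤ 1 * O.valuation (ϖ : F) :=
        mul_le_mul' (O.valuation_le_one z) le_rfl
    _ = O.valuation (ϖ : F) := one_mul _

omit [Field K] [Algebra K F] [CharZero K] in
theorem valuation_irreducible_lt_one {ϖ : O} (hϖ : Irreducible ϖ) :
    O.valuation (ϖ : F) < 1 := by
  refine (O.valuation_lt_one_iff ϖ).mp ?_
  rw [hϖ.maximalIdeal_eq]
  exact Ideal.mem_span_singleton_self ϖ

omit [Field K] [Algebra K F] [CharZero K] in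
/-- Archimedean property of the valuation of a discrete valuation ring. -/
theorem exists_pow_valuation_le {ϖ : O} (hϖ : Irreducible ϖ) (d : F) (hd : d ≠ 0) :
    ∃ k : ℕ, O.valuation (ϖ : F) ^ k ≤ O.valuation d := by
  by_cases h1 : 1 ≤ O.valuation d
  · exact ⟨0, by simpa using h1⟩
  · have hlt : O.valuation d < 1 := lt_of_not_ge h1
    have hdO : d ∈ O := (O.valuation_le_one_iff d).mp hlt.le
    have hd0 : (⟨d, hdO⟩ : O) ≠ 0 := fun h => hd (congrArg Subtype.val h)
    obtain ⟨n, u, hu⟩ := IsDiscreteValuationRing.associated_pow_irreducible hd0 hϖ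
    refine ⟨n, le_of_eq ?_⟩
    have h2 : d * ((u : O) : F) = (ϖ : F) ^ n := by
      have := congrArg (Subtype.val) hu
      simpa using this
    have h3 : O.valuation (((u : O)) : F) = 1 := (O.valuation_eq_one_iff (u : O)).mp u.isUnit
    rw [← map_pow, ← h2, map_mul, h3, mul_one]

/-- **(Der-3)** for a valuation subring which is a discrete valuation ring.  `K ⊆ O`, the residue
field of `O` is algebraic over `K` (elementwise form), `δ` a `K`-derivation of `F` with
`δ ϖ ∈ O` for a uniformiser `ϖ` and bounded denominators on `O` (`d * δ x ∈ O` for a fixed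
`d ≠ 0`).  Then `δ O ⊆ O`. -/
theorem deriv_mem (hK : ∀ c : K, algebraMap K F c ∈ O)
    (hres : ∀ x ∈ O, ∃ μ : K[X], μ ≠ 0 ∧ O.valuation (aeval x μ) < 1)
    (δ : Derivation K F F) {ϖ : O} (hϖ : Irreducible ϖ) (hδϖ : δ (ϖ : F) ∈ O)
    (hbdd : ∃ d : F, d ≠ 0 ∧ ∀ x ∈ O, d * δ x ∈ O) :
    ∀ x ∈ O, δ x ∈ O := by
  intro x hx
  rw [← O.valuation_le_one_iff] at hx ⊢
  refine val_deriv_le_one O.valuation δ (fun c => (O.valuation_le_one_iff _).mpr (hK c))
    (fun x hx => hres x ((O.valuation_le_one_iff x).mp hx))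
    (fun h => hϖ.ne_zero (Subtype.ext h)) (valuation_irreducible_lt_one O hϖ)
    (valuation_le_of_lt_one O hϖ) (exists_pow_valuation_le O hϖ)
    ((O.valuation_le_one_iff _).mpr hδϖ) ?_ x hx
  obtain ⟨d, hd0, hd⟩ := hbdd
  exact ⟨d, hd0, fun x hx => (O.valuation_le_one_iff _).mpr
    (hd x ((O.valuation_le_one_iff x).mp hx))⟩

/-- **(Der-4)**, first half: if `δ` preserves `O` and `δ s = 1` for some `s ∈ O`, then `δ ϖ` is a
unit of `O` (valuation one). -/
theorem valuation_deriv_uniformiser_eq_one (hK : ∀ c : K, algebraMap K F c ∈ O)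
    (hres : ∀ x ∈ O, ∃ μ : K[X], μ ≠ 0 ∧ O.valuation (aeval x μ) < 1)
    (δ : Derivation K F F) {ϖ : O} (hϖ : Irreducible ϖ)
    (hδ : ∀ x ∈ O, δ x ∈ O) {s : F} (hs : s ∈ O) (hδs : δ s = 1) :
    O.valuation (δ (ϖ : F)) = 1 :=
  val_deriv_uniformiser_eq_one O.valuation δ (fun c => (O.valuation_le_one_iff _).mpr (hK c))
    (fun x hx => hres x ((O.valuation_le_one_iff x).mp hx))
    (fun h => hϖ.ne_zero (Subtype.ext h)) (valuation_irreducible_lt_one O hϖ)
    (valuation_le_of_lt_one O hϖ) ((O.valuation_le_one_iff _).mpr (hδ _ ϖ.2))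
    (fun x hx => (O.valuation_le_one_iff _).mpr (hδ x ((O.valuation_le_one_iff x).mp hx)))
    ((O.valuation_le_one_iff _).mpr hs) hδs

/-- Same as `valuation_deriv_uniformiser_eq_one`, as a unit of the ring `O`. -/
theorem isUnit_deriv_uniformiser (hK : ∀ c : K, algebraMap K F c ∈ O)
    (hres : ∀ x ∈ O, ∃ μ : K[X], μ ≠ 0 ∧ O.valuation (aeval x μ) < 1)
    (δ : Derivation K F F) {ϖ : O} (hϖ : Irreducible ϖ)
    (hδ : ∀ x ∈ O, δ x ∈ O) {s : F} (hs : s ∈ O) (hδs : δ s = 1) :
    IsUnit (⟨δ (ϖ : F), hδ _ ϖ.2⟩ : O) :=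
  (O.valuation_eq_one_iff _).mpr
    (valuation_deriv_uniformiser_eq_one O hK hres δ hϖ hδ hs hδs)

/-- **(Der-4)**, second half: a unit derivation lowers the order of every non-unit by exactly
one: `v (δ x) * v ϖ = v x` whenever `x ≠ 0` and `v x ≠ 1`. -/
theorem valuation_deriv_mul_uniformiser (hK : ∀ c : K, algebraMap K F c ∈ O)
    (δ : Derivation K F F) {ϖ : O} (hϖ : Irreducible ϖ)
    (hδ : ∀ x ∈ O, δ x ∈ O) (hδϖ1 : O.valuation (δ (ϖ : F)) = 1)
    {x : F} (hx0 : x ≠ 0) (hx1 : O.valuation x ≠ 1) :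
    O.valuation (δ x) * O.valuation (ϖ : F) = O.valuation x := by
  have hϖ0 : (ϖ : F) ≠ 0 := fun h => hϖ.ne_zero (Subtype.ext h)
  have hvϖ0 : O.valuation (ϖ : F) ≠ 0 := (O.valuation.ne_zero_iff).mpr hϖ0
  -- write `x = u * ϖ ^ n` with `u` a unit and `n : ℤ`
  have key : ∃ (u : F) (n : ℤ), O.valuation u = 1 ∧ x = u * (ϖ : F) ^ n := by
    rcases O.mem_or_inv_mem x with hxO | hxO
    · have hx0' : (⟨x, hxO⟩ : O) ≠ 0 := fun h => hx0 (congrArg Subtype.val h)
      obtain ⟨n, u, hu⟩ := IsDiscreteValuationRing.associated_pow_irreducible hx0' hϖ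
      have h2 : x * ((u : O) : F) = (ϖ : F) ^ n := by
        have := congrArg (Subtype.val) hu
        simpa using this
      have hu0 : ((u : O) : F) ≠ 0 := fun h => u.ne_zero (Subtype.ext h)
      refine ⟨(((u : O) : F))⁻¹, (n : ℤ), ?_, ?_⟩
      · rw [map_inv₀, (O.valuation_eq_one_iff (u : O)).mp u.isUnit, inv_one]
      · rw [zpow_natCast, ← h2]; field_simp
    · have hxi0 : x⁻¹ ≠ 0 := inv_ne_zero hx0
      have hx0' : (⟨x⁻¹, hxO⟩ : O) ≠ 0 := fun h => hxi0 (congrArg Subtype.val h)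
      obtain ⟨n, u, hu⟩ := IsDiscreteValuationRing.associated_pow_irreducible hx0' hϖ
      have h2 : x⁻¹ * ((u : O) : F) = (ϖ : F) ^ n := by
        have := congrArg (Subtype.val) hu
        simpa using this
      have hu0 : ((u : O) : F) ≠ 0 := fun h => u.ne_zero (Subtype.ext h)
      refine ⟨((u : O) : F), -(n : ℤ), (O.valuation_eq_one_iff (u : O)).mp u.isUnit, ?_⟩
      rw [zpow_neg, zpow_natCast, ← h2]; field_simp
  obtain ⟨u, n, hu, rfl⟩ := key
  have hn : n ≠ 0 := by
    rintro rfl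
    apply hx1
    rw [zpow_zero, mul_one, hu]
  rw [val_deriv_unit_mul_zpow O.valuation δ (fun c => (O.valuation_le_one_iff _).mpr (hK c))
    hϖ0 (valuation_irreducible_lt_one O hϖ) hδϖ1
    (fun x hx => (O.valuation_le_one_iff _).mpr (hδ x ((O.valuation_le_one_iff x).mp hx))) hu hn]
  rw [map_mul, map_zpow₀, hu, one_mul, ← zpow_add_one₀ hvϖ0]
  congr 1
  ring

end DVR

end Fermat.Agent.CA.H32
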