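/-
helper2 — S36 row (M2e), step (2) of helper62's route (#3361), abstract half (A62-ord)(a).

`K ⊆ F` fields of characteristic `0`, `w` a place of `F / K` (a discrete valuation ring `O_w ⊇ K`)
whose residue field is algebraic over `K` (`hres`, elementwise), `δ` a `K`-derivation of `F` with
`δ O_w ⊆ O_w` and `δ s = 1` for some `s ∈ O_w` (a *unit derivation*: landed `CA.H32`, (Der-4)).

* `ord_deriv_eq_sub_one` : `ord (δ x) = ord x - 1` (and `δ x ≠ 0`) whenever `ord x ≠ 0`;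
* `ord_deriv_nonneg` : `δ x = 0 ∨ 0 ≤ ord (δ x)` for `x ∈ O_w`;
* `ord_deriv_eq_zero_of_poly` : if some polynomial `p(x)`, `p ∈ K[X]`, `x ∈ O_w`, is a uniformiser
  then `ord (δ x) = 0`;
* `six_mul_ord_deriv` : for `j ∈ O_w` and constants `c₁ ≠ c₂` with the ramification data
  `0 < ord (j - c₁) → ord (j - c₁) = e₁`, `0 < ord (j - c₂) → ord (j - c₂) = e₂`, and a polynomial
  uniformiser in the remaining case:
  `ord (δ j) = (ord (j - c₁) - [0 < ord (j - c₁)]) + (ord (j - c₂) - [0 < ord (j - c₂)])`,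
  in the form needed for `A_s = j^4 (j - 1728)^3 / (δ j)^6`:
* `ord_sixDiff_eq_zero` : with `e₁ = 3` (at `c₁ = 0`) and `e₂ = 2` (at `c₂ = 1728`):
  `4 * ord j + 3 * ord (j - 1728) = 6 * ord (δ j)` and `δ j ≠ 0`.
-/
import Mathlib
import Fermat.Agent.CA.H32_DerivHorizontal
import Fermat.Agent.S24.H24_Basic

set_option autoImplicit false
set_option linter.unusedSectionVars false

noncomputable section

namespace Fermat.Agent.CA.H2

open Polynomial AlgebraicCurve
open Fermat.Agent.S24.H24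

section UnitDerivation

variable {K F : Type*} [Field K] [Field F] [Algebra K F] [CharZero K] (w : Place K F)

/-- the valuation of `x ≠ 0` is the `ord x`-th power of the valuation of a uniformiser. -/
theorem valuation_eq_zpow_ord {ϖ : w.toValuationSubring} (hϖ : Irreducible ϖ) {x : F}
    (hx : x ≠ 0) :
    w.toValuationSubring.valuation x = w.toValuationSubring.valuation (ϖ : F) ^ (w.ord x) := by
  obtain ⟨u, hu⟩ := w.exists_unit_mul_zpow hx hϖ
  conv_lhs => rw [hu]
  rw [map_mul, map_zpow₀,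
    (w.toValuationSubring.valuation_eq_one_iff (u : w.toValuationSubring)).mp u.isUnit, one_mul]

/-- `n ↦ v(ϖ)^n` is injective. -/
theorem zpow_valuation_injective {ϖ : w.toValuationSubring} (hϖ : Irreducible ϖ) {m n : ℤ}
    (h : w.toValuationSubring.valuation (ϖ : F) ^ m = w.toValuationSubring.valuation (ϖ : F) ^ n) :
    m = n := by
  have hϖ0 : (ϖ : F) ≠ 0 := PlaceLemmas.coe_ne_zero_of_irreducible w hϖ
  have hv0 : w.toValuationSubring.valuation (ϖ : F) ≠ 0 :=
    (w.toValuationSubring.valuation.ne_zero_iff).mpr hϖ0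
  have hlt : w.toValuationSubring.valuation (ϖ : F) < 1 :=
    H32.valuation_irreducible_lt_one w.toValuationSubring hϖ
  by_contra hne
  -- `v(ϖ)^(m-n) = 1` with `m - n ≠ 0`
  have h1 : w.toValuationSubring.valuation (ϖ : F) ^ (m - n) = 1 := by
    rw [zpow_sub₀ hv0, h, div_self (zpow_ne_zero _ hv0)]
  have key : ∀ k : ℕ, 0 < k → w.toValuationSubring.valuation (ϖ : F) ^ k < 1 := by
    intro k hk
    exact pow_lt_one₀ zero_le hlt hk.ne'
  rcases lt_trichotomy (m - n) 0 with hneg | hzero | hpos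
  · have h2 : w.toValuationSubring.valuation (ϖ : F) ^ (-(m - n)) = 1 := by
      rw [zpow_neg, h1, inv_one]
    obtain ⟨k, hk⟩ := Int.eq_ofNat_of_zero_le (by omega : 0 ≤ -(m - n))
    rw [hk, zpow_natCast] at h2
    exact absurd h2 (key k (by omega)).ne
  · omega
  · obtain ⟨k, hk⟩ := Int.eq_ofNat_of_zero_le hpos.le
    rw [hk, zpow_natCast] at h1
    exact absurd h1 (key k (by omega)).ne

/-- **unit derivation lowers orders by one**. -/
theorem ord_deriv_eq_sub_one (δ : Derivation K F F)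
    (hres : ∀ x ∈ w.toValuationSubring, ∃ μ : K[X], μ ≠ 0 ∧
      w.toValuationSubring.valuation (aeval x μ) < 1)
    (hδ : ∀ x ∈ w.toValuationSubring, δ x ∈ w.toValuationSubring)
    {s : F} (hs : s ∈ w.toValuationSubring) (hδs : δ s = 1)
    {x : F} (hx0 : x ≠ 0) (hx : w.ord x ≠ 0) :
    δ x ≠ 0 ∧ w.ord (δ x) = w.ord x - 1 := by
  obtain ⟨ϖ, hϖ⟩ := PlaceLemmas.exists_irreducible w
  have hϖ0 : (ϖ : F) ≠ 0 := PlaceLemmas.coe_ne_zero_of_irreducible w hϖ
  have hv0 : w.toValuationSubring.valuation (ϖ : F) ≠ 0 :=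
    (w.toValuationSubring.valuation.ne_zero_iff).mpr hϖ0
  have hK : ∀ c : K, algebraMap K F c ∈ w.toValuationSubring := w.algebraMap_mem'
  have hδϖ1 := H32.valuation_deriv_uniformiser_eq_one w.toValuationSubring hK hres δ hϖ hδ hs hδs
  have hx1 : w.toValuationSubring.valuation x ≠ 1 := by
    intro h1
    apply hx
    rw [valuation_eq_zpow_ord w hϖ hx0] at h1
    have : w.toValuationSubring.valuation (ϖ : F) ^ (w.ord x)
        = w.toValuationSubring.valuation (ϖ : F) ^ (0 : ℤ) := by rw [h1, zpow_zero]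
    exact zpow_valuation_injective w hϖ this
  have hmul := H32.valuation_deriv_mul_uniformiser w.toValuationSubring hK δ hϖ hδ hδϖ1 hx0 hx1
  have hδx0 : δ x ≠ 0 := by
    intro h0
    rw [h0, map_zero, zero_mul] at hmul
    exact ((w.toValuationSubring.valuation.ne_zero_iff).mpr hx0) hmul.symm
  refine ⟨hδx0, ?_⟩
  rw [valuation_eq_zpow_ord w hϖ hx0, valuation_eq_zpow_ord w hϖ hδx0, ← zpow_add_one₀ hv0] at hmul
  have := zpow_valuation_injective w hϖ hmul
  omega

omit [CharZero K] in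
/-- `δ x` is integral for integral `x`. -/
theorem ord_deriv_nonneg (δ : Derivation K F F)
    (hδ : ∀ x ∈ w.toValuationSubring, δ x ∈ w.toValuationSubring)
    {x : F} (hx : x ∈ w.toValuationSubring) : δ x = 0 ∨ 0 ≤ w.ord (δ x) :=
  (PlaceLemmas.mem_iff w).mp (hδ x hx)

omit [CharZero K] in
/-- polynomials in an integral element are integral. -/
theorem aeval_mem_toValuationSubring {x : F} (hx : x ∈ w.toValuationSubring) (p : K[X]) :
    aeval x p ∈ w.toValuationSubring := by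
  induction p using Polynomial.induction_on' with
  | add p q hp hq => rw [map_add]; exact add_mem hp hq
  | monomial n a =>
    rw [aeval_monomial]
    exact mul_mem (w.algebraMap_mem' a) (pow_mem hx n)

/-- if some polynomial in `x ∈ O_w` is a uniformiser, then `δ x` is a unit. -/
theorem ord_deriv_eq_zero_of_poly (δ : Derivation K F F)
    (hres : ∀ x ∈ w.toValuationSubring, ∃ μ : K[X], μ ≠ 0 ∧
      w.toValuationSubring.valuation (aeval x μ) < 1)
    (hδ : ∀ x ∈ w.toValuationSubring, δ x ∈ w.toValuationSubring)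
    {s : F} (hs : s ∈ w.toValuationSubring) (hδs : δ s = 1)
    {x : F} (hx : x ∈ w.toValuationSubring) (p : K[X]) (hp : w.ord (aeval x p) = 1) :
    δ x ≠ 0 ∧ w.ord (δ x) = 0 := by
  have hp0 : aeval x p ≠ 0 := by
    intro h0
    rw [h0, Place.ord_zero] at hp
    exact zero_ne_one hp
  obtain ⟨hne, hord⟩ := ord_deriv_eq_sub_one w δ hres hδ hs hδs hp0 (by rw [hp]; exact one_ne_zero)
  rw [hp, sub_self] at hord
  have hleib : δ (aeval x p) = aeval x (derivative p) * δ x := by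
    rw [Derivation.comp_aeval_eq, smul_eq_mul]
  rw [hleib] at hne hord
  have h1 : aeval x (derivative p) ≠ 0 := left_ne_zero_of_mul hne
  have h2 : δ x ≠ 0 := right_ne_zero_of_mul hne
  refine ⟨h2, ?_⟩
  rw [Place.ord_mul w h1 h2] at hord
  have h3 : 0 ≤ w.ord (aeval x (derivative p)) :=
    (PlaceLemmas.mem_iff_ord_nonneg w h1).mp (aeval_mem_toValuationSubring w hx _)
  have h4 : 0 ≤ w.ord (δ x) := (PlaceLemmas.mem_iff_ord_nonneg w h2).mp (hδ x hx)
  omega

omit [CharZero K] in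
/-- `ord (x - c) = 0` when `ord (x - c') > 0` for another constant `c' ≠ c`. -/
theorem ord_sub_const_eq_zero {x : F} {c c' : K} (hcc : c ≠ c')
    (h : 0 < w.ord (x - algebraMap K F c')) : w.ord (x - algebraMap K F c) = 0 := by
  have hconst : algebraMap K F (c' - c) ≠ 0 := by
    rw [ne_eq, map_eq_zero_iff _ (algebraMap K F).injective, sub_eq_zero]
    exact fun h => hcc h.symm
  have hx0 : x - algebraMap K F c' ≠ 0 := by
    intro h0
    rw [h0, Place.ord_zero] at h
    exact lt_irrefl _ h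
  have hsplit : x - algebraMap K F c = algebraMap K F (c' - c) + (x - algebraMap K F c') := by
    rw [map_sub]; ring
  rw [hsplit, PlaceLemmas.ord_add_eq_of_lt w hconst hx0
    (by rw [PlaceLemmas.ord_algebraMap]; exact h), PlaceLemmas.ord_algebraMap]

/-- **the order of `δ j` from the ramification data of `j`** (two special values). -/
theorem ord_deriv_of_ramification (δ : Derivation K F F)
    (hres : ∀ x ∈ w.toValuationSubring, ∃ μ : K[X], μ ≠ 0 ∧
      w.toValuationSubring.valuation (aeval x μ) < 1)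
    (hδ : ∀ x ∈ w.toValuationSubring, δ x ∈ w.toValuationSubring)
    {s : F} (hs : s ∈ w.toValuationSubring) (hδs : δ s = 1)
    {j : F} (hj : j ∈ w.toValuationSubring) {c₁ c₂ : K} (hcc : c₁ ≠ c₂) {e₁ e₂ : ℤ}
    (h₁ : 0 < w.ord (j - algebraMap K F c₁) → w.ord (j - algebraMap K F c₁) = e₁)
    (h₂ : 0 < w.ord (j - algebraMap K F c₂) → w.ord (j - algebraMap K F c₂) = e₂)
    (hgen : w.ord (j - algebraMap K F c₁) = 0 → w.ord (j - algebraMap K F c₂) = 0 →
      ∃ p : K[X], w.ord (aeval j p) = 1) :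
    δ j ≠ 0 ∧
      ((0 < w.ord (j - algebraMap K F c₁) ∧ w.ord (j - algebraMap K F c₁) = e₁ ∧
          w.ord (j - algebraMap K F c₂) = 0 ∧ w.ord (δ j) = e₁ - 1) ∨
       (0 < w.ord (j - algebraMap K F c₂) ∧ w.ord (j - algebraMap K F c₂) = e₂ ∧
          w.ord (j - algebraMap K F c₁) = 0 ∧ w.ord (δ j) = e₂ - 1) ∨
       (w.ord (j - algebraMap K F c₁) = 0 ∧ w.ord (j - algebraMap K F c₂) = 0 ∧
          w.ord (δ j) = 0)) := by
  have hδsub : ∀ c : K, δ (j - algebraMap K F c) = δ j := by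
    intro c
    rw [map_sub, Derivation.map_algebraMap, sub_zero]
  have hmem : ∀ c : K, j - algebraMap K F c ∈ w.toValuationSubring :=
    fun c => sub_mem hj (w.algebraMap_mem' c)
  have hnn : ∀ c : K, 0 ≤ w.ord (j - algebraMap K F c) := by
    intro c
    rcases (PlaceLemmas.mem_iff w).mp (hmem c) with h0 | h0
    · rw [h0, Place.ord_zero]
    · exact h0
  by_cases hp₁ : 0 < w.ord (j - algebraMap K F c₁)
  · have hx0 : j - algebraMap K F c₁ ≠ 0 := by
      intro h0
      rw [h0, Place.ord_zero] at hp₁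
      exact lt_irrefl _ hp₁
    obtain ⟨hne, hord⟩ := ord_deriv_eq_sub_one w δ hres hδ hs hδs hx0 hp₁.ne'
    rw [hδsub] at hne hord
    refine ⟨hne, Or.inl ⟨hp₁, h₁ hp₁, ord_sub_const_eq_zero w hcc.symm hp₁, ?_⟩⟩
    rw [hord, h₁ hp₁]
  · have hz₁ : w.ord (j - algebraMap K F c₁) = 0 := le_antisymm (not_lt.mp hp₁) (hnn c₁)
    by_cases hp₂ : 0 < w.ord (j - algebraMap K F c₂)
    · have hx0 : j - algebraMap K F c₂ ≠ 0 := by
        intro h0
        rw [h0, Place.ord_zero] at hp₂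
        exact lt_irrefl _ hp₂
      obtain ⟨hne, hord⟩ := ord_deriv_eq_sub_one w δ hres hδ hs hδs hx0 hp₂.ne'
      rw [hδsub] at hne hord
      refine ⟨hne, Or.inr (Or.inl ⟨hp₂, h₂ hp₂, hz₁, ?_⟩)⟩
      rw [hord, h₂ hp₂]
    · have hz₂ : w.ord (j - algebraMap K F c₂) = 0 := le_antisymm (not_lt.mp hp₂) (hnn c₂)
      obtain ⟨p, hp⟩ := hgen hz₁ hz₂
      obtain ⟨hne, hord⟩ := ord_deriv_eq_zero_of_poly w δ hres hδ hs hδs hj p hp
      exact ⟨hne, Or.inr (Or.inr ⟨hz₁, hz₂, hord⟩)⟩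

/-- **(A62-ord)(a)**: with `e = 3` over `j = 0` and `e = 2` over `j = c` (`c = 1728`), the
function `A = j^4 (j - c)^3 / (δ j)^6` has order `0`. -/
theorem ord_sixDiff_eq_zero (δ : Derivation K F F)
    (hres : ∀ x ∈ w.toValuationSubring, ∃ μ : K[X], μ ≠ 0 ∧
      w.toValuationSubring.valuation (aeval x μ) < 1)
    (hδ : ∀ x ∈ w.toValuationSubring, δ x ∈ w.toValuationSubring)
    {s : F} (hs : s ∈ w.toValuationSubring) (hδs : δ s = 1)
    {j : F} (hj : j ∈ w.toValuationSubring) {c : K} (hc : c ≠ 0)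
    (h₁ : 0 < w.ord j → w.ord j = 3)
    (h₂ : 0 < w.ord (j - algebraMap K F c) → w.ord (j - algebraMap K F c) = 2)
    (hgen : w.ord j = 0 → w.ord (j - algebraMap K F c) = 0 → ∃ p : K[X], w.ord (aeval j p) = 1) :
    δ j ≠ 0 ∧ 4 * w.ord j + 3 * w.ord (j - algebraMap K F c) = 6 * w.ord (δ j) := by
  have hj0 : j - algebraMap K F 0 = j := by rw [map_zero, sub_zero]
  obtain ⟨hne, hcases⟩ := ord_deriv_of_ramification w δ hres hδ hs hδs hj (c₁ := 0) (c₂ := c)
    (e₁ := 3) (e₂ := 2) (Ne.symm hc) (by rwa [hj0]) h₂ (by rwa [hj0])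
  rw [hj0] at hcases
  refine ⟨hne, ?_⟩
  rcases hcases with ⟨-, h1, h2, h3⟩ | ⟨-, h1, h2, h3⟩ | ⟨h1, h2, h3⟩
  · rw [h1, h2, h3]; norm_num
  · rw [h1, h2, h3]; norm_num
  · rw [h1, h2, h3]; norm_num

/-- the same as an equation for `A = j^4 (j - c)^3 / (δ j)^6`: `A ≠ 0` and `ord A = 0`. -/
theorem ord_sixDiff_quot_eq_zero (δ : Derivation K F F)
    (hres : ∀ x ∈ w.toValuationSubring, ∃ μ : K[X], μ ≠ 0 ∧
      w.toValuationSubring.valuation (aeval x μ) < 1)
    (hδ : ∀ x ∈ w.toValuationSubring, δ x ∈ w.toValuationSubring)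
    {s : F} (hs : s ∈ w.toValuationSubring) (hδs : δ s = 1)
    {j : F} (hj : j ∈ w.toValuationSubring) {c : K} (hc : c ≠ 0)
    (hj0 : j ≠ 0) (hjc : j - algebraMap K F c ≠ 0)
    (h₁ : 0 < w.ord j → w.ord j = 3)
    (h₂ : 0 < w.ord (j - algebraMap K F c) → w.ord (j - algebraMap K F c) = 2)
    (hgen : w.ord j = 0 → w.ord (j - algebraMap K F c) = 0 → ∃ p : K[X], w.ord (aeval j p) = 1) :
    j ^ 4 * (j - algebraMap K F c) ^ 3 / (δ j) ^ 6 ≠ 0 ∧
      w.ord (j ^ 4 * (j - algebraMap K F c) ^ 3 / (δ j) ^ 6) = 0 := by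
  obtain ⟨hne, heq⟩ := ord_sixDiff_eq_zero w δ hres hδ hs hδs hj hc h₁ h₂ hgen
  refine ⟨div_ne_zero (mul_ne_zero (pow_ne_zero _ hj0) (pow_ne_zero _ hjc)) (pow_ne_zero _ hne), ?_⟩
  rw [div_eq_mul_inv, Place.ord_mul w (mul_ne_zero (pow_ne_zero _ hj0) (pow_ne_zero _ hjc))
    (inv_ne_zero (pow_ne_zero _ hne)), Place.ord_mul w (pow_ne_zero _ hj0) (pow_ne_zero _ hjc),
    Place.ord_inv]
  have hpow : ∀ (x : F) (n : ℕ), w.ord (x ^ n) = n * w.ord x := by
    intro x n
    have := w.ord_zpow x (n : ℤ)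
    rwa [zpow_natCast] at this
  rw [hpow, hpow, hpow]
  push_cast
  omega

end UnitDerivation

end Fermat.Agent.CA.H2
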