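import Mathlib

/-!
# Derivations and local rings at rational points (helper39, S36 row (M2) brick)

Generic, Mathlib-only.  `k ⊆ κ` fields, `∂ : Derivation k κ κ`, `O : Subring κ` (think: the local
ring `D_a` of a curve at a `k`-rational point `a`, `π` a uniformiser).

* `exists_expansion` : `f = P(π) + π ^ n * g` (`P ∈ k[X]`, `g ∈ O`) from the one-step expansion.
* `deriv_mem_of_expansion` : if `∂ π ∈ O` and `∂` has bounded poles on `O`, then `∂ O ⊆ O`.
* `exists_bound_of_adjoin` : bounded poles from a finite generating set.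
* `deriv_uniformizer_ne_zero` : `∂ ≠ 0 on O` implies `∂ π ≠ 0`.
* `normalizedDeriv` : `(∂ π)⁻¹ • ∂`, the derivation with value `1` at `π`; it preserves `O`
  (`normalizedDeriv_mem`, the main consumer form).

Second part (`section Extension`), any characteristic: for `F/E` finite separable,
* `derivation_ext_of_isSeparable` : a derivation of `F` is determined by its values on `E`;
* `exists_derivation_extension`, `existsUnique_derivation_extension` : a `k`-derivation of `E`
  extends (uniquely) to a `k`-derivation of `F`;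
* `deriv_aeval_of_vanish` : chain rule `D (P x) = P' x • D x` for `P ∈ E[X]` when `D` kills `E`.

Third part (`section RationalBase`), any characteristic: `s ∈ κ` transcendental over `k`,
`κ / k(s)` finite separable (`k(s) = IntermediateField.adjoin k {s}`):
* `exists_derivation_of_isFractionRing` : derivations extend to the fraction field;
* `exists_derivation_ratFunc`, `exists_derivation_adjoin_simple` : `d/dX` on `RatFunc k`, `k(s)`;
* `existsUnique_derivation_eq_one` : `∃! ∂ : Derivation k κ κ, ∂ s = 1`;
* `derivation_eq_smul` : every `k`-derivation `δ` of `κ` into a `κ`-module is `δ x = ∂ x • δ s`;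
* `derivation_algebraMap_eq_mul` : chain rule `δ (ι x) = ι (∂ x) * δ (ι s)` in an overring.
-/

set_option autoImplicit false

open Polynomial

namespace Fermat.Agent.CA.H39

section Expansion

variable {k κ : Type*} [Field k] [Field κ] [Algebra k κ]

/-- Iterating the one-step expansion `f = c + π g`: `f = P(π) + π ^ n g`. -/
theorem exists_expansion (O : Subring κ) (π : κ)
    (h1 : ∀ f ∈ O, ∃ c : k, ∃ g ∈ O, f = algebraMap k κ c + π * g) (n : ℕ) :
    ∀ f ∈ O, ∃ P : k[X], ∃ g ∈ O, f = aeval π P + π ^ n * g := by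
  induction n with
  | zero =>
    intro f hf
    exact ⟨0, f, hf, by simp⟩
  | succ n ih =>
    intro f hf
    obtain ⟨P, g, hg, rfl⟩ := ih f hf
    obtain ⟨c, g', hg', rfl⟩ := h1 g hg
    refine ⟨P + C c * X ^ n, g', hg', ?_⟩
    simp only [map_add, map_mul, aeval_C, map_pow, aeval_X, pow_succ]
    ring

/-- Polynomials in `π` with coefficients in `k` lie in `O`. -/
theorem aeval_mem (O : Subring κ) (π : κ) (hπO : π ∈ O)
    (hk : ∀ c : k, algebraMap k κ c ∈ O) (P : k[X]) : aeval π P ∈ O := by
  induction P using Polynomial.induction_on' with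
  | add p q hp hq => rw [map_add]; exact O.add_mem hp hq
  | monomial n c =>
    rw [aeval_monomial]
    exact O.mul_mem (hk c) (O.pow_mem hπO n)

/-- **`∂` preserves `O`**: one-step expansions (`O/π = k`), `∂ π ∈ O`, and bounded poles. -/
theorem deriv_mem_of_expansion (D : Derivation k κ κ) (O : Subring κ) (π : κ) (hπO : π ∈ O)
    (hk : ∀ c : k, algebraMap k κ c ∈ O)
    (h1 : ∀ f ∈ O, ∃ c : k, ∃ g ∈ O, f = algebraMap k κ c + π * g)
    (h2 : D π ∈ O)
    (h3 : ∃ N : ℕ, ∀ f ∈ O, π ^ N * D f ∈ O) :
    ∀ f ∈ O, D f ∈ O := by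
  obtain ⟨N, hN⟩ := h3
  intro f hf
  obtain ⟨P, g, hg, rfl⟩ := exists_expansion O π h1 N f hf
  rw [map_add, Derivation.map_aeval, Derivation.leibniz, Derivation.leibniz_pow]
  refine O.add_mem ?_ (O.add_mem ?_ ?_)
  · rw [smul_eq_mul]
    exact O.mul_mem (aeval_mem O π hπO hk _) h2
  · rw [smul_eq_mul]
    exact hN g hg
  · rw [smul_eq_mul, smul_eq_mul]
    refine O.mul_mem hg ?_
    rw [nsmul_eq_mul]
    exact O.mul_mem (natCast_mem O N) (O.mul_mem (O.pow_mem hπO _) h2)

/-- Bounded poles on `O` from a finite set of generators. -/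
theorem exists_bound_of_adjoin (D : Derivation k κ κ) (O : Subring κ) (π : κ) (hπO : π ∈ O)
    (hk : ∀ c : k, algebraMap k κ c ∈ O)
    (S : Finset κ) (hS : ∀ s ∈ S, s ∈ O)
    (hpole : ∀ x : κ, ∃ n : ℕ, π ^ n * x ∈ O)
    (hfrac : ∀ f ∈ O, ∃ b u : κ, b ∈ Algebra.adjoin k (S : Set κ) ∧
      u ∈ Algebra.adjoin k (S : Set κ) ∧ u ≠ 0 ∧ u⁻¹ ∈ O ∧ f = b * u⁻¹) :
    ∃ N : ℕ, ∀ f ∈ O, π ^ N * D f ∈ O := by
  classical
  choose n hn using fun x : κ => hpole x
  set N : ℕ := S.sup fun s => n (D s) with hNdef
  have hgen : ∀ s ∈ S, π ^ N * D s ∈ O := by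
    intro s hs
    have hle : n (D s) ≤ N := Finset.le_sup (f := fun s => n (D s)) hs
    obtain ⟨m, hm⟩ := Nat.exists_eq_add_of_le hle
    rw [hm, pow_add, mul_comm (π ^ n (D s)), mul_assoc]
    exact O.mul_mem (O.pow_mem hπO m) (hn (D s))
  have hadj : ∀ b ∈ Algebra.adjoin k (S : Set κ), b ∈ O ∧ π ^ N * D b ∈ O := by
    intro b hb
    induction hb using Algebra.adjoin_induction with
    | mem x hx => exact ⟨hS x hx, hgen x hx⟩
    | algebraMap c =>
      refine ⟨hk c, ?_⟩
      rw [Derivation.map_algebraMap, mul_zero]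
      exact O.zero_mem
    | add x y _ _ hx hy =>
      refine ⟨O.add_mem hx.1 hy.1, ?_⟩
      rw [map_add, mul_add]
      exact O.add_mem hx.2 hy.2
    | mul x y _ _ hx hy =>
      refine ⟨O.mul_mem hx.1 hy.1, ?_⟩
      rw [Derivation.leibniz, smul_eq_mul, smul_eq_mul, mul_add]
      refine O.add_mem ?_ ?_
      · rw [mul_left_comm]
        exact O.mul_mem hx.1 hy.2
      · rw [mul_left_comm]
        exact O.mul_mem hy.1 hx.2
  refine ⟨N, fun f hf => ?_⟩
  obtain ⟨b, u, hb, hu, hu0, hui, rfl⟩ := hfrac f hf
  obtain ⟨hbO, hbD⟩ := hadj b hb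
  obtain ⟨-, huD⟩ := hadj u hu
  rw [Derivation.leibniz, Derivation.leibniz_inv, smul_eq_mul, smul_eq_mul, smul_eq_mul, mul_add]
  refine O.add_mem ?_ ?_
  · -- π^N * (b * (-u⁻¹^2 * D u))
    have : π ^ N * (b * (-u⁻¹ ^ 2 * D u)) = -(b * (u⁻¹ * u⁻¹) * (π ^ N * D u)) := by ring
    rw [this]
    exact O.neg_mem (O.mul_mem (O.mul_mem hbO (O.mul_mem hui hui)) huD)
  · rw [mul_left_comm]
    exact O.mul_mem hui hbD

/-- If `∂ π = 0` then `∂` kills `O` (given `π`-adic separatedness): contrapositive form. -/
theorem deriv_uniformizer_ne_zero (D : Derivation k κ κ) (O : Subring κ) (π : κ)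
    (h1 : ∀ f ∈ O, ∃ c : k, ∃ g ∈ O, f = algebraMap k κ c + π * g)
    (h3 : ∃ N : ℕ, ∀ f ∈ O, π ^ N * D f ∈ O)
    (hsep : ∀ x : κ, (∀ m : ℕ, ∃ y ∈ O, x = π ^ m * y) → x = 0)
    (hne : ∃ f ∈ O, D f ≠ 0) : D π ≠ 0 := by
  intro hDπ
  obtain ⟨N, hN⟩ := h3
  obtain ⟨f, hf, hDf⟩ := hne
  apply hDf
  apply hsep
  intro m
  obtain ⟨P, g, hg, rfl⟩ := exists_expansion O π h1 (m + N) f hf
  refine ⟨π ^ N * D g, hN g hg, ?_⟩
  rw [map_add, Derivation.map_aeval, Derivation.leibniz, Derivation.leibniz_pow, hDπ]
  simp only [smul_eq_mul, mul_zero, smul_zero, zero_add, add_zero]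
  rw [pow_add, mul_assoc]

/-- The derivation `(∂ π)⁻¹ • ∂`, normalised to take the value `1` at `π`. -/
noncomputable def normalizedDeriv (D : Derivation k κ κ) (π : κ) : Derivation k κ κ :=
  (D π)⁻¹ • D

theorem normalizedDeriv_apply (D : Derivation k κ κ) (π f : κ) :
    normalizedDeriv D π f = (D π)⁻¹ * D f := rfl

theorem normalizedDeriv_self (D : Derivation k κ κ) (π : κ) (h : D π ≠ 0) :
    normalizedDeriv D π π = 1 := by
  rw [normalizedDeriv_apply, inv_mul_cancel₀ h]

/-- **Main consumer form.**  `O` a local ring at a `k`-rational point with uniformiser `π`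
(one-step expansions, every element of `κ` has a pole of bounded order, `π`-adically separated),
generated by fractions of a finitely generated `k`-algebra; `∂` any `k`-derivation of `κ` not
vanishing on `O`.  Then `∂ π ≠ 0` and the normalised derivation `(∂ π)⁻¹ ∂` maps `O` to `O`. -/
theorem normalizedDeriv_mem (D : Derivation k κ κ) (O : Subring κ) (π : κ) (hπO : π ∈ O)
    (hk : ∀ c : k, algebraMap k κ c ∈ O)
    (h1 : ∀ f ∈ O, ∃ c : k, ∃ g ∈ O, f = algebraMap k κ c + π * g)
    (S : Finset κ) (hS : ∀ s ∈ S, s ∈ O)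
    (hpole : ∀ x : κ, ∃ n : ℕ, π ^ n * x ∈ O)
    (hfrac : ∀ f ∈ O, ∃ b u : κ, b ∈ Algebra.adjoin k (S : Set κ) ∧
      u ∈ Algebra.adjoin k (S : Set κ) ∧ u ≠ 0 ∧ u⁻¹ ∈ O ∧ f = b * u⁻¹)
    (hsep : ∀ x : κ, (∀ m : ℕ, ∃ y ∈ O, x = π ^ m * y) → x = 0)
    (hne : ∃ f ∈ O, D f ≠ 0) :
    D π ≠ 0 ∧ normalizedDeriv D π π = 1 ∧ ∀ f ∈ O, normalizedDeriv D π f ∈ O := by
  have h3 := exists_bound_of_adjoin D O π hπO hk S hS hpole hfrac
  have hDπ := deriv_uniformizer_ne_zero D O π h1 h3 hsep hne
  refine ⟨hDπ, normalizedDeriv_self D π hDπ, ?_⟩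
  obtain ⟨N, hN⟩ := h3
  obtain ⟨m, hm⟩ := hpole (D π)⁻¹
  refine deriv_mem_of_expansion (normalizedDeriv D π) O π hπO hk h1 ?_ ⟨N + m, ?_⟩
  · rw [normalizedDeriv_self D π hDπ]
    exact O.one_mem
  · intro f hf
    rw [normalizedDeriv_apply]
    have : π ^ (N + m) * ((D π)⁻¹ * D f) = (π ^ m * (D π)⁻¹) * (π ^ N * D f) := by
      rw [pow_add]; ring
    rw [this]
    exact O.mul_mem hm (hN f hf)

end Expansion

section Extension

open scoped Differential

variable {E F : Type*} [Field E] [Field F] [Algebra E F]

/-- A derivation into an `F`-module which vanishes on `E` satisfies the chain rule with constant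
coefficients in `E`. -/
theorem deriv_aeval_of_vanish {A M : Type*} [CommRing A] [Algebra A F]
    [AddCommGroup M] [Module A M] [Module F M]
    (D : Derivation A F M) (h : ∀ e : E, D (algebraMap E F e) = 0) (x : F) (P : E[X]) :
    D (aeval x P) = aeval x (derivative P) • D x := by
  induction P using Polynomial.induction_on' with
  | add p q hp hq => rw [map_add, map_add, hp, hq, derivative_add, map_add, add_smul]
  | monomial n a =>
    rw [aeval_monomial, Derivation.leibniz, h, smul_zero, add_zero, Derivation.leibniz_pow,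
      derivative_monomial, aeval_monomial, map_mul, map_natCast,
      ← Nat.cast_smul_eq_nsmul F, smul_smul, smul_smul]

/-- **Uniqueness**: two derivations of `F` (values in any `F`-module) which agree on `E` agree on
every element separable over `E`. -/
theorem derivation_eq_of_isSeparable {A M : Type*} [CommRing A] [Algebra A F]
    [AddCommGroup M] [Module A M] [Module F M] [IsScalarTower A F M]
    (D1 D2 : Derivation A F M) (h : ∀ e : E, D1 (algebraMap E F e) = D2 (algebraMap E F e))
    (x : F) (hx : IsSeparable E x) : D1 x = D2 x := by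
  have hvan : ∀ e : E, (D1 - D2) (algebraMap E F e) = 0 := fun e => by
    rw [Derivation.sub_apply, h e, sub_self]
  have h1 := deriv_aeval_of_vanish (E := E) (D1 - D2) hvan x (minpoly E x)
  rw [minpoly.aeval, map_zero] at h1
  have hne : aeval x (derivative (minpoly E x)) ≠ 0 :=
    Separable.aeval_derivative_ne_zero hx (minpoly.aeval E x)
  have h2 : (D1 - D2) x = 0 := (smul_eq_zero.mp h1.symm).resolve_left hne
  rwa [Derivation.sub_apply, sub_eq_zero] at h2

/-- Uniqueness on a separable algebraic extension. -/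
theorem derivation_ext_of_isSeparable {A M : Type*} [CommRing A] [Algebra A F]
    [AddCommGroup M] [Module A M] [Module F M] [IsScalarTower A F M] [Algebra.IsSeparable E F]
    (D1 D2 : Derivation A F M) (h : ∀ e : E, D1 (algebraMap E F e) = D2 (algebraMap E F e)) :
    D1 = D2 :=
  Derivation.ext fun x =>
    derivation_eq_of_isSeparable D1 D2 h x (Algebra.IsSeparable.isSeparable E x)

/-- **Existence** (any characteristic): a `ℤ`-derivation of `E` extends to a finite separable
extension `F`.  (Mathlib: `Differential.differentialFiniteDimensional`, `CharZero` only.) -/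
theorem exists_int_derivation_extension [FiniteDimensional E F] [Algebra.IsSeparable E F]
    (d : Derivation ℤ E E) :
    ∃ D : Derivation ℤ F F, ∀ e : E, D (algebraMap E F e) = algebraMap E F (d e) := by
  let _ : Differential E := ⟨d⟩
  obtain ⟨x, hx⟩ := Field.exists_primitive_element E F
  have hint : IsIntegral E x := (IsAlgebraic.of_finite E x).isIntegral
  -- surjectivity of evaluation at the primitive element
  have hsurj : Function.Surjective (aeval x : E[X] →ₐ[E] F) := by
    have h1 : (aeval x : E[X] →ₐ[E] F).range = ⊤ := by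
      rw [← Algebra.adjoin_singleton_eq_range_aeval,
        ← IntermediateField.adjoin_simple_toSubalgebra_of_isAlgebraic (IsAlgebraic.of_finite E x), hx,
        IntermediateField.top_toSubalgebra]
    intro y
    have : y ∈ (aeval x : E[X] →ₐ[E] F).range := by rw [h1]; exact Algebra.mem_top
    exact this
  set p := minpoly E x with hp
  have hne : aeval x (derivative p) ≠ 0 :=
    Separable.aeval_derivative_ne_zero (Algebra.IsSeparable.isSeparable E x) (minpoly.aeval E x)
  obtain ⟨v, hv⟩ := hsurj (-(aeval x (Differential.mapCoeffs p)) / aeval x (derivative p))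
  set f : E[X] →ₐ[ℤ] F := (aeval x : E[X] →ₐ[E] F).toRingHom.toIntAlgHom with hf
  have hfa : ∀ P : E[X], f P = aeval x P := fun _ => rfl
  have hfsurj : Function.Surjective f := hsurj
  have hd : ∀ P : E[X], f P = 0 → f (Differential.implicitDeriv v P) = 0 := by
    intro P hP
    rw [hfa] at hP
    obtain ⟨Q, rfl⟩ := minpoly.dvd E x hP
    rw [hfa, Derivation.leibniz, smul_eq_mul, smul_eq_mul, map_add, map_mul, map_mul,
      minpoly.aeval, zero_mul, zero_add]
    have : aeval x (Differential.implicitDeriv v (minpoly E x)) = 0 := by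
      unfold Differential.implicitDeriv
      simp only [Derivation.coe_add, Derivation.coe_smul, Pi.add_apply, Pi.smul_apply,
        Derivation.restrictScalars_apply, derivative'_apply, smul_eq_mul, map_add, map_mul]
      rw [hv, div_mul_cancel₀ _ hne, add_neg_cancel]
    rw [this, mul_zero]
  refine ⟨Derivation.liftOfSurjective hfsurj hd, fun e => ?_⟩
  have h1 : algebraMap E F e = f (C e) := by rw [hfa, aeval_C]
  rw [h1, Derivation.liftOfSurjective_apply, Differential.implicitDeriv_C, hfa, aeval_C]
  rfl

/-- A `ℤ`-derivation which kills the image of `k` is `k`-linear. -/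
noncomputable def derivationOfInt {k : Type*} [Field k] [Algebra k F] (D : Derivation ℤ F F)
    (h : ∀ c : k, D (algebraMap k F c) = 0) : Derivation k F F :=
  Derivation.mk'
    { toFun := D
      map_add' := map_add D
      map_smul' := fun c y => by
        simp only [RingHom.id_apply]
        rw [Algebra.smul_def, Derivation.leibniz, h c, smul_zero, add_zero, smul_eq_mul,
          Algebra.smul_def] }
    (fun a b => Derivation.leibniz D a b)

@[simp]
theorem derivationOfInt_apply {k : Type*} [Field k] [Algebra k F] (D : Derivation ℤ F F)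
    (h : ∀ c : k, D (algebraMap k F c) = 0) (y : F) : derivationOfInt D h y = D y := rfl

/-- **Existence, `k`-linear form**: `k ⊆ E ⊆ F`, `F/E` finite separable (any characteristic),
`d` a `k`-derivation of `E`.  Then `d` extends to a `k`-derivation of `F`. -/
theorem exists_derivation_extension {k : Type*} [Field k] [Algebra k E] [Algebra k F]
    [IsScalarTower k E F] [FiniteDimensional E F] [Algebra.IsSeparable E F]
    (d : Derivation k E E) :
    ∃ D : Derivation k F F, ∀ e : E, D (algebraMap E F e) = algebraMap E F (d e) := by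
  obtain ⟨D, hD⟩ := exists_int_derivation_extension (F := F) (d.restrictScalars ℤ)
  have hk : ∀ c : k, D (algebraMap k F c) = 0 := fun c => by
    rw [IsScalarTower.algebraMap_apply k E F, hD, Derivation.restrictScalars_apply,
      Derivation.map_algebraMap, map_zero]
  exact ⟨derivationOfInt D hk, fun e => by rw [derivationOfInt_apply, hD]; rfl⟩

/-- Existence and uniqueness together. -/
theorem existsUnique_derivation_extension {k : Type*} [Field k] [Algebra k E] [Algebra k F]
    [IsScalarTower k E F] [FiniteDimensional E F] [Algebra.IsSeparable E F]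
    (d : Derivation k E E) :
    ∃! D : Derivation k F F, ∀ e : E, D (algebraMap E F e) = algebraMap E F (d e) := by
  obtain ⟨D, hD⟩ := exists_derivation_extension (F := F) d
  refine ⟨D, hD, fun D' hD' => ?_⟩
  exact derivation_ext_of_isSeparable (E := E) D' D fun e => by rw [hD, hD']

end Extension

section RationalBase

open IntermediateField

/-- A derivation on a domain with values in its fraction field extends to the fraction field. -/
theorem exists_derivation_of_isFractionRing {R A K : Type*} [CommRing R] [CommRing A]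
    [Field K] [Algebra R A] [Algebra A K] [Algebra R K] [IsScalarTower R A K]
    [IsFractionRing A K] (d : Derivation R A K) :
    ∃ D : Derivation R K K, ∀ a : A, D (algebraMap A K a) = d a := by
  have hunit : ∀ x : nonZeroDivisors A, IsUnit ((algebraMap A (Module.End A K)) x) := by
    intro x
    have hx : algebraMap A K x ≠ 0 := (IsLocalization.map_units K x).ne_zero
    rw [Module.End.isUnit_iff]
    constructor
    · intro a b hab
      simp only [Module.algebraMap_end_apply, Algebra.smul_def] at hab
      exact mul_left_cancel₀ hx hab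
    · intro b
      refine ⟨(algebraMap A K x)⁻¹ * b, ?_⟩
      simp only [Module.algebraMap_end_apply, Algebra.smul_def]
      rw [mul_inv_cancel_left₀ hx]
  let g : Ω[K⁄R] →ₗ[A] K :=
    IsLocalizedModule.lift (nonZeroDivisors A) (KaehlerDifferential.map R R A K)
      d.liftKaehlerDifferential hunit
  let g' : Ω[K⁄R] →ₗ[K] K := g.extendScalarsOfIsLocalization (nonZeroDivisors A) K
  refine ⟨g'.compDer (KaehlerDifferential.D R K), fun a => ?_⟩
  show g (KaehlerDifferential.D R K (algebraMap A K a)) = d a
  rw [← KaehlerDifferential.map_D R R A K]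
  show g (KaehlerDifferential.map R R A K (KaehlerDifferential.D R A a)) = d a
  rw [IsLocalizedModule.lift_apply]
  exact Derivation.liftKaehlerDifferential_comp_D d a

/-- `d/dX` on the rational function field (any characteristic). -/
theorem exists_derivation_ratFunc (k : Type*) [Field k] :
    ∃ D : Derivation k (RatFunc k) (RatFunc k), D RatFunc.X = 1 := by
  obtain ⟨D, hD⟩ := exists_derivation_of_isFractionRing (R := k) (A := k[X]) (K := RatFunc k)
    (Polynomial.mkDerivation k (1 : RatFunc k))
  refine ⟨D, ?_⟩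
  rw [← RatFunc.algebraMap_X, hD, Polynomial.mkDerivation_X]

/-- Transport of a derivation along an algebra isomorphism. -/
noncomputable def derivationCongr {k E E' : Type*} [CommRing k] [CommRing E] [CommRing E']
    [Algebra k E] [Algebra k E'] (e : E ≃ₐ[k] E') (D : Derivation k E E) : Derivation k E' E' :=
  Derivation.mk' (e.toLinearMap ∘ₗ (D : E →ₗ[k] E) ∘ₗ e.symm.toLinearMap) (fun a b => by
    simp only [LinearMap.coe_comp, Function.comp_apply, AlgEquiv.toLinearMap_apply, map_mul,
      Derivation.coeFn_coe, Derivation.leibniz, smul_eq_mul, map_add, AlgEquiv.apply_symm_apply])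

theorem derivationCongr_apply {k E E' : Type*} [CommRing k] [CommRing E] [CommRing E']
    [Algebra k E] [Algebra k E'] (e : E ≃ₐ[k] E') (D : Derivation k E E) (x : E') :
    derivationCongr e D x = e (D (e.symm x)) := rfl

variable {k κ : Type*} [Field k] [Field κ] [Algebra k κ]

/-- `d/ds` on `k(s)` for `s` transcendental over `k`. -/
theorem exists_derivation_adjoin_simple (s : κ) (hs : Transcendental k s) :
    ∃ d : Derivation k k⟮s⟯ k⟮s⟯, d (AdjoinSimple.gen k s) = 1 := by
  obtain ⟨D, hD⟩ := exists_derivation_ratFunc k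
  refine ⟨derivationCongr (RatFunc.algEquivOfTranscendental s hs) D, ?_⟩
  rw [derivationCongr_apply, RatFunc.algEquivOfTranscendental_symm_gen, hD, map_one]

/-- Two `k`-derivations of `κ` (values in any `κ`-module) which agree on a set `S` agree on the
subfield `k(S)`. -/
theorem derivation_eq_of_mem_adjoin {M : Type*} [AddCommGroup M] [Module k M] [Module κ M]
    [IsScalarTower k κ M] (D1 D2 : Derivation k κ M) (S : Set κ) (h : ∀ x ∈ S, D1 x = D2 x) :
    ∀ x ∈ IntermediateField.adjoin k S, D1 x = D2 x := by
  intro x hx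
  induction hx using IntermediateField.adjoin_induction with
  | mem x hx => exact h x hx
  | algebraMap c => rw [Derivation.map_algebraMap, Derivation.map_algebraMap]
  | add x y _ _ hx hy => rw [map_add, map_add, hx, hy]
  | mul x y _ _ hx hy => rw [Derivation.leibniz, Derivation.leibniz, hx, hy]
  | inv x _ hx =>
    by_cases hx0 : x = 0
    · rw [hx0, inv_zero, map_zero, map_zero]
    · rw [Derivation.leibniz_of_mul_eq_one D1 (inv_mul_cancel₀ hx0),
        Derivation.leibniz_of_mul_eq_one D2 (inv_mul_cancel₀ hx0), hx]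

/-- **Existence**: `s` transcendental over `k`, `κ / k(s)` finite separable (any characteristic).
Then there is a `k`-derivation `∂` of `κ` with `∂ s = 1`. -/
theorem exists_derivation_eq_one (s : κ) (hs : Transcendental k s)
    [FiniteDimensional k⟮s⟯ κ] [Algebra.IsSeparable k⟮s⟯ κ] :
    ∃ D : Derivation k κ κ, D s = 1 := by
  obtain ⟨d, hd⟩ := exists_derivation_adjoin_simple s hs
  obtain ⟨D, hD⟩ := exists_derivation_extension (k := k) (E := k⟮s⟯) (F := κ) d
  refine ⟨D, ?_⟩
  have := hD (AdjoinSimple.gen k s)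
  rw [hd, map_one] at this
  exact this

/-- **Every derivation is a multiple of `∂`**: `κ / k(s)` separable algebraic, `∂` a
`k`-derivation of `κ` with `∂ s = 1`, `δ` a `k`-derivation of `κ` with values in any
`κ`-module.  Then `δ x = ∂ x • δ s`. -/
theorem derivation_eq_smul (s : κ) [Algebra.IsSeparable k⟮s⟯ κ] (D : Derivation k κ κ)
    (hD : D s = 1) {M : Type*} [AddCommGroup M] [Module k M] [Module κ M] [IsScalarTower k κ M]
    (δ : Derivation k κ M) (x : κ) : δ x = D x • δ s := by
  set D2 : Derivation k κ M := (LinearMap.toSpanSingleton κ M (δ s)).compDer D with hD2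
  have h2 : ∀ y, D2 y = D y • δ s := fun y => rfl
  have hS : ∀ y ∈ ({s} : Set κ), δ y = D2 y := by
    intro y hy
    rw [Set.mem_singleton_iff.mp hy, h2, hD, one_smul]
  have hE : ∀ e : k⟮s⟯, δ (algebraMap k⟮s⟯ κ e) = D2 (algebraMap k⟮s⟯ κ e) := fun e =>
    derivation_eq_of_mem_adjoin δ D2 {s} hS e.1 e.2
  have := derivation_ext_of_isSeparable (E := k⟮s⟯) δ D2 hE
  rw [DFunLike.congr_fun this x, h2]

/-- Existence and uniqueness of the `k`-derivation `∂ = d/ds` of `κ`. -/
theorem existsUnique_derivation_eq_one (s : κ) (hs : Transcendental k s)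
    [FiniteDimensional k⟮s⟯ κ] [Algebra.IsSeparable k⟮s⟯ κ] :
    ∃! D : Derivation k κ κ, D s = 1 := by
  obtain ⟨D, hD⟩ := exists_derivation_eq_one s hs
  refine ⟨D, hD, fun D' hD' => ?_⟩
  ext x
  rw [derivation_eq_smul s D hD D' x, hD', smul_eq_mul, mul_one]

/-- **Chain rule in an overring** (e.g. `L = k((t))`, `κ → L` the `t`-expansion, `δ = d/dt`):
`δ (ι x) = ι (∂ x) * δ (ι s)`. -/
theorem derivation_algebraMap_eq_mul (s : κ) [Algebra.IsSeparable k⟮s⟯ κ] (D : Derivation k κ κ)
    (hD : D s = 1) {L : Type*} [CommRing L] [Algebra k L] [Algebra κ L] [IsScalarTower k κ L]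
    (δ : Derivation k L L) (x : κ) :
    δ (algebraMap κ L x) = algebraMap κ L (D x) * δ (algebraMap κ L s) := by
  have := derivation_eq_smul s D hD (δ.compAlgebraMap κ) x
  rw [Derivation.compAlgebraMap_apply, Derivation.compAlgebraMap_apply, Algebra.smul_def] at this
  exact this

end RationalBase

end Fermat.Agent.CA.H39
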