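/-
S36, abstract ASSEMBLY of the bricks (Der-1) … (Der-6) of coordination note 3:
"`Ω = ∂_ι (V s)` is a unit of the discrete valuation ring `O_H`".

`K` a field of characteristic zero, `E` and `F` fields over `K`, `ι V : E →ₐ[K] F` two embeddings,
`∂` a `K`-derivation of `E` with `∂ s = 1`, `dι` (resp. `dV`) a `K`-derivation of `F` extending `∂`
along `ι` (resp. along `V`).  `O` a discrete valuation ring of `F` containing `K`, with residue
field algebraic over `K`, containing `ι s` and `V s`, unramified over both copies of `E`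
(a uniformiser comes from `E` along `ι`, and another one along `V`), with bounded denominators for
`dι` and `dV`.  Then `dι` and `dV` preserve `O`, and `dι (V s)` is a unit of `O` with inverse
`dV (ι s)`.
-/
import Fermat.Agent.CA.H32_DerivHorizontal
import Fermat.Agent.CA.H39_DerivDVR

set_option autoImplicit false

namespace Fermat.Agent.CA.H32

open Polynomial

section Assembly

variable {K E F : Type*} [Field K] [Field E] [Field F] [Algebra K E] [Algebra K F] [CharZero K]

/-- A derivation of `F` extending `∂` along `ι` preserves a DVR `O` which has a uniformiser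
`ι t` coming from below with `ι (∂ t) ∈ O`, as soon as its denominators on `O` are bounded. -/
theorem deriv_mem_of_uniformiser_below (ι : E →ₐ[K] F) (del : Derivation K E E)
    (dι : Derivation K F F) (hdι : ∀ x : E, dι (ι x) = ι (del x))
    (O : ValuationSubring F) [IsDiscreteValuationRing O]
    (hK : ∀ c : K, algebraMap K F c ∈ O)
    (hres : ∀ x ∈ O, ∃ μ : K[X], μ ≠ 0 ∧ O.valuation (aeval x μ) < 1)
    {t : E} {ϖ : O} (hϖ : Irreducible ϖ) (hϖt : (ϖ : F) = ι t) (hdt : ι (del t) ∈ O)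
    (hbdd : ∃ d : F, d ≠ 0 ∧ ∀ x ∈ O, d * dι x ∈ O) :
    ∀ x ∈ O, dι x ∈ O := by
  refine deriv_mem O hK hres dι hϖ ?_ hbdd
  rw [hϖt, hdι]
  exact hdt

/-- **Assembly.**  `Ω := dι (V s)` is a unit of `O`, with inverse `dV (ι s)`. -/
theorem horizontal_unit (ι V : E →ₐ[K] F) (del : Derivation K E E) {s : E} (hs : del s = 1)
    (dι dV : Derivation K F F)
    (hdι : ∀ x : E, dι (ι x) = ι (del x)) (hdV : ∀ x : E, dV (V x) = V (del x))
    (hprop : ∃ c : F, ∀ x : F, dV x = c * dι x)
    (O : ValuationSubring F) [IsDiscreteValuationRing O]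
    (hK : ∀ c : K, algebraMap K F c ∈ O)
    (hres : ∀ x ∈ O, ∃ μ : K[X], μ ≠ 0 ∧ O.valuation (aeval x μ) < 1)
    (hsι : ι s ∈ O) (hsV : V s ∈ O)
    {tι : E} {ϖι : O} (hϖι : Irreducible ϖι) (hϖιt : (ϖι : F) = ι tι) (hdtι : ι (del tι) ∈ O)
    {tV : E} {ϖV : O} (hϖV : Irreducible ϖV) (hϖVt : (ϖV : F) = V tV) (hdtV : V (del tV) ∈ O)
    (hbι : ∃ d : F, d ≠ 0 ∧ ∀ x ∈ O, d * dι x ∈ O)
    (hbV : ∃ d : F, d ≠ 0 ∧ ∀ x ∈ O, d * dV x ∈ O) :
    (∀ x ∈ O, dι x ∈ O) ∧ (∀ x ∈ O, dV x ∈ O) ∧
      dι (V s) ∈ O ∧ dV (ι s) ∈ O ∧ dι (V s) * dV (ι s) = 1 ∧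
      O.valuation (dι (V s)) = 1 := by
  have hι : ∀ x ∈ O, dι x ∈ O :=
    deriv_mem_of_uniformiser_below ι del dι hdι O hK hres hϖι hϖιt hdtι hbι
  have hV : ∀ x ∈ O, dV x ∈ O :=
    deriv_mem_of_uniformiser_below V del dV hdV O hK hres hϖV hϖVt hdtV hbV
  obtain ⟨c, hc⟩ := hprop
  have h1 : c * dι (V s) = 1 := by
    rw [← hc, hdV, hs, map_one]
  have h2 : dV (ι s) = c := by
    rw [hc, hdι, hs, map_one, mul_one]
  have hΩ : dι (V s) ∈ O := hι _ hsV
  have hΩ' : dV (ι s) ∈ O := hV _ hsι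
  have hmul : dι (V s) * dV (ι s) = 1 := by rw [h2, mul_comm]; exact h1
  refine ⟨hι, hV, hΩ, hΩ', hmul, ?_⟩
  have hle1 : O.valuation (dι (V s)) ≤ 1 := (O.valuation_le_one_iff _).mpr hΩ
  have hle2 : O.valuation (dV (ι s)) ≤ 1 := (O.valuation_le_one_iff _).mpr hΩ'
  have hv : O.valuation (dι (V s)) * O.valuation (dV (ι s)) = 1 := by
    rw [← map_mul, hmul, map_one]
  refine le_antisymm hle1 ?_
  calc (1 : _) = O.valuation (dι (V s)) * O.valuation (dV (ι s)) := hv.symm
    _ ≤ O.valuation (dι (V s)) * 1 := mul_le_mul' le_rfl hle2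
    _ = O.valuation (dι (V s)) := mul_one _

end Assembly

section Proportional

/-! The space of `K`-derivations of `F` is a line: if `E / K(s)` and `F / E` are separable
algebraic then every `K`-derivation of `F` is a multiple of the extension of `d/ds`. -/

open IntermediateField

variable {K E F : Type*} [Field K] [Field E] [Field F] [Algebra K E] [Algebra K F]
  [Algebra E F] [IsScalarTower K E F]

/-- `dV = dV (s) • dι` as soon as `dι` extends `∂ = d/ds`. -/
theorem deriv_eq_mul_of_isSeparable (s : E) [Algebra.IsSeparable K⟮s⟯ E]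
    [Algebra.IsSeparable E F] (del : Derivation K E E) (hs : del s = 1)
    (dι dV : Derivation K F F)
    (hdι : ∀ x : E, dι (algebraMap E F x) = algebraMap E F (del x)) (x : F) :
    dV x = dV (algebraMap E F s) * dι x := by
  have key : dV = (dV (algebraMap E F s)) • dι := by
    refine H39.derivation_ext_of_isSeparable (E := E) dV ((dV (algebraMap E F s)) • dι) ?_
    intro e
    rw [H39.derivation_algebraMap_eq_mul s del hs dV e, Derivation.smul_apply, hdι, smul_eq_mul,
      mul_comm]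
  rw [key, Derivation.smul_apply, smul_eq_mul]
  congr 1
  rw [← key]

end Proportional

end Fermat.Agent.CA.H32
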