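/-
S36 brick (Der-res): the residue field of a *horizontal* height-one prime of a chart is algebraic
over the fraction field `k` of the base ring.  This discharges the hypothesis `hres` / `halg` of
the (Der-3) bricks (`CA.H32.deriv_mem`, `CA.H33.deriv_mem`, `CA.H49...`) at a chart.

`R → k → F`, `O` a non-trivial valuation subring of the field `F` containing `k`;
`B` an `R`-subalgebra of `F`, integral over `R[j]`, contained in `O`, such that every element of `O`
is a fraction `a / b` with `a b ∈ B` and `b` a unit of `O` (`O` is a localisation of `B`).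
Then every `x ∈ O` satisfies `O.valuation (μ(x)) < 1` for some nonzero `μ ∈ k[X]`.

Mathlib only.
-/
import Mathlib

set_option autoImplicit false

namespace Fermat.Agent.CA.H32

open Polynomial

section ResidueAlgebraic

variable {k F : Type*} [Field k] [Field F] [Algebra k F] (O : ValuationSubring F)

/-- The map `k → O`. -/
noncomputable def constHom (hk : ∀ c : k, algebraMap k F c ∈ O) : k →+* O :=
  (algebraMap k F).codRestrict O hk

@[simp] theorem coe_constHom (hk : ∀ c : k, algebraMap k F c ∈ O) (c : k) :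
    ((constHom O hk c : O) : F) = algebraMap k F c := rfl

/-- The map `k → κ(O)` to the residue field. -/
noncomputable def constRes (hk : ∀ c : k, algebraMap k F c ∈ O) :
    k →+* IsLocalRing.ResidueField O :=
  (IsLocalRing.residue O).comp (constHom O hk)

/-- Evaluating a polynomial with constant coefficients at an element of `O` stays in `O`. -/
theorem aeval_mem_of_mem (hk : ∀ c : k, algebraMap k F c ∈ O) {x : F} (hx : x ∈ O) (μ : k[X]) :
    aeval x μ ∈ O := by
  have h : ((eval₂ (constHom O hk) (⟨x, hx⟩ : O) μ : O) : F) = aeval x μ := by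
    have := Polynomial.hom_eval₂ μ (constHom O hk) O.subtype (⟨x, hx⟩ : O)
    rw [aeval_def]
    exact this
  rw [← h]
  exact Subtype.mem _

/-- The residue of `μ(x)` is `μ` evaluated at the residue of `x`. -/
theorem residue_aeval (hk : ∀ c : k, algebraMap k F c ∈ O) {x : F} (hx : x ∈ O) (μ : k[X]) :
    IsLocalRing.residue O ⟨aeval x μ, aeval_mem_of_mem O hk hx μ⟩ =
      eval₂ (constRes O hk) (IsLocalRing.residue O ⟨x, hx⟩) μ := by
  have h : (⟨aeval x μ, aeval_mem_of_mem O hk hx μ⟩ : O) =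
      eval₂ (constHom O hk) (⟨x, hx⟩ : O) μ := by
    apply Subtype.ext
    have := Polynomial.hom_eval₂ μ (constHom O hk) O.subtype (⟨x, hx⟩ : O)
    show aeval x μ = ((eval₂ (constHom O hk) (⟨x, hx⟩ : O) μ : O) : F)
    rw [aeval_def]
    exact this.symm
  rw [h, Polynomial.hom_eval₂]
  rfl

/-- `v (μ(x)) < 1` iff `μ` kills the residue of `x`. -/
theorem valuation_aeval_lt_one_iff (hk : ∀ c : k, algebraMap k F c ∈ O) {x : F} (hx : x ∈ O)
    (μ : k[X]) :
    O.valuation (aeval x μ) < 1 ↔
      eval₂ (constRes O hk) (IsLocalRing.residue O ⟨x, hx⟩) μ = 0 := by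
  rw [← residue_aeval O hk hx μ, IsLocalRing.residue_eq_zero_iff,
    O.valuation_lt_one_iff ⟨aeval x μ, aeval_mem_of_mem O hk hx μ⟩]

end ResidueAlgebraic

section Chart

variable {R k F : Type*} [CommRing R] [Field k] [Field F] [Algebra R k] [Algebra k F]
  [Algebra R F] [IsScalarTower R k F] (O : ValuationSubring F)

/-- **(Der-res).**  The residue field of a localisation `O` of a chart `B` (integral over `R[j]`)
at a horizontal prime is algebraic over `k ⊇ R`. -/
theorem exists_poly_valuation_lt_one_of_chart (hk : ∀ c : k, algebraMap k F c ∈ O)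
    (hnt : ∃ y : F, y ≠ 0 ∧ O.valuation y < 1)
    (j : F) (hj : j ∈ O) (B : Subalgebra R F)
    (hB : ∀ x ∈ B, IsIntegral (Algebra.adjoin R {j}) x) (hBO : ∀ x ∈ B, x ∈ O)
    (hfrac : ∀ x ∈ O, ∃ a ∈ B, ∃ b ∈ B, O.valuation b = 1 ∧ x * b = a) :
    ∀ x ∈ O, ∃ μ : k[X], μ ≠ 0 ∧ O.valuation (aeval x μ) < 1 := by
  classical
  -- notation
  set κ := IsLocalRing.ResidueField O with hκ
  set φ : O →+* κ := IsLocalRing.residue O with hφ
  set ψ : k →+* κ := constRes O hk with hψ
  let _ : Algebra k κ := ψ.toAlgebra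
  have halgmap : ∀ c : k, algebraMap k κ c = ψ c := fun c => rfl
  -- `R[j] ⊆ O`
  have hRO : ∀ r : R, algebraMap R F r ∈ O := fun r => by
    rw [IsScalarTower.algebraMap_apply R k F]; exact hk _
  let OR : Subalgebra R F :=
    { O.toSubring.toSubsemiring with
      algebraMap_mem' := hRO }
  have hOR : ∀ y : F, y ∈ OR ↔ y ∈ O := fun y => Iff.rfl
  have hle : Algebra.adjoin R {j} ≤ OR :=
    Algebra.adjoin_le (Set.singleton_subset_iff.mpr ((hOR j).mpr hj))
  have hA0 : ∀ y : Algebra.adjoin R {j}, (y : F) ∈ O := fun y => (hOR _).mp (hle y.2)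
  -- the ring hom `R[j] → O`
  let incl : Algebra.adjoin R {j} →+* O :=
    ((Algebra.adjoin R {j}).val : Algebra.adjoin R {j} →+* F).codRestrict O hA0
  have hincl : ∀ y : Algebra.adjoin R {j}, ((incl y : O) : F) = (y : F) := fun y => rfl
  -- integrality relation inside `O`
  have heval : ∀ (x : F) (hx : x ∈ O) (p : (Algebra.adjoin R {j})[X]),
      eval₂ (algebraMap (Algebra.adjoin R {j}) F) x p = 0 →
      eval₂ incl (⟨x, hx⟩ : O) p = 0 := by
    intro x hx p hp
    apply Subtype.ext
    have := Polynomial.hom_eval₂ p incl O.subtype (⟨x, hx⟩ : O)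
    rw [ZeroMemClass.coe_zero, ← hp]
    exact this
  -- Step 1: the residue of `j` is algebraic over `k`.
  have hjalg : IsAlgebraic k (φ ⟨j, hj⟩) := by
    obtain ⟨y, hy0, hy1⟩ := hnt
    have hyO : y ∈ O := (O.valuation_le_one_iff y).mp hy1.le
    obtain ⟨a, haB, b, hbB, hb1, hab⟩ := hfrac y hyO
    have hb0 : b ≠ 0 := by
      rintro rfl
      rw [map_zero] at hb1
      exact zero_ne_one hb1
    have ha0 : a ≠ 0 := by rw [← hab]; exact mul_ne_zero hy0 hb0
    have hva : O.valuation a < 1 := by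
      rw [← hab, map_mul, hb1, mul_one]; exact hy1
    have haO : a ∈ O := hBO a haB
    obtain ⟨p, hpm, hp⟩ := hB a haB
    have hp' := heval a haO p hp
    have ha0' : (⟨a, haO⟩ : O) ≠ 0 := fun h => ha0 (congrArg Subtype.val h)
    have hamem : (⟨a, haO⟩ : O) ∈ IsLocalRing.maximalIdeal O :=
      (O.valuation_lt_one_iff ⟨a, haO⟩).mpr hva
    obtain ⟨i, hci0, hcimem⟩ :=
      Ideal.exists_coeff_ne_zero_mem_comap_of_root_mem (f := incl) ha0' hamem hpm.ne_zero hp'
    set c := p.coeff i with hc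
    have hcv : O.valuation ((c : Algebra.adjoin R {j}) : F) < 1 := by
      have : incl c ∈ IsLocalRing.maximalIdeal O := hcimem
      exact (O.valuation_lt_one_iff (incl c)).mp this
    have hcF : ((c : Algebra.adjoin R {j}) : F) ≠ 0 := fun h => hci0 (Subtype.ext h)
    -- `c = g(j)`
    have hcmem : ((c : Algebra.adjoin R {j}) : F) ∈ (aeval j : R[X] →ₐ[R] F).range := by
      rw [← Algebra.adjoin_singleton_eq_range_aeval]; exact c.2
    obtain ⟨g, hg⟩ := hcmem
    have hg' : aeval j (g.map (algebraMap R k)) = ((c : Algebra.adjoin R {j}) : F) := by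
      rw [aeval_map_algebraMap]; exact hg
    have hμ0 : g.map (algebraMap R k) ≠ 0 := by
      intro h0
      rw [h0, map_zero] at hg'
      exact hcF hg'.symm
    refine ⟨g.map (algebraMap R k), hμ0, ?_⟩
    rw [aeval_def]
    refine (valuation_aeval_lt_one_iff O hk hj _).mp ?_
    rw [hg']; exact hcv
  -- Step 2: the relative algebraic closure of `k` in `κ`, and `R[j] → κ` lands in it.
  set 𝔞 : IntermediateField k κ := algebraicClosure k κ with h𝔞
  let θ : Algebra.adjoin R {j} →+* κ := φ.comp incl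
  have hθmem : ∀ y : Algebra.adjoin R {j}, θ y ∈ 𝔞 := by
    rintro ⟨y, hy⟩
    induction hy using Algebra.adjoin_induction with
    | mem z hz =>
      have hzj : z = j := Set.mem_singleton_iff.mp hz
      subst hzj
      exact mem_algebraicClosure_iff.mpr hjalg
    | algebraMap r =>
      have : θ ⟨algebraMap R F r, Subalgebra.algebraMap_mem _ r⟩ =
          algebraMap k κ (algebraMap R k r) := by
        rw [halgmap]
        show φ (incl _) = φ (constHom O hk _)
        congr 1
        apply Subtype.ext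
        show algebraMap R F r = algebraMap k F (algebraMap R k r)
        exact IsScalarTower.algebraMap_apply R k F r
      rw [this]
      exact 𝔞.algebraMap_mem _
    | add x y hx hy hx' hy' =>
      have : θ ⟨x + y, add_mem hx hy⟩ = θ ⟨x, hx⟩ + θ ⟨y, hy⟩ := by
        rw [← map_add]; rfl
      rw [this]; exact add_mem hx' hy'
    | mul x y hx hy hx' hy' =>
      have : θ ⟨x * y, mul_mem hx hy⟩ = θ ⟨x, hx⟩ * θ ⟨y, hy⟩ := by
        rw [← map_mul]; rfl
      rw [this]; exact mul_mem hx' hy'
  let θ' : Algebra.adjoin R {j} →+* 𝔞 := θ.codRestrict 𝔞 hθmem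
  -- Step 3: residues of elements of `B` are algebraic.
  have hBalg : ∀ (a : F) (haB : a ∈ B), φ ⟨a, hBO a haB⟩ ∈ 𝔞 := by
    intro a haB
    obtain ⟨p, hpm, hp⟩ := hB a haB
    have hp' := heval a (hBO a haB) p hp
    have hint : IsIntegral 𝔞 (φ ⟨a, hBO a haB⟩) := by
      refine ⟨p.map θ', hpm.map θ', ?_⟩
      rw [Polynomial.eval₂_map]
      have hcomp : (algebraMap 𝔞 κ).comp θ' = φ.comp incl := by
        ext y; rfl
      rw [hcomp, ← Polynomial.hom_eval₂, hp', map_zero]
    exact mem_algebraicClosure_iff'.mpr (isIntegral_trans _ hint)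
  -- Step 4: all of `O`.
  intro x hx
  obtain ⟨a, haB, b, hbB, hb1, hab⟩ := hfrac x hx
  have hbO : b ∈ O := hBO b hbB
  have hrel : φ ⟨x, hx⟩ * φ ⟨b, hbO⟩ = φ ⟨a, hBO a haB⟩ := by
    rw [← map_mul]
    congr 1
    exact Subtype.ext hab
  have hφb : φ ⟨b, hbO⟩ ≠ 0 := by
    intro h0
    have hm : (⟨b, hbO⟩ : O) ∈ IsLocalRing.maximalIdeal O :=
      (IsLocalRing.residue_eq_zero_iff _).mp h0
    have := (O.valuation_lt_one_iff ⟨b, hbO⟩).mp hm
    rw [hb1] at this
    exact lt_irrefl _ this
  have hxmem : φ ⟨x, hx⟩ ∈ 𝔞 := by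
    have : φ ⟨x, hx⟩ = φ ⟨a, hBO a haB⟩ / φ ⟨b, hbO⟩ := by
      rw [← hrel, mul_div_cancel_right₀ _ hφb]
    rw [this]
    exact div_mem (hBalg a haB) (hBalg b hbB)
  obtain ⟨μ, hμ0, hμ⟩ := mem_algebraicClosure_iff.mp hxmem
  refine ⟨μ, hμ0, (valuation_aeval_lt_one_iff O hk hx μ).mpr ?_⟩
  rw [aeval_def] at hμ
  exact hμ

end Chart

end Fermat.Agent.CA.H32
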