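/-
S36 (M2e), helper62's route #3361 step (2), helper82's remark (i): the valuation lemma
"`j ^ 4 * (j - 1728) ^ 3 / (∂ j) ^ 6` is a unit at a horizontal place without elliptic ramification".

`O` a discrete valuation ring of `F` containing the characteristic-zero field `K`, `∂` a
`K`-derivation of `F` preserving `O` with `∂ ϖ` a unit (a *unit derivation*, output of
`CA.H32.deriv_mem` + `CA.H32.valuation_deriv_uniformiser_eq_one`).  For `j ∈ F` and constants
`a ≠ b` of `K`, in each of the three cases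
* `j - a` has order `3`,
* `j - b` has order `2`,
* `j - a` and `j - b` are units and some `μ(j)`, `μ ∈ K[X]`, has order `1`,
one has `v ((j - a) ^ 4 * (j - b) ^ 3) = v (∂ j) ^ 6`.

Mathlib + `CA.H32_DerivHorizontal` only.
-/
import Fermat.Agent.CA.H32_DerivHorizontal

set_option autoImplicit false

namespace Fermat.Agent.CA.H32

open Polynomial

section Sixfold

variable {K F : Type*} [Field K] [Field F] [Algebra K F] [CharZero K]
  (O : ValuationSubring F) [IsDiscreteValuationRing O]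

/-- Cancelling the uniformiser in the order formula. -/
theorem valuation_deriv_eq_pow (hK : ∀ c : K, algebraMap K F c ∈ O)
    (δ : Derivation K F F) {ϖ : O} (hϖ : Irreducible ϖ)
    (hδ : ∀ x ∈ O, δ x ∈ O) (hδϖ1 : O.valuation (δ (ϖ : F)) = 1)
    {x : F} {n : ℕ} (hx : O.valuation x = O.valuation (ϖ : F) ^ (n + 1)) :
    O.valuation (δ x) = O.valuation (ϖ : F) ^ n := by
  have hϖ0 : (ϖ : F) ≠ 0 := fun h => hϖ.ne_zero (Subtype.ext h)
  have hvϖ0 : O.valuation (ϖ : F) ≠ 0 := (O.valuation.ne_zero_iff).mpr hϖ0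
  have hvϖ1 : O.valuation (ϖ : F) < 1 := valuation_irreducible_lt_one O hϖ
  have hx0 : x ≠ 0 := by
    rintro rfl
    rw [map_zero] at hx
    exact (pow_ne_zero _ hvϖ0) hx.symm
  have hx1 : O.valuation x ≠ 1 := by
    rw [hx]
    exact (pow_lt_one' hvϖ1 (Nat.succ_ne_zero n)).ne
  have h := valuation_deriv_mul_uniformiser O hK δ hϖ hδ hδϖ1 hx0 hx1
  rw [hx, pow_succ] at h
  exact mul_right_cancel₀ hvϖ0 h

omit [CharZero K] in
/-- Constants are killed: `∂ (j - a) = ∂ j`. -/
theorem deriv_sub_algebraMap (δ : Derivation K F F) (j : F) (a : K) :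
    δ (j - algebraMap K F a) = δ j := by
  rw [map_sub, Derivation.map_algebraMap, sub_zero]

/-- Case (C): if some `μ(j)` is a uniformiser then `∂ j` is a unit. -/
theorem valuation_deriv_eq_one_of_aeval (hK : ∀ c : K, algebraMap K F c ∈ O)
    (δ : Derivation K F F) {ϖ : O} (hϖ : Irreducible ϖ)
    (hδ : ∀ x ∈ O, δ x ∈ O) (hδϖ1 : O.valuation (δ (ϖ : F)) = 1)
    {j : F} (hj : j ∈ O) {μ : K[X]} (hμ : O.valuation (aeval j μ) = O.valuation (ϖ : F)) :
    O.valuation (δ j) = 1 := by
  have h1 : O.valuation (δ (aeval j μ)) = 1 := by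
    have := valuation_deriv_eq_pow O hK δ hϖ hδ hδϖ1 (x := aeval j μ) (n := 0)
      (by rw [zero_add, pow_one]; exact hμ)
    rwa [pow_zero] at this
  rw [Derivation.map_aeval, smul_eq_mul, map_mul] at h1
  have hle1 : O.valuation (aeval j (derivative μ)) ≤ 1 :=
    val_aeval_le_one O.valuation (fun c => (O.valuation_le_one_iff _).mpr (hK c))
      ((O.valuation_le_one_iff j).mpr hj) _
  have hle2 : O.valuation (δ j) ≤ 1 := (O.valuation_le_one_iff _).mpr (hδ j hj)
  refine le_antisymm hle2 ?_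
  calc (1 : _) = O.valuation (aeval j (derivative μ)) * O.valuation (δ j) := h1.symm
    _ ≤ 1 * O.valuation (δ j) := mul_le_mul' hle1 le_rfl
    _ = O.valuation (δ j) := one_mul _

/-- **The sixfold-differential lemma**, general constants `a ≠ b`. -/
theorem valuation_sixfold (hK : ∀ c : K, algebraMap K F c ∈ O)
    (δ : Derivation K F F) {ϖ : O} (hϖ : Irreducible ϖ)
    (hδ : ∀ x ∈ O, δ x ∈ O) (hδϖ1 : O.valuation (δ (ϖ : F)) = 1)
    {j : F} (hj : j ∈ O) {a b : K} (hab : a ≠ b)
    (h : O.valuation (j - algebraMap K F a) = O.valuation (ϖ : F) ^ 3 ∨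
      O.valuation (j - algebraMap K F b) = O.valuation (ϖ : F) ^ 2 ∨
      (O.valuation (j - algebraMap K F a) = 1 ∧ O.valuation (j - algebraMap K F b) = 1 ∧
        ∃ μ : K[X], O.valuation (aeval j μ) = O.valuation (ϖ : F))) :
    O.valuation ((j - algebraMap K F a) ^ 4 * (j - algebraMap K F b) ^ 3) =
      O.valuation (δ j) ^ 6 := by
  have hvϖ1 : O.valuation (ϖ : F) < 1 := valuation_irreducible_lt_one O hϖ
  have hK' : ∀ c : K, O.valuation (algebraMap K F c) ≤ 1 :=
    fun c => (O.valuation_le_one_iff _).mpr (hK c)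
  -- `a - b` is a nonzero constant, hence a unit
  have hc : O.valuation (algebraMap K F (a - b)) = 1 :=
    val_algebraMap_eq_one O.valuation hK' (sub_ne_zero.mpr hab)
  have hc' : O.valuation (algebraMap K F (b - a)) = 1 :=
    val_algebraMap_eq_one O.valuation hK' (sub_ne_zero.mpr hab.symm)
  rcases h with h3 | h2 | ⟨ha1, hb1, μ, hμ⟩
  · -- order 3 at `a`
    have hd : O.valuation (δ j) = O.valuation (ϖ : F) ^ 2 := by
      rw [← deriv_sub_algebraMap δ j a]
      exact valuation_deriv_eq_pow O hK δ hϖ hδ hδϖ1 (n := 2) h3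
    have hlt : O.valuation (j - algebraMap K F a) < 1 := by
      rw [h3]; exact pow_lt_one' hvϖ1 (by norm_num)
    have hb : O.valuation (j - algebraMap K F b) = 1 := by
      have : j - algebraMap K F b = (j - algebraMap K F a) + algebraMap K F (a - b) := by
        rw [map_sub]; ring
      rw [this, Valuation.map_add_eq_of_lt_right _ (by rw [hc]; exact hlt), hc]
    rw [map_mul, map_pow, map_pow, h3, hb, hd, one_pow, mul_one, ← pow_mul, ← pow_mul]
  · -- order 2 at `b`
    have hd : O.valuation (δ j) = O.valuation (ϖ : F) ^ 1 := by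
      rw [← deriv_sub_algebraMap δ j b]
      exact valuation_deriv_eq_pow O hK δ hϖ hδ hδϖ1 (n := 1) h2
    have hlt : O.valuation (j - algebraMap K F b) < 1 := by
      rw [h2]; exact pow_lt_one' hvϖ1 (by norm_num)
    have ha : O.valuation (j - algebraMap K F a) = 1 := by
      have : j - algebraMap K F a = (j - algebraMap K F b) + algebraMap K F (b - a) := by
        rw [map_sub]; ring
      rw [this, Valuation.map_add_eq_of_lt_right _ (by rw [hc']; exact hlt), hc']
    rw [map_mul, map_pow, map_pow, h2, ha, hd, one_pow, one_mul, ← pow_mul, ← pow_mul]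
  · -- unramified value
    have hd := valuation_deriv_eq_one_of_aeval O hK δ hϖ hδ hδϖ1 hj hμ
    rw [map_mul, map_pow, map_pow, ha1, hb1, hd, one_pow, one_pow, one_pow, mul_one]

/-- The `j`-line form: `a = 0`, `b = 1728`:
`v (j ^ 4 * (j - 1728) ^ 3) = v (∂ j) ^ 6`. -/
theorem valuation_sixfold_j (hK : ∀ c : K, algebraMap K F c ∈ O)
    (δ : Derivation K F F) {ϖ : O} (hϖ : Irreducible ϖ)
    (hδ : ∀ x ∈ O, δ x ∈ O) (hδϖ1 : O.valuation (δ (ϖ : F)) = 1)
    {j : F} (hj : j ∈ O)
    (h : O.valuation j = O.valuation (ϖ : F) ^ 3 ∨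
      O.valuation (j - 1728) = O.valuation (ϖ : F) ^ 2 ∨
      (O.valuation j = 1 ∧ O.valuation (j - 1728) = 1 ∧
        ∃ μ : K[X], O.valuation (aeval j μ) = O.valuation (ϖ : F))) :
    O.valuation (j ^ 4 * (j - 1728) ^ 3) = O.valuation (δ j) ^ 6 := by
  have h0 : algebraMap K F (0 : K) = 0 := map_zero _
  have h1728 : algebraMap K F (1728 : K) = 1728 := map_ofNat _ 1728
  have hab : (0 : K) ≠ 1728 := by norm_num
  have key := valuation_sixfold O hK δ hϖ hδ hδϖ1 hj hab
    (by rw [h0, h1728, sub_zero]; exact h)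
  rw [h0, h1728, sub_zero] at key
  exact key

/-- The quotient form: `j ^ 4 * (j - 1728) ^ 3 / (∂ j) ^ 6` is a unit of `O`. -/
theorem valuation_sixfold_div_eq_one (hK : ∀ c : K, algebraMap K F c ∈ O)
    (δ : Derivation K F F) {ϖ : O} (hϖ : Irreducible ϖ)
    (hδ : ∀ x ∈ O, δ x ∈ O) (hδϖ1 : O.valuation (δ (ϖ : F)) = 1)
    {j : F} (hj : j ∈ O) (hδj : δ j ≠ 0)
    (h : O.valuation j = O.valuation (ϖ : F) ^ 3 ∨
      O.valuation (j - 1728) = O.valuation (ϖ : F) ^ 2 ∨
      (O.valuation j = 1 ∧ O.valuation (j - 1728) = 1 ∧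
        ∃ μ : K[X], O.valuation (aeval j μ) = O.valuation (ϖ : F))) :
    O.valuation (j ^ 4 * (j - 1728) ^ 3 / (δ j) ^ 6) = 1 := by
  rw [map_div₀, valuation_sixfold_j O hK δ hϖ hδ hδϖ1 hj h, map_pow]
  exact div_self (pow_ne_zero _ ((O.valuation.ne_zero_iff).mpr hδj))

end Sixfold

end Fermat.Agent.CA.H32
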