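/-
S36, Coordination Note 3, bricks (Der-3) + (Der-4) (helper33, Mathlib only).

`F/K` fields of characteristic zero, `O` a valuation subring of `F` containing `K` whose maximal
ideal is generated by `π` and whose residue field is algebraic over `K`, `d` a `K`-derivation of
`F` with `d π ∈ O` and with bounded poles on `O` (`π ^ N * d x ∈ O` for all `x ∈ O`).

* `valuation_deriv_le_one` / `deriv_mem` (Der-3): `d` preserves `O`.
* `valuation_deriv_uniformiser_eq_one` / `deriv_uniformiser_unit` (Der-4): if moreover `d s = 1`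
  for some `s ∈ O`, then `d π` is a unit of `O`;
* `valuation_deriv_unit_mul_zpow` (Der-4): `v (d (u π ^ n)) = v π ^ (n - 1)` for `n ≠ 0`, `u` a unit;
* `valuation_deriv_eq_div` : `v (d x) = v x / v π` whenever `v x ≠ 1`, `x ≠ 0`, for a discrete `v`.
* `unit_of_two_derivations` : the consumer lemma (`Ω = d₁ a`, `Ω⁻¹ = d₂ b`).
-/
import Mathlib

set_option autoImplicit false

open Polynomial

namespace Fermat.Agent.CA.H33

variable {K F : Type*} [Field K] [Field F] [Algebra K F]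

section Aux

variable (O : ValuationSubring F)

/-- nonzero constants are units of `O`. -/
theorem valuation_algebraMap_eq_one (hK : ∀ c : K, O.valuation (algebraMap K F c) ≤ 1) {c : K}
    (hc : c ≠ 0) : O.valuation (algebraMap K F c) = 1 := by
  refine le_antisymm (hK c) ?_
  by_contra hlt
  rw [not_le] at hlt
  have h1 : algebraMap K F c * algebraMap K F c⁻¹ = 1 := by
    rw [← map_mul, mul_inv_cancel₀ hc, map_one]
  have hv := congrArg O.valuation h1
  rw [map_mul, map_one] at hv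
  have : O.valuation (algebraMap K F c) * O.valuation (algebraMap K F c⁻¹) < 1 := by
    calc _ ≤ O.valuation (algebraMap K F c) * 1 := mul_le_mul_right (hK c⁻¹) _
      _ < 1 := by rwa [mul_one]
  rw [hv] at this
  exact lt_irrefl _ this

/-- polynomial expressions in an element of `O` with coefficients in `K ⊆ O` lie in `O`. -/
theorem valuation_aeval_le_one (hK : ∀ c : K, O.valuation (algebraMap K F c) ≤ 1) {x : F}
    (hx : O.valuation x ≤ 1) (p : K[X]) : O.valuation (aeval x p) ≤ 1 := by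
  induction p using Polynomial.induction_on with
  | C a => rw [aeval_C]; exact hK a
  | add p q hp hq =>
    rw [map_add]
    exact le_trans (Valuation.map_add _ _ _) (max_le hp hq)
  | monomial n a _ =>
    rw [map_mul, aeval_C, map_pow, aeval_X, map_mul, map_pow]
    calc _ ≤ (1 : O.ValueGroup) * 1 := mul_le_mul' (hK a) (pow_le_one' hx _)
      _ = 1 := mul_one 1

end Aux

section Main

variable [CharZero K] (O : ValuationSubring F)
  (hK : ∀ c : K, O.valuation (algebraMap K F c) ≤ 1)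
  {π : F} (hπ0 : π ≠ 0)
  (hgen : ∀ x : F, O.valuation x < 1 → O.valuation x ≤ O.valuation π)
  (halg : ∀ x : F, O.valuation x ≤ 1 → ∃ μ : K[X], μ ≠ 0 ∧ O.valuation (aeval x μ) < 1)
  (d : Derivation K F F)

include hK halg in
/-- A "separable" annihilator of the residue of `x`: `μ(x)` a non-unit, `μ'(x)` a unit. -/
theorem exists_sep_annihilator {x : F} (hx : O.valuation x ≤ 1) :
    ∃ μ : K[X], O.valuation (aeval x μ) < 1 ∧ O.valuation (aeval x (derivative μ)) = 1 := by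
  classical
  have hex : ∃ n : ℕ, ∃ μ : K[X], μ ≠ 0 ∧ μ.natDegree = n ∧ O.valuation (aeval x μ) < 1 := by
    obtain ⟨μ, hμ0, hμ⟩ := halg x hx
    exact ⟨μ.natDegree, μ, hμ0, rfl, hμ⟩
  obtain ⟨μ, hμ0, hμd, hμ⟩ := Nat.find_spec hex
  have hmin : ∀ ν : K[X], ν ≠ 0 → ν.natDegree < μ.natDegree → ¬ O.valuation (aeval x ν) < 1 := by
    intro ν hν0 hνd hν
    have : ν.natDegree < Nat.find hex := by rw [← hμd]; exact hνd
    exact Nat.find_min hex this ⟨ν, hν0, rfl, hν⟩
  have hdeg : μ.natDegree ≠ 0 := by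
    intro h0
    obtain ⟨c, hc⟩ := natDegree_eq_zero.mp h0
    have hc0 : c ≠ 0 := by
      rintro rfl
      rw [map_zero] at hc
      exact hμ0 hc.symm
    rw [← hc, aeval_C, valuation_algebraMap_eq_one O hK hc0] at hμ
    exact lt_irrefl _ hμ
  have hder0 : derivative μ ≠ 0 := by
    intro h0
    exact hdeg (Polynomial.derivative_eq_zero.mp h0)
  have hderlt : (derivative μ).natDegree < μ.natDegree := natDegree_derivative_lt hdeg
  refine ⟨μ, hμ, le_antisymm (valuation_aeval_le_one O hK hx _) ?_⟩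
  exact not_lt.mp (hmin _ hder0 hderlt)

include hπ0 hgen in
/-- non-units are multiples of `π`. -/
theorem exists_eq_mul_of_lt_one {y : F} (hy : O.valuation y < 1) :
    ∃ z : F, O.valuation z ≤ 1 ∧ y = π * z := by
  have hvπ : O.valuation π ≠ 0 := (Valuation.ne_zero_iff _).mpr hπ0
  refine ⟨y / π, ?_, by field_simp⟩
  rw [map_div₀]
  exact div_le_one_of_le₀ (hgen y hy) zero_le

include hK hπ0 hgen halg in
/-- The induction step: pole order at most `N + 1` implies pole order at most `N`. -/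
theorem pole_step (hπ : O.valuation π ≤ 1) (hdπ : O.valuation (d π) ≤ 1) (N : ℕ)
    (hN : ∀ x : F, O.valuation x ≤ 1 → O.valuation (π ^ (N + 1) * d x) ≤ 1) :
    ∀ x : F, O.valuation x ≤ 1 → O.valuation (π ^ N * d x) ≤ 1 := by
  intro x hx
  obtain ⟨μ, hμ, hμ'⟩ := exists_sep_annihilator O hK halg hx
  obtain ⟨z, hz, hyz⟩ := exists_eq_mul_of_lt_one O hπ0 hgen hμ
  have h1 : d (aeval x μ) = aeval x (derivative μ) * d x := by
    rw [Derivation.map_aeval, smul_eq_mul]
  have h2 : d (aeval x μ) = π * d z + z * d π := by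
    rw [hyz, Derivation.leibniz, smul_eq_mul, smul_eq_mul]
  have h3 : aeval x (derivative μ) * (π ^ N * d x) = π ^ (N + 1) * d z + π ^ N * (z * d π) := by
    calc _ = π ^ N * (aeval x (derivative μ) * d x) := by ring
      _ = π ^ N * (π * d z + z * d π) := by rw [← h1, h2]
      _ = _ := by ring
  have h4 : O.valuation (aeval x (derivative μ) * (π ^ N * d x)) ≤ 1 := by
    rw [h3]
    refine le_trans (Valuation.map_add _ _ _) (max_le (hN z hz) ?_)
    rw [map_mul, map_pow, map_mul]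
    calc _ ≤ (1 : O.ValueGroup) * (1 * 1) :=
          mul_le_mul' (pow_le_one' hπ _) (mul_le_mul' hz hdπ)
      _ = 1 := by rw [mul_one, mul_one]
  rwa [map_mul, hμ', one_mul] at h4

include hK hπ0 hgen halg in
/-- **(Der-3)**, valuation form: a `K`-derivation with bounded poles on `O` and `d π ∈ O`
preserves `O`. -/
theorem valuation_deriv_le_one (hπ : O.valuation π ≤ 1) (hdπ : O.valuation (d π) ≤ 1)
    (hbdd : ∃ N : ℕ, ∀ x : F, O.valuation x ≤ 1 → O.valuation (π ^ N * d x) ≤ 1) :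
    ∀ x : F, O.valuation x ≤ 1 → O.valuation (d x) ≤ 1 := by
  obtain ⟨N, hN⟩ := hbdd
  induction N with
  | zero =>
    intro x hx
    have := hN x hx
    rwa [pow_zero, one_mul] at this
  | succ N ih => exact ih (pole_step O hK hπ0 hgen halg d hπ hdπ N hN)

include hK hπ0 hgen halg in
/-- **(Der-4)**, first half: if `d s = 1` for some `s ∈ O`, then `d π` is a unit of `O`. -/
theorem valuation_deriv_uniformiser_eq_one (hπ : O.valuation π < 1)
    (hdπ : O.valuation (d π) ≤ 1)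
    (hbdd : ∃ N : ℕ, ∀ x : F, O.valuation x ≤ 1 → O.valuation (π ^ N * d x) ≤ 1)
    {s : F} (hs : O.valuation s ≤ 1) (hds : d s = 1) : O.valuation (d π) = 1 := by
  refine le_antisymm hdπ ?_
  by_contra hlt
  rw [not_le] at hlt
  have hpres := valuation_deriv_le_one O hK hπ0 hgen halg d hπ.le hdπ hbdd
  obtain ⟨μ, hμ, hμ'⟩ := exists_sep_annihilator O hK halg hs
  obtain ⟨z, hz, hyz⟩ := exists_eq_mul_of_lt_one O hπ0 hgen hμ
  have h1 : d (aeval s μ) = aeval s (derivative μ) := by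
    rw [Derivation.map_aeval, smul_eq_mul, hds, mul_one]
  have h2 : d (aeval s μ) = π * d z + z * d π := by
    rw [hyz, Derivation.leibniz, smul_eq_mul, smul_eq_mul]
  have h3 : O.valuation (π * d z + z * d π) < 1 := by
    refine lt_of_le_of_lt (Valuation.map_add _ _ _) (max_lt ?_ ?_)
    · rw [map_mul]
      calc _ ≤ O.valuation π * 1 := mul_le_mul_right (hpres z hz) _
        _ < 1 := by rwa [mul_one]
    · rw [map_mul]
      calc _ ≤ 1 * O.valuation (d π) := mul_le_mul_left hz _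
        _ < 1 := by rwa [one_mul]
  rw [← h2, h1, hμ'] at h3
  exact lt_irrefl _ h3

include hK hπ0 hgen halg in
/-- **(Der-4)**, second half: the order drops by exactly one: for a unit `u` and `n ≠ 0`,
`v (d (u π ^ n)) = v π ^ (n - 1)`. -/
theorem valuation_deriv_unit_mul_zpow (hπ : O.valuation π < 1)
    (hdπ : O.valuation (d π) ≤ 1)
    (hbdd : ∃ N : ℕ, ∀ x : F, O.valuation x ≤ 1 → O.valuation (π ^ N * d x) ≤ 1)
    {s : F} (hs : O.valuation s ≤ 1) (hds : d s = 1) {n : ℤ} (hn : n ≠ 0) {u : F}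
    (hu : O.valuation u = 1) :
    O.valuation (d (u * π ^ n)) = O.valuation π ^ (n - 1) := by
  have hvπ : O.valuation π ≠ 0 := (Valuation.ne_zero_iff _).mpr hπ0
  have hpres := valuation_deriv_le_one O hK hπ0 hgen halg d hπ.le hdπ hbdd
  have hdπ1 := valuation_deriv_uniformiser_eq_one O hK hπ0 hgen halg d hπ hdπ hbdd hs hds
  have hnF : O.valuation ((n : ℤ) : F) = 1 := by
    have hnK : ((n : ℤ) : K) ≠ 0 := Int.cast_ne_zero.mpr hn
    have := valuation_algebraMap_eq_one O hK hnK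
    rwa [map_intCast] at this
  have h1 : d (u * π ^ n) = u * ((n : F) * π ^ (n - 1) * d π) + π ^ n * d u := by
    rw [Derivation.leibniz, Derivation.leibniz_zpow, smul_eq_mul, smul_eq_mul, smul_eq_mul,
      zsmul_eq_mul]
    ring
  have hA : O.valuation (u * ((n : F) * π ^ (n - 1) * d π)) = O.valuation π ^ (n - 1) := by
    rw [map_mul, map_mul, map_mul, hu, hnF, hdπ1, map_zpow₀, one_mul, one_mul, mul_one]
  have hB : O.valuation (π ^ n * d u) < O.valuation π ^ (n - 1) := by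
    rw [map_mul, map_zpow₀]
    have hstep : O.valuation π ^ n = O.valuation π ^ (n - 1) * O.valuation π := by
      rw [← zpow_add_one₀ hvπ, sub_add_cancel]
    have hpos : 0 < O.valuation π ^ (n - 1) := zpow_pos (zero_lt_iff.mpr hvπ) _
    calc O.valuation π ^ n * O.valuation (d u)
        ≤ O.valuation π ^ n * 1 := mul_le_mul_right (hpres u hu.le) _
      _ = O.valuation π ^ (n - 1) * O.valuation π := by rw [mul_one, hstep]
      _ < O.valuation π ^ (n - 1) * 1 := by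
          exact (mul_lt_mul_iff_right₀ hpos).mpr hπ
      _ = O.valuation π ^ (n - 1) := mul_one _
  rw [h1, Valuation.map_add_eq_of_lt_left _ (by rw [hA]; exact hB), hA]

include hK hπ0 hgen halg in
/-- For a discrete valuation (every nonzero value a power of `v π`): `v (d x) = v x / v π`
whenever `x ≠ 0` and `v x ≠ 1`. -/
theorem valuation_deriv_eq_div (hπ : O.valuation π < 1)
    (hdπ : O.valuation (d π) ≤ 1)
    (hbdd : ∃ N : ℕ, ∀ x : F, O.valuation x ≤ 1 → O.valuation (π ^ N * d x) ≤ 1)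
    (hdvr : ∀ x : F, x ≠ 0 → ∃ n : ℤ, O.valuation x = O.valuation π ^ n)
    {s : F} (hs : O.valuation s ≤ 1) (hds : d s = 1) {x : F} (hx0 : x ≠ 0)
    (hx1 : O.valuation x ≠ 1) : O.valuation (d x) = O.valuation x / O.valuation π := by
  have hvπ : O.valuation π ≠ 0 := (Valuation.ne_zero_iff _).mpr hπ0
  obtain ⟨n, hn⟩ := hdvr x hx0
  have hn0 : n ≠ 0 := by
    rintro rfl
    rw [zpow_zero] at hn
    exact hx1 hn
  set u : F := x * π ^ (-n) with hu
  have hvu : O.valuation u = 1 := by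
    rw [hu, map_mul, map_zpow₀, hn, ← zpow_add₀ hvπ, add_neg_cancel, zpow_zero]
  have hxu : x = u * π ^ n := by
    rw [hu, mul_assoc, ← zpow_add₀ hπ0, neg_add_cancel, zpow_zero, mul_one]
  have := valuation_deriv_unit_mul_zpow O hK hπ0 hgen halg d hπ hdπ hbdd hs hds hn0 hvu
  rw [← hxu] at this
  rw [this, hn, zpow_sub_one₀ hvπ, div_eq_mul_inv]

end Main

section Membership

variable (O : ValuationSubring F)

/-- `v y < 1` in membership terms. -/
theorem valuation_lt_one_iff_mem (y : F) :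
    O.valuation y < 1 ↔ (y ∈ O ∧ (y = 0 ∨ y⁻¹ ∉ O)) := by
  constructor
  · intro hy
    refine ⟨(O.valuation_le_one_iff y).mp hy.le, ?_⟩
    by_cases hy0 : y = 0
    · exact Or.inl hy0
    · right
      intro hinv
      have h1 := (O.valuation_le_one_iff _).mpr hinv
      rw [map_inv₀] at h1
      have hvy : O.valuation y ≠ 0 := (Valuation.ne_zero_iff _).mpr hy0
      have : (1 : O.ValueGroup) ≤ O.valuation y := by
        have := mul_le_mul_right h1 (O.valuation y)
        rwa [mul_inv_cancel₀ hvy, mul_one] at this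
      exact absurd hy (not_lt.mpr this)
  · rintro ⟨hyO, hy | hy⟩
    · rw [hy, map_zero]; exact zero_lt_one
    · by_contra hnot
      rw [not_lt] at hnot
      apply hy
      rw [← O.valuation_le_one_iff, map_inv₀]
      have hy1 := (O.valuation_le_one_iff y).mpr hyO
      rw [le_antisymm hy1 hnot, inv_one]

/-- `v y = 1` in membership terms. -/
theorem valuation_eq_one_iff_mem (y : F) :
    O.valuation y = 1 ↔ (y ∈ O ∧ y⁻¹ ∈ O ∧ y ≠ 0) := by
  constructor
  · intro hy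
    have hy0 : y ≠ 0 := by
      rintro rfl
      rw [map_zero] at hy
      exact zero_ne_one hy
    refine ⟨(O.valuation_le_one_iff y).mp hy.le, ?_, hy0⟩
    rw [← O.valuation_le_one_iff, map_inv₀, hy, inv_one]
  · rintro ⟨hyO, hyinv, hy0⟩
    refine le_antisymm ((O.valuation_le_one_iff y).mpr hyO) ?_
    by_contra hlt
    rw [not_le] at hlt
    rcases ((valuation_lt_one_iff_mem O y).mp hlt).2 with h | h
    · exact hy0 h
    · exact h hyinv

/-- Translation of the membership hypotheses into the valuation hypotheses. -/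
theorem valuation_hyps (hK : ∀ c : K, algebraMap K F c ∈ O) {π : F}
    (hgen : ∀ x ∈ O, x⁻¹ ∉ O → ∃ z ∈ O, x = π * z)
    (halg : ∀ x ∈ O, ∃ μ : K[X], μ ≠ 0 ∧ (aeval x μ = 0 ∨ (aeval x μ)⁻¹ ∉ O))
    (d : Derivation K F F) (hbdd : ∃ N : ℕ, ∀ x ∈ O, π ^ N * d x ∈ O) :
    (∀ c : K, O.valuation (algebraMap K F c) ≤ 1) ∧
    (∀ x : F, O.valuation x < 1 → O.valuation x ≤ O.valuation π) ∧
    (∀ x : F, O.valuation x ≤ 1 → ∃ μ : K[X], μ ≠ 0 ∧ O.valuation (aeval x μ) < 1) ∧
    (∃ N : ℕ, ∀ x : F, O.valuation x ≤ 1 → O.valuation (π ^ N * d x) ≤ 1) := by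
  have hK' : ∀ c : K, O.valuation (algebraMap K F c) ≤ 1 := fun c =>
    (O.valuation_le_one_iff _).mpr (hK c)
  refine ⟨hK', ?_, ?_, ?_⟩
  · intro x hx
    obtain ⟨hxO, hx'⟩ := (valuation_lt_one_iff_mem O x).mp hx
    rcases hx' with rfl | hx'
    · rw [map_zero]; exact zero_le
    · obtain ⟨z, hz, rfl⟩ := hgen x hxO hx'
      rw [map_mul]
      calc _ ≤ O.valuation π * 1 := mul_le_mul_right ((O.valuation_le_one_iff _).mpr hz) _
        _ = _ := mul_one _
  · intro x hx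
    obtain ⟨μ, hμ0, hμ⟩ := halg x ((O.valuation_le_one_iff _).mp hx)
    refine ⟨μ, hμ0, (valuation_lt_one_iff_mem O _).mpr ⟨?_, hμ⟩⟩
    exact (O.valuation_le_one_iff _).mp (valuation_aeval_le_one O hK' hx μ)
  · obtain ⟨N, hN⟩ := hbdd
    exact ⟨N, fun y hy =>
      (O.valuation_le_one_iff _).mpr (hN y ((O.valuation_le_one_iff _).mp hy))⟩

variable [CharZero K]

/-- **(Der-3)**, membership form (the shape pinned on the board). -/
theorem deriv_mem (hK : ∀ c : K, algebraMap K F c ∈ O) {π : F} (hπ : π ∈ O) (hπ0 : π ≠ 0)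
    (hgen : ∀ x ∈ O, x⁻¹ ∉ O → ∃ z ∈ O, x = π * z)
    (halg : ∀ x ∈ O, ∃ μ : K[X], μ ≠ 0 ∧ (aeval x μ = 0 ∨ (aeval x μ)⁻¹ ∉ O))
    (d : Derivation K F F) (hdπ : d π ∈ O)
    (hbdd : ∃ N : ℕ, ∀ x ∈ O, π ^ N * d x ∈ O) : ∀ x ∈ O, d x ∈ O := by
  obtain ⟨hK', hgen', halg', hbdd'⟩ := valuation_hyps O hK hgen halg d hbdd
  intro x hx
  rw [← O.valuation_le_one_iff]
  exact valuation_deriv_le_one O hK' hπ0 hgen' halg' d ((O.valuation_le_one_iff _).mpr hπ)
    ((O.valuation_le_one_iff _).mpr hdπ) hbdd' x ((O.valuation_le_one_iff _).mpr hx)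

/-- **(Der-4)**, membership form, first half: `d π` is a unit of `O` if `d s = 1` for some
`s ∈ O` (`π` a non-unit). -/
theorem deriv_uniformiser_unit (hK : ∀ c : K, algebraMap K F c ∈ O) {π : F} (hπ : π ∈ O)
    (hπ0 : π ≠ 0) (hπnu : π⁻¹ ∉ O)
    (hgen : ∀ x ∈ O, x⁻¹ ∉ O → ∃ z ∈ O, x = π * z)
    (halg : ∀ x ∈ O, ∃ μ : K[X], μ ≠ 0 ∧ (aeval x μ = 0 ∨ (aeval x μ)⁻¹ ∉ O))
    (d : Derivation K F F) (hdπ : d π ∈ O)
    (hbdd : ∃ N : ℕ, ∀ x ∈ O, π ^ N * d x ∈ O) {s : F} (hs : s ∈ O) (hds : d s = 1) :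
    d π ∈ O ∧ (d π)⁻¹ ∈ O ∧ d π ≠ 0 := by
  obtain ⟨hK', hgen', halg', hbdd'⟩ := valuation_hyps O hK hgen halg d hbdd
  have hπlt : O.valuation π < 1 := (valuation_lt_one_iff_mem O π).mpr ⟨hπ, Or.inr hπnu⟩
  exact (valuation_eq_one_iff_mem O _).mp
    (valuation_deriv_uniformiser_eq_one O hK' hπ0 hgen' halg' d hπlt
      ((O.valuation_le_one_iff _).mpr hdπ) hbdd' ((O.valuation_le_one_iff _).mpr hs) hds)

/-- **(Der-4)**, membership form, second half: `d (u π ^ n) = w π ^ (n - 1)` with `w` a unit of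
`O`, for `u` a unit of `O` and `n ≠ 0`. -/
theorem deriv_unit_mul_zpow (hK : ∀ c : K, algebraMap K F c ∈ O) {π : F} (hπ : π ∈ O)
    (hπ0 : π ≠ 0) (hπnu : π⁻¹ ∉ O)
    (hgen : ∀ x ∈ O, x⁻¹ ∉ O → ∃ z ∈ O, x = π * z)
    (halg : ∀ x ∈ O, ∃ μ : K[X], μ ≠ 0 ∧ (aeval x μ = 0 ∨ (aeval x μ)⁻¹ ∉ O))
    (d : Derivation K F F) (hdπ : d π ∈ O)
    (hbdd : ∃ N : ℕ, ∀ x ∈ O, π ^ N * d x ∈ O) {s : F} (hs : s ∈ O) (hds : d s = 1)
    {n : ℤ} (hn : n ≠ 0) {u : F} (hu : u ∈ O) (hu' : u⁻¹ ∈ O) (hu0 : u ≠ 0) :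
    ∃ w : F, w ∈ O ∧ w⁻¹ ∈ O ∧ w ≠ 0 ∧ d (u * π ^ n) = w * π ^ (n - 1) := by
  obtain ⟨hK', hgen', halg', hbdd'⟩ := valuation_hyps O hK hgen halg d hbdd
  have hπlt : O.valuation π < 1 := (valuation_lt_one_iff_mem O π).mpr ⟨hπ, Or.inr hπnu⟩
  have hvu : O.valuation u = 1 := (valuation_eq_one_iff_mem O u).mpr ⟨hu, hu', hu0⟩
  have hval := valuation_deriv_unit_mul_zpow O hK' hπ0 hgen' halg' d hπlt
    ((O.valuation_le_one_iff _).mpr hdπ) hbdd' ((O.valuation_le_one_iff _).mpr hs) hds hn hvu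
  have hvπ : O.valuation π ≠ 0 := (Valuation.ne_zero_iff _).mpr hπ0
  refine ⟨d (u * π ^ n) * π ^ (-(n - 1)), ?_⟩
  have hw : O.valuation (d (u * π ^ n) * π ^ (-(n - 1))) = 1 := by
    rw [map_mul, hval, map_zpow₀, ← zpow_add₀ hvπ, add_neg_cancel, zpow_zero]
  obtain ⟨h1, h2, h3⟩ := (valuation_eq_one_iff_mem O _).mp hw
  refine ⟨h1, h2, h3, ?_⟩
  rw [mul_assoc, ← zpow_add₀ hπ0, neg_add_cancel, zpow_zero, mul_one]

omit [CharZero K] in
/-- The consumer lemma: if two derivations preserving `O` satisfy `d₁ a = Ω`, `d₂ b = Ω⁻¹` with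
`a b ∈ O`, then `Ω` is a unit of `O`. -/
theorem unit_of_two_derivations {d₁ d₂ : Derivation K F F} (h₁ : ∀ x ∈ O, d₁ x ∈ O)
    (h₂ : ∀ x ∈ O, d₂ x ∈ O) {a b Ω : F} (ha : a ∈ O) (hb : b ∈ O) (hΩa : d₁ a = Ω)
    (hΩb : d₂ b = Ω⁻¹) : Ω ∈ O ∧ Ω⁻¹ ∈ O :=
  ⟨hΩa ▸ h₁ a ha, hΩb ▸ h₂ b hb⟩

end Membership

end Fermat.Agent.CA.H33
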