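/-
S36, Coordination Note 3 (helper78 #3231 redirect; helper33, Mathlib only + CA.H33_DerivDVR).

* `unit_of_proportional_derivations` : the consumer lemma of the (M2) assembly.  Two derivations
  `d₁ d₂` of `F` preserving a subring `O`, proportional (`d₂ = c • d₁`), with `d₁ b = 1`,
  `d₂ a = 1`, `a b ∈ O`:  then `c = d₂ b ∈ O`, `c⁻¹ = d₁ a ∈ O` (`Ω := d₁ a`, `Ω⁻¹ = d₂ b`).
* `exists_pow_bound_of_denominator` : from the `(Der-2)` output `∃ d₀ ≠ 0, d₀ * d x ∈ O'` to the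
  pole bound `∃ N, π ^ N * d x ∈ O'` consumed by `(Der-3)`.
* `deriv_mem_of_le` : the extension step.  `O ≤ O'` valuation subrings of `F` containing `K`,
  `π ∈ O` generating the maximal ideal of `O'`, `d π ∈ O`, residue field of `O'` algebraic over
  `K`, bounded denominators on `O'`  ⟹  `d` preserves `O'`.
* `deriv_unit_of_le` : in the same situation, with `d s = 1`, `s ∈ O'`: `d π` is a unit of `O'`.
-/
import Fermat.Agent.CA.H33_DerivDVR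

set_option autoImplicit false

open Polynomial

namespace Fermat.Agent.CA.H33

variable {K F : Type*} [Field K] [Field F] [Algebra K F]

section Consumer

variable {S : Type*} [SetLike S F] (O : S)

/-- **Consumer lemma.** Proportional derivations preserving `O`, normalised by `d₁ b = 1` and
`d₂ a = 1`: the proportionality factor `c` (`= Ω⁻¹`, `Ω := d₁ a`) is a unit of `O`. -/
theorem unit_of_proportional_derivations {d₁ d₂ : Derivation K F F} (h₁ : ∀ x ∈ O, d₁ x ∈ O)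
    (h₂ : ∀ x ∈ O, d₂ x ∈ O) {c : F} (hc : ∀ x : F, d₂ x = c * d₁ x) {a b : F} (ha : a ∈ O)
    (hb : b ∈ O) (hb1 : d₁ b = 1) (ha1 : d₂ a = 1) :
    c = d₂ b ∧ c * d₁ a = 1 ∧ c ∈ O ∧ c⁻¹ ∈ O ∧ d₁ a = c⁻¹ := by
  have h1 : c = d₂ b := by rw [hc b, hb1, mul_one]
  have h2 : c * d₁ a = 1 := by rw [← hc a, ha1]
  have hc0 : c ≠ 0 := left_ne_zero_of_mul_eq_one h2
  have h3 : d₁ a = c⁻¹ := eq_inv_of_mul_eq_one_right h2
  refine ⟨h1, h2, ?_, ?_, h3⟩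
  · rw [h1]; exact h₂ b hb
  · rw [← h3]; exact h₁ a ha

/-- The form stated on the board: `d₁ a = Ω`, `d₂ b = Ω⁻¹`. -/
theorem unit_of_two_derivations' {d₁ d₂ : Derivation K F F} (h₁ : ∀ x ∈ O, d₁ x ∈ O)
    (h₂ : ∀ x ∈ O, d₂ x ∈ O) {a b Ω : F} (ha : a ∈ O) (hb : b ∈ O) (hΩa : d₁ a = Ω)
    (hΩb : d₂ b = Ω⁻¹) : Ω ∈ O ∧ Ω⁻¹ ∈ O :=
  ⟨hΩa ▸ h₁ a ha, hΩb ▸ h₂ b hb⟩

end Consumer

section Bound

variable (O' : ValuationSubring F)

/-- From a common denominator to a pole bound: if `d₀ ≠ 0` and `d₀ * d x ∈ O'` for all `x ∈ O'`,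
and the value of `d₀` is a power of the value of `π` (`π ∈ O'`), then `π ^ N * d x ∈ O'`. -/
theorem exists_pow_bound_of_denominator {π : F} (hπ0 : π ≠ 0) (hπ : π ∈ O') (d : F → F)
    {d₀ : F} (hd₀ : ∃ n : ℤ, O'.valuation d₀ = O'.valuation π ^ n)
    (hden : ∀ x ∈ O', d₀ * d x ∈ O') : ∃ N : ℕ, ∀ x ∈ O', π ^ N * d x ∈ O' := by
  obtain ⟨n, hn⟩ := hd₀
  have hvπ : O'.valuation π ≠ 0 := (Valuation.ne_zero_iff _).mpr hπ0
  have hvπ1 : O'.valuation π ≤ 1 := (O'.valuation_le_one_iff _).mpr hπ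
  refine ⟨n.toNat, fun x hx => ?_⟩
  rw [← O'.valuation_le_one_iff, map_mul, map_pow]
  have h1 : O'.valuation (d₀ * d x) ≤ 1 := (O'.valuation_le_one_iff _).mpr (hden x hx)
  rw [map_mul, hn] at h1
  have hle : O'.valuation π ^ n.toNat ≤ O'.valuation π ^ n := by
    rw [← zpow_natCast]
    exact zpow_le_zpow_right_of_le_one₀ (zero_lt_iff.mpr hvπ) hvπ1 (Int.self_le_toNat n)
  calc O'.valuation π ^ n.toNat * O'.valuation (d x)
      ≤ O'.valuation π ^ n * O'.valuation (d x) := mul_le_mul_left hle _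
    _ ≤ 1 := h1

end Bound

section Extension

variable [CharZero K] (O O' : ValuationSubring F)

/-- **Extension step** (`(Der-3)` applied to the bigger ring): `O ≤ O'`, `π ∈ O` generates the
maximal ideal of `O'`, `d π ∈ O`, the residue field of `O'` is algebraic over `K`, and `d` has
bounded denominators on `O'`.  Then `d` preserves `O'`. -/
theorem deriv_mem_of_le (hOO' : O ≤ O') (hK : ∀ c : K, algebraMap K F c ∈ O) {π : F}
    (hπ : π ∈ O) (hπ0 : π ≠ 0)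
    (hgen : ∀ x ∈ O', x⁻¹ ∉ O' → ∃ z ∈ O', x = π * z)
    (halg : ∀ x ∈ O', ∃ μ : K[X], μ ≠ 0 ∧ (aeval x μ = 0 ∨ (aeval x μ)⁻¹ ∉ O'))
    (d : Derivation K F F) (hdπ : d π ∈ O)
    (hbdd : ∃ N : ℕ, ∀ x ∈ O', π ^ N * d x ∈ O') : ∀ x ∈ O', d x ∈ O' :=
  deriv_mem O' (fun c => hOO' (hK c)) (hOO' hπ) hπ0 hgen halg d (hOO' hdπ) hbdd

/-- The same with the `(Der-2)` form of the bound (`d₀ * d x ∈ O'`, `v d₀` a power of `v π`). -/
theorem deriv_mem_of_le_of_denominator (hOO' : O ≤ O') (hK : ∀ c : K, algebraMap K F c ∈ O)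
    {π : F} (hπ : π ∈ O) (hπ0 : π ≠ 0)
    (hgen : ∀ x ∈ O', x⁻¹ ∉ O' → ∃ z ∈ O', x = π * z)
    (halg : ∀ x ∈ O', ∃ μ : K[X], μ ≠ 0 ∧ (aeval x μ = 0 ∨ (aeval x μ)⁻¹ ∉ O'))
    (d : Derivation K F F) (hdπ : d π ∈ O) {d₀ : F}
    (hd₀ : ∃ n : ℤ, O'.valuation d₀ = O'.valuation π ^ n)
    (hden : ∀ x ∈ O', d₀ * d x ∈ O') : ∀ x ∈ O', d x ∈ O' :=
  deriv_mem_of_le O O' hOO' hK hπ hπ0 hgen halg d hdπ
    (exists_pow_bound_of_denominator O' hπ0 (hOO' hπ) d hd₀ hden)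

/-- In the situation of `deriv_mem_of_le`, if moreover `d s = 1` for some `s ∈ O'` and `π` is a
non-unit of `O'`, then `d π` is a unit of `O'`. -/
theorem deriv_unit_of_le (hOO' : O ≤ O') (hK : ∀ c : K, algebraMap K F c ∈ O) {π : F}
    (hπ : π ∈ O) (hπ0 : π ≠ 0) (hπnu : π⁻¹ ∉ O')
    (hgen : ∀ x ∈ O', x⁻¹ ∉ O' → ∃ z ∈ O', x = π * z)
    (halg : ∀ x ∈ O', ∃ μ : K[X], μ ≠ 0 ∧ (aeval x μ = 0 ∨ (aeval x μ)⁻¹ ∉ O'))
    (d : Derivation K F F) (hdπ : d π ∈ O)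
    (hbdd : ∃ N : ℕ, ∀ x ∈ O', π ^ N * d x ∈ O') {s : F} (hs : s ∈ O') (hds : d s = 1) :
    d π ∈ O' ∧ (d π)⁻¹ ∈ O' ∧ d π ≠ 0 :=
  deriv_uniformiser_unit O' (fun c => hOO' (hK c)) (hOO' hπ) hπ0 hπnu hgen halg d (hOO' hdπ)
    hbdd hs hds

end Extension

end Fermat.Agent.CA.H33
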