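import Mathlib

/-!
# Simultaneous uniformisers in a Dedekind domain (helper39, S36 (M2e) "choice of `s`")

* `exists_forall_mem_notMem_sq` : for finitely many non-zero primes of a Dedekind domain there is
  an element which is a uniformiser at each of them (`x ∈ P`, `x ∉ P ^ 2`).
* `exists_mem_notMem_sq_pair` : the case of two primes `𝔞`, `𝔟` (equal or not).
* `exists_mem_notMem_sq_pair_lift` : the same for a lift along a surjection `rbar : BM → D`.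
-/

set_option autoImplicit false

namespace Fermat.Agent.CA.H39

variable {D : Type*} [CommRing D] [IsDedekindDomain D]

/-- An element which is a uniformiser at each prime of a finite set of non-zero primes. -/
theorem exists_forall_mem_notMem_sq (s : Finset (Ideal D))
    (hs : ∀ P ∈ s, P.IsPrime ∧ P ≠ ⊥) : ∃ x : D, ∀ P ∈ s, x ∈ P ∧ x ∉ P ^ 2 := by
  classical
  have hex : ∀ P : s, ∃ x : D, x ∈ (P : Ideal D) ^ 1 ∧ x ∉ (P : Ideal D) ^ (1 + 1) := fun P => by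
    obtain ⟨hP, hP0⟩ := hs P.1 P.2
    obtain ⟨x, hx, hx'⟩ := Ideal.exists_mem_pow_notMem_pow_succ (P : Ideal D) hP0 hP.ne_top 1
    exact ⟨x, hx, hx'⟩
  choose x hx hx' using hex
  obtain ⟨y, hy⟩ := IsDedekindDomain.exists_forall_sub_mem_ideal (s := s) (fun P : Ideal D => P)
    (fun _ => 2) (fun P hP => Ideal.prime_of_isPrime (hs P hP).2 (hs P hP).1)
    (fun P _ Q _ hPQ => hPQ) x
  refine ⟨y, fun P hP => ⟨?_, fun hy2 => ?_⟩⟩
  · have h1 := hy P hP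
    have h2 : y - x ⟨P, hP⟩ ∈ P := Ideal.pow_le_self (by norm_num) h1
    have h3 : x ⟨P, hP⟩ ∈ P := by simpa using hx ⟨P, hP⟩
    have := P.add_mem h2 h3
    rwa [sub_add_cancel] at this
  · have h1 := hy P hP
    have := (P ^ 2).sub_mem hy2 h1
    rw [sub_sub_cancel] at this
    exact hx' ⟨P, hP⟩ this

/-- A common uniformiser at two non-zero primes (equal or not). -/
theorem exists_mem_notMem_sq_pair (𝔞 𝔟 : Ideal D) [h𝔞 : 𝔞.IsPrime] [h𝔟 : 𝔟.IsPrime]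
    (h𝔞0 : 𝔞 ≠ ⊥) (h𝔟0 : 𝔟 ≠ ⊥) : ∃ x : D, x ∈ 𝔞 ∧ x ∉ 𝔞 ^ 2 ∧ x ∈ 𝔟 ∧ x ∉ 𝔟 ^ 2 := by
  classical
  obtain ⟨x, hx⟩ := exists_forall_mem_notMem_sq ({𝔞, 𝔟} : Finset (Ideal D)) (fun P hP => by
    rcases Finset.mem_insert.mp hP with rfl | hP
    · exact ⟨h𝔞, h𝔞0⟩
    · rw [Finset.mem_singleton] at hP
      subst hP
      exact ⟨h𝔟, h𝔟0⟩)
  have ha := hx 𝔞 (Finset.mem_insert_self _ _)
  have hb := hx 𝔟 (Finset.mem_insert_of_mem (Finset.mem_singleton_self _))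
  exact ⟨x, ha.1, ha.2, hb.1, hb.2⟩

/-- The same for a lift along a surjective ring hom `rbar : BM → D`. -/
theorem exists_mem_notMem_sq_pair_lift {BM : Type*} [CommRing BM] (rbar : BM →+* D)
    (hrbar : Function.Surjective rbar) (𝔞 𝔟 : Ideal D) [𝔞.IsPrime] [𝔟.IsPrime]
    (h𝔞0 : 𝔞 ≠ ⊥) (h𝔟0 : 𝔟 ≠ ⊥) :
    ∃ s : BM, rbar s ∈ 𝔞 ∧ rbar s ∉ 𝔞 ^ 2 ∧ rbar s ∈ 𝔟 ∧ rbar s ∉ 𝔟 ^ 2 := by
  obtain ⟨x, hx⟩ := exists_mem_notMem_sq_pair 𝔞 𝔟 h𝔞0 h𝔟0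
  obtain ⟨s, rfl⟩ := hrbar x
  exact ⟨s, hx⟩

end Fermat.Agent.CA.H39
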