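import Fermat.Agent.CA.H39_DerivDVR

/-!
# Changing the parameter of a function field of one variable (helper39, S36 (M2e)/(A-exp) brick)

`k ⊆ κ` fields, `J ∈ κ` with `κ / k(J)` finite (e.g. `κ` a modular function field and `J` the
`j`-invariant).  For ANY `s ∈ κ` transcendental over `k` (an "intrinsic parameter"):

* `isAlgebraic_adjoin_simple_of_transcendental` : `κ / k(s)` is algebraic (exchange lemma);
* `finiteDimensional_adjoin_simple_of_transcendental` : `κ / k(s)` is finite;
* `existsUnique_derivation_eq_one_of_finite` : if moreover `κ / k(s)` is separable, there is a unique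
  `k`-derivation `∂` of `κ` with `∂ s = 1`;
* `existsUnique_derivation_eq_one_of_charZero` : in characteristic zero no separability is needed.
-/

set_option autoImplicit false

namespace Fermat.Agent.CA.H39

open IntermediateField
open scoped IntermediateField.algebraAdjoinAdjoin

variable {k κ : Type*} [Field k] [Field κ] [Algebra k κ]

/-- **Exchange lemma**: if `κ` is algebraic over `k(J)` and `s` is transcendental over `k`, then
`κ` is algebraic over `k(s)`. -/
theorem isAlgebraic_adjoin_simple_of_transcendental (J s : κ) [Algebra.IsAlgebraic k⟮J⟯ κ]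
    (hs : Transcendental k s) : Algebra.IsAlgebraic k⟮s⟯ κ := by
  have h1 : Algebra.IsAlgebraic (Algebra.adjoin k ({J} : Set κ)) κ :=
    Algebra.IsAlgebraic.trans (Algebra.adjoin k ({J} : Set κ)) k⟮J⟯ κ
  have h2 : Algebra.trdeg k κ ≤ 1 := by
    have := Algebra.IsAlgebraic.trdeg_le_cardinalMk k ({J} : Set κ)
    simpa using this
  have h3 : AlgebraicIndependent k (fun _ : Unit => s) :=
    algebraicIndependent_unique_type_iff.mpr hs
  have h4 : IsTranscendenceBasis k (fun _ : Unit => s) :=
    h3.isTranscendenceBasis_of_lift_trdeg_le_of_finite (by simpa using h2)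
  have h5 := h4.isAlgebraic_field
  rwa [Set.range_const] at h5

/-- If `κ / k(J)` is finite and `s` is transcendental over `k`, then `κ / k(s)` is finite. -/
theorem finiteDimensional_adjoin_simple_of_transcendental (J s : κ) [FiniteDimensional k⟮J⟯ κ]
    (hs : Transcendental k s) : FiniteDimensional k⟮s⟯ κ := by
  have : Algebra.EssFiniteType k k⟮J⟯ :=
    IntermediateField.essFiniteType_iff.mpr ⟨{J}, by simp⟩
  have : Algebra.EssFiniteType k κ := Algebra.EssFiniteType.comp k k⟮J⟯ κ
  have : Algebra.EssFiniteType k⟮s⟯ κ := Algebra.EssFiniteType.of_comp k k⟮s⟯ κ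
  have := isAlgebraic_adjoin_simple_of_transcendental J s hs
  exact Algebra.finite_of_essFiniteType_of_isAlgebraic

/-- `d/ds` for an arbitrary separating parameter `s` of a field finite over `k(J)`. -/
theorem existsUnique_derivation_eq_one_of_finite (J s : κ) [FiniteDimensional k⟮J⟯ κ]
    (hs : Transcendental k s) (hsep : ∀ x : κ, IsSeparable k⟮s⟯ x) :
    ∃! D : Derivation k κ κ, D s = 1 := by
  have := finiteDimensional_adjoin_simple_of_transcendental J s hs
  have : Algebra.IsSeparable k⟮s⟯ κ := ⟨hsep⟩
  exact existsUnique_derivation_eq_one s hs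

/-- Characteristic zero: `d/ds` exists and is unique for every non-constant `s`. -/
theorem existsUnique_derivation_eq_one_of_charZero [CharZero k] (J s : κ)
    [FiniteDimensional k⟮J⟯ κ] (hs : Transcendental k s) :
    ∃! D : Derivation k κ κ, D s = 1 := by
  have := finiteDimensional_adjoin_simple_of_transcendental J s hs
  have : CharZero k⟮s⟯ := charZero_of_injective_algebraMap (algebraMap k k⟮s⟯).injective
  have : Algebra.IsSeparable k⟮s⟯ κ := Algebra.IsAlgebraic.isSeparable_of_perfectField
  exact existsUnique_derivation_eq_one s hs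

/-- Characteristic zero: every `k`-derivation of `κ` into a `κ`-module is `δ x = ∂ x • δ s`. -/
theorem derivation_eq_smul_of_charZero [CharZero k] (J s : κ) [FiniteDimensional k⟮J⟯ κ]
    (hs : Transcendental k s) (D : Derivation k κ κ) (hD : D s = 1) {M : Type*} [AddCommGroup M]
    [Module k M] [Module κ M] [IsScalarTower k κ M] (δ : Derivation k κ M) (x : κ) :
    δ x = D x • δ s := by
  have := finiteDimensional_adjoin_simple_of_transcendental J s hs
  have : CharZero k⟮s⟯ := charZero_of_injective_algebraMap (algebraMap k k⟮s⟯).injective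
  have : Algebra.IsSeparable k⟮s⟯ κ := Algebra.IsAlgebraic.isSeparable_of_perfectField
  exact derivation_eq_smul s D hD δ x

end Fermat.Agent.CA.H39
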