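import Mathlib

/-!
# Orders at a valuation subring with respect to a chosen uniformiser (helper3, S36 row (E3))

`HasOrd V t x n` : `x * t ^ (-n)` is a unit of the valuation subring `V` ("`x` has order `n` at `V`
with respect to `t`").  Pure bookkeeping: no discreteness assumption is made on `V`; the statement
is exactly the `hord` shape of `S36.H62.exists_uniformisers`.
-/

set_option autoImplicit false

namespace Fermat.Agent.CA.H3

variable {F : Type*} [Field F]

/-- `x` has order `n` at `V` with respect to `t`: `x * t ^ (-n)` is a unit of `V`. -/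
def HasOrd (V : ValuationSubring F) (t x : F) (n : ℤ) : Prop :=
  V.valuation (x * t ^ (-n)) = 1

namespace HasOrd

variable {V : ValuationSubring F} {t x y : F} {n k : ℤ}

theorem ne_zero (h : HasOrd V t x n) : x ≠ 0 := by
  rintro rfl
  unfold HasOrd at h
  rw [zero_mul, map_zero] at h
  exact zero_ne_one h

theorem of_unit (h : V.valuation x = 1) : HasOrd V t x 0 := by
  unfold HasOrd
  rwa [neg_zero, zpow_zero, mul_one]

theorem unit_of_zero (h : HasOrd V t x 0) : V.valuation x = 1 := by
  unfold HasOrd at h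
  rwa [neg_zero, zpow_zero, mul_one] at h

theorem self (ht : t ≠ 0) : HasOrd V t t 1 := by
  unfold HasOrd
  rw [zpow_neg, zpow_one, mul_inv_cancel₀ ht, map_one]

theorem mul (ht : t ≠ 0) (hx : HasOrd V t x n) (hy : HasOrd V t y k) :
    HasOrd V t (x * y) (n + k) := by
  unfold HasOrd at *
  have : x * y * t ^ (-(n + k)) = (x * t ^ (-n)) * (y * t ^ (-k)) := by
    rw [neg_add, zpow_add₀ ht]; ring
  rw [this, map_mul, hx, hy, mul_one]

theorem inv (hx : HasOrd V t x n) : HasOrd V t x⁻¹ (-n) := by
  unfold HasOrd at *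
  have : x⁻¹ * t ^ (-(-n)) = (x * t ^ (-n))⁻¹ := by
    rw [mul_inv, ← zpow_neg]
  rw [this, map_inv₀, hx, inv_one]

theorem pow (ht : t ≠ 0) (hx : HasOrd V t x n) (r : ℕ) : HasOrd V t (x ^ r) (r * n) := by
  induction r with
  | zero =>
    rw [pow_zero, Nat.cast_zero, zero_mul]
    exact of_unit (map_one _)
  | succ r ih =>
    rw [pow_succ, Nat.cast_succ, add_mul, one_mul]
    exact ih.mul ht hx

theorem zpow (ht : t ≠ 0) (hx : HasOrd V t x n) (r : ℤ) : HasOrd V t (x ^ r) (r * n) := by
  obtain ⟨r, rfl | rfl⟩ := r.eq_nat_or_neg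
  · rw [zpow_natCast]; exact hx.pow ht r
  · rw [zpow_neg, zpow_natCast, neg_mul]; exact (hx.pow ht r).inv

theorem congr (h : HasOrd V t x n) (hnk : n = k) : HasOrd V t x k := hnk ▸ h

/-- the valuation of an element of order `n`. -/
theorem valuation_eq (ht : t ≠ 0) (h : HasOrd V t x n) :
    V.valuation x = V.valuation t ^ n := by
  unfold HasOrd at h
  have ht' : V.valuation t ≠ 0 := (Valuation.ne_zero_iff _).2 ht
  rw [map_mul, map_zpow₀, zpow_neg] at h
  rw [← mul_one (V.valuation t ^ n), ← h, mul_comm (V.valuation x), ← mul_assoc,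
    mul_inv_cancel₀ (zpow_ne_zero _ ht'), one_mul]

/-- change of the element by a unit of `V`. -/
theorem mul_unit (ht : t ≠ 0) (hx : HasOrd V t x n) (hy : V.valuation y = 1) :
    HasOrd V t (x * y) n := by
  have := hx.mul ht (of_unit (t := t) hy)
  rwa [add_zero] at this

/-- the order is unique as soon as `t` is a non-unit of `V`. -/
theorem unique (ht : t ≠ 0) (htV : V.valuation t < 1) (h1 : HasOrd V t x n)
    (h2 : HasOrd V t x k) : n = k := by
  have e1 := h1.valuation_eq ht
  have e2 := h2.valuation_eq ht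
  have ht' : V.valuation t ≠ 0 := (Valuation.ne_zero_iff _).2 ht
  have h : V.valuation t ^ (n - k) = 1 := by
    rw [zpow_sub₀ ht', ← e1, ← e2, div_self]
    rw [e1]
    exact zpow_ne_zero _ ht'
  by_contra hne
  have hpos : ∀ r : ℕ, 0 < r → V.valuation t ^ r < 1 := fun r hr =>
    pow_lt_one' htV (Nat.pos_iff_ne_zero.1 hr)
  rcases lt_trichotomy (n - k) 0 with hlt | heq | hgt
  · obtain ⟨r, hr⟩ : ∃ r : ℕ, k - n = r := ⟨(k - n).toNat, by omega⟩
    have hr0 : 0 < r := by omega
    have h' : V.valuation t ^ (r : ℤ) = 1 := by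
      rw [← hr, show k - n = -(n - k) by ring, zpow_neg, h, inv_one]
    rw [zpow_natCast] at h'
    exact absurd h' (hpos r hr0).ne
  · exact hne (by omega)
  · obtain ⟨r, hr⟩ : ∃ r : ℕ, n - k = r := ⟨(n - k).toNat, by omega⟩
    have hr0 : 0 < r := by omega
    rw [hr, zpow_natCast] at h
    exact absurd h (hpos r hr0).ne

end HasOrd

end Fermat.Agent.CA.H3
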