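import Mathlib
import Fermat.Agent.CA.H3_HasOrd

/-!
# Comparison of two uniformisers of a valuation subring (helper3, S36 row (E3), seam (4))

If `τ` generates the non-units of `V` and `t` is a non-unit such that `τ` has *some* order with
respect to `t`, then that order is `1`.  Consequently, from `ϖ = u * τ ^ e` (`u` a unit of `V`:
the `unif_eq` field of `S36.H6.PlaceOverRam`, or `e = 1`, `τ = ϖ` for `CA.H99.PlaceOver`) one gets
`HasOrd V t ϖ e` for the uniformisers `t` of `S36.H62.exists_uniformisers`.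
-/

set_option autoImplicit false

namespace Fermat.Agent.CA.H3

variable {F : Type*} [Field F]

/-- **Two generators of the maximal ideal differ by a unit.** -/
theorem HasOrd.one_of_generator {V : ValuationSubring F} {t τ : F} (ht0 : t ≠ 0)
    (htV : V.valuation t < 1) (hτV : V.valuation τ < 1)
    (hgen : ∀ y : F, V.valuation y < 1 → V.valuation (y * τ⁻¹) ≤ 1)
    {n : ℤ} (hn : HasOrd V t τ n) : HasOrd V t τ 1 := by
  have hτ0 : τ ≠ 0 := hn.ne_zero
  have hvt0 : V.valuation t ≠ 0 := (Valuation.ne_zero_iff _).2 ht0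
  have hvτ0 : V.valuation τ ≠ 0 := (Valuation.ne_zero_iff _).2 hτ0
  have hval := hn.valuation_eq ht0
  -- `v t ≤ v τ`
  have hle : V.valuation t ≤ V.valuation τ := by
    have := hgen t htV
    rw [map_mul, map_inv₀] at this
    calc V.valuation t = V.valuation t * (V.valuation τ)⁻¹ * V.valuation τ := by
          rw [mul_assoc, inv_mul_cancel₀ hvτ0, mul_one]
      _ ≤ 1 * V.valuation τ := mul_le_mul' this le_rfl
      _ = V.valuation τ := one_mul _
  have hpow_lt : ∀ r : ℕ, 2 ≤ r → V.valuation t ^ r < V.valuation t := by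
    intro r hr
    obtain ⟨s, rfl⟩ : ∃ s, r = s + 2 := ⟨r - 2, by omega⟩
    have h1 : V.valuation t ^ (s + 1) < 1 := pow_lt_one' htV (by omega)
    calc V.valuation t ^ (s + 2) = V.valuation t ^ (s + 1) * V.valuation t := pow_succ _ _
      _ < 1 * V.valuation t := by
          exact mul_lt_mul_of_pos_right h1 (zero_lt_iff.2 hvt0)
      _ = V.valuation t := one_mul _
  suffices h1 : n = 1 by rwa [h1] at hn
  by_contra hne
  rcases lt_or_gt_of_ne hne with hlt | hgt
  · -- `n ≤ 0`: then `v τ ≥ 1`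
    obtain ⟨r, hr⟩ : ∃ r : ℕ, n = -(r : ℤ) := ⟨(-n).toNat, by omega⟩
    rw [hr, zpow_neg, zpow_natCast] at hval
    have h1 : V.valuation t ^ r ≤ 1 := pow_le_one' htV.le r
    have h2 : (1 : _) ≤ (V.valuation t ^ r)⁻¹ := by
      rw [one_le_inv₀ (zero_lt_iff.2 (pow_ne_zero _ hvt0))]
      exact h1
    rw [← hval] at h2
    exact absurd hτV (not_lt.2 h2)
  · -- `n ≥ 2`: then `v τ < v t`
    obtain ⟨r, hr⟩ : ∃ r : ℕ, n = (r : ℤ) := ⟨n.toNat, by omega⟩
    have hr2 : 2 ≤ r := by omega
    rw [hr, zpow_natCast] at hval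
    have := hpow_lt r hr2
    rw [← hval] at this
    exact absurd hle (not_le.2 this)

/-- the order of `ϖ = u * τ ^ e` with respect to any other uniformiser `t`. -/
theorem HasOrd.of_eq_unit_mul_pow {V : ValuationSubring F} {t τ ϖ u : F} (ht0 : t ≠ 0)
    (htV : V.valuation t < 1) (hτV : V.valuation τ < 1)
    (hgen : ∀ y : F, V.valuation y < 1 → V.valuation (y * τ⁻¹) ≤ 1)
    {n : ℤ} (hn : HasOrd V t τ n) (hu : V.valuation u = 1) (e : ℕ) (hϖ : ϖ = u * τ ^ e) :
    HasOrd V t ϖ e := by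
  have h1 := HasOrd.one_of_generator ht0 htV hτV hgen hn
  have h2 := (h1.pow ht0 e).mul_unit ht0 hu
  rw [mul_one] at h2
  rw [hϖ, mul_comm]
  exact h2

end Fermat.Agent.CA.H3
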