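import Mathlib
import Fermat.Agent.CA.H3_HasOrd

/-!
# The norm-order formula at a DVR below (helper3, S36 row (E3a))

`O` a DVR with uniformiser `ϖ`, `K = Frac O`, `L / K` finite separable.  The places of `L` above `O`
are given as valuation subrings `V i` of `L` together with the **"exactly these"** statement in
the shape produced by `CA.H99.eq_or_eq_of_valuationSubring` / `S36.H6.eq_or_eq_of_valuationSubring_ram`:

  `hall : ∀ W : ValuationSubring L, (∀ c : O, algebraMap O L c ∈ W) →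
      algebraMap O L ϖ ∈ W.nonunits → ∃ i, W = V i`.

No Dedekind theory is used.  The route:

* `isIntegral_of_forall_mem_valuationSubring` : lying in every valuation subring `⊇ O` ⇒ integral
  (Mathlib: `Subring.exists_le_valuationSubring_of_isIntegrallyClosedIn`);
* `exists_unit_norm_eq_of_forall_valuation_eq_one` : a unit at all places above has unit norm;
* `norm_eq_unit_mul_prod` : `N x = unit * ∏ N (t i) ^ (a i)` when `x` has order `a i` at `V i`
  w.r.t. uniformisers `t i` with `t i` a unit at `V j`, `j ≠ i`;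
* `norm_ne_unit_of_valuation_lt_one` : the norm of an integral non-unit is a non-unit
  (Mathlib: `Algebra.dvd_algebraMap_intNorm_self`);
* the two consumer shapes: `unitMulPow_norm_one_place` (one place above, `e = 1`:
  `ord_O (N x) = [L:K] * ord_V x`) and `unitMulPow_norm_two_places` (two places with
  `e = (1, [L:K] - 1)`: `ord_O (N x) = ord_{V₁} x + ord_{V₂} x`);
* `dvd_of_norm_eq_const_mul_pow` : the congruence `m ∣ a₁ + a₂ - [L:K] * a₃` from
  `N f = c * h ^ m`.
-/

set_option autoImplicit false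
set_option linter.unusedSectionVars false

open Polynomial IsLocalRing

namespace Fermat.Agent.CA.H3

section Integral

variable {O L : Type*} [CommRing O] [Field L] [Algebra O L]

/-- An element lying in every valuation subring of `L` containing the image of `O` is integral
over `O`. -/
theorem isIntegral_of_forall_mem_valuationSubring (y : L)
    (h : ∀ W : ValuationSubring L, (∀ a : O, algebraMap O L a ∈ W) → y ∈ W) :
    IsIntegral O y := by
  by_contra hy
  have hy' : y ∉ (integralClosure O L).toSubring := hy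
  obtain ⟨V, hV, hyV⟩ := Subring.exists_le_valuationSubring_of_isIntegrallyClosedIn hy'
  exact hyV (h V fun a => hV (isIntegral_algebraMap (R := O) (A := L) (x := a)))

/-- a valuation subring containing the image of `O` contains every element integral over `O`. -/
theorem mem_valuationSubring_of_isIntegral (W : ValuationSubring L)
    (hOW : ∀ a : O, algebraMap O L a ∈ W) {x : L} (hx : IsIntegral O x) : x ∈ W := by
  obtain ⟨p, hp, hpx⟩ := hx
  let jW : O →+* W := (algebraMap O L).codRestrict W.toSubring hOW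
  have hint : IsIntegral W x := by
    refine ⟨p.map jW, hp.map _, ?_⟩
    rw [eval₂_map]
    exact hpx
  obtain ⟨y, hy⟩ := IsIntegrallyClosed.isIntegral_iff.mp hint
  rw [← hy]
  exact y.2

/-- the image of a unit of `O` is a unit of every valuation subring containing `O`. -/
theorem valuation_unit_eq_one (W : ValuationSubring L) (hOW : ∀ a : O, algebraMap O L a ∈ W)
    (u : Oˣ) : W.valuation (algebraMap O L (u : O)) = 1 := by
  have h1 : W.valuation (algebraMap O L (u : O)) ≤ 1 := (W.valuation_le_one_iff _).2 (hOW _)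
  have h2 : W.valuation (algebraMap O L ((u⁻¹ : Oˣ) : O)) ≤ 1 :=
    (W.valuation_le_one_iff _).2 (hOW _)
  have h3 : W.valuation (algebraMap O L (u : O)) * W.valuation (algebraMap O L ((u⁻¹ : Oˣ) : O))
      = 1 := by
    rw [← map_mul, ← map_mul, Units.mul_inv, map_one, map_one]
  apply le_antisymm h1
  calc (1 : _) = W.valuation (algebraMap O L (u : O))
        * W.valuation (algebraMap O L ((u⁻¹ : Oˣ) : O)) := h3.symm
    _ ≤ W.valuation (algebraMap O L (u : O)) * 1 := mul_le_mul' le_rfl h2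
    _ = _ := mul_one _

end Integral

/-- A valuation subring of `L` containing the DVR `O` in which the uniformiser of `O` is a unit is
all of `L` (`L` algebraic over `K = Frac O`). -/
theorem mem_of_uniformiser_unit (K : Type*) {O L : Type*} [CommRing O] [IsDomain O]
    [IsDiscreteValuationRing O] [Field K] [Algebra O K] [IsFractionRing O K] [Field L]
    [Algebra K L] [Algebra O L] [IsScalarTower O K L] [Algebra.IsAlgebraic K L]
    {ϖ : O} (hϖ : Irreducible ϖ) (W : ValuationSubring L)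
    (hOW : ∀ a : O, algebraMap O L a ∈ W) (hu : W.valuation (algebraMap O L ϖ) = 1) (y : L) :
    y ∈ W := by
  have halg : IsAlgebraic O y := by
    have : IsAlgebraic K y := Algebra.IsAlgebraic.isAlgebraic y
    exact (IsFractionRing.isAlgebraic_iff O K L).2 this
  obtain ⟨d, hd0, hd⟩ := halg.exists_integral_multiple
  have hdy : d • y ∈ W := mem_valuationSubring_of_isIntegral W hOW hd
  obtain ⟨n, u, hdu⟩ := IsDiscreteValuationRing.eq_unit_mul_pow_irreducible hd0 hϖ
  have hd1 : W.valuation (algebraMap O L d) = 1 := by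
    rw [hdu, map_mul, map_mul, map_pow, map_pow, valuation_unit_eq_one W hOW u, hu, one_pow,
      one_mul]
  rw [← W.valuation_le_one_iff] at hdy ⊢
  rwa [Algebra.smul_def, map_mul, hd1, one_mul] at hdy

section Norm

variable {O K L : Type*} [CommRing O] [IsDomain O] [IsDiscreteValuationRing O]
  [Field K] [Algebra O K] [IsFractionRing O K] [Field L] [Algebra K L] [Algebra O L]
  [IsScalarTower O K L] [FiniteDimensional K L] [Algebra.IsSeparable K L]

omit [IsDomain O] [IsDiscreteValuationRing O] [Algebra O K] [IsFractionRing O K] [Algebra O L]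
  [IsScalarTower O K L] [Algebra.IsSeparable K L] in
theorem norm_inv_eq (z : L) : Algebra.norm K z⁻¹ = (Algebra.norm K z)⁻¹ := by
  by_cases hz : z = 0
  · rw [hz, inv_zero, Algebra.norm_zero, inv_zero]
  · exact eq_inv_of_mul_eq_one_left (by rw [← map_mul, inv_mul_cancel₀ hz, map_one])

omit [IsDomain O] [IsDiscreteValuationRing O] [Algebra O K] [IsFractionRing O K] [Algebra O L]
  [IsScalarTower O K L] [Algebra.IsSeparable K L] in
theorem norm_zpow_eq (z : L) (n : ℤ) : Algebra.norm K (z ^ n) = Algebra.norm K z ^ n := by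
  obtain ⟨r, rfl | rfl⟩ := n.eq_nat_or_neg
  · rw [zpow_natCast, zpow_natCast, map_pow]
  · rw [zpow_neg, zpow_neg, zpow_natCast, zpow_natCast, norm_inv_eq, map_pow]

/-- the norm of an integral element lies in `O`. -/
theorem exists_norm_eq_algebraMap {y : L} (hy : IsIntegral O y) :
    ∃ a : O, algebraMap O K a = Algebra.norm K y :=
  IsIntegrallyClosed.isIntegral_iff.mp (Algebra.isIntegral_norm K hy)

/-- the norm of an integral element with integral inverse is a unit of `O`. -/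
theorem exists_unit_norm_eq {y : L} (hy0 : y ≠ 0) (hy : IsIntegral O y)
    (hy' : IsIntegral O y⁻¹) : ∃ u : Oˣ, Algebra.norm K y = algebraMap O K u := by
  obtain ⟨a, ha⟩ := exists_norm_eq_algebraMap (K := K) hy
  obtain ⟨b, hb⟩ := exists_norm_eq_algebraMap (K := K) hy'
  have hab : a * b = 1 := by
    apply IsFractionRing.injective O K
    rw [map_mul, ha, hb, ← map_mul, mul_inv_cancel₀ hy0, map_one, map_one]
  exact ⟨⟨a, b, hab, by rw [mul_comm]; exact hab⟩, ha.symm⟩

/-- **The norm of a non-unit is a non-unit.** If `t` is integral over `O` and a non-unit of some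
valuation subring `W ⊇ O`, then `N t` is not (the image of) a unit of `O`. -/
theorem norm_ne_unit_of_valuation_lt_one {t : L} (ht : IsIntegral O t)
    (W : ValuationSubring L) (hOW : ∀ a : O, algebraMap O L a ∈ W)
    (htW : W.valuation t < 1) (u : Oˣ) : Algebra.norm K t ≠ algebraMap O K u := by
  intro hN
  let B := integralClosure O L
  let tB : B := ⟨t, ht⟩
  have : IsIntegrallyClosed B := integralClosure.isIntegrallyClosedOfFiniteExtension K
  have : Module.Finite O B := IsIntegralClosure.finite O K L B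
  have hinjL : Function.Injective (algebraMap O L) := by
    rw [IsScalarTower.algebraMap_eq O K L]
    exact (algebraMap K L).injective.comp (IsFractionRing.injective O K)
  have : Module.IsTorsionFree O B := by
    rw [Module.isTorsionFree_iff_algebraMap_injective]
    intro a b hab
    apply hinjL
    have := congrArg (algebraMap B L) hab
    rwa [← IsScalarTower.algebraMap_apply, ← IsScalarTower.algebraMap_apply] at this
  obtain ⟨s, hs⟩ := Algebra.dvd_algebraMap_intNorm_self O B tB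
  have h1 : algebraMap O K (Algebra.intNorm O B tB) = Algebra.norm K t :=
    Algebra.algebraMap_intNorm (A := O) (K := K) (L := L) (B := B) tB
  have h2 : Algebra.intNorm O B tB = u := by
    apply IsFractionRing.injective O K
    rw [h1, hN]
  have h3 : algebraMap O L (u : O) = t * (s : L) := by
    have := congrArg (algebraMap B L) hs
    rw [h2, map_mul] at this
    rw [IsScalarTower.algebraMap_apply O B L]
    exact this
  have h4 : W.valuation (t * (s : L)) < 1 := by
    rw [map_mul]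
    exact mul_lt_one_of_lt_of_le htW
      ((W.valuation_le_one_iff _).2 (mem_valuationSubring_of_isIntegral W hOW s.2))
  rw [← h3, valuation_unit_eq_one W hOW u] at h4
  exact lt_irrefl _ h4

variable {ϖ : O} (hϖ : Irreducible ϖ) {ι : Type*} (V : ι → ValuationSubring L)
  (hall : ∀ W : ValuationSubring L, (∀ c : O, algebraMap O L c ∈ W) →
    algebraMap O L ϖ ∈ W.nonunits → ∃ i, W = V i)

variable (K) in
include K hϖ hall in
/-- **Integrality from the places above.** -/
theorem isIntegral_of_forall_valuation_le_one (y : L) (hy : ∀ i, (V i).valuation y ≤ 1) :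
    IsIntegral O y := by
  apply isIntegral_of_forall_mem_valuationSubring
  intro W hOW
  by_cases hW : algebraMap O L ϖ ∈ W.nonunits
  · obtain ⟨i, rfl⟩ := hall W hOW hW
    exact ((V i).valuation_le_one_iff _).1 (hy i)
  · have hu : W.valuation (algebraMap O L ϖ) = 1 := by
      rw [ValuationSubring.mem_nonunits_iff, not_lt] at hW
      exact le_antisymm ((W.valuation_le_one_iff _).2 (hOW ϖ)) hW
    exact mem_of_uniformiser_unit K hϖ W hOW hu y

include hϖ hall in
/-- **A unit at all places above has unit norm.** -/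
theorem exists_unit_norm_eq_of_forall_valuation_eq_one (y : L) (hy0 : y ≠ 0)
    (hy : ∀ i, (V i).valuation y = 1) : ∃ u : Oˣ, Algebra.norm K y = algebraMap O K u := by
  apply exists_unit_norm_eq hy0
  · exact isIntegral_of_forall_valuation_le_one K hϖ V hall y fun i => (hy i).le
  · refine isIntegral_of_forall_valuation_le_one K hϖ V hall y⁻¹ fun i => ?_
    rw [map_inv₀, hy i, inv_one]

include hϖ hall in
/-- **The norm-order formula, reduced to the uniformisers.** -/
theorem norm_eq_unit_mul_prod [Fintype ι] [DecidableEq ι] (t : ι → L) (ht0 : ∀ i, t i ≠ 0)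
    (hsep : ∀ i j, i ≠ j → (V j).valuation (t i) = 1)
    (x : L) (hx0 : x ≠ 0) (a : ι → ℤ) (hx : ∀ i, HasOrd (V i) (t i) x (a i)) :
    ∃ u : Oˣ, Algebra.norm K x = algebraMap O K u * ∏ i, Algebra.norm K (t i) ^ (a i) := by
  set y : L := x * ∏ i, t i ^ (-(a i)) with hy
  have hy0 : y ≠ 0 :=
    mul_ne_zero hx0 (Finset.prod_ne_zero_iff.2 fun i _ => zpow_ne_zero _ (ht0 i))
  have hyV : ∀ j, (V j).valuation y = 1 := by
    intro j
    have h1 : ∏ i, t i ^ (-(a i)) = t j ^ (-(a j)) * ∏ i ∈ Finset.univ.erase j, t i ^ (-(a i)) :=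
      (Finset.mul_prod_erase _ _ (Finset.mem_univ j)).symm
    have h2 : (V j).valuation (∏ i ∈ Finset.univ.erase j, t i ^ (-(a i))) = 1 := by
      rw [map_prod]
      apply Finset.prod_eq_one
      intro i hi
      rw [map_zpow₀, hsep i j (Finset.ne_of_mem_erase hi), one_zpow]
    rw [hy, h1, ← mul_assoc, map_mul, h2, mul_one]
    exact hx j
  obtain ⟨u, hu⟩ :=
    exists_unit_norm_eq_of_forall_valuation_eq_one (K := K) hϖ V hall y hy0 hyV
  refine ⟨u, ?_⟩
  have hN0 : ∀ i, Algebra.norm K (t i) ≠ 0 := fun i => Algebra.norm_ne_zero_iff.2 (ht0 i)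
  have h3 : Algebra.norm K y = Algebra.norm K x * ∏ i, (Algebra.norm K (t i) ^ (a i))⁻¹ := by
    rw [hy, map_mul, map_prod]
    congr 1
    apply Finset.prod_congr rfl
    intro i _
    rw [norm_zpow_eq, zpow_neg]
  have h4 : (∏ i, (Algebra.norm K (t i) ^ (a i))⁻¹) * ∏ i, Algebra.norm K (t i) ^ (a i) = 1 := by
    rw [← Finset.prod_mul_distrib]
    apply Finset.prod_eq_one
    intro i _
    exact inv_mul_cancel₀ (zpow_ne_zero _ (hN0 i))
  rw [← hu, h3, mul_assoc, h4, mul_one]

end Norm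

/-! ### Orders in the fraction field of a DVR -/

section Orders

variable {O K : Type*} [CommRing O] [IsDomain O] [IsDiscreteValuationRing O]
  [Field K] [Algebra O K] [IsFractionRing O K]

/-- `z = unit * ϖ ^ k` in `K = Frac O` (the order of `z` at the DVR `O` is `k`). -/
def UnitMulPow (ϖ : O) (z : K) (k : ℤ) : Prop :=
  ∃ u : Oˣ, z = algebraMap O K u * algebraMap O K ϖ ^ k

namespace UnitMulPow

variable {ϖ : O} {z w : K} {k l : ℤ}

theorem map_ne_zero' (hϖ0 : ϖ ≠ 0) : algebraMap O K ϖ ≠ 0 :=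
  (map_ne_zero_iff _ (IsFractionRing.injective O K)).2 hϖ0

theorem ne_zero (hϖ0 : ϖ ≠ 0) (h : UnitMulPow ϖ z k) : z ≠ 0 := by
  obtain ⟨u, rfl⟩ := h
  exact mul_ne_zero ((map_ne_zero_iff _ (IsFractionRing.injective O K)).2 u.ne_zero)
    (zpow_ne_zero _ (map_ne_zero' hϖ0))

theorem of_unit (u : Oˣ) : UnitMulPow ϖ (algebraMap O K (u : O)) 0 :=
  ⟨u, by rw [zpow_zero, mul_one]⟩

theorem one : UnitMulPow ϖ (1 : K) 0 := by
  have := of_unit (ϖ := ϖ) (K := K) (1 : Oˣ)
  rwa [Units.val_one, map_one] at this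

theorem self : UnitMulPow ϖ (algebraMap O K ϖ) 1 :=
  ⟨1, by rw [Units.val_one, map_one, one_mul, zpow_one]⟩

theorem mul (hϖ0 : ϖ ≠ 0) (h1 : UnitMulPow ϖ z k) (h2 : UnitMulPow ϖ w l) :
    UnitMulPow ϖ (z * w) (k + l) := by
  obtain ⟨u, rfl⟩ := h1
  obtain ⟨v, rfl⟩ := h2
  refine ⟨u * v, ?_⟩
  rw [zpow_add₀ (map_ne_zero' hϖ0), Units.val_mul, map_mul]
  ring

theorem inv (h : UnitMulPow ϖ z k) : UnitMulPow ϖ z⁻¹ (-k) := by
  obtain ⟨u, rfl⟩ := h
  refine ⟨u⁻¹, ?_⟩
  rw [mul_inv, zpow_neg]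
  congr 1
  symm
  apply eq_inv_of_mul_eq_one_left
  rw [← map_mul, ← Units.val_mul, inv_mul_cancel, Units.val_one, map_one]

theorem pow (hϖ0 : ϖ ≠ 0) (h : UnitMulPow ϖ z k) (r : ℕ) : UnitMulPow ϖ (z ^ r) (r * k) := by
  induction r with
  | zero =>
    rw [pow_zero, Nat.cast_zero, zero_mul]
    exact one
  | succ r ih =>
    rw [pow_succ, Nat.cast_succ, add_mul, one_mul]
    exact ih.mul hϖ0 h

theorem zpow (hϖ0 : ϖ ≠ 0) (h : UnitMulPow ϖ z k) (r : ℤ) : UnitMulPow ϖ (z ^ r) (r * k) := by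
  obtain ⟨r, rfl | rfl⟩ := r.eq_nat_or_neg
  · rw [zpow_natCast]; exact h.pow hϖ0 r
  · rw [zpow_neg, zpow_natCast, neg_mul]; exact (h.pow hϖ0 r).inv

theorem congr (h : UnitMulPow ϖ z k) (hkl : k = l) : UnitMulPow ϖ z l := hkl ▸ h

theorem prod (hϖ0 : ϖ ≠ 0) {ι : Type*} (s : Finset ι) (f : ι → K) (e : ι → ℤ)
    (h : ∀ i ∈ s, UnitMulPow ϖ (f i) (e i)) :
    UnitMulPow ϖ (∏ i ∈ s, f i) (∑ i ∈ s, e i) := by
  classical
  induction s using Finset.induction_on with
  | empty =>
    rw [Finset.prod_empty, Finset.sum_empty]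
    exact one
  | insert a s ha ih =>
    rw [Finset.prod_insert ha, Finset.sum_insert ha]
    exact (h a (Finset.mem_insert_self a s)).mul hϖ0
      (ih fun i hi => h i (Finset.mem_insert_of_mem hi))

/-- every non-zero element of `K` has an order. -/
theorem exists_of_ne_zero (hϖ : Irreducible ϖ) (hz : z ≠ 0) : ∃ k : ℤ, UnitMulPow ϖ z k := by
  obtain ⟨a, b, hb, rfl⟩ := IsFractionRing.div_surjective (A := O) z
  have hb0 : b ≠ 0 := nonZeroDivisors.ne_zero hb
  have ha0 : a ≠ 0 := by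
    rintro rfl
    rw [map_zero, zero_div] at hz
    exact hz rfl
  obtain ⟨n, u, rfl⟩ := IsDiscreteValuationRing.eq_unit_mul_pow_irreducible ha0 hϖ
  obtain ⟨m, v, rfl⟩ := IsDiscreteValuationRing.eq_unit_mul_pow_irreducible hb0 hϖ
  have h1 : UnitMulPow ϖ (algebraMap O K (↑u * ϖ ^ n)) n := by
    have := (of_unit (ϖ := ϖ) (K := K) u).mul hϖ.ne_zero ((self (ϖ := ϖ) (K := K)).pow hϖ.ne_zero n)
    rw [zero_add, mul_one] at this
    rwa [map_mul, map_pow]
  have h2 : UnitMulPow ϖ (algebraMap O K (↑v * ϖ ^ m)) m := by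
    have := (of_unit (ϖ := ϖ) (K := K) v).mul hϖ.ne_zero ((self (ϖ := ϖ) (K := K)).pow hϖ.ne_zero m)
    rw [zero_add, mul_one] at this
    rwa [map_mul, map_pow]
  exact ⟨n + -m, by rw [div_eq_mul_inv]; exact h1.mul hϖ.ne_zero h2.inv⟩

theorem not_lt_of_eq (hϖ : Irreducible ϖ) (u v : Oˣ)
    (h : algebraMap O K (u : O) * algebraMap O K ϖ ^ k = algebraMap O K (v : O) * algebraMap O K ϖ ^ l) :
    ¬ k < l := by
  intro hkl
  obtain ⟨r, hr⟩ : ∃ r : ℕ, l = k + r := ⟨(l - k).toNat, by omega⟩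
  have hr0 : r ≠ 0 := by omega
  have hϖK : algebraMap O K ϖ ≠ 0 := map_ne_zero' hϖ.ne_zero
  rw [hr, zpow_add₀ hϖK, zpow_natCast, ← mul_assoc, mul_comm (algebraMap O K (v : O)),
    mul_assoc, mul_comm (algebraMap O K (u : O))] at h
  have h' := mul_left_cancel₀ (zpow_ne_zero _ hϖK) h
  rw [← map_pow, ← map_mul] at h'
  have h'' : (u : O) = v * ϖ ^ r := IsFractionRing.injective O K h'
  have hunit : IsUnit (ϖ ^ r) := by
    have : ϖ ^ r = ((v⁻¹ * u : Oˣ) : O) := by
      rw [Units.val_mul, h'', ← mul_assoc, ← Units.val_mul, inv_mul_cancel, Units.val_one, one_mul]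
    rw [this]
    exact Units.isUnit _
  exact hϖ.not_isUnit ((isUnit_pow_iff hr0).1 hunit)

/-- the order is unique. -/
theorem unique (hϖ : Irreducible ϖ) (h1 : UnitMulPow ϖ z k) (h2 : UnitMulPow ϖ z l) : k = l := by
  obtain ⟨u, hu⟩ := h1
  obtain ⟨v, hv⟩ := h2
  have e : algebraMap O K (u : O) * algebraMap O K ϖ ^ k
      = algebraMap O K (v : O) * algebraMap O K ϖ ^ l := by rw [← hu, ← hv]
  have h1 := not_lt_of_eq hϖ u v e
  have h2 := not_lt_of_eq hϖ v u e.symm
  omega

end UnitMulPow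

end Orders

/-! ### The consumer shapes -/

section Places

variable {O K L : Type*} [CommRing O] [IsDomain O] [IsDiscreteValuationRing O]
  [Field K] [Algebra O K] [IsFractionRing O K] [Field L] [Algebra K L] [Algebra O L]
  [IsScalarTower O K L] [FiniteDimensional K L] [Algebra.IsSeparable K L]

variable {ϖ : O} (hϖ : Irreducible ϖ)

omit [IsDomain O] [IsDiscreteValuationRing O] [IsFractionRing O K] [Algebra.IsSeparable K L] in
/-- the norm of (the image of) the uniformiser. -/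
theorem norm_algebraMap_uniformiser (c : O) :
    Algebra.norm K (algebraMap O L c) = algebraMap O K c ^ Module.finrank K L := by
  rw [IsScalarTower.algebraMap_apply O K L, Algebra.norm_algebraMap]

include hϖ in
/-- **General form**: if `N (t i)` has order `c i` at `O`, then `N x` has order `∑ a i * c i`. -/
theorem unitMulPow_norm {ι : Type*} [Fintype ι] [DecidableEq ι] (V : ι → ValuationSubring L)
    (hall : ∀ W : ValuationSubring L, (∀ c : O, algebraMap O L c ∈ W) →
      algebraMap O L ϖ ∈ W.nonunits → ∃ i, W = V i)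
    (t : ι → L) (ht0 : ∀ i, t i ≠ 0)
    (hsep : ∀ i j, i ≠ j → (V j).valuation (t i) = 1)
    (c : ι → ℤ) (hc : ∀ i, UnitMulPow ϖ (Algebra.norm K (t i)) (c i))
    (x : L) (hx0 : x ≠ 0) (a : ι → ℤ) (hx : ∀ i, HasOrd (V i) (t i) x (a i)) :
    UnitMulPow ϖ (Algebra.norm K x) (∑ i, a i * c i) := by
  obtain ⟨u, hu⟩ := norm_eq_unit_mul_prod (K := K) hϖ V hall t ht0 hsep x hx0 a hx
  rw [hu]
  have h1 := UnitMulPow.prod (K := K) hϖ.ne_zero Finset.univ
    (fun i => Algebra.norm K (t i) ^ (a i)) (fun i => a i * c i)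
    (fun i _ => (hc i).zpow hϖ.ne_zero (a i))
  have h2 := (UnitMulPow.of_unit (ϖ := ϖ) (K := K) u).mul hϖ.ne_zero h1
  rwa [zero_add] at h2

include hϖ in
/-- **The norm of an integral non-unit has positive order.** -/
theorem exists_pos_unitMulPow_norm {t : L} (ht0 : t ≠ 0) (ht : IsIntegral O t)
    (W : ValuationSubring L) (hOW : ∀ a : O, algebraMap O L a ∈ W)
    (htW : W.valuation t < 1) :
    ∃ k : ℕ, 1 ≤ k ∧ UnitMulPow ϖ (Algebra.norm K t) (k : ℤ) := by
  obtain ⟨a, ha⟩ := exists_norm_eq_algebraMap (K := K) ht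
  have ha0 : a ≠ 0 := by
    rintro rfl
    rw [map_zero] at ha
    exact (Algebra.norm_ne_zero_iff.2 ht0) ha.symm
  obtain ⟨k, u, rfl⟩ := IsDiscreteValuationRing.eq_unit_mul_pow_irreducible ha0 hϖ
  refine ⟨k, ?_, u, ?_⟩
  · by_contra hk
    have hk0 : k = 0 := by omega
    rw [hk0, pow_zero, mul_one] at ha
    exact norm_ne_unit_of_valuation_lt_one (K := K) ht W hOW htW u ha.symm
  · rw [← ha, map_mul, map_pow, zpow_natCast]

include hϖ in
/-- **One place above, `e = 1`**: `ord_O (N x) = [L : K] * ord_V x`. -/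
theorem unitMulPow_norm_one_place (V : ValuationSubring L)
    (hall : ∀ W : ValuationSubring L, (∀ c : O, algebraMap O L c ∈ W) →
      algebraMap O L ϖ ∈ W.nonunits → W = V)
    (t : L) (ht0 : t ≠ 0) (he : HasOrd V t (algebraMap O L ϖ) 1)
    (x : L) (a : ℤ) (hx : HasOrd V t x a) :
    UnitMulPow ϖ (Algebra.norm K x) ((Module.finrank K L : ℤ) * a) := by
  have hϖL : algebraMap O L ϖ ≠ 0 := he.ne_zero
  set y : L := x * algebraMap O L ϖ ^ (-a) with hy
  have hy0 : y ≠ 0 := mul_ne_zero hx.ne_zero (zpow_ne_zero _ hϖL)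
  have hyV : V.valuation y = 1 := by
    have := hx.mul ht0 (he.zpow ht0 (-a))
    exact HasOrd.unit_of_zero (this.congr (by ring))
  obtain ⟨u, hu⟩ := exists_unit_norm_eq_of_forall_valuation_eq_one (K := K) hϖ
    (fun _ : Unit => V) (fun W h1 h2 => ⟨(), hall W h1 h2⟩) y hy0 (fun _ => hyV)
  have hx' : x = y * algebraMap O L ϖ ^ a := by
    rw [hy, mul_assoc, ← zpow_add₀ hϖL, neg_add_cancel, zpow_zero, mul_one]
  refine ⟨u, ?_⟩
  rw [hx', map_mul, hu, norm_zpow_eq, norm_algebraMap_uniformiser, ← zpow_natCast, ← zpow_mul]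

include hϖ in
/-- **Two places above with `e = (1, [L:K] - 1)`** (hence `f = (1, 1)`):
`ord_O (N x) = ord_{V₁} x + ord_{V₂} x`. -/
theorem unitMulPow_norm_two_places (V₁ V₂ : ValuationSubring L)
    (hOV₁ : ∀ c : O, algebraMap O L c ∈ V₁) (hOV₂ : ∀ c : O, algebraMap O L c ∈ V₂)
    (hϖV₁ : V₁.valuation (algebraMap O L ϖ) < 1) (hϖV₂ : V₂.valuation (algebraMap O L ϖ) < 1)
    (hall : ∀ W : ValuationSubring L, (∀ c : O, algebraMap O L c ∈ W) →
      algebraMap O L ϖ ∈ W.nonunits → W = V₁ ∨ W = V₂)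
    (t₁ t₂ : L) (ht₁ : t₁ ≠ 0) (ht₂ : t₂ ≠ 0)
    (hsep₁₂ : V₂.valuation t₁ = 1) (hsep₂₁ : V₁.valuation t₂ = 1)
    (hn : 2 ≤ Module.finrank K L)
    (he₁ : HasOrd V₁ t₁ (algebraMap O L ϖ) 1)
    (he₂ : HasOrd V₂ t₂ (algebraMap O L ϖ) ((Module.finrank K L : ℤ) - 1))
    (x : L) (a₁ a₂ : ℤ) (hx₁ : HasOrd V₁ t₁ x a₁) (hx₂ : HasOrd V₂ t₂ x a₂) :
    UnitMulPow ϖ (Algebra.norm K x) (a₁ + a₂) := by
  classical
  set n := Module.finrank K L with hn'
  -- the Bool-indexed family
  let V : Bool → ValuationSubring L := fun b => cond b V₁ V₂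
  let t : Bool → L := fun b => cond b t₁ t₂
  have hallB : ∀ W : ValuationSubring L, (∀ c : O, algebraMap O L c ∈ W) →
      algebraMap O L ϖ ∈ W.nonunits → ∃ i, W = V i := by
    intro W h1 h2
    rcases hall W h1 h2 with h | h
    · exact ⟨true, h⟩
    · exact ⟨false, h⟩
  have ht0 : ∀ i, t i ≠ 0 := by
    intro i; cases i
    · exact ht₂
    · exact ht₁
  have hsep : ∀ i j, i ≠ j → (V j).valuation (t i) = 1 := by
    intro i j hij
    cases i <;> cases j
    · exact absurd rfl hij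
    · exact hsep₂₁
    · exact hsep₁₂
    · exact absurd rfl hij
  -- the uniformisers are non-units at their own place
  have hϖL : algebraMap O L ϖ ≠ 0 := he₁.ne_zero
  have ht₁V : V₁.valuation t₁ < 1 := by
    have := he₁.valuation_eq ht₁
    rw [zpow_one] at this
    rwa [← this]
  have ht₂V : V₂.valuation t₂ < 1 := by
    have h := he₂.valuation_eq ht₂
    by_contra hge
    rw [not_lt] at hge
    have hpow : (1 : _) ≤ V₂.valuation t₂ ^ ((n : ℤ) - 1) := by
      obtain ⟨r, hr⟩ : ∃ r : ℕ, (n : ℤ) - 1 = r := ⟨n - 1, by omega⟩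
      rw [hr, zpow_natCast]
      exact one_le_pow_of_one_le' hge r
    rw [← h] at hpow
    exact absurd hϖV₂ (not_lt.2 hpow)
  -- integrality of the uniformisers
  have hint₁ : IsIntegral O t₁ := by
    refine isIntegral_of_forall_valuation_le_one K hϖ V hallB t₁ ?_
    intro i; cases i
    · exact hsep₁₂.le
    · exact ht₁V.le
  have hint₂ : IsIntegral O t₂ := by
    refine isIntegral_of_forall_valuation_le_one K hϖ V hallB t₂ ?_
    intro i; cases i
    · exact ht₂V.le
    · exact hsep₂₁.le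
  obtain ⟨k₁, hk₁, hc₁⟩ := exists_pos_unitMulPow_norm (K := K) hϖ ht₁ hint₁ V₁ hOV₁ ht₁V
  obtain ⟨k₂, hk₂, hc₂⟩ := exists_pos_unitMulPow_norm (K := K) hϖ ht₂ hint₂ V₂ hOV₂ ht₂V
  let c : Bool → ℤ := fun b => cond b (k₁ : ℤ) (k₂ : ℤ)
  have hc : ∀ i, UnitMulPow ϖ (Algebra.norm K (t i)) (c i) := by
    intro i; cases i
    · exact hc₂
    · exact hc₁
  -- the test element `ϖ`
  have htest := unitMulPow_norm (K := K) hϖ V hallB t ht0 hsep c hc (algebraMap O L ϖ) hϖL
    (fun b => cond b 1 ((n : ℤ) - 1)) (by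
      intro i; cases i
      · exact he₂
      · exact he₁)
  rw [Fintype.sum_bool] at htest
  simp only [cond_true, cond_false, c] at htest
  have hϖn : UnitMulPow ϖ (Algebra.norm K (algebraMap O L ϖ)) (n : ℤ) := by
    rw [norm_algebraMap_uniformiser]
    have := (UnitMulPow.self (ϖ := ϖ) (K := K)).pow hϖ.ne_zero n
    rwa [mul_one] at this
  have hsum : (n : ℤ) = 1 * k₁ + ((n : ℤ) - 1) * k₂ := hϖn.unique hϖ htest
  have hk2 : k₂ = 1 := by
    by_contra hne
    have h2 : (2 : ℤ) ≤ k₂ := by omega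
    have hn2 : (0 : ℤ) ≤ (n : ℤ) - 1 := by omega
    have : ((n : ℤ) - 1) * 2 ≤ ((n : ℤ) - 1) * k₂ := mul_le_mul_of_nonneg_left h2 hn2
    have hk1' : (1 : ℤ) ≤ k₁ := by exact_mod_cast hk₁
    have hn2' : (2 : ℤ) ≤ n := by exact_mod_cast hn
    linarith
  have hk1 : k₁ = 1 := by
    rw [hk2] at hsum
    have : (k₁ : ℤ) = 1 := by push_cast at hsum; linarith
    exact_mod_cast this
  -- the formula
  have hmain := unitMulPow_norm (K := K) hϖ V hallB t ht0 hsep c hc x hx₁.ne_zero
    (fun b => cond b a₁ a₂) (by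
      intro i; cases i
      · exact hx₂
      · exact hx₁)
  rw [Fintype.sum_bool] at hmain
  simp only [cond_true, cond_false, c, hk1, hk2] at hmain
  exact hmain.congr (by push_cast; ring)

end Places

/-! ### The congruence from a norm equation -/

section Congruence

variable {O₀ O₁ K L : Type*}
  [CommRing O₀] [IsDomain O₀] [IsDiscreteValuationRing O₀]
  [CommRing O₁] [IsDomain O₁] [IsDiscreteValuationRing O₁]
  [Field K] [Algebra O₀ K] [IsFractionRing O₀ K] [Algebra O₁ K] [IsFractionRing O₁ K]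
  [Field L] [Algebra K L] [Algebra O₀ L] [IsScalarTower O₀ K L] [Algebra O₁ L]
  [IsScalarTower O₁ K L] [FiniteDimensional K L] [Algebra.IsSeparable K L]

/-- **The vertical congruence from one norm equation.**  `O₀`, `O₁` two DVRs of `K` (the two vertical
DVRs of the lower modular function field); over `O₀` exactly the two places `V₁` (`e = 1`) and `V₂`
(`e = [L:K] - 1`), over `O₁` exactly the place `V₃` (`e = 1`, `f = [L:K]`).  If
`N_{L/K} f = c * h ^ m` with `c` of the same order at `O₀` and `O₁`, then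
`m ∣ a₁ + a₂ - [L:K] * a₃`, `aᵢ` the order of `f` at `Vᵢ`. -/
theorem dvd_of_norm_eq_const_mul_pow {ϖ₀ : O₀} (hϖ₀ : Irreducible ϖ₀) {ϖ₁ : O₁}
    (hϖ₁ : Irreducible ϖ₁)
    (V₁ V₂ V₃ : ValuationSubring L)
    (hOV₁ : ∀ c : O₀, algebraMap O₀ L c ∈ V₁) (hOV₂ : ∀ c : O₀, algebraMap O₀ L c ∈ V₂)
    (hϖV₁ : V₁.valuation (algebraMap O₀ L ϖ₀) < 1) (hϖV₂ : V₂.valuation (algebraMap O₀ L ϖ₀) < 1)
    (hall₀ : ∀ W : ValuationSubring L, (∀ c : O₀, algebraMap O₀ L c ∈ W) →
      algebraMap O₀ L ϖ₀ ∈ W.nonunits → W = V₁ ∨ W = V₂)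
    (hall₁ : ∀ W : ValuationSubring L, (∀ c : O₁, algebraMap O₁ L c ∈ W) →
      algebraMap O₁ L ϖ₁ ∈ W.nonunits → W = V₃)
    (t₁ t₂ t₃ : L) (ht₁ : t₁ ≠ 0) (ht₂ : t₂ ≠ 0) (ht₃ : t₃ ≠ 0)
    (hsep₁₂ : V₂.valuation t₁ = 1) (hsep₂₁ : V₁.valuation t₂ = 1)
    (hn : 2 ≤ Module.finrank K L)
    (he₁ : HasOrd V₁ t₁ (algebraMap O₀ L ϖ₀) 1)
    (he₂ : HasOrd V₂ t₂ (algebraMap O₀ L ϖ₀) ((Module.finrank K L : ℤ) - 1))
    (he₃ : HasOrd V₃ t₃ (algebraMap O₁ L ϖ₁) 1)
    (f : L) (a₁ a₂ a₃ : ℤ) (hf₁ : HasOrd V₁ t₁ f a₁) (hf₂ : HasOrd V₂ t₂ f a₂)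
    (hf₃ : HasOrd V₃ t₃ f a₃)
    (c h : K) (hh : h ≠ 0) (κ : ℤ) (hc₀ : UnitMulPow ϖ₀ c κ) (hc₁ : UnitMulPow ϖ₁ c κ) (m : ℕ)
    (hN : Algebra.norm K f = c * h ^ m) :
    (m : ℤ) ∣ a₁ + a₂ - (Module.finrank K L : ℤ) * a₃ := by
  have h0 := unitMulPow_norm_two_places (K := K) hϖ₀ V₁ V₂ hOV₁ hOV₂ hϖV₁ hϖV₂ hall₀ t₁ t₂ ht₁ ht₂
    hsep₁₂ hsep₂₁ hn he₁ he₂ f a₁ a₂ hf₁ hf₂
  have h1 := unitMulPow_norm_one_place (K := K) hϖ₁ V₃ hall₁ t₃ ht₃ he₃ f a₃ hf₃
  obtain ⟨b₀, hb₀⟩ := UnitMulPow.exists_of_ne_zero hϖ₀ hh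
  obtain ⟨b₁, hb₁⟩ := UnitMulPow.exists_of_ne_zero hϖ₁ hh
  rw [hN] at h0 h1
  have e0 : a₁ + a₂ = κ + m * b₀ := h0.unique hϖ₀ (hc₀.mul hϖ₀.ne_zero (hb₀.pow hϖ₀.ne_zero m))
  have e1 : (Module.finrank K L : ℤ) * a₃ = κ + m * b₁ :=
    h1.unique hϖ₁ (hc₁.mul hϖ₁.ne_zero (hb₁.pow hϖ₁.ne_zero m))
  exact ⟨b₀ - b₁, by rw [e0, e1]; ring⟩

end Congruence

end Fermat.Agent.CA.H3
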