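import Mathlib
import Fermat.Agent.CA.H3_NormOrd
import Fermat.Agent.CA.H3_HasOrdGen

/-!
# The norm-order congruence with the DVRs below given as valuation subrings (helper3, S36 (E3))

* `isDiscreteValuationRing_of_hasOrd`, `irreducible_uniformiser_of_hasOrd` : a valuation subring `W`
  of `K` in which every non-zero element has an order w.r.t. a non-unit `π` (the `hWFπ`, `hWFq`
  shape of `S36.H18.geoFn36E_of_radicalDatum`) is a DVR with uniformiser `π`;
* `unitMulPow_of_hasOrd` : `HasOrd W π z k → UnitMulPow ⟨π, _⟩ z k`;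
* `dvd_of_norm_eq_const_mul_pow_vs` : `CA.H3.dvd_of_norm_eq_const_mul_pow` with the two DVRs below
  given as valuation subrings `W₀ W₁` of `K` with a common uniformiser `π : K`.
-/

set_option autoImplicit false
set_option linter.unusedSectionVars false

namespace Fermat.Agent.CA.H3

section DVR

variable {K : Type*} [Field K] (W : ValuationSubring K) (π : K) (hπ0 : π ≠ 0)
  (hπW : W.valuation π < 1) (hord : ∀ x : K, x ≠ 0 → ∃ n : ℤ, HasOrd W π x n)

include hπW in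
theorem uniformiser_mem : π ∈ W := (W.valuation_le_one_iff π).1 hπW.le

include hπ0 hπW hord in
/-- every nonzero element of `W` is a unit times a natural power of `π`. -/
theorem exists_unit_mul_pow_of_hasOrd (x : W) (hx : x ≠ 0) :
    ∃ (n : ℕ) (u : Wˣ), x = u * (⟨π, uniformiser_mem W π hπW⟩ : W) ^ n := by
  have hx0 : (x : K) ≠ 0 := fun h => hx (Subtype.ext h)
  obtain ⟨n, hn⟩ := hord x hx0
  have hval := hn.valuation_eq hπ0
  have hvπ0 : W.valuation π ≠ 0 := (Valuation.ne_zero_iff _).2 hπ0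
  -- `n ≥ 0`
  have hn0 : 0 ≤ n := by
    by_contra hneg
    rw [not_le] at hneg
    obtain ⟨r, hr⟩ : ∃ r : ℕ, n = -(r : ℤ) := ⟨(-n).toNat, by omega⟩
    have hr0 : r ≠ 0 := by omega
    rw [hr, zpow_neg, zpow_natCast] at hval
    have h1 : W.valuation π ^ r < 1 := pow_lt_one' hπW hr0
    have h2 : (1 : _) < (W.valuation π ^ r)⁻¹ := by
      rw [one_lt_inv₀ (zero_lt_iff.2 (pow_ne_zero _ hvπ0))]
      exact h1
    rw [← hval] at h2
    exact absurd ((W.valuation_le_one_iff _).2 x.2) (not_le.2 h2)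
  obtain ⟨k, rfl⟩ : ∃ k : ℕ, n = k := ⟨n.toNat, by omega⟩
  unfold HasOrd at hn
  have hu : (x : K) * π ^ (-(k : ℤ)) ∈ W := (W.valuation_le_one_iff _).1 hn.le
  have hunit : IsUnit (⟨(x : K) * π ^ (-(k : ℤ)), hu⟩ : W) :=
    (W.valuation_eq_one_iff _).2 hn
  refine ⟨k, hunit.unit, ?_⟩
  apply Subtype.ext
  push_cast
  rw [IsUnit.unit_spec]
  simp only
  rw [zpow_neg, zpow_natCast, mul_assoc, inv_mul_cancel₀ (pow_ne_zero _ hπ0), mul_one]

include hπ0 hπW hord in
/-- `π` is irreducible in `W`. -/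
theorem irreducible_uniformiser_of_hasOrd :
    Irreducible (⟨π, uniformiser_mem W π hπW⟩ : W) := by
  set ϖ : W := ⟨π, uniformiser_mem W π hπW⟩ with hϖ
  have hvπ0 : W.valuation π ≠ 0 := (Valuation.ne_zero_iff _).2 hπ0
  have hnu : ¬ IsUnit ϖ := by
    rw [W.valuation_eq_one_iff]
    exact hπW.ne
  refine irreducible_iff.2 ⟨hnu, ?_⟩
  intro a b hab
  by_contra hcon
  rw [not_or] at hcon
  obtain ⟨ha, hb⟩ := hcon
  have hϖ0 : ϖ ≠ 0 := fun h => hπ0 (congrArg Subtype.val h)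
  have ha0 : a ≠ 0 := by
    rintro rfl
    rw [zero_mul] at hab
    exact hϖ0 hab
  obtain ⟨i, u, hau⟩ := exists_unit_mul_pow_of_hasOrd W π hπ0 hπW hord a ha0
  have hi : i ≠ 0 := by
    rintro rfl
    rw [pow_zero, mul_one] at hau
    exact ha (hau ▸ u.isUnit)
  have hva : W.valuation (a : K) ≤ W.valuation π := by
    have h1 : (a : K) = (u : W) * π ^ i := by
      have := congrArg Subtype.val hau
      simpa using this
    rw [h1, map_mul, W.valuation_unit u, one_mul, map_pow]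
    obtain ⟨r, rfl⟩ : ∃ r, i = r + 1 := ⟨i - 1, by omega⟩
    rw [pow_succ]
    calc W.valuation π ^ r * W.valuation π ≤ 1 * W.valuation π :=
          mul_le_mul' (pow_le_one' hπW.le r) le_rfl
      _ = W.valuation π := one_mul _
  have hvb : W.valuation (b : K) < 1 := by
    refine lt_of_le_of_ne ((W.valuation_le_one_iff _).2 b.2) ?_
    rw [Ne, ← W.valuation_eq_one_iff]
    exact hb
  have hprod : W.valuation π = W.valuation (a : K) * W.valuation (b : K) := by
    rw [← map_mul]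
    have := congrArg Subtype.val hab
    simp only [hϖ] at this
    rw [this]
    rfl
  have hlt : W.valuation (a : K) * W.valuation (b : K) < W.valuation π := by
    calc W.valuation (a : K) * W.valuation (b : K)
        ≤ W.valuation π * W.valuation (b : K) := mul_le_mul' hva le_rfl
      _ < W.valuation π * 1 := by
          exact mul_lt_mul_of_pos_left hvb (zero_lt_iff.2 hvπ0)
      _ = W.valuation π := mul_one _
  rw [← hprod] at hlt
  exact lt_irrefl _ hlt

include hπ0 hπW hord in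
/-- a valuation subring in which every element has an order w.r.t. a non-unit `π` is a DVR. -/
theorem isDiscreteValuationRing_of_hasOrd : IsDiscreteValuationRing W := by
  apply IsDiscreteValuationRing.ofHasUnitMulPowIrreducibleFactorization
  refine ⟨⟨π, uniformiser_mem W π hπW⟩, irreducible_uniformiser_of_hasOrd W π hπ0 hπW hord, ?_⟩
  intro x hx
  obtain ⟨n, u, hu⟩ := exists_unit_mul_pow_of_hasOrd W π hπ0 hπW hord x hx
  exact ⟨n, u, by rw [hu, mul_comm]⟩

include hπ0 hπW in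
/-- `HasOrd` at a valuation subring of `K` gives `UnitMulPow` over the subring as a DVR type. -/
theorem unitMulPow_of_hasOrd [IsDiscreteValuationRing W] {z : K} {k : ℤ}
    (h : HasOrd W π z k) :
    UnitMulPow (⟨π, uniformiser_mem W π hπW⟩ : W) z k := by
  unfold HasOrd at h
  have hu : z * π ^ (-k) ∈ W := (W.valuation_le_one_iff _).1 h.le
  have hunit : IsUnit (⟨z * π ^ (-k), hu⟩ : W) := (W.valuation_eq_one_iff _).2 h
  refine ⟨hunit.unit, ?_⟩
  rw [IsUnit.unit_spec]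
  change z = z * π ^ (-k) * π ^ k
  rw [mul_assoc, ← zpow_add₀ hπ0, neg_add_cancel, zpow_zero, mul_one]

end DVR

/-! ### The congruence with the two DVRs below given as valuation subrings of `K` -/

section CongruenceVS

variable {K L : Type*} [Field K] [Field L] [Algebra K L] [FiniteDimensional K L]
  [Algebra.IsSeparable K L]

/-- **The vertical congruence, valuation-subring form.**  `W₀`, `W₁` two valuation subrings of `K`
with the SAME uniformiser `π : K` (every non-zero element of `K` has an order w.r.t. `π` at both);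
over `W₀` exactly `V₁` (`e = 1`), `V₂` (`e = [L:K] - 1`), over `W₁` exactly `V₃` (`e = 1`). -/
theorem dvd_of_norm_eq_const_mul_pow_vs (W₀ W₁ : ValuationSubring K) (π : K) (hπ0 : π ≠ 0)
    (hπW₀ : W₀.valuation π < 1) (hord₀ : ∀ x : K, x ≠ 0 → ∃ n : ℤ, HasOrd W₀ π x n)
    (hπW₁ : W₁.valuation π < 1) (hord₁ : ∀ x : K, x ≠ 0 → ∃ n : ℤ, HasOrd W₁ π x n)
    (V₁ V₂ V₃ : ValuationSubring L)
    (hOV₁ : ∀ c ∈ W₀, algebraMap K L c ∈ V₁) (hOV₂ : ∀ c ∈ W₀, algebraMap K L c ∈ V₂)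
    (hπV₁ : V₁.valuation (algebraMap K L π) < 1) (hπV₂ : V₂.valuation (algebraMap K L π) < 1)
    (hall₀ : ∀ W : ValuationSubring L, (∀ c ∈ W₀, algebraMap K L c ∈ W) →
      algebraMap K L π ∈ W.nonunits → W = V₁ ∨ W = V₂)
    (hall₁ : ∀ W : ValuationSubring L, (∀ c ∈ W₁, algebraMap K L c ∈ W) →
      algebraMap K L π ∈ W.nonunits → W = V₃)
    (t₁ t₂ t₃ : L) (ht₁ : t₁ ≠ 0) (ht₂ : t₂ ≠ 0) (ht₃ : t₃ ≠ 0)
    (hsep₁₂ : V₂.valuation t₁ = 1) (hsep₂₁ : V₁.valuation t₂ = 1)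
    (hn : 2 ≤ Module.finrank K L)
    (he₁ : HasOrd V₁ t₁ (algebraMap K L π) 1)
    (he₂ : HasOrd V₂ t₂ (algebraMap K L π) ((Module.finrank K L : ℤ) - 1))
    (he₃ : HasOrd V₃ t₃ (algebraMap K L π) 1)
    (f : L) (a₁ a₂ a₃ : ℤ) (hf₁ : HasOrd V₁ t₁ f a₁) (hf₂ : HasOrd V₂ t₂ f a₂)
    (hf₃ : HasOrd V₃ t₃ f a₃)
    (c h : K) (hh : h ≠ 0) (κ : ℤ) (hc₀ : HasOrd W₀ π c κ) (hc₁ : HasOrd W₁ π c κ) (m : ℕ)
    (hN : Algebra.norm K f = c * h ^ m) :
    (m : ℤ) ∣ a₁ + a₂ - (Module.finrank K L : ℤ) * a₃ := by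
  have := isDiscreteValuationRing_of_hasOrd W₀ π hπ0 hπW₀ hord₀
  have := isDiscreteValuationRing_of_hasOrd W₁ π hπ0 hπW₁ hord₁
  exact dvd_of_norm_eq_const_mul_pow (O₀ := W₀) (O₁ := W₁) (K := K) (L := L)
    (irreducible_uniformiser_of_hasOrd W₀ π hπ0 hπW₀ hord₀)
    (irreducible_uniformiser_of_hasOrd W₁ π hπ0 hπW₁ hord₁) V₁ V₂ V₃
    (fun c => hOV₁ c c.2) (fun c => hOV₂ c c.2) hπV₁ hπV₂
    (fun W h1 h2 => hall₀ W (fun c hc => h1 ⟨c, hc⟩) h2)
    (fun W h1 h2 => hall₁ W (fun c hc => h1 ⟨c, hc⟩) h2)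
    t₁ t₂ t₃ ht₁ ht₂ ht₃ hsep₁₂ hsep₂₁ hn he₁ he₂ he₃ f a₁ a₂ a₃ hf₁ hf₂ hf₃ c h hh κ
    (unitMulPow_of_hasOrd W₀ π hπ0 hπW₀ hc₀) (unitMulPow_of_hasOrd W₁ π hπ0 hπW₁ hc₁) m hN

end CongruenceVS

end Fermat.Agent.CA.H3
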