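import Mathlib

/-!
# Constant field extension of an integrally closed domain (helper79) — generic, Mathlib only

Row (R-a1) of the S34 plan, stated abstractly.

* `minpoly_eq_map_of_algClosedIn` : if the field `K` is algebraically closed in the field `F`
  and `α` (in an extension of `F`) is algebraic over `K`, then
  `minpoly F α = (minpoly K α).map (algebraMap K F)`  (linear disjointness of `F` and `K(α)`).
* `mem_adjoin_of_isIntegral_of_constant`, `integralClosure_eq_adjoin_of_constant` :
  `D` an integrally closed domain containing a field `K`, `F = Frac D`, `F' = F[α]` finite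
  separable over `F` with `α` algebraic over `K` and `minpoly F α = minpoly K α`.  Then the
  integral closure of `D` in `F'` is `D[α]`.
* `integralClosure_eq_adjoin_of_algClosedIn` (and the `CharZero` form `..._of_charZero`) : the
  same with the hypotheses reduced to "`K` algebraically closed in `F`, `α` separable over `K`,
  `F' = F[α]`".
* `isIntegrallyClosed_adjoin_of_algClosedIn` : under the same hypotheses `D[α]` is an integrally
  closed domain.
-/

set_option autoImplicit false
set_option linter.style.haveILetI false

open Polynomial

namespace Fermat.Agent.CA.H79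

section Minpoly

variable {K F F' : Type*} [Field K] [Field F] [Field F'] [Algebra K F] [Algebra F F']
  [Algebra K F'] [IsScalarTower K F F']

/-- If `K` is algebraically closed in `F`, the minimal polynomial over `F` of an element algebraic
over `K` is the image of its minimal polynomial over `K`. -/
theorem minpoly_eq_map_of_algClosedIn
    (hcl : ∀ z : F, IsAlgebraic K z → z ∈ Set.range (algebraMap K F))
    {α : F'} (hα : IsIntegral K α) :
    minpoly F α = (minpoly K α).map (algebraMap K F) := by
  classical
  have hαF : IsIntegral F α := hα.tower_top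
  have hdvd : minpoly F α ∣ (minpoly K α).map (algebraMap K F) :=
    minpoly.dvd_map_of_isScalarTower K F α
  have hlift := integralClosure.mem_lifts_of_monic_of_dvd_map F (minpoly.monic hα)
    (minpoly.monic hαF) hdvd
  -- every coefficient of `minpoly F α` lies in `K`
  have hlift' : minpoly F α ∈ lifts (algebraMap K F) := by
    rw [lifts_iff_coeff_lifts] at hlift ⊢
    intro n
    obtain ⟨c, hc⟩ := hlift n
    have hcint : IsIntegral K (c : F) := c.2
    rw [← hc]
    exact hcl _ hcint.isAlgebraic
  obtain ⟨g, hg, hgdeg, hgmon⟩ := lifts_and_degree_eq_and_monic hlift' (minpoly.monic hαF)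
  -- `g` kills `α`
  have hgα : aeval α g = 0 := by
    have h1 : aeval α (g.map (algebraMap K F)) = 0 := by rw [hg]; exact minpoly.aeval F α
    rwa [aeval_map_algebraMap] at h1
  have hdvd' : minpoly K α ∣ g := minpoly.dvd K α hgα
  -- `g.map ∣ (minpoly K α).map`, so `deg g ≤ deg (minpoly K α)`
  have hdeg1 : g.natDegree ≤ (minpoly K α).natDegree := by
    have h2 := natDegree_le_of_dvd hdvd ((minpoly.monic hα).map (algebraMap K F)).ne_zero
    rw [natDegree_map, ← hg, natDegree_map] at h2
    exact h2
  have heq : g = minpoly K α :=
    eq_of_monic_of_dvd_of_natDegree_le (minpoly.monic hα) hgmon hdvd' hdeg1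
  rw [← hg, heq]

end Minpoly

section ConstExt

/-- The tower `K → D → F'` from the towers `K → D → F`, `K → F → F'`, `D → F → F'`. -/
theorem isScalarTower_constant (K D F F' : Type*) [Field K] [CommRing D] [Algebra K D]
    [Field F] [Algebra D F] [Algebra K F] [IsScalarTower K D F]
    [Field F'] [Algebra F F'] [Algebra D F'] [IsScalarTower D F F'] [Algebra K F']
    [IsScalarTower K F F'] : IsScalarTower K D F' :=
  IsScalarTower.of_algebraMap_eq fun k => by
    rw [IsScalarTower.algebraMap_apply K F F', IsScalarTower.algebraMap_apply K D F,
      ← IsScalarTower.algebraMap_apply D F F']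

variable {K D F F' : Type*} [Field K] [CommRing D] [Algebra K D] [Field F'] [Algebra D F']
  [Algebra K F'] [IsScalarTower K D F']

/-- `K[α] ⊆ D[α]` when the field `K` maps to `D`. -/
theorem adjoin_constant_le (α : F') {x : F'} (hx : x ∈ Algebra.adjoin K {α}) :
    x ∈ Algebra.adjoin D {α} := by
  rw [Algebra.adjoin_singleton_eq_range_aeval] at hx
  obtain ⟨p, rfl⟩ := hx
  have h : aeval α (p.map (algebraMap K D)) = aeval α p := aeval_map_algebraMap D α p
  rw [AlgHom.toRingHom_eq_coe, RingHom.coe_coe, ← h]
  exact aeval_mem_adjoin_singleton D α

/-- Inverses of elements of `K[α]` stay in `D[α]` (`α` algebraic over the field `K`). -/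
theorem inv_mem_adjoin_constant (α : F') (hαK : IsIntegral K α) {x : F'}
    (hx : x ∈ Algebra.adjoin K {α}) : x⁻¹ ∈ Algebra.adjoin D {α} := by
  apply adjoin_constant_le (K := K) (D := D) α
  rw [← IntermediateField.adjoin_simple_toSubalgebra_of_isAlgebraic hαK.isAlgebraic] at hx ⊢
  exact inv_mem (s := IntermediateField.adjoin K {α}) hx

variable [IsDomain D] [IsIntegrallyClosed D] [Field F] [Algebra D F] [IsFractionRing D F]
  [Algebra K F] [Algebra F F'] [IsScalarTower D F F']

/-- **Constant field extension of an integrally closed domain.**  `D` an integrally closed domain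
containing a field `K`, `F = Frac D`, `F' = F[α]` finite separable over `F` with `α` algebraic
over `K` and `minpoly F α = minpoly K α` (linear disjointness).  Then every element of `F'`
integral over `D` lies in `D[α]`. -/
theorem mem_adjoin_of_isIntegral_of_constant [IsScalarTower K F F'] [FiniteDimensional F F']
    [Algebra.IsSeparable F F']
    (α : F') (hαK : IsIntegral K α) (htop : Algebra.adjoin F {α} = ⊤)
    (hmin : minpoly F α = (minpoly K α).map (algebraMap K F))
    {z : F'} (hz : IsIntegral D z) : z ∈ Algebra.adjoin D {α} := by
  classical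
  have hαD : IsIntegral D α := hαK.tower_top
  have hdual := traceForm_dualSubmodule_adjoin D F htop hαD
  -- `z` lies in the dual of `D[α]`
  have hzdual : z ∈ (Algebra.traceForm F F').dualSubmodule
      (Subalgebra.toSubmodule (Algebra.adjoin D {α})) := by
    rw [LinearMap.BilinForm.mem_dualSubmodule]
    intro y hy
    have hyint : IsIntegral D y := _root_.adjoin_le_integralClosure hαD hy
    have htr : IsIntegral D (Algebra.trace F F' (z * y)) :=
      Algebra.isIntegral_trace (hz.mul hyint)
    obtain ⟨d, hd⟩ := IsIntegrallyClosed.isIntegral_iff.mp htr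
    rw [Algebra.traceForm_apply]
    exact Submodule.mem_one.mpr ⟨d, hd⟩
  rw [hdual] at hzdual
  obtain ⟨w, hw, rfl⟩ := (Submodule.mem_smul_pointwise_iff_exists _ _ _).mp hzdual
  -- the different element lies in `K[α]`
  have hder : aeval α (derivative (minpoly F α)) ∈ Algebra.adjoin K {α} := by
    rw [hmin, derivative_map, aeval_map_algebraMap]
    exact aeval_mem_adjoin_singleton K α
  have hinv := inv_mem_adjoin_constant (K := K) (D := D) α hαK hder
  rw [smul_eq_mul]
  exact Subalgebra.mul_mem _ hinv hw

/-- Subalgebra form: the integral closure of `D` in `F'` is `D[α]`. -/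
theorem integralClosure_eq_adjoin_of_constant [IsScalarTower K F F'] [FiniteDimensional F F']
    [Algebra.IsSeparable F F']
    (α : F') (hαK : IsIntegral K α) (htop : Algebra.adjoin F {α} = ⊤)
    (hmin : minpoly F α = (minpoly K α).map (algebraMap K F)) :
    integralClosure D F' = Algebra.adjoin D {α} := by
  apply le_antisymm
  · intro z hz
    exact mem_adjoin_of_isIntegral_of_constant α hαK htop hmin hz
  · exact _root_.adjoin_le_integralClosure hαK.tower_top

/-- `F' = F[α]` with `α` integral over `F` is finite over `F`. -/
theorem finiteDimensional_of_adjoin_eq_top (α : F') (hαF : IsIntegral F α)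
    (htop : Algebra.adjoin F {α} = ⊤) : FiniteDimensional F F' := by
  have h1 : (Algebra.adjoin F {α}).toSubmodule.FG := by
    have := (IsIntegral.fg_adjoin_singleton hαF)
    exact this
  rw [htop] at h1
  exact ⟨by simpa using h1⟩

/-- `F' = F[α]` with `α` separable over `F` is separable over `F`. -/
theorem isSeparable_of_adjoin_eq_top (α : F') (hαF : IsIntegral F α)
    (hsep : (minpoly F α).Separable) (htop : Algebra.adjoin F {α} = ⊤) :
    Algebra.IsSeparable F F' := by
  have hsepα : IsSeparable F α := hsep
  have h1 : Algebra.IsSeparable F (IntermediateField.adjoin F {α}) :=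
    (IntermediateField.isSeparable_adjoin_simple_iff_isSeparable F F').mpr hsepα
  have h2 : IntermediateField.adjoin F {α} = ⊤ := by
    apply IntermediateField.toSubalgebra_injective
    rw [IntermediateField.adjoin_simple_toSubalgebra_of_isAlgebraic hαF.isAlgebraic, htop,
      IntermediateField.top_toSubalgebra]
  rw [h2] at h1
  exact Algebra.IsSeparable.of_algHom F _ (IntermediateField.topEquiv (F := F) (E := F')).symm.toAlgHom

/-- **(R-a1), consumer form.**  `D` an integrally closed domain containing a field `K` which is
algebraically closed in `F = Frac D`; `α` separable algebraic over `K` with `F' = F[α]`.  Then the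
integral closure of `D` in `F'` is `D[α]`. -/
theorem integralClosure_eq_adjoin_of_algClosedIn [IsScalarTower K F F']
    (hcl : ∀ z : F, IsAlgebraic K z → z ∈ Set.range (algebraMap K F))
    (α : F') (hαK : IsIntegral K α) (hsep : (minpoly K α).Separable)
    (htop : Algebra.adjoin F {α} = ⊤) :
    integralClosure D F' = Algebra.adjoin D {α} := by
  have hmin := minpoly_eq_map_of_algClosedIn (F' := F') hcl hαK
  have hαF : IsIntegral F α := hαK.tower_top
  have hsepF : (minpoly F α).Separable := by rw [hmin]; exact hsep.map
  haveI := finiteDimensional_of_adjoin_eq_top (F := F) α hαF htop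
  haveI := isSeparable_of_adjoin_eq_top (F := F) α hαF hsepF htop
  exact integralClosure_eq_adjoin_of_constant α hαK htop hmin

/-- Characteristic zero form of `integralClosure_eq_adjoin_of_algClosedIn`. -/
theorem integralClosure_eq_adjoin_of_charZero [IsScalarTower K F F'] [CharZero K]
    (hcl : ∀ z : F, IsAlgebraic K z → z ∈ Set.range (algebraMap K F))
    (α : F') (hαK : IsIntegral K α) (htop : Algebra.adjoin F {α} = ⊤) :
    integralClosure D F' = Algebra.adjoin D {α} :=
  integralClosure_eq_adjoin_of_algClosedIn hcl α hαK (minpoly.irreducible hαK).separable htop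

/-- Under the hypotheses of `integralClosure_eq_adjoin_of_algClosedIn`, `D[α]` is integrally
closed (its fraction field is `F'`). -/
theorem isIntegrallyClosed_adjoin_of_algClosedIn [IsScalarTower K F F']
    (hcl : ∀ z : F, IsAlgebraic K z → z ∈ Set.range (algebraMap K F))
    (α : F') (hαK : IsIntegral K α) (hsep : (minpoly K α).Separable)
    (htop : Algebra.adjoin F {α} = ⊤) :
    IsIntegrallyClosed (Algebra.adjoin D {α}) := by
  have hαF : IsIntegral F α := hαK.tower_top
  haveI := finiteDimensional_of_adjoin_eq_top (F := F) α hαF htop
  have h := integralClosure_eq_adjoin_of_algClosedIn (D := D) hcl α hαK hsep htop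
  haveI : IsIntegrallyClosed (integralClosure D F') :=
    integralClosure.isIntegrallyClosedOfFiniteExtension F
  exact IsIntegrallyClosed.of_equiv (Subalgebra.equivOfEq _ _ h).toRingEquiv

end ConstExt

end Fermat.Agent.CA.H79
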