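import Mathlib
import Fermat.Agent.CA.H79_ConstExt

/-!
# Special fibre of a base change `B ⊗_{A₁} A₂` computed inside a field (helper79)

Row (R-a) of the S34 plan, abstract form.  `A₁` is a PID (a DVR in the application), `A₂` a
torsion-free `A₁`-algebra (a DVR dominating `A₁` with the same residue field, *not* assumed
finite over `A₁`), `B` an `A₁`-algebra, and everything maps to a commutative ring `E`
(the big function field).  `R` is the subring of `E` generated by `B` and `A₂`, i.e. the set of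
finite sums `∑ βᵢ aᵢ`.

* `dvd_of_eq_mul_sum` (KEY): if `A₂ = A₁ + π A₂`, `π A₂ ∩ A₁ = q A₁` and `A₁`-linearly independent
  families of `A₂` stay `B`-linearly independent in `E` (linear disjointness), then
  `b = π * ∑ βᵢ aᵢ` with `b, βᵢ ∈ B`, `aᵢ ∈ A₂` forces `q ∣ b` in `B`.
-/

set_option autoImplicit false
set_option linter.style.haveILetI false

open Polynomial

namespace Fermat.Agent.CA.H79

section Key

variable {A₁ A₂ B E : Type*} [CommRing A₁] [IsDomain A₁] [IsPrincipalIdealRing A₁]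
  [CommRing A₂] [Algebra A₁ A₂] [Module.IsTorsionFree A₁ A₂]
  [CommRing B] [Algebra A₁ B]
  [CommRing E] [Algebra A₁ E] [Algebra A₂ E] [Algebra B E]
  [IsScalarTower A₁ A₂ E] [IsScalarTower A₁ B E]

/-- **Key lemma.**  `b = π * ∑ βᵢ aᵢ` in `E` with `b, βᵢ ∈ B`, `aᵢ ∈ A₂` forces `q ∣ b`. -/
theorem dvd_of_eq_mul_sum (q : A₁) (π : A₂)
    (h1 : ∀ a : A₂, ∃ c : A₁, ∃ a' : A₂, a = algebraMap A₁ A₂ c + π * a')
    (h2 : ∀ c : A₁, π ∣ algebraMap A₁ A₂ c → q ∣ c)
    (hLD : ∀ (r : ℕ) (m : Fin r → A₂), LinearIndependent A₁ m →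
      LinearIndependent B (fun l => algebraMap A₂ E (m l)))
    {ι : Type*} (s : Finset ι) (b : B) (β : ι → B) (a : ι → A₂)
    (h : algebraMap B E b =
      algebraMap A₂ E π * ∑ i ∈ s, algebraMap B E (β i) * algebraMap A₂ E (a i)) :
    algebraMap A₁ B q ∣ b := by
  classical
  -- the finitely generated submodule spanned by `1` and the `π aᵢ`
  let S : Set A₂ := insert 1 ((fun i => π * a i) '' (s : Set ι))
  have hSfin : S.Finite := (Set.Finite.image _ s.finite_toSet).insert 1
  let M : Submodule A₁ A₂ := Submodule.span A₁ S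
  haveI : Module.Finite A₁ M := Module.Finite.of_fg (Submodule.fg_span hSfin)
  obtain ⟨n, bM⟩ := Module.basisOfFiniteTypeTorsionFree' (R := A₁) (M := M)
  have hone : (1 : A₂) ∈ M := Submodule.subset_span (Set.mem_insert _ _)
  have hπa : ∀ i ∈ s, π * a i ∈ M := fun i hi =>
    Submodule.subset_span (Set.mem_insert_of_mem _ ⟨i, hi, rfl⟩)
  -- linear independence over `B` in `E`
  have hli₁ : LinearIndependent A₁ (fun l => ((bM l : M) : A₂)) :=
    bM.linearIndependent.map' M.subtype (Submodule.ker_subtype M)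
  have hli := hLD n _ hli₁
  -- expansions
  have hcoe : ∀ x : M, (x : A₂) = ∑ l, bM.repr x l • ((bM l : M) : A₂) := by
    intro x
    have h0 := congrArg (M.subtype) (bM.sum_repr x)
    rw [map_sum] at h0
    simp only [map_smul, Submodule.subtype_apply] at h0
    exact h0.symm
  have hexp : ∀ x : M, algebraMap A₂ E (x : A₂) =
      ∑ l, algebraMap A₁ E (bM.repr x l) * algebraMap A₂ E ((bM l : M) : A₂) := by
    intro x
    conv_lhs => rw [hcoe x]
    rw [map_sum]
    refine Finset.sum_congr rfl fun l _ => ?_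
    rw [Algebra.smul_def, map_mul, ← IsScalarTower.algebraMap_apply A₁ A₂ E]
  set u : Fin n → A₁ := fun l => bM.repr ⟨1, hone⟩ l with hu
  set p : ι → Fin n → A₁ := fun i l =>
    if hi : i ∈ s then bM.repr ⟨π * a i, hπa i hi⟩ l else 0 with hp
  -- the `B`-coefficients
  set g : Fin n → B := fun l =>
    b * algebraMap A₁ B (u l) - ∑ i ∈ s, β i * algebraMap A₁ B (p i l) with hg
  have hsum : ∑ l, g l • algebraMap A₂ E ((bM l : M) : A₂) = 0 := by
    have e1 : algebraMap B E b = ∑ l, algebraMap B E (b * algebraMap A₁ B (u l)) *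
        algebraMap A₂ E ((bM l : M) : A₂) := by
      have := hexp ⟨1, hone⟩
      simp only [map_one] at this
      calc algebraMap B E b = algebraMap B E b * 1 := (mul_one _).symm
        _ = algebraMap B E b * ∑ l, algebraMap A₁ E (bM.repr ⟨1, hone⟩ l) *
              algebraMap A₂ E ((bM l : M) : A₂) := by rw [← this]
        _ = _ := by
          rw [Finset.mul_sum]
          refine Finset.sum_congr rfl fun l _ => ?_
          rw [map_mul, ← IsScalarTower.algebraMap_apply A₁ B E, mul_assoc]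
    have e2 : algebraMap A₂ E π * ∑ i ∈ s, algebraMap B E (β i) * algebraMap A₂ E (a i) =
        ∑ l, algebraMap B E (∑ i ∈ s, β i * algebraMap A₁ B (p i l)) *
          algebraMap A₂ E ((bM l : M) : A₂) := by
      rw [Finset.mul_sum]
      have : ∀ i ∈ s, algebraMap A₂ E π * (algebraMap B E (β i) * algebraMap A₂ E (a i)) =
          ∑ l, algebraMap B E (β i * algebraMap A₁ B (p i l)) *
            algebraMap A₂ E ((bM l : M) : A₂) := by
        intro i hi
        have h3 := hexp ⟨π * a i, hπa i hi⟩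
        simp only [map_mul] at h3
        calc algebraMap A₂ E π * (algebraMap B E (β i) * algebraMap A₂ E (a i))
            = algebraMap B E (β i) * (algebraMap A₂ E π * algebraMap A₂ E (a i)) := by ring
          _ = algebraMap B E (β i) * ∑ l, algebraMap A₁ E (bM.repr ⟨π * a i, hπa i hi⟩ l) *
              algebraMap A₂ E ((bM l : M) : A₂) := by rw [h3]
          _ = _ := by
            rw [Finset.mul_sum]
            refine Finset.sum_congr rfl fun l _ => ?_
            rw [map_mul, ← IsScalarTower.algebraMap_apply A₁ B E, hp]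
            simp only [dif_pos hi]
            ring
      rw [Finset.sum_congr rfl this, Finset.sum_comm]
      refine Finset.sum_congr rfl fun l _ => ?_
      rw [map_sum, Finset.sum_mul]
    have e3 := h
    rw [e1, e2] at e3
    simp only [hg, Algebra.smul_def, map_sub, sub_mul, Finset.sum_sub_distrib]
    rw [e3, sub_self]
  have hg0 : ∀ l, g l = 0 := Fintype.linearIndependent_iff.mp hli g hsum
  -- lifts of the residues of the basis vectors
  choose x m' hx using fun l => h1 ((bM l : M) : A₂)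
  -- `∑ u_l x_l ≡ 1` and `∑ p_{il} x_l ≡ 0` modulo `q`
  have hrepr : ∀ y : M, (y : A₂) = algebraMap A₁ A₂ (∑ l, bM.repr y l * x l) +
      π * ∑ l, algebraMap A₁ A₂ (bM.repr y l) * m' l := by
    intro y
    conv_lhs => rw [hcoe y]
    rw [map_sum, Finset.mul_sum, ← Finset.sum_add_distrib]
    refine Finset.sum_congr rfl fun l _ => ?_
    conv_lhs => rw [hx l]
    rw [Algebra.smul_def, map_mul]
    ring
  have hq1 : q ∣ (∑ l, u l * x l) - 1 := by
    apply h2
    have := hrepr ⟨1, hone⟩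
    refine ⟨-∑ l, algebraMap A₁ A₂ (bM.repr ⟨1, hone⟩ l) * m' l, ?_⟩
    rw [map_sub, map_one]
    simp only [hu]
    linear_combination -this
  have hq2 : ∀ i ∈ s, q ∣ ∑ l, p i l * x l := by
    intro i hi
    apply h2
    have := hrepr ⟨π * a i, hπa i hi⟩
    refine ⟨a i - ∑ l, algebraMap A₁ A₂ (bM.repr ⟨π * a i, hπa i hi⟩ l) * m' l, ?_⟩
    have hpi : ∀ l, p i l = bM.repr ⟨π * a i, hπa i hi⟩ l := fun l => by
      simp only [hp, dif_pos hi]
    simp only [hpi]
    linear_combination -this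
  obtain ⟨c, hc⟩ := hq1
  choose! d hd using hq2
  -- weighted sum of the coefficient equations
  have hw : ∑ l, g l * algebraMap A₁ B (x l) = 0 :=
    Finset.sum_eq_zero fun l _ => by rw [hg0 l, zero_mul]
  have hw' : b * algebraMap A₁ B (∑ l, u l * x l) =
      ∑ i ∈ s, β i * algebraMap A₁ B (∑ l, p i l * x l) := by
    have : ∑ l, g l * algebraMap A₁ B (x l) =
        b * algebraMap A₁ B (∑ l, u l * x l) -
          ∑ i ∈ s, β i * algebraMap A₁ B (∑ l, p i l * x l) := by
      simp only [hg, sub_mul, Finset.sum_sub_distrib, map_sum, map_mul, Finset.mul_sum,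
        Finset.sum_mul]
      congr 1
      · refine Finset.sum_congr rfl fun l _ => by ring
      · rw [Finset.sum_comm]
        refine Finset.sum_congr rfl fun i _ => Finset.sum_congr rfl fun l _ => by ring
    rw [this] at hw
    exact sub_eq_zero.mp hw
  have hc' : ∑ l, u l * x l = 1 + q * c := by rw [← hc]; ring
  rw [hc'] at hw'
  refine ⟨∑ i ∈ s, β i * algebraMap A₁ B (d i) - b * algebraMap A₁ B c, ?_⟩
  have hsum2 : ∑ i ∈ s, β i * algebraMap A₁ B (∑ l, p i l * x l) =
      algebraMap A₁ B q * ∑ i ∈ s, β i * algebraMap A₁ B (d i) := by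
    rw [Finset.mul_sum]
    refine Finset.sum_congr rfl fun i hi => ?_
    rw [hd i hi, map_mul]
    ring
  rw [hsum2, map_add, map_one, map_mul] at hw'
  linear_combination hw'

end Key

section GenRing

variable {A₁ A₂ B E : Type*} [CommRing A₁] [CommRing A₂] [Algebra A₁ A₂]
  [CommRing B] [Algebra A₁ B]
  [CommRing E] [Algebra A₁ E] [Algebra A₂ E] [Algebra B E]
  [IsScalarTower A₁ A₂ E] [IsScalarTower A₁ B E]

variable (A₂ B E) in
/-- The subring of `E` generated by (the images of) `B` and `A₂`, as a `B`-subalgebra. -/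
def genRing : Subalgebra B E := Algebra.adjoin B (Set.range (algebraMap A₂ E))

theorem algebraMap_mem_genRing (a : A₂) : algebraMap A₂ E a ∈ genRing A₂ B E :=
  Algebra.subset_adjoin ⟨a, rfl⟩

theorem algebraMap_mem_genRing' (b : B) : algebraMap B E b ∈ genRing A₂ B E :=
  Subalgebra.algebraMap_mem _ b

/-- Elements of `genRing` are finite sums `∑ βᵢ aᵢ`. -/
theorem exists_sum_of_mem_genRing {r : E} (hr : r ∈ genRing A₂ B E) :
    ∃ (n : ℕ) (β : Fin n → B) (a : Fin n → A₂),
      r = ∑ i, algebraMap B E (β i) * algebraMap A₂ E (a i) := by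
  classical
  have h0 : r ∈ Subalgebra.toSubmodule (genRing A₂ B E) := hr
  rw [genRing, Algebra.adjoin_eq_span] at h0
  have hcl : (Submonoid.closure (Set.range (algebraMap A₂ E)) : Set E) =
      Set.range (algebraMap A₂ E) := by
    have : Set.range (algebraMap A₂ E) =
        ((MonoidHom.mrange ((algebraMap A₂ E : A₂ →+* E) : A₂ →* E) : Submonoid E) : Set E) := by
      ext x; simp
    rw [this, Submonoid.closure_eq]
  rw [hcl] at h0
  obtain ⟨n, f, g, hfg⟩ := (Submodule.mem_span_set').mp h0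
  choose a ha using fun i => (g i).2
  refine ⟨n, f, a, ?_⟩
  rw [← hfg]
  refine Finset.sum_congr rfl fun i _ => ?_
  rw [Algebra.smul_def, ha i]

/-- Conversely finite sums `∑ βᵢ aᵢ` lie in `genRing`. -/
theorem sum_mem_genRing {ι : Type*} (s : Finset ι) (β : ι → B) (a : ι → A₂) :
    ∑ i ∈ s, algebraMap B E (β i) * algebraMap A₂ E (a i) ∈ genRing A₂ B E :=
  Subalgebra.sum_mem _ fun _ _ =>
    Subalgebra.mul_mem _ (algebraMap_mem_genRing' _) (algebraMap_mem_genRing _)

/-- **Surjectivity of `B → R/πR`.** -/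
theorem exists_add_mul_of_mem_genRing (π : A₂)
    (h1 : ∀ a : A₂, ∃ c : A₁, ∃ a' : A₂, a = algebraMap A₁ A₂ c + π * a')
    {r : E} (hr : r ∈ genRing A₂ B E) :
    ∃ b : B, ∃ r' ∈ genRing A₂ B E, r = algebraMap B E b + algebraMap A₂ E π * r' := by
  classical
  obtain ⟨n, β, a, rfl⟩ := exists_sum_of_mem_genRing hr
  choose c a' hca using h1
  refine ⟨∑ i, β i * algebraMap A₁ B (c (a i)),
    ∑ i, algebraMap B E (β i) * algebraMap A₂ E (a' (a i)), sum_mem_genRing _ _ _, ?_⟩
  rw [map_sum, Finset.mul_sum, ← Finset.sum_add_distrib]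
  refine Finset.sum_congr rfl fun i _ => ?_
  conv_lhs => rw [hca (a i)]
  rw [map_add, map_mul, map_mul, ← IsScalarTower.algebraMap_apply A₁ A₂ E,
    ← IsScalarTower.algebraMap_apply A₁ B E]
  ring

end GenRing

section Fibre

variable {A₁ A₂ B E : Type*} [CommRing A₁] [IsDomain A₁] [IsPrincipalIdealRing A₁]
  [CommRing A₂] [Algebra A₁ A₂] [Module.IsTorsionFree A₁ A₂]
  [CommRing B] [Algebra A₁ B]
  [CommRing E] [Algebra A₁ E] [Algebra A₂ E] [Algebra B E]
  [IsScalarTower A₁ A₂ E] [IsScalarTower A₁ B E]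

/-- **Kernel of `B → R/πR`.**  If `b = π r` with `r ∈ R = genRing`, then `q ∣ b` in `B`. -/
theorem dvd_of_eq_mul_of_mem_genRing (q : A₁) (π : A₂)
    (h1 : ∀ a : A₂, ∃ c : A₁, ∃ a' : A₂, a = algebraMap A₁ A₂ c + π * a')
    (h2 : ∀ c : A₁, π ∣ algebraMap A₁ A₂ c → q ∣ c)
    (hLD : ∀ (r : ℕ) (m : Fin r → A₂), LinearIndependent A₁ m →
      LinearIndependent B (fun l => algebraMap A₂ E (m l)))
    (b : B) {r : E} (hr : r ∈ genRing A₂ B E)
    (h : algebraMap B E b = algebraMap A₂ E π * r) : algebraMap A₁ B q ∣ b := by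
  obtain ⟨n, β, a, rfl⟩ := exists_sum_of_mem_genRing hr
  exact dvd_of_eq_mul_sum q π h1 h2 hLD Finset.univ b β a h

/-- The element `π` of `R = genRing`. -/
def piGen (B E : Type*) {A₂ : Type*} [CommRing A₂] [CommRing B] [CommRing E] [Algebra A₂ E]
    [Algebra B E] (π : A₂) : genRing A₂ B E :=
  ⟨algebraMap A₂ E π, algebraMap_mem_genRing π⟩

/-- The ring homomorphism `B → R/πR`. -/
def toFibre (B E : Type*) {A₂ : Type*} [CommRing A₂] [CommRing B] [CommRing E] [Algebra A₂ E]
    [Algebra B E] (π : A₂) : B →+* (genRing A₂ B E ⧸ Ideal.span {piGen B E π}) :=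
  (Ideal.Quotient.mk _).comp (algebraMap B (genRing A₂ B E))

omit [IsDomain A₁] [IsPrincipalIdealRing A₁] [Module.IsTorsionFree A₁ A₂] in
theorem toFibre_surjective (π : A₂)
    (h1 : ∀ a : A₂, ∃ c : A₁, ∃ a' : A₂, a = algebraMap A₁ A₂ c + π * a') :
    Function.Surjective (toFibre B E π) := by
  intro x
  obtain ⟨r, rfl⟩ := Ideal.Quotient.mk_surjective x
  obtain ⟨b, r', hr', hrr⟩ := exists_add_mul_of_mem_genRing (A₁ := A₁) (B := B) π h1 r.2
  refine ⟨b, ?_⟩
  rw [toFibre, RingHom.comp_apply, Ideal.Quotient.eq, Ideal.mem_span_singleton]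
  refine ⟨-⟨r', hr'⟩, ?_⟩
  apply Subtype.ext
  simp only [piGen, Subalgebra.coe_sub, Subalgebra.coe_mul, Subalgebra.coe_neg,
    Subalgebra.coe_algebraMap]
  rw [hrr]
  ring

theorem ker_toFibre (q : A₁) (π : A₂)
    (h1 : ∀ a : A₂, ∃ c : A₁, ∃ a' : A₂, a = algebraMap A₁ A₂ c + π * a')
    (h2 : ∀ c : A₁, π ∣ algebraMap A₁ A₂ c → q ∣ c)
    (h3 : π ∣ algebraMap A₁ A₂ q)
    (hLD : ∀ (r : ℕ) (m : Fin r → A₂), LinearIndependent A₁ m →
      LinearIndependent B (fun l => algebraMap A₂ E (m l))) :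
    RingHom.ker (toFibre B E π) = Ideal.span {algebraMap A₁ B q} := by
  apply le_antisymm
  · intro b hb
    rw [RingHom.mem_ker, toFibre, RingHom.comp_apply, Ideal.Quotient.eq_zero_iff_mem,
      Ideal.mem_span_singleton] at hb
    obtain ⟨r, hr⟩ := hb
    rw [Ideal.mem_span_singleton]
    refine dvd_of_eq_mul_of_mem_genRing q π h1 h2 hLD b r.2 ?_
    have := congrArg (Subtype.val) hr
    simpa [piGen] using this
  · rw [Ideal.span_le, Set.singleton_subset_iff, SetLike.mem_coe, RingHom.mem_ker, toFibre,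
      RingHom.comp_apply, Ideal.Quotient.eq_zero_iff_mem, Ideal.mem_span_singleton]
    obtain ⟨a, ha⟩ := h3
    refine ⟨⟨algebraMap A₂ E a, algebraMap_mem_genRing a⟩, ?_⟩
    apply Subtype.ext
    simp only [piGen, Subalgebra.coe_mul, Subalgebra.coe_algebraMap]
    rw [← IsScalarTower.algebraMap_apply A₁ B E, IsScalarTower.algebraMap_apply A₁ A₂ E, ha,
      map_mul]

/-- **The special fibre of `R = B·A₂` is the special fibre of `B`.** -/
noncomputable def fibreEquiv (q : A₁) (π : A₂)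
    (h1 : ∀ a : A₂, ∃ c : A₁, ∃ a' : A₂, a = algebraMap A₁ A₂ c + π * a')
    (h2 : ∀ c : A₁, π ∣ algebraMap A₁ A₂ c → q ∣ c)
    (h3 : π ∣ algebraMap A₁ A₂ q)
    (hLD : ∀ (r : ℕ) (m : Fin r → A₂), LinearIndependent A₁ m →
      LinearIndependent B (fun l => algebraMap A₂ E (m l))) :
    (B ⧸ Ideal.span {algebraMap A₁ B q}) ≃+* (genRing A₂ B E ⧸ Ideal.span {piGen B E π}) :=
  (Ideal.quotEquivOfEq (ker_toFibre q π h1 h2 h3 hLD).symm).trans
    (RingHom.quotientKerEquivOfSurjective (toFibre_surjective (A₁ := A₁) π h1))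

@[simp]
theorem fibreEquiv_mk (q : A₁) (π : A₂)
    (h1 : ∀ a : A₂, ∃ c : A₁, ∃ a' : A₂, a = algebraMap A₁ A₂ c + π * a')
    (h2 : ∀ c : A₁, π ∣ algebraMap A₁ A₂ c → q ∣ c)
    (h3 : π ∣ algebraMap A₁ A₂ q)
    (hLD : ∀ (r : ℕ) (m : Fin r → A₂), LinearIndependent A₁ m →
      LinearIndependent B (fun l => algebraMap A₂ E (m l))) (b : B) :
    fibreEquiv (E := E) q π h1 h2 h3 hLD (Ideal.Quotient.mk _ b) =
      Ideal.Quotient.mk _ (algebraMap B (genRing A₂ B E) b) := by
  rfl

/-- The special fibre of `R` is reduced as soon as that of `B` is. -/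
theorem isReduced_fibre (q : A₁) (π : A₂)
    (h1 : ∀ a : A₂, ∃ c : A₁, ∃ a' : A₂, a = algebraMap A₁ A₂ c + π * a')
    (h2 : ∀ c : A₁, π ∣ algebraMap A₁ A₂ c → q ∣ c)
    (h3 : π ∣ algebraMap A₁ A₂ q)
    (hLD : ∀ (r : ℕ) (m : Fin r → A₂), LinearIndependent A₁ m →
      LinearIndependent B (fun l => algebraMap A₂ E (m l)))
    [IsReduced (B ⧸ Ideal.span {algebraMap A₁ B q})] :
    IsReduced (genRing A₂ B E ⧸ Ideal.span {piGen B E π}) :=
  isReduced_of_injective (fibreEquiv (E := E) q π h1 h2 h3 hLD).symm.toRingHom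
    (fibreEquiv (E := E) q π h1 h2 h3 hLD).symm.injective

/-! ### Ideals of `R` containing `π` -/

/-- The ideal `(n, π)` of `R = genRing` attached to an ideal `n` of `B`. -/
def extIdeal (E : Type*) {A₂ B : Type*} [CommRing A₂] [CommRing B] [CommRing E] [Algebra A₂ E]
    [Algebra B E] (π : A₂) (n : Ideal B) : Ideal (genRing A₂ B E) :=
  Ideal.map (algebraMap B (genRing A₂ B E)) n ⊔ Ideal.span {piGen B E π}

omit [IsDomain A₁] [IsPrincipalIdealRing A₁] [Module.IsTorsionFree A₁ A₂] in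
/-- Every ideal of `R` containing `π` is `(n, π)` for its contraction `n` to `B`. -/
theorem eq_extIdeal_comap (π : A₂)
    (h1 : ∀ a : A₂, ∃ c : A₁, ∃ a' : A₂, a = algebraMap A₁ A₂ c + π * a')
    (m : Ideal (genRing A₂ B E)) (hπ : piGen B E π ∈ m) :
    m = extIdeal E π (m.comap (algebraMap B (genRing A₂ B E))) := by
  apply le_antisymm
  · intro r hr
    obtain ⟨b, r', hr', hrr⟩ := exists_add_mul_of_mem_genRing (A₁ := A₁) (B := B) π h1 r.2
    have hr_eq : r = algebraMap B (genRing A₂ B E) b + piGen B E π * ⟨r', hr'⟩ := by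
      apply Subtype.ext
      simp only [piGen, Subalgebra.coe_add, Subalgebra.coe_mul, Subalgebra.coe_algebraMap]
      exact hrr
    have hb : algebraMap B (genRing A₂ B E) b ∈ m := by
      have : algebraMap B (genRing A₂ B E) b = r - piGen B E π * ⟨r', hr'⟩ := by
        rw [hr_eq]; ring
      rw [this]
      exact m.sub_mem hr (m.mul_mem_right _ hπ)
    rw [hr_eq]
    refine Ideal.add_mem _ (Ideal.mem_sup_left (Ideal.mem_map_of_mem _ hb))
      (Ideal.mem_sup_right (Ideal.mul_mem_right _ _ (Ideal.mem_span_singleton_self _)))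
  · refine sup_le (Ideal.map_le_iff_le_comap.mpr le_rfl) ?_
    rw [Ideal.span_le, Set.singleton_subset_iff]
    exact hπ

/-- The contraction of `(n, π)` to `B` is `n` (for `q ∈ n`). -/
theorem comap_extIdeal (q : A₁) (π : A₂)
    (h1 : ∀ a : A₂, ∃ c : A₁, ∃ a' : A₂, a = algebraMap A₁ A₂ c + π * a')
    (h2 : ∀ c : A₁, π ∣ algebraMap A₁ A₂ c → q ∣ c)
    (hLD : ∀ (r : ℕ) (m : Fin r → A₂), LinearIndependent A₁ m →
      LinearIndependent B (fun l => algebraMap A₂ E (m l)))
    (n : Ideal B) (hq : algebraMap A₁ B q ∈ n) :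
    (extIdeal E π n).comap (algebraMap B (genRing A₂ B E)) = n := by
  classical
  apply le_antisymm
  · intro b hb
    rw [Ideal.mem_comap, extIdeal, Submodule.mem_sup] at hb
    obtain ⟨x, hx, y, hy, hxy⟩ := hb
    rw [Ideal.mem_span_singleton] at hy
    obtain ⟨y', rfl⟩ := hy
    -- `x = (element of n) + π * (element of R)`
    have key : ∀ x ∈ Ideal.map (algebraMap B (genRing A₂ B E)) n,
        ∃ b₀ ∈ n, ∃ r₀ : genRing A₂ B E,
          x = algebraMap B (genRing A₂ B E) b₀ + piGen B E π * r₀ := by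
      intro x hx
      refine Submodule.span_induction ?_ ?_ ?_ ?_ hx
      · rintro _ ⟨b₀, hb₀, rfl⟩
        exact ⟨b₀, hb₀, 0, by simp⟩
      · exact ⟨0, n.zero_mem, 0, by simp⟩
      · rintro x y _ _ ⟨b₁, hb₁, r₁, rfl⟩ ⟨b₂, hb₂, r₂, rfl⟩
        exact ⟨b₁ + b₂, n.add_mem hb₁ hb₂, r₁ + r₂, by rw [map_add]; ring⟩
      · rintro t x _ ⟨b₁, hb₁, r₁, rfl⟩
        obtain ⟨bt, rt, hrt, htt⟩ := exists_add_mul_of_mem_genRing (A₁ := A₁) (B := B) π h1 t.2
        have ht_eq : t = algebraMap B (genRing A₂ B E) bt + piGen B E π * ⟨rt, hrt⟩ := by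
          apply Subtype.ext
          simp only [piGen, Subalgebra.coe_add, Subalgebra.coe_mul, Subalgebra.coe_algebraMap]
          exact htt
        refine ⟨bt * b₁, n.mul_mem_left _ hb₁,
          ⟨rt, hrt⟩ * algebraMap B (genRing A₂ B E) b₁ + t * r₁, ?_⟩
        rw [smul_eq_mul, map_mul]
        conv_lhs => rw [mul_add, ht_eq]
        rw [ht_eq]
        ring
    obtain ⟨b₀, hb₀, r₀, rfl⟩ := key x hx
    have hdiv : algebraMap A₁ B q ∣ b - b₀ := by
      refine dvd_of_eq_mul_of_mem_genRing q π h1 h2 hLD (b - b₀) (r₀ + y').2 ?_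
      have := congrArg Subtype.val hxy
      simp only [piGen, Subalgebra.coe_add, Subalgebra.coe_mul, Subalgebra.coe_algebraMap]
        at this
      rw [map_sub, ← this]
      simp only [Subalgebra.coe_add]
      ring
    obtain ⟨c, hc⟩ := hdiv
    have : b = b₀ + algebraMap A₁ B q * c := by rw [← hc]; ring
    rw [this]
    exact n.add_mem hb₀ (n.mul_mem_right _ hq)
  · intro b hb
    exact Ideal.mem_sup_left (Ideal.mem_map_of_mem _ hb)

/-- `(n, π)` is maximal when `n` is maximal and contains `q`; its residue field is `B ⧸ n`. -/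
theorem isMaximal_extIdeal (q : A₁) (π : A₂)
    (h1 : ∀ a : A₂, ∃ c : A₁, ∃ a' : A₂, a = algebraMap A₁ A₂ c + π * a')
    (h2 : ∀ c : A₁, π ∣ algebraMap A₁ A₂ c → q ∣ c)
    (hLD : ∀ (r : ℕ) (m : Fin r → A₂), LinearIndependent A₁ m →
      LinearIndependent B (fun l => algebraMap A₂ E (m l)))
    (n : Ideal B) [hn : n.IsMaximal] (hq : algebraMap A₁ B q ∈ n) :
    (extIdeal E π n).IsMaximal := by
  set φ : B →+* (genRing A₂ B E ⧸ extIdeal E π n) :=
    (Ideal.Quotient.mk _).comp (algebraMap B (genRing A₂ B E)) with hφ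
  have hsurj : Function.Surjective φ := by
    intro x
    obtain ⟨r, rfl⟩ := Ideal.Quotient.mk_surjective x
    obtain ⟨b, r', hr', hrr⟩ := exists_add_mul_of_mem_genRing (A₁ := A₁) (B := B) π h1 r.2
    refine ⟨b, ?_⟩
    rw [hφ, RingHom.comp_apply, Ideal.Quotient.eq]
    have : algebraMap B (genRing A₂ B E) b - r = piGen B E π * (-⟨r', hr'⟩) := by
      apply Subtype.ext
      simp only [piGen, Subalgebra.coe_sub, Subalgebra.coe_mul, Subalgebra.coe_neg,
        Subalgebra.coe_algebraMap]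
      rw [hrr]; ring
    rw [this]
    exact Ideal.mem_sup_right (Ideal.mul_mem_right _ _ (Ideal.mem_span_singleton_self _))
  have hker : RingHom.ker φ = n := by
    have h0 := comap_extIdeal (E := E) q π h1 h2 hLD n hq
    ext b
    rw [RingHom.mem_ker, hφ, RingHom.comp_apply, Ideal.Quotient.eq_zero_iff_mem]
    constructor
    · intro hb
      rw [← h0]
      exact Ideal.mem_comap.mpr hb
    · intro hb
      rw [← h0] at hb
      exact Ideal.mem_comap.mp hb
  have hmax : (RingHom.ker φ).IsMaximal := by rw [hker]; exact hn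
  have hfield : IsField (genRing A₂ B E ⧸ extIdeal E π n) :=
    (RingHom.quotientKerEquivOfSurjective hsurj).symm.toMulEquiv.isField
      ((Ideal.Quotient.maximal_ideal_iff_isField_quotient _).mp hmax)
  exact Ideal.Quotient.maximal_of_isField _ hfield

end Fibre

end Fermat.Agent.CA.H79
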