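import Mathlib
import Fermat.Agent.CA.H79_BaseChangeFibre

/-!
# Normality of a base change `B ⊗_{A₁} A₂` computed inside a field (helper79)

Row (R-a) of the S34 plan, part 2.  Continuation of `CA/H79_BaseChangeFibre`.

* `linearIndependent_of_minpoly` : the linear disjointness hypothesis `hLD` of
  `H79_BaseChangeFibre` from `minpoly F₁ α = (minpoly K₁ α).map _` (which
  `minpoly_eq_map_of_algClosedIn` produces from "`K₁` algebraically closed in `F₁`").
* `mem_range_of_isIntegral_of_pow_mul_mem_of_injective` : Serre-type descent for a subring of a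
  field.
* `exists_pow_mul_isIntegral`, `derivative_mul_mem_adjoin`, `exists_pow_mul_mem_genRing` :
  the generic fibre of `R = B·A₂` is normal (every element integral over `R` is multiplied into
  `R` by a power of `π`).
* `mem_genRing_of_isIntegral` : `R` is integrally closed in `E`.
* `isIntegral_iff_mem_genRing` : `R` is the integral closure in `E` of any `C ⊆ R` over which
  `B` and `A₂` are integral.
-/

set_option autoImplicit false
set_option linter.style.haveILetI false

open Polynomial

namespace Fermat.Agent.CA.H79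

section LD

variable {A₁ A₂ B K₁ F₁ E : Type*} [CommRing A₁] [CommRing A₂] [Algebra A₁ A₂]
  [CommRing B]
  [Field K₁] [Algebra A₁ K₁] [IsFractionRing A₁ K₁]
  [Field F₁] [Algebra B F₁] [Algebra K₁ F₁]
  [Field E] [Algebra F₁ E] [Algebra B E] [IsScalarTower B F₁ E]
  [Algebra K₁ E] [IsScalarTower K₁ F₁ E]
  [Algebra A₁ E] [IsScalarTower A₁ K₁ E] [Algebra A₂ E] [IsScalarTower A₁ A₂ E]

/-- **Linear disjointness, ring form.**  If `α ∈ E` is algebraic over `K₁` with
`minpoly F₁ α = minpoly K₁ α` and the image of `A₂` lies in `K₁(α)`, then `A₁`-linearly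
independent families of `A₂` stay `B`-linearly independent in `E`. -/
theorem linearIndependent_of_minpoly
    (hBinj : Function.Injective (algebraMap B F₁))
    (hA₂inj : Function.Injective (algebraMap A₂ E))
    (αE : E) (hα : IsIntegral K₁ αE)
    (hmin : minpoly F₁ αE = (minpoly K₁ αE).map (algebraMap K₁ F₁))
    (hA₂α : ∀ a : A₂, algebraMap A₂ E a ∈ IntermediateField.adjoin K₁ {αE})
    (r : ℕ) (m : Fin r → A₂) (hm : LinearIndependent A₁ m) :
    LinearIndependent B (fun l => algebraMap A₂ E (m l)) := by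
  classical
  set L : IntermediateField K₁ E := IntermediateField.adjoin K₁ {αE} with hL
  let pb := IntermediateField.adjoin.powerBasis hα
  -- the power basis stays independent over `F₁`
  have hdeg : (minpoly F₁ αE).natDegree = pb.dim := by
    rw [hmin, natDegree_map]
    rfl
  have hpow : LinearIndependent F₁ (L.val ∘ pb.basis) := by
    have h0 := linearIndependent_pow (K := F₁) αE
    have h1 := h0.comp (Fin.cast hdeg.symm) (Fin.cast_injective _)
    convert h1 using 1
    ext i
    simp only [Function.comp_apply, PowerBasis.coe_basis, map_pow, Fin.val_cast]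
    rfl
  have hdisj : L.LinearDisjoint F₁ := IntermediateField.LinearDisjoint.of_basis_left pb.basis hpow
  -- the family in `E` is `K₁`-independent
  have h1 : LinearIndependent A₁ (fun l => algebraMap A₂ E (m l)) := by
    have := hm.map' (IsScalarTower.toAlgHom A₁ A₂ E).toLinearMap
      (LinearMap.ker_eq_bot.mpr hA₂inj)
    exact this
  have h2 : LinearIndependent K₁ (fun l => algebraMap A₂ E (m l)) :=
    (LinearIndependent.iff_fractionRing A₁ K₁).mp h1
  let a : Fin r → L := fun l => ⟨algebraMap A₂ E (m l), hA₂α _⟩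
  have h3 : LinearIndependent K₁ a := by
    apply LinearIndependent.of_comp L.val.toLinearMap
    exact h2
  have h4 : LinearIndependent F₁ (L.val ∘ a) := hdisj.linearIndependent_left h3
  have h5 : LinearIndependent F₁ (fun l => algebraMap A₂ E (m l)) := h4
  refine h5.restrict_scalars ?_
  intro x y hxy
  apply hBinj
  simpa [Algebra.smul_def] using hxy

end LD

section Serre

/-- Serre-type descent, elementwise, for a subring of a field (only injectivity of
`algebraMap R K` is used): if `R ⧸ (π)` is reduced, `z` is integral over `R` and `π ^ k * z ∈ R`,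
then `z ∈ R`. -/
theorem mem_range_of_isIntegral_of_pow_mul_mem_of_injective {R K : Type*} [CommRing R]
    [IsDomain R] [Field K] [Algebra R K] (hinj : Function.Injective (algebraMap R K))
    (π : R) (hπ : π ≠ 0) (hred : IsReduced (R ⧸ Ideal.span {π})) {z : K} (hz : IsIntegral R z)
    (hk : ∃ k : ℕ, ∃ b : R, algebraMap R K π ^ k * z = algebraMap R K b) :
    z ∈ Set.range (algebraMap R K) := by
  classical
  have hπK : algebraMap R K π ≠ 0 := by
    rw [Ne, map_eq_zero_iff _ hinj]; exact hπ
  have hk' : ∃ k : ℕ, ∃ b : R, algebraMap R K π ^ k * z = algebraMap R K b := hk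
  set k := Nat.find hk' with hkdef
  obtain ⟨b, hb⟩ := Nat.find_spec hk'
  rcases Nat.eq_zero_or_pos k with h0 | hpos
  · rw [← hkdef, h0, pow_zero, one_mul] at hb
    exact ⟨b, hb.symm⟩
  · exfalso
    rw [← hkdef] at hb
    obtain ⟨p, hpmonic, hp⟩ := hz
    have hzb : z = algebraMap R K b / algebraMap R K (π ^ k) := by
      rw [map_pow, eq_div_iff (pow_ne_zero _ hπK), mul_comm, hb]
    have hp' : aeval (algebraMap R K b / algebraMap R K (π ^ k)) p = 0 := by
      rw [← hzb]; rwa [← aeval_def] at hp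
    have hπk : π ^ k ∈ nonZeroDivisors R := mem_nonZeroDivisors_of_ne_zero (pow_ne_zero _ hπ)
    have hsr := scaleRoots_aeval_eq_zero_of_aeval_div_eq_zero hinj hp' hπk
    set I : Ideal R := Ideal.span {π} with hI
    have hπI : Ideal.Quotient.mk I π = 0 := by
      rw [Ideal.Quotient.eq_zero_iff_mem]; exact Ideal.mem_span_singleton_self π
    have hmap : (scaleRoots p (π ^ k)).map (Ideal.Quotient.mk I) = X ^ p.natDegree := by
      ext i
      rw [coeff_map, coeff_scaleRoots, coeff_X_pow]
      by_cases hi : i = p.natDegree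
      · subst hi
        rw [Nat.sub_self, pow_zero, mul_one, if_pos rfl]
        have : p.coeff p.natDegree = 1 := hpmonic.coeff_natDegree
        rw [this, map_one]
      · rw [if_neg hi]
        rcases lt_or_gt_of_ne hi with hlt | hgt
        · have hpos' : 0 < p.natDegree - i := Nat.sub_pos_of_lt hlt
          rw [map_mul, map_pow, map_pow, hπI, zero_pow hpos.ne', zero_pow hpos'.ne', mul_zero]
        · rw [coeff_eq_zero_of_natDegree_lt hgt, zero_mul, map_zero]
    have hbar : (Ideal.Quotient.mk I b) ^ p.natDegree = 0 := by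
      have h0 : (scaleRoots p (π ^ k)).eval b = 0 := by
        have h00 := hsr
        rw [aeval_algebraMap_apply, coe_aeval_eq_eval, map_eq_zero_iff _ hinj] at h00
        exact h00
      have h2 := eval_map_apply (p := scaleRoots p (π ^ k)) (Ideal.Quotient.mk I) b
      rw [h0, map_zero, hmap, eval_pow, eval_X] at h2
      exact h2
    have hb0 : Ideal.Quotient.mk I b = 0 := by
      haveI := hred
      exact IsReduced.eq_zero _ ⟨_, hbar⟩
    rw [Ideal.Quotient.eq_zero_iff_mem, hI, Ideal.mem_span_singleton] at hb0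
    obtain ⟨c, rfl⟩ := hb0
    have hlt : k - 1 < k := Nat.sub_lt hpos Nat.one_pos
    apply Nat.find_min hk' (by rw [← hkdef]; exact hlt)
    refine ⟨c, ?_⟩
    have hk1 : k = (k - 1) + 1 := (Nat.sub_add_cancel hpos).symm
    rw [hk1, pow_succ, map_mul, mul_assoc] at hb
    have hb' : algebraMap R K π * (algebraMap R K π ^ (k - 1) * z) =
        algebraMap R K π * algebraMap R K c := by
      rw [← hb]; ring
    exact mul_left_cancel₀ hπK hb'

end Serre

section Transfer

/-- If `z` is a root of a monic polynomial each of whose coefficients becomes integral over `B`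
after multiplication by a power of `qE` (itself integral over `B`), then some `qE ^ k * z` is
integral over `B`. -/
theorem exists_pow_mul_isIntegral {B E : Type*} [CommRing B] [Field E] [Algebra B E] (qE : E)
    (hq : IsIntegral B qE) {z : E} {P : E[X]} (hP : P.Monic) (hPz : P.eval z = 0)
    (hcoeff : ∀ i, ∃ k : ℕ, IsIntegral B (qE ^ k * P.coeff i)) :
    ∃ k : ℕ, IsIntegral B (qE ^ k * z) := by
  classical
  choose k hk using hcoeff
  set n := P.natDegree with hn
  set K := ∑ i ∈ Finset.range (n + 1), k i with hKdef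
  have hK : ∀ i, IsIntegral B (qE ^ K * P.coeff i) := by
    intro i
    by_cases hi : i ∈ Finset.range (n + 1)
    · have hle : k i ≤ K := Finset.single_le_sum (f := k) (fun _ _ => Nat.zero_le _) hi
      have : qE ^ K * P.coeff i = qE ^ (K - k i) * (qE ^ k i * P.coeff i) := by
        rw [← mul_assoc, ← pow_add, Nat.sub_add_cancel hle]
      rw [this]
      exact (hq.pow _).mul (hk i)
    · rw [Finset.mem_range, not_lt] at hi
      have : P.coeff i = 0 := coeff_eq_zero_of_natDegree_lt (by omega)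
      rw [this, mul_zero]
      exact isIntegral_zero
  refine ⟨K, ?_⟩
  set Q := scaleRoots P (qE ^ K) with hQ
  have hQmonic : Q.Monic := (monic_scaleRoots_iff _).mpr hP
  have hdeg : Q.natDegree ≠ 0 := by
    rw [hQ, natDegree_scaleRoots]
    intro h0
    have h1 : P = 1 := (Polynomial.Monic.natDegree_eq_zero hP).mp h0
    rw [h1, eval_one] at hPz
    exact one_ne_zero hPz
  have hroot : Q.eval (qE ^ K * z) = 0 := by
    have h0 : aeval z P = 0 := by rw [coe_aeval_eq_eval]; exact hPz
    have h1 := scaleRoots_aeval_eq_zero (A := E) (r := qE ^ K) h0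
    rw [coe_aeval_eq_eval] at h1
    simpa using h1
  have hQc : ∀ i, IsIntegral B (Q.coeff i) := by
    intro i
    rw [hQ, coeff_scaleRoots]
    rcases lt_trichotomy i n with hlt | heq | hgt
    · have h1 : P.natDegree - i = (P.natDegree - i - 1) + 1 := by omega
      rw [h1, pow_succ]
      have : P.coeff i * ((qE ^ K) ^ (P.natDegree - i - 1) * qE ^ K) =
          (qE ^ K * P.coeff i) * (qE ^ K) ^ (P.natDegree - i - 1) := by ring
      rw [this]
      exact (hK i).mul ((hq.pow _).pow _)
    · rw [heq, hn, Nat.sub_self, pow_zero, mul_one, hP.coeff_natDegree]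
      exact isIntegral_one
    · have : P.coeff i = 0 := coeff_eq_zero_of_natDegree_lt hgt
      rw [this, zero_mul]
      exact isIntegral_zero
  exact IsIntegral.of_aeval_monic_of_isIntegral_coeff hQmonic hdeg
    (by rw [hroot]; exact isIntegral_zero) hQc

end Transfer

section Different

/-- For `D` integrally closed with fraction field `F`, `F' = F[α]` finite separable and `α`
integral over `D`: the different element `f'(α)` multiplies every `D`-integral element of `F'`
into `D[α]`. -/
theorem derivative_mul_mem_adjoin {D F F' : Type*} [CommRing D] [IsDomain D]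
    [IsIntegrallyClosed D] [Field F] [Algebra D F] [IsFractionRing D F] [Field F'] [Algebra F F']
    [Algebra D F'] [IsScalarTower D F F'] [FiniteDimensional F F'] [Algebra.IsSeparable F F']
    (α : F') (hαD : IsIntegral D α) (htop : Algebra.adjoin F {α} = ⊤) {z : F'}
    (hz : IsIntegral D z) :
    aeval α (derivative (minpoly F α)) * z ∈ Algebra.adjoin D {α} := by
  classical
  have hdual := traceForm_dualSubmodule_adjoin D F htop hαD
  have hzdual : z ∈ (Algebra.traceForm F F').dualSubmodule
      (Subalgebra.toSubmodule (Algebra.adjoin D {α})) := by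
    rw [LinearMap.BilinForm.mem_dualSubmodule]
    intro y hy
    have hyint : IsIntegral D y := _root_.adjoin_le_integralClosure hαD hy
    have htr : IsIntegral D (Algebra.trace F F' (z * y)) :=
      Algebra.isIntegral_trace (hz.mul hyint)
    obtain ⟨d, hd⟩ := IsIntegrallyClosed.isIntegral_iff.mp htr
    rw [Algebra.traceForm_apply]
    exact Submodule.mem_one.mpr ⟨d, hd⟩
  rw [hdual] at hzdual
  obtain ⟨w, hw, rfl⟩ := (Submodule.mem_smul_pointwise_iff_exists _ _ _).mp hzdual
  have hne : aeval α (derivative (minpoly F α)) ≠ 0 :=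
    (Algebra.IsSeparable.isSeparable F α).aeval_derivative_ne_zero (minpoly.aeval F α)
  rw [smul_eq_mul, ← mul_assoc, mul_inv_cancel₀ hne, one_mul]
  exact hw

end Different

section Normal

variable {A₁ A₂ B K₁ F₁ E : Type*} [CommRing A₁] [IsDomain A₁] [IsIntegrallyClosed A₁]
  [CommRing A₂] [Algebra A₁ A₂]
  [CommRing B] [IsDomain B] [IsIntegrallyClosed B] [Algebra A₁ B]
  [Field K₁] [Algebra A₁ K₁] [IsFractionRing A₁ K₁]
  [Field F₁] [Algebra B F₁] [IsFractionRing B F₁] [Algebra K₁ F₁]
  [Field E] [Algebra F₁ E] [Algebra B E] [IsScalarTower B F₁ E]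
  [Algebra K₁ E] [IsScalarTower K₁ F₁ E]
  [Algebra A₁ E] [IsScalarTower A₁ K₁ E] [IsScalarTower A₁ B E] [Algebra A₂ E]
  [IsScalarTower A₁ A₂ E]

omit [IsDomain A₁] [IsIntegrallyClosed A₁] [IsDomain B] [IsIntegrallyClosed B] [Field K₁]
  [Algebra A₁ K₁] [IsFractionRing A₁ K₁] [Field F₁] [Algebra B F₁] [IsFractionRing B F₁]
  [Algebra K₁ F₁] [Algebra F₁ E] [IsScalarTower B F₁ E] [Algebra K₁ E] [IsScalarTower K₁ F₁ E]
  [IsScalarTower A₁ K₁ E] in
/-- Every element of `R = genRing` becomes integral over `B` after multiplication by a power of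
`q`, provided every element of `A₂` becomes integral over `A₁` that way. -/
theorem exists_pow_mul_isIntegral_of_mem_genRing (q : A₁)
    (hint : ∀ a : A₂, ∃ k : ℕ, IsIntegral A₁ (algebraMap A₁ A₂ q ^ k * a))
    {r : E} (hr : r ∈ genRing A₂ B E) :
    ∃ k : ℕ, IsIntegral B (algebraMap A₁ E q ^ k * r) := by
  classical
  obtain ⟨n, β, a, rfl⟩ := exists_sum_of_mem_genRing hr
  choose k hk using hint
  have hqE : IsIntegral B (algebraMap A₁ E q) := by
    rw [IsScalarTower.algebraMap_apply A₁ B E]
    exact isIntegral_algebraMap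
  set K := ∑ i, k (a i) with hK
  refine ⟨K, ?_⟩
  rw [Finset.mul_sum]
  refine IsIntegral.sum _ fun i _ => ?_
  have hle : k (a i) ≤ K :=
    Finset.single_le_sum (f := fun i => k (a i)) (fun _ _ => Nat.zero_le _) (Finset.mem_univ i)
  have h1 : IsIntegral A₁ (algebraMap A₂ E (algebraMap A₁ A₂ q ^ k (a i) * a i)) :=
    (hk (a i)).map (IsScalarTower.toAlgHom A₁ A₂ E)
  have h2 : IsIntegral B (algebraMap A₁ E q ^ k (a i) * algebraMap A₂ E (a i)) := by
    have := h1.tower_top (A := B)
    rwa [map_mul, map_pow, ← IsScalarTower.algebraMap_apply A₁ A₂ E] at this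
  have : algebraMap A₁ E q ^ K * (algebraMap B E (β i) * algebraMap A₂ E (a i)) =
      algebraMap B E (β i) * (algebraMap A₁ E q ^ (K - k (a i)) *
        (algebraMap A₁ E q ^ k (a i) * algebraMap A₂ E (a i))) := by
    rw [← mul_assoc (algebraMap A₁ E q ^ (K - k (a i))), ← pow_add, Nat.sub_add_cancel hle]
    ring
  rw [this]
  exact isIntegral_algebraMap.mul ((hqE.pow _).mul h2)

/-- **Generic fibre.**  Every element of `E` integral over `R = genRing` is multiplied into `R` by
a power of `π`. -/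
theorem exists_pow_mul_mem_genRing (q : A₁) (π α : A₂)
    (hA₂inj : Function.Injective (algebraMap A₂ E))
    (hαint : IsIntegral A₁ α)
    (htop : Algebra.adjoin F₁ {algebraMap A₂ E α} = ⊤)
    (hsep : (minpoly K₁ (algebraMap A₂ E α)).Separable)
    (hmin : minpoly F₁ (algebraMap A₂ E α) =
      (minpoly K₁ (algebraMap A₂ E α)).map (algebraMap K₁ F₁))
    (hdvr : ∀ a : A₂, a ≠ 0 → ∃ j : ℕ, a ∣ π ^ j)
    (hint : ∀ a : A₂, ∃ k : ℕ, IsIntegral A₁ (algebraMap A₁ A₂ q ^ k * a))
    (hq0 : algebraMap A₁ A₂ q ≠ 0)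
    {z : E} (hz : IsIntegral (genRing A₂ B E) z) :
    ∃ j : ℕ, algebraMap A₂ E π ^ j * z ∈ genRing A₂ B E := by
  classical
  set αE := algebraMap A₂ E α with hαE
  have hαE_A₁ : IsIntegral A₁ αE := hαint.map (IsScalarTower.toAlgHom A₁ A₂ E)
  have hαE_B : IsIntegral B αE := hαE_A₁.tower_top
  have hαE_K₁ : IsIntegral K₁ αE := hαE_A₁.tower_top
  have hαE_F₁ : IsIntegral F₁ αE := hαE_K₁.tower_top
  have hsepF : (minpoly F₁ αE).Separable := by rw [hmin]; exact hsep.map
  haveI := finiteDimensional_of_adjoin_eq_top (F := F₁) αE hαE_F₁ htop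
  haveI := isSeparable_of_adjoin_eq_top (F := F₁) αE hαE_F₁ hsepF htop
  have hqE : IsIntegral B (algebraMap A₁ E q) := by
    rw [IsScalarTower.algebraMap_apply A₁ B E]
    exact isIntegral_algebraMap
  -- Step 1: some `q ^ k * z` is integral over `B`
  obtain ⟨P, hPmonic, hPz⟩ := hz
  obtain ⟨k, hk⟩ := exists_pow_mul_isIntegral (B := B) (algebraMap A₁ E q) hqE
    (P := P.map (algebraMap (genRing A₂ B E) E)) (z := z) (hPmonic.map _)
    (by rw [eval_map]; exact hPz)
    (fun i => by
      rw [coeff_map]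
      exact exists_pow_mul_isIntegral_of_mem_genRing q hint (P.coeff i).2)
  -- Step 2: the different multiplies it into `B[α]`
  have h4 := derivative_mul_mem_adjoin (D := B) (F := F₁) αE hαE_B htop hk
  -- Step 3: the different is the image of an element of `A₂`
  set d : A₂ := aeval α (derivative (minpoly A₁ α)) with hd
  have hdE : aeval αE (derivative (minpoly F₁ αE)) = algebraMap A₂ E d := by
    rw [hmin, minpoly.isIntegrallyClosed_eq_field_fractions' K₁ hαE_A₁,
      minpoly.algebraMap_eq hA₂inj α, derivative_map, derivative_map, aeval_map_algebraMap,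
      aeval_map_algebraMap, hd, aeval_algebraMap_apply]
  have hdE0 : aeval αE (derivative (minpoly F₁ αE)) ≠ 0 :=
    hsepF.aeval_derivative_ne_zero (minpoly.aeval F₁ αE)
  have hd0 : d ≠ 0 := by
    rintro h0
    rw [hdE, h0, map_zero] at hdE0
    exact hdE0 rfl
  rw [hdE] at h4
  have h5 : algebraMap A₂ E d * (algebraMap A₁ E q ^ k * z) ∈ genRing A₂ B E := by
    have hle : Algebra.adjoin B {αE} ≤ genRing A₂ B E :=
      Algebra.adjoin_le (Set.singleton_subset_iff.mpr (algebraMap_mem_genRing α))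
    exact hle h4
  -- Step 4: convert to a power of `π`
  obtain ⟨j, d', hd'⟩ := hdvr d hd0
  obtain ⟨j₀, c, hc⟩ := hdvr _ hq0
  refine ⟨j₀ * k + j, ?_⟩
  have h6 : algebraMap A₂ E π ^ (j₀ * k + j) * z =
      (algebraMap A₂ E c ^ k * algebraMap A₂ E d') *
        (algebraMap A₂ E d * (algebraMap A₁ E q ^ k * z)) := by
    have e1 : algebraMap A₂ E π ^ j = algebraMap A₂ E d * algebraMap A₂ E d' := by
      rw [← map_pow, hd', map_mul]
    have e2 : algebraMap A₂ E π ^ j₀ = algebraMap A₁ E q * algebraMap A₂ E c := by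
      rw [← map_pow, hc, map_mul, ← IsScalarTower.algebraMap_apply A₁ A₂ E]
    rw [pow_add, pow_mul, e1, e2, mul_pow]
    ring
  rw [h6]
  exact Subalgebra.mul_mem _
    (Subalgebra.mul_mem _ (Subalgebra.pow_mem _ (algebraMap_mem_genRing c) k)
      (algebraMap_mem_genRing d')) h5

end Normal

section Final

variable {A₁ A₂ B K₁ F₁ E : Type*} [CommRing A₁] [IsDomain A₁] [IsPrincipalIdealRing A₁]
  [CommRing A₂] [Algebra A₁ A₂] [Module.IsTorsionFree A₁ A₂]
  [CommRing B] [IsDomain B] [IsIntegrallyClosed B] [Algebra A₁ B]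
  [Field K₁] [Algebra A₁ K₁] [IsFractionRing A₁ K₁]
  [Field F₁] [Algebra B F₁] [IsFractionRing B F₁] [Algebra K₁ F₁]
  [Field E] [Algebra F₁ E] [Algebra B E] [IsScalarTower B F₁ E]
  [Algebra K₁ E] [IsScalarTower K₁ F₁ E]
  [Algebra A₁ E] [IsScalarTower A₁ K₁ E] [IsScalarTower A₁ B E] [Algebra A₂ E]
  [IsScalarTower A₁ A₂ E]

omit [IsPrincipalIdealRing A₁] [Module.IsTorsionFree A₁ A₂] [CommRing B] [IsDomain B]
  [IsIntegrallyClosed B] [Algebra A₁ B] [Field F₁] [Algebra B F₁] [IsFractionRing B F₁]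
  [Algebra K₁ F₁] [Algebra F₁ E] [Algebra B E] [IsScalarTower B F₁ E] [IsScalarTower K₁ F₁ E]
  [IsScalarTower A₁ B E] in
/-- Elements of `A₂` (algebraic over `K₁` inside `E`) become integral over `A₁` after
multiplication by a power of `q`, when every nonzero element of `A₁` divides a power of `q`. -/
theorem exists_pow_mul_isIntegral_of_isAlgebraic (q : A₁)
    (hA₁q : ∀ c : A₁, c ≠ 0 → ∃ k : ℕ, c ∣ q ^ k)
    (hA₂inj : Function.Injective (algebraMap A₂ E))
    (a : A₂) (ha : IsAlgebraic K₁ (algebraMap A₂ E a)) :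
    ∃ k : ℕ, IsIntegral A₁ (algebraMap A₁ A₂ q ^ k * a) := by
  have h1 : IsAlgebraic A₁ (algebraMap A₂ E a) := (IsFractionRing.isAlgebraic_iff A₁ K₁ E).mpr ha
  have h2 : IsAlgebraic A₁ a := (isAlgebraic_algebraMap_iff hA₂inj).mp h1
  obtain ⟨y, hy0, hy⟩ := h2.exists_integral_multiple
  obtain ⟨k, c, hc⟩ := hA₁q y hy0
  refine ⟨k, ?_⟩
  have : algebraMap A₁ A₂ q ^ k * a = algebraMap A₁ A₂ c * (y • a) := by
    rw [← map_pow, hc, map_mul, Algebra.smul_def]
    ring
  rw [this]
  exact isIntegral_algebraMap.mul hy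

/-- **(R-a), normality.**  Under the standing hypotheses (`A₁` a PID in which every nonzero
element divides a power of `q`, `A₂` a torsion-free `A₁`-algebra in which every nonzero element
divides a power of `π`, `A₂ = A₁ + π A₂`, `π A₂ ∩ A₁ = q A₁`, `K₁` algebraically closed in
`F₁ = Frac B`, `E = F₁[α]` with `α ∈ A₂` integral and separable over `A₁`, `A₂ ⊆ K₁(α)`,
`B ⧸ q` reduced), the ring `R = B·A₂ ⊆ E` is integrally closed in `E`. -/
theorem mem_genRing_of_isIntegral (q : A₁) (π α : A₂)
    (h1 : ∀ a : A₂, ∃ c : A₁, ∃ a' : A₂, a = algebraMap A₁ A₂ c + π * a')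
    (h2 : ∀ c : A₁, π ∣ algebraMap A₁ A₂ c → q ∣ c)
    (h3 : π ∣ algebraMap A₁ A₂ q)
    (hA₁q : ∀ c : A₁, c ≠ 0 → ∃ k : ℕ, c ∣ q ^ k)
    (hdvr : ∀ a : A₂, a ≠ 0 → ∃ j : ℕ, a ∣ π ^ j)
    (hq0 : q ≠ 0)
    (hA₂inj : Function.Injective (algebraMap A₂ E))
    (hαint : IsIntegral A₁ α)
    (htop : Algebra.adjoin F₁ {algebraMap A₂ E α} = ⊤)
    (hsep : (minpoly K₁ (algebraMap A₂ E α)).Separable)
    (hcl : ∀ z : F₁, IsAlgebraic K₁ z → z ∈ Set.range (algebraMap K₁ F₁))
    (hA₂α : ∀ a : A₂, algebraMap A₂ E a ∈ IntermediateField.adjoin K₁ {algebraMap A₂ E α})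
    [IsReduced (B ⧸ Ideal.span {algebraMap A₁ B q})]
    {z : E} (hz : IsIntegral (genRing A₂ B E) z) : z ∈ genRing A₂ B E := by
  classical
  set αE := algebraMap A₂ E α with hαE
  have hαE_A₁ : IsIntegral A₁ αE := hαint.map (IsScalarTower.toAlgHom A₁ A₂ E)
  have hαE_K₁ : IsIntegral K₁ αE := hαE_A₁.tower_top
  have hmin := minpoly_eq_map_of_algClosedIn (F' := E) hcl hαE_K₁
  have hLD := linearIndependent_of_minpoly (A₁ := A₁) (A₂ := A₂) (B := B)
    (IsFractionRing.injective B F₁) hA₂inj αE hαE_K₁ hmin hA₂α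
  have hA₁A₂inj : Function.Injective (algebraMap A₁ A₂) := by
    have h0 : Function.Injective (algebraMap A₁ E) := by
      rw [IsScalarTower.algebraMap_eq A₁ K₁ E]
      exact (algebraMap K₁ E).injective.comp (IsFractionRing.injective A₁ K₁)
    rw [IsScalarTower.algebraMap_eq A₁ A₂ E] at h0
    exact Function.Injective.of_comp h0
  have hq0' : algebraMap A₁ A₂ q ≠ 0 := by
    rw [Ne, map_eq_zero_iff _ hA₁A₂inj]; exact hq0
  have hπ0 : π ≠ 0 := by
    rintro rfl
    obtain ⟨c, hc⟩ := h3
    rw [zero_mul] at hc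
    exact hq0' hc
  have hint : ∀ a : A₂, ∃ k : ℕ, IsIntegral A₁ (algebraMap A₁ A₂ q ^ k * a) := fun a =>
    exists_pow_mul_isIntegral_of_isAlgebraic (K₁ := K₁) q hA₁q hA₂inj a
      (by
        have hfin := IntermediateField.adjoin.finiteDimensional hαE_K₁
        have halg : Algebra.IsAlgebraic K₁ (IntermediateField.adjoin K₁ {αE}) :=
          Algebra.IsAlgebraic.of_finite K₁ _
        have := halg.isAlgebraic (⟨algebraMap A₂ E a, hA₂α a⟩ : IntermediateField.adjoin K₁ {αE})
        exact (isAlgebraic_algebraMap_iff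
          (algebraMap (IntermediateField.adjoin K₁ {αE}) E).injective).mpr this)
  obtain ⟨j, hj⟩ := exists_pow_mul_mem_genRing (B := B) (K₁ := K₁) (F₁ := F₁) q π α hA₂inj hαint
    htop hsep hmin hdvr hint hq0' hz
  haveI := isReduced_fibre (E := E) q π h1 h2 h3 hLD
  have hinj : Function.Injective (algebraMap (genRing A₂ B E) E) := Subtype.val_injective
  have hπR : piGen B E π ≠ 0 := by
    intro h0
    have := congrArg Subtype.val h0
    simp only [piGen, ZeroMemClass.coe_zero] at this
    exact hπ0 (hA₂inj (by rw [this, map_zero]))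
  obtain ⟨r, hr⟩ := mem_range_of_isIntegral_of_pow_mul_mem_of_injective hinj (piGen B E π) hπR
    inferInstance hz ⟨j, ⟨_, hj⟩, rfl⟩
  rw [← hr]
  exact r.2

/-- **(R-a), identification with an integral closure.**  If moreover `C → E` is a ring whose image
lies in `R = genRing` and over which `B` and `A₂` are integral (e.g. `C = A₂[J]`), then `R` is the
integral closure of `C` in `E`. -/
theorem isIntegral_iff_mem_genRing (q : A₁) (π α : A₂)
    (h1 : ∀ a : A₂, ∃ c : A₁, ∃ a' : A₂, a = algebraMap A₁ A₂ c + π * a')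
    (h2 : ∀ c : A₁, π ∣ algebraMap A₁ A₂ c → q ∣ c)
    (h3 : π ∣ algebraMap A₁ A₂ q)
    (hA₁q : ∀ c : A₁, c ≠ 0 → ∃ k : ℕ, c ∣ q ^ k)
    (hdvr : ∀ a : A₂, a ≠ 0 → ∃ j : ℕ, a ∣ π ^ j)
    (hq0 : q ≠ 0)
    (hA₂inj : Function.Injective (algebraMap A₂ E))
    (hαint : IsIntegral A₁ α)
    (htop : Algebra.adjoin F₁ {algebraMap A₂ E α} = ⊤)
    (hsep : (minpoly K₁ (algebraMap A₂ E α)).Separable)
    (hcl : ∀ z : F₁, IsAlgebraic K₁ z → z ∈ Set.range (algebraMap K₁ F₁))
    (hA₂α : ∀ a : A₂, algebraMap A₂ E a ∈ IntermediateField.adjoin K₁ {algebraMap A₂ E α})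
    [IsReduced (B ⧸ Ideal.span {algebraMap A₁ B q})]
    (C : Type*) [CommRing C] [Algebra C E]
    (hC : ∀ c : C, algebraMap C E c ∈ genRing A₂ B E)
    (hCB : ∀ b : B, IsIntegral C (algebraMap B E b))
    (hCA₂ : ∀ a : A₂, IsIntegral C (algebraMap A₂ E a)) (z : E) :
    IsIntegral C z ↔ z ∈ genRing A₂ B E := by
  constructor
  · intro hz
    apply mem_genRing_of_isIntegral (K₁ := K₁) (F₁ := F₁) q π α h1 h2 h3 hA₁q hdvr hq0 hA₂inj
      hαint htop hsep hcl hA₂α
    obtain ⟨P, hP, hPz⟩ := hz
    let f : C →+* genRing A₂ B E := (algebraMap C E).codRestrict (genRing A₂ B E) hC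
    refine ⟨P.map f, hP.map f, ?_⟩
    rw [eval₂_map]
    have : (algebraMap (genRing A₂ B E) E).comp f = algebraMap C E := by
      ext c; rfl
    rw [this]
    exact hPz
  · intro hz
    obtain ⟨n, β, a, rfl⟩ := exists_sum_of_mem_genRing hz
    exact IsIntegral.sum _ fun i _ => (hCB (β i)).mul (hCA₂ (a i))

end Final

end Fermat.Agent.CA.H79
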