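import Mathlib
import Fermat.Agent.CA.H79_BaseChangeNormal

/-!
# Normality of an *unramified immediate* base change `B ⊗_{A₁} A₂` without reducedness (helper40)

Continuation of `CA/H79_BaseChangeFibre` / `CA/H79_BaseChangeNormal`.  There the ring
`R = B·A₂ ⊆ E` is shown to be integrally closed under the hypothesis that the special fibre
`B ⧸ q` is *reduced*.  Here we treat the case `π = q` (the base change `A₁ → A₂` is unramified and
immediate: `A₂ = A₁ + q A₂`, `q A₂ ∩ A₁ = q A₁`) and replace reducedness by `B` noetherian: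

* `exists_eq_pow_mul_of_mem_genRing` : `b = q ^ N * r` with `b ∈ B`, `r ∈ R` forces `r ∈ B`.
* `dvd_of_isIntegral_of_mul_eq` : if `b ∈ B` and `b / q` is integral over `R` then `q ∣ b` in `B`.
* `mem_genRing_of_isIntegral_unram` : `R` is integrally closed in `E`.
* `isIntegral_iff_mem_genRing_unram` : `R` is the integral closure in `E` of any `C ⊆ R` over
  which `B` and `A₂` are integral.
-/

set_option autoImplicit false
set_option linter.style.haveILetI false
set_option linter.unusedSectionVars false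

open Polynomial

namespace Fermat.Agent.CA.H40

open Fermat.Agent.CA.H79

section Unram

variable {A₁ A₂ B E : Type*} [CommRing A₁] [IsDomain A₁] [IsPrincipalIdealRing A₁]
  [CommRing A₂] [Algebra A₁ A₂] [Module.IsTorsionFree A₁ A₂]
  [CommRing B] [IsDomain B] [IsIntegrallyClosed B] [Algebra A₁ B]
  [Field E] [Algebra B E] [Algebra A₁ E] [IsScalarTower A₁ B E] [Algebra A₂ E]
  [IsScalarTower A₁ A₂ E]

/-- **Lemma B.**  `b = q ^ N * r` in `E` with `b ∈ B`, `r ∈ R = genRing` forces `r ∈ B`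
(and `q ^ N ∣ b` in `B`). -/
theorem exists_eq_pow_mul_of_mem_genRing (q : A₁)
    (h1 : ∀ a : A₂, ∃ c : A₁, ∃ a' : A₂, a = algebraMap A₁ A₂ c + algebraMap A₁ A₂ q * a')
    (h2 : ∀ c : A₁, algebraMap A₁ A₂ q ∣ algebraMap A₁ A₂ c → q ∣ c)
    (hLD : ∀ (r : ℕ) (m : Fin r → A₂), LinearIndependent A₁ m →
      LinearIndependent B (fun l => algebraMap A₂ E (m l)))
    (hqE : algebraMap A₁ E q ≠ 0) (N : ℕ) (b : B) {r : E} (hr : r ∈ genRing A₂ B E)
    (h : algebraMap B E b = algebraMap A₁ E q ^ N * r) :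
    ∃ b' : B, b = algebraMap A₁ B q ^ N * b' ∧ algebraMap B E b' = r := by
  induction N generalizing b r with
  | zero =>
    refine ⟨b, by rw [pow_zero, one_mul], ?_⟩
    rw [h, pow_zero, one_mul]
  | succ N ih =>
    have hπ : algebraMap A₂ E (algebraMap A₁ A₂ q) = algebraMap A₁ E q :=
      (IsScalarTower.algebraMap_apply A₁ A₂ E q).symm
    have hr' : algebraMap A₁ E q ^ N * r ∈ genRing A₂ B E := by
      refine Subalgebra.mul_mem _ (Subalgebra.pow_mem _ ?_ N) hr
      rw [← hπ]
      exact algebraMap_mem_genRing _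
    have hdiv : algebraMap A₁ B q ∣ b := by
      refine dvd_of_eq_mul_of_mem_genRing q (algebraMap A₁ A₂ q) h1 h2 hLD b hr' ?_
      rw [hπ, h, pow_succ]
      ring
    obtain ⟨b₁, rfl⟩ := hdiv
    have h' : algebraMap B E b₁ = algebraMap A₁ E q ^ N * r := by
      have h0 : algebraMap A₁ E q * algebraMap B E b₁ =
          algebraMap A₁ E q * (algebraMap A₁ E q ^ N * r) := by
        rw [map_mul, ← IsScalarTower.algebraMap_apply A₁ B E] at h
        rw [h, pow_succ]
        ring
      exact mul_left_cancel₀ hqE h0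
    obtain ⟨b', hb', hb'r⟩ := ih b₁ hr h'
    refine ⟨b', ?_, hb'r⟩
    rw [hb', pow_succ]
    ring

/-- **Lemma C.**  If `b ∈ B`, `q * t = b` in `E` and `t` is integral over `R = genRing`, then
`q ∣ b` in `B`.  (`B` noetherian and integrally closed; no reducedness of `B ⧸ q`.) -/
theorem dvd_of_isIntegral_of_mul_eq (F₁ : Type*) [Field F₁] [Algebra B F₁] [IsFractionRing B F₁]
    [Algebra F₁ E] [IsScalarTower B F₁ E] [IsNoetherianRing B] (q : A₁)
    (h1 : ∀ a : A₂, ∃ c : A₁, ∃ a' : A₂, a = algebraMap A₁ A₂ c + algebraMap A₁ A₂ q * a')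
    (h2 : ∀ c : A₁, algebraMap A₁ A₂ q ∣ algebraMap A₁ A₂ c → q ∣ c)
    (hLD : ∀ (r : ℕ) (m : Fin r → A₂), LinearIndependent A₁ m →
      LinearIndependent B (fun l => algebraMap A₂ E (m l)))
    (hqE : algebraMap A₁ E q ≠ 0) (b : B) {t : E} (ht : IsIntegral (genRing A₂ B E) t)
    (hbt : algebraMap A₁ E q * t = algebraMap B E b) : algebraMap A₁ B q ∣ b := by
  classical
  have hπ : algebraMap A₂ E (algebraMap A₁ A₂ q) = algebraMap A₁ E q :=
    (IsScalarTower.algebraMap_apply A₁ A₂ E q).symm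
  have hqR : algebraMap A₁ E q ∈ genRing A₂ B E := by
    rw [← hπ]; exact algebraMap_mem_genRing _
  obtain ⟨P, hPmonic, hPt⟩ := ht
  set n := P.natDegree with hn
  -- the monic equation, spelled out
  have hrel : t ^ n = -∑ i ∈ Finset.range n, ((P.coeff i : genRing A₂ B E) : E) * t ^ i := by
    have h0 := hPt
    rw [hPmonic.as_sum, eval₂_add, eval₂_pow, eval₂_X, eval₂_finsetSum] at h0
    simp only [eval₂_mul, eval₂_C, eval₂_pow, eval₂_X] at h0
    rw [eq_neg_iff_add_eq_zero]
    exact h0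
  -- Step 1: `q ^ n * t ^ k ∈ R` for all `k`
  have hstep1 : ∀ k : ℕ, algebraMap A₁ E q ^ n * t ^ k ∈ genRing A₂ B E := by
    intro k
    induction k using Nat.strong_induction_on with
    | _ k ih =>
      rcases lt_or_ge k n with hk | hk
      · have : algebraMap A₁ E q ^ n * t ^ k =
            algebraMap A₁ E q ^ (n - k) * algebraMap B E (b ^ k) := by
          rw [map_pow, ← hbt, mul_pow, ← mul_assoc, ← pow_add, Nat.sub_add_cancel hk.le]
        rw [this]
        exact Subalgebra.mul_mem _ (Subalgebra.pow_mem _ hqR _) (algebraMap_mem_genRing' _)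
      · have hk' : k = (k - n) + n := (Nat.sub_add_cancel hk).symm
        have : algebraMap A₁ E q ^ n * t ^ k =
            -∑ i ∈ Finset.range n, ((P.coeff i : genRing A₂ B E) : E) *
              (algebraMap A₁ E q ^ n * t ^ (k - n + i)) := by
          conv_lhs => rw [hk', pow_add, hrel]
          rw [mul_neg, mul_neg, neg_inj, Finset.mul_sum, Finset.mul_sum]
          refine Finset.sum_congr rfl fun i _ => ?_
          rw [pow_add]
          ring
        rw [this]
        refine Subalgebra.neg_mem _ (Subalgebra.sum_mem _ fun i hi => ?_)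
        refine Subalgebra.mul_mem _ (P.coeff i).2 (ih _ ?_)
        have := Finset.mem_range.mp hi
        omega
  -- Step 2: `q ^ n * t ^ k` is the image of an element of `B`
  have hstep2 : ∀ k : ℕ, ∃ b' : B, algebraMap B E b' = algebraMap A₁ E q ^ n * t ^ k := by
    intro k
    obtain ⟨b', -, hb'⟩ := exists_eq_pow_mul_of_mem_genRing (A₂ := A₂) q h1 h2 hLD hqE k
      (b ^ k * algebraMap A₁ B q ^ n) (hstep1 k) (by
        rw [map_mul, map_pow, map_pow, ← IsScalarTower.algebraMap_apply A₁ B E, ← hbt, mul_pow]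
        ring)
    exact ⟨b', hb'⟩
  -- Step 3: pass to `F₁`
  have hinjF : Function.Injective (algebraMap F₁ E) := (algebraMap F₁ E).injective
  have hqF : algebraMap B F₁ (algebraMap A₁ B q) ≠ 0 := by
    intro h0
    apply hqE
    rw [IsScalarTower.algebraMap_apply A₁ B E, IsScalarTower.algebraMap_apply B F₁ E, h0, map_zero]
  set qF : F₁ := algebraMap B F₁ (algebraMap A₁ B q) with hqFdef
  have hqFE : algebraMap F₁ E qF = algebraMap A₁ E q := by
    rw [hqFdef, ← IsScalarTower.algebraMap_apply B F₁ E, ← IsScalarTower.algebraMap_apply A₁ B E]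
  set τ : F₁ := algebraMap B F₁ b / qF with hτ
  have hτE : algebraMap F₁ E τ = t := by
    have hq' : algebraMap F₁ E qF ≠ 0 := by rw [hqFE]; exact hqE
    rw [hτ, map_div₀, div_eq_iff hq', ← IsScalarTower.algebraMap_apply B F₁ E, hqFE, ← hbt,
      mul_comm]
  have hstep3 : ∀ k : ℕ, τ ^ k ∈ Submodule.span B {(qF ^ n)⁻¹} := by
    intro k
    obtain ⟨b', hb'⟩ := hstep2 k
    rw [Submodule.mem_span_singleton]
    refine ⟨b', ?_⟩
    apply hinjF
    rw [Algebra.smul_def, map_mul, ← IsScalarTower.algebraMap_apply B F₁ E, hb', map_inv₀, map_pow,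
      map_pow, hqFE, hτE]
    field_simp
  -- Step 4: `τ` is integral over `B`, hence in `B`
  have hle : Subalgebra.toSubmodule (Algebra.adjoin B {τ}) ≤ Submodule.span B {(qF ^ n)⁻¹} := by
    intro x hx
    have hx' : x ∈ Algebra.adjoin B {τ} := hx
    rw [Algebra.adjoin_singleton_eq_range_aeval] at hx'
    obtain ⟨p, rfl⟩ := hx'
    show aeval τ p ∈ _
    rw [aeval_eq_sum_range]
    exact Submodule.sum_mem _ fun i _ => Submodule.smul_mem _ _ (hstep3 i)
  haveI : IsNoetherian B (Submodule.span B {(qF ^ n)⁻¹}) :=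
    isNoetherian_span_of_finite B (Set.finite_singleton _)
  have hfg : (Subalgebra.toSubmodule (Algebra.adjoin B {τ})).FG := by
    have h0 : (Submodule.comap (Submodule.span B {(qF ^ n)⁻¹}).subtype
        (Subalgebra.toSubmodule (Algebra.adjoin B {τ}))).FG := IsNoetherian.noetherian _
    have h1 := h0.map (Submodule.span B {(qF ^ n)⁻¹}).subtype
    rwa [Submodule.map_comap_subtype, inf_eq_right.mpr hle] at h1
  have hτint : IsIntegral B τ :=
    IsIntegral.of_mem_of_fg (Algebra.adjoin B {τ}) hfg τ (Algebra.self_mem_adjoin_singleton B τ)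
  obtain ⟨b', hb'⟩ := IsIntegrallyClosed.isIntegral_iff.mp hτint
  refine ⟨b', ?_⟩
  apply IsFractionRing.injective B F₁
  rw [map_mul, hb', hτ, ← hqFdef, mul_div_cancel₀ _ hqF]

end Unram

section Final

variable {A₁ A₂ B K₁ F₁ E : Type*} [CommRing A₁] [IsDomain A₁] [IsPrincipalIdealRing A₁]
  [CommRing A₂] [Algebra A₁ A₂] [Module.IsTorsionFree A₁ A₂]
  [CommRing B] [IsDomain B] [IsIntegrallyClosed B] [Algebra A₁ B]
  [Field K₁] [Algebra A₁ K₁] [IsFractionRing A₁ K₁]
  [Field F₁] [Algebra B F₁] [IsFractionRing B F₁] [Algebra K₁ F₁]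
  [Field E] [Algebra F₁ E] [Algebra B E] [IsScalarTower B F₁ E]
  [Algebra K₁ E] [IsScalarTower K₁ F₁ E]
  [Algebra A₁ E] [IsScalarTower A₁ K₁ E] [IsScalarTower A₁ B E] [Algebra A₂ E]
  [IsScalarTower A₁ A₂ E]

/-- **Normality of an unramified immediate base change.**  `A₁` a PID in which every nonzero
element divides a power of `q`, `A₂` a torsion-free `A₁`-algebra in which every nonzero element
divides a power of `q`, `A₂ = A₁ + q A₂`, `q A₂ ∩ A₁ = q A₁`, `K₁` algebraically closed in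
`F₁ = Frac B`, `E = F₁[α]` with `α ∈ A₂` integral and separable over `A₁`, `A₂ ⊆ K₁(α)`, `B`
noetherian and integrally closed.  Then `R = B·A₂ ⊆ E` is integrally closed in `E`
(no hypothesis on the special fibre `B ⧸ q`). -/
theorem mem_genRing_of_isIntegral_unram [IsNoetherianRing B] (q : A₁) (α : A₂)
    (h1 : ∀ a : A₂, ∃ c : A₁, ∃ a' : A₂, a = algebraMap A₁ A₂ c + algebraMap A₁ A₂ q * a')
    (h2 : ∀ c : A₁, algebraMap A₁ A₂ q ∣ algebraMap A₁ A₂ c → q ∣ c)
    (hA₁q : ∀ c : A₁, c ≠ 0 → ∃ k : ℕ, c ∣ q ^ k)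
    (hdvr : ∀ a : A₂, a ≠ 0 → ∃ j : ℕ, a ∣ algebraMap A₁ A₂ q ^ j)
    (hq0 : q ≠ 0)
    (hA₂inj : Function.Injective (algebraMap A₂ E))
    (hαint : IsIntegral A₁ α)
    (htop : Algebra.adjoin F₁ {algebraMap A₂ E α} = ⊤)
    (hsep : (minpoly K₁ (algebraMap A₂ E α)).Separable)
    (hcl : ∀ z : F₁, IsAlgebraic K₁ z → z ∈ Set.range (algebraMap K₁ F₁))
    (hA₂α : ∀ a : A₂, algebraMap A₂ E a ∈ IntermediateField.adjoin K₁ {algebraMap A₂ E α})
    {z : E} (hz : IsIntegral (genRing A₂ B E) z) : z ∈ genRing A₂ B E := by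
  classical
  set αE := algebraMap A₂ E α with hαE
  have hαE_A₁ : IsIntegral A₁ αE := hαint.map (IsScalarTower.toAlgHom A₁ A₂ E)
  have hαE_K₁ : IsIntegral K₁ αE := hαE_A₁.tower_top
  have hmin := minpoly_eq_map_of_algClosedIn (F' := E) hcl hαE_K₁
  have hLD := linearIndependent_of_minpoly (A₁ := A₁) (A₂ := A₂) (B := B)
    (IsFractionRing.injective B F₁) hA₂inj αE hαE_K₁ hmin hA₂α
  have hA₁Einj : Function.Injective (algebraMap A₁ E) := by
    rw [IsScalarTower.algebraMap_eq A₁ K₁ E]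
    exact (algebraMap K₁ E).injective.comp (IsFractionRing.injective A₁ K₁)
  have hA₁A₂inj : Function.Injective (algebraMap A₁ A₂) := by
    have h0 := hA₁Einj
    rw [IsScalarTower.algebraMap_eq A₁ A₂ E] at h0
    exact Function.Injective.of_comp h0
  have hq0' : algebraMap A₁ A₂ q ≠ 0 := by
    rw [Ne, map_eq_zero_iff _ hA₁A₂inj]; exact hq0
  have hqE : algebraMap A₁ E q ≠ 0 := by
    rw [Ne, map_eq_zero_iff _ hA₁Einj]; exact hq0
  have hπ : algebraMap A₂ E (algebraMap A₁ A₂ q) = algebraMap A₁ E q :=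
    (IsScalarTower.algebraMap_apply A₁ A₂ E q).symm
  have hqR : algebraMap A₁ E q ∈ genRing A₂ B E := by
    rw [← hπ]; exact algebraMap_mem_genRing _
  have hint : ∀ a : A₂, ∃ k : ℕ, IsIntegral A₁ (algebraMap A₁ A₂ q ^ k * a) := fun a =>
    exists_pow_mul_isIntegral_of_isAlgebraic (K₁ := K₁) q hA₁q hA₂inj a
      (by
        have hfin := IntermediateField.adjoin.finiteDimensional hαE_K₁
        have halg : Algebra.IsAlgebraic K₁ (IntermediateField.adjoin K₁ {αE}) :=
          Algebra.IsAlgebraic.of_finite K₁ _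
        have := halg.isAlgebraic (⟨algebraMap A₂ E a, hA₂α a⟩ : IntermediateField.adjoin K₁ {αE})
        exact (isAlgebraic_algebraMap_iff
          (algebraMap (IntermediateField.adjoin K₁ {αE}) E).injective).mpr this)
  obtain ⟨j, hj⟩ := exists_pow_mul_mem_genRing (B := B) (K₁ := K₁) (F₁ := F₁) q
    (algebraMap A₁ A₂ q) α hA₂inj hαint htop hsep hmin hdvr hint hq0' hz
  rw [hπ] at hj
  -- descent on the exponent
  have hk' : ∃ k : ℕ, algebraMap A₁ E q ^ k * z ∈ genRing A₂ B E := ⟨j, hj⟩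
  set k := Nat.find hk' with hkdef
  have hk := Nat.find_spec hk'
  rcases Nat.eq_zero_or_pos k with h0 | hpos
  · rw [← hkdef, h0, pow_zero, one_mul] at hk
    exact hk
  · exfalso
    rw [← hkdef] at hk
    obtain ⟨b, r', hr', hrr⟩ :=
      exists_add_mul_of_mem_genRing (A₁ := A₁) (B := B) (algebraMap A₁ A₂ q) h1 hk
    rw [hπ] at hrr
    have hk1 : k = (k - 1) + 1 := (Nat.sub_add_cancel hpos).symm
    set t : E := algebraMap A₁ E q ^ (k - 1) * z - r' with ht
    have htint : IsIntegral (genRing A₂ B E) t := by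
      have hqint : IsIntegral (genRing A₂ B E) (algebraMap A₁ E q) :=
        isIntegral_algebraMap (R := genRing A₂ B E) (x := ⟨_, hqR⟩)
      have hr'int : IsIntegral (genRing A₂ B E) r' :=
        isIntegral_algebraMap (R := genRing A₂ B E) (x := ⟨_, hr'⟩)
      exact ((hqint.pow _).mul hz).sub hr'int
    have hbt : algebraMap A₁ E q * t = algebraMap B E b := by
      have : algebraMap A₁ E q * t = algebraMap A₁ E q ^ k * z - algebraMap A₁ E q * r' := by
        rw [ht]
        conv_rhs => rw [hk1, pow_succ]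
        ring
      rw [this, hrr]
      ring
    obtain ⟨b', rfl⟩ := dvd_of_isIntegral_of_mul_eq (A₂ := A₂) F₁ q h1 h2 hLD hqE b htint hbt
    have htb : t = algebraMap B E b' := by
      rw [map_mul, ← IsScalarTower.algebraMap_apply A₁ B E] at hbt
      exact mul_left_cancel₀ hqE hbt
    have hlt : k - 1 < k := Nat.sub_lt hpos Nat.one_pos
    apply Nat.find_min hk' (by rw [← hkdef]; exact hlt)
    have : algebraMap A₁ E q ^ (k - 1) * z = algebraMap B E b' + r' := by
      rw [← htb, ht]; ring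
    rw [this]
    exact Subalgebra.add_mem _ (algebraMap_mem_genRing' _) hr'

/-- **Identification with an integral closure, unramified immediate case.**  If moreover `C → E`
is a ring whose image lies in `R = genRing` and over which `B` and `A₂` are integral
(e.g. `C = A₂[J]`), then `R` is the integral closure of `C` in `E`. -/
theorem isIntegral_iff_mem_genRing_unram [IsNoetherianRing B] (q : A₁) (α : A₂)
    (h1 : ∀ a : A₂, ∃ c : A₁, ∃ a' : A₂, a = algebraMap A₁ A₂ c + algebraMap A₁ A₂ q * a')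
    (h2 : ∀ c : A₁, algebraMap A₁ A₂ q ∣ algebraMap A₁ A₂ c → q ∣ c)
    (hA₁q : ∀ c : A₁, c ≠ 0 → ∃ k : ℕ, c ∣ q ^ k)
    (hdvr : ∀ a : A₂, a ≠ 0 → ∃ j : ℕ, a ∣ algebraMap A₁ A₂ q ^ j)
    (hq0 : q ≠ 0)
    (hA₂inj : Function.Injective (algebraMap A₂ E))
    (hαint : IsIntegral A₁ α)
    (htop : Algebra.adjoin F₁ {algebraMap A₂ E α} = ⊤)
    (hsep : (minpoly K₁ (algebraMap A₂ E α)).Separable)
    (hcl : ∀ z : F₁, IsAlgebraic K₁ z → z ∈ Set.range (algebraMap K₁ F₁))
    (hA₂α : ∀ a : A₂, algebraMap A₂ E a ∈ IntermediateField.adjoin K₁ {algebraMap A₂ E α})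
    (C : Type*) [CommRing C] [Algebra C E]
    (hC : ∀ c : C, algebraMap C E c ∈ genRing A₂ B E)
    (hCB : ∀ b : B, IsIntegral C (algebraMap B E b))
    (hCA₂ : ∀ a : A₂, IsIntegral C (algebraMap A₂ E a)) (z : E) :
    IsIntegral C z ↔ z ∈ genRing A₂ B E := by
  constructor
  · intro hz
    apply mem_genRing_of_isIntegral_unram (K₁ := K₁) (F₁ := F₁) q α h1 h2 hA₁q hdvr hq0 hA₂inj
      hαint htop hsep hcl hA₂α
    obtain ⟨P, hP, hPz⟩ := hz
    let f : C →+* genRing A₂ B E := (algebraMap C E).codRestrict (genRing A₂ B E) hC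
    refine ⟨P.map f, hP.map f, ?_⟩
    rw [eval₂_map]
    have : (algebraMap (genRing A₂ B E) E).comp f = algebraMap C E := by
      ext c; rfl
    rw [this]
    exact hPz
  · intro hz
    obtain ⟨n, β, a, rfl⟩ := exists_sum_of_mem_genRing hz
    exact IsIntegral.sum _ fun i _ => (hCB (β i)).mul (hCA₂ (a i))

end Final

end Fermat.Agent.CA.H40
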