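/-
helper42: special fibre of a base change, injectivity core (Mathlib only).

`A1` a local principal ideal domain with maximal ideal `(q)`, `K1 = Frac A1`, `E / K1` a finite
field extension, `F1 / K1` a field, `FE` a field containing `F1` and `E`, with `F1` and `E`
linearly disjoint over `K1` inside `FE`.  For a subring `A'' ⊆ E` containing `A1` and `π ∈ A''` a
non-unit, a subring `B ⊆ F1` containing `A1`, and `R` the subring of `FE` generated by `B` and `A''`:

  `B ∩ π R = q B`   (and `R = B + π R` if `A'' = A1 + π A''`),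

i.e. `B / q B → R / π R` is an isomorphism.  No tensor products, no flatness: a lattice functional
over `A1` plus comparison of coefficients in a `K1`-basis of `E`.
-/
import Mathlib

set_option autoImplicit false

namespace Fermat.Agent.CA.H42

open Module

section Functional

variable {A1 K1 E : Type*} [CommRing A1] [IsDomain A1] [IsPrincipalIdealRing A1] [IsLocalRing A1]
  [Field K1] [Algebra A1 K1] [IsFractionRing A1 K1]
  [AddCommGroup E] [Module K1 E] [Module A1 E] [IsScalarTower A1 K1 E]

/-- Over a local principal ideal domain `A1` with maximal ideal `(q)`, `q ≠ 0`, and fraction field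
`K1`: if `w` does not lie in the `A1`-span of `s₁, …, sₙ` (vectors of a `K1`-vector space `E`), there
is a `K1`-linear functional `lam` on `E` with `lam w = 1` and `lam sⱼ ∈ q A1` for all `j`. -/
theorem exists_functional (q : A1) (hq : IsLocalRing.maximalIdeal A1 = Ideal.span {q})
    (hq0 : q ≠ 0) (w : E) {ι : Type*} [Fintype ι] (s : ι → E)
    (hw : w ∉ Submodule.span A1 (Set.range s)) :
    ∃ lam : E →ₗ[K1] K1, lam w = 1 ∧ ∀ j, ∃ c : A1, lam (s j) = algebraMap A1 K1 (q * c) := by
  classical
  set qK : K1 := algebraMap A1 K1 q with hqK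
  have hqK0 : qK ≠ 0 := (map_ne_zero_iff _ (IsFractionRing.injective A1 K1)).mpr hq0
  let t : ι → E := fun j => qK⁻¹ • s j
  have hqt : ∀ j, q • t j = s j := fun j => by
    show q • (qK⁻¹ • s j) = s j
    rw [← algebraMap_smul K1 q, smul_smul, mul_inv_cancel₀ hqK0, one_smul]
  let gen : Option ι → E := fun o => o.elim w t
  let L : Submodule A1 E := Submodule.span A1 (Set.range gen)
  have : Module.Finite A1 L := Module.Finite.span_of_finite A1 (Set.finite_range gen)
  have : Module.IsTorsionFree A1 E := Module.IsTorsionFree.trans_faithfulSMul A1 K1 E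
  have : Module.Free A1 L := Module.free_of_finite_type_torsion_free'
  let bas := Module.Free.chooseBasis A1 L
  have hwL : w ∈ L := Submodule.subset_span ⟨none, rfl⟩
  have htL : ∀ j, t j ∈ L := fun j => Submodule.subset_span ⟨some j, rfl⟩
  let wL : L := ⟨w, hwL⟩
  -- some coordinate of `w` is a unit
  have hcoord : ∃ i, IsUnit (bas.repr wL i) := by
    by_contra hno
    push Not at hno
    have hmem : ∀ i, ∃ c, bas.repr wL i = q * c := fun i => by
      have h1 : bas.repr wL i ∈ IsLocalRing.maximalIdeal A1 := by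
        by_contra h
        exact hno i (IsLocalRing.notMem_maximalIdeal.mp h)
      rw [hq, Ideal.mem_span_singleton'] at h1
      obtain ⟨c, hc⟩ := h1
      exact ⟨c, by rw [← hc, mul_comm]⟩
    choose c hc using hmem
    let m : L := ∑ i ∈ (bas.repr wL).support, c i • bas i
    have hwm : wL = q • m := by
      conv_lhs => rw [← bas.linearCombination_repr wL, Finsupp.linearCombination_apply,
        Finsupp.sum]
      rw [Finset.smul_sum]
      refine Finset.sum_congr rfl fun i _ => ?_
      rw [hc i, mul_smul]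
    obtain ⟨a, ha⟩ := (Submodule.mem_span_range_iff_exists_fun A1).mp m.2
    rw [Fintype.sum_option] at ha
    have hw2 : w = q • (m : E) := by
      have := congrArg (fun x : L => (x : E)) hwm
      simpa using this
    have hw3 : (1 - q * a none) • w = ∑ j, a (some j) • s j := by
      have h4 : w = (q * a none) • w + ∑ j, a (some j) • s j := by
        conv_lhs => rw [hw2, ← ha]
        rw [smul_add, Finset.smul_sum, smul_smul]
        congr 1
        refine Finset.sum_congr rfl fun j _ => ?_
        show q • a (some j) • t j = a (some j) • s j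
        rw [smul_comm, hqt]
      rw [sub_smul, one_smul]
      exact sub_eq_of_eq_add' h4
    have hunit : IsUnit (1 - q * a none) := by
      rw [← IsLocalRing.notMem_maximalIdeal]
      intro h
      have hqa : q * a none ∈ IsLocalRing.maximalIdeal A1 := by
        rw [hq]
        exact Ideal.mul_mem_right _ _ (Ideal.mem_span_singleton_self q)
      have h1 : (1 : A1) ∈ IsLocalRing.maximalIdeal A1 := by
        have := Ideal.add_mem _ h hqa
        rwa [sub_add_cancel] at this
      exact (Ideal.ne_top_iff_one _).mp (IsLocalRing.maximalIdeal.isMaximal A1).ne_top h1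
    obtain ⟨u, hu⟩ := hunit
    apply hw
    have : w = (↑u⁻¹ : A1) • ∑ j, a (some j) • s j := by
      rw [← hw3, ← hu, smul_smul, Units.inv_mul, one_smul]
    rw [this]
    refine Submodule.smul_mem _ _ (Submodule.sum_mem _ fun j _ => ?_)
    exact Submodule.smul_mem _ _ (Submodule.subset_span ⟨j, rfl⟩)
  obtain ⟨i0, hi0⟩ := hcoord
  obtain ⟨u, hu⟩ := hi0
  -- the basis vectors are `K1`-linearly independent in `E`
  let v : Free.ChooseBasisIndex A1 L → E := fun i => (bas i : E)
  have hvA : LinearIndependent A1 v :=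
    bas.linearIndependent.map' L.subtype (Submodule.ker_subtype L)
  have hvK : LinearIndependent K1 v := (LinearIndependent.iff_fractionRing A1 K1).mp hvA
  let bspan := Module.Basis.span hvK
  let f : Submodule.span K1 (Set.range v) →ₗ[K1] K1 :=
    bspan.constr K1 fun i => if i = i0 then (algebraMap A1 K1 (↑u⁻¹ : A1)) else 0
  obtain ⟨g, hg⟩ := LinearMap.exists_extend f
  have hgv : ∀ i, g (v i) = if i = i0 then (algebraMap A1 K1 (↑u⁻¹ : A1)) else 0 := fun i => by
    have h1 : g (v i) = f (bspan i) := by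
      rw [← hg]
      simp only [LinearMap.coe_comp, Submodule.coe_subtype, Function.comp_apply]
      congr 1
      exact (congrArg Subtype.val (Module.Basis.span_apply hvK i)).symm
    rw [h1, Module.Basis.constr_basis]
  -- `g` on `L`
  have hgL : ∀ m : L, g (m : E) = algebraMap A1 K1 (bas.repr m i0 * (↑u⁻¹ : A1)) := fun m => by
    have hm : (m : E) = ∑ i ∈ (bas.repr m).support, bas.repr m i • v i := by
      conv_lhs => rw [← bas.linearCombination_repr m, Finsupp.linearCombination_apply,
        Finsupp.sum]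
      simp [v]
    rw [hm, map_sum]
    have : ∀ i ∈ (bas.repr m).support, g (bas.repr m i • v i) =
        if i = i0 then algebraMap A1 K1 (bas.repr m i0 * (↑u⁻¹ : A1)) else 0 := fun i _ => by
      rw [← algebraMap_smul K1 (bas.repr m i) (v i), map_smul, hgv]
      split_ifs with h
      · subst h; rw [smul_eq_mul, map_mul]
      · rw [smul_zero]
    rw [Finset.sum_congr rfl this, Finset.sum_ite_eq']
    split_ifs with h
    · rfl
    · rw [Finsupp.notMem_support_iff.mp h, zero_mul, map_zero]
  refine ⟨g, ?_, fun j => ?_⟩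
  · have := hgL wL
    rw [← hu, Units.mul_inv, map_one] at this
    exact this
  · refine ⟨bas.repr ⟨t j, htL j⟩ i0 * (↑u⁻¹ : A1), ?_⟩
    have h1 : s j = qK • t j := by
      show s j = qK • (qK⁻¹ • s j)
      rw [smul_smul, mul_inv_cancel₀ hqK0, one_smul]
    rw [h1, map_smul, smul_eq_mul, map_mul]
    congr 1
    exact hgL ⟨t j, htL j⟩

end Functional

section Main

variable {A1 K1 E F1 FE : Type*} [CommRing A1] [IsDomain A1] [IsPrincipalIdealRing A1]
  [IsLocalRing A1] [Field K1] [Algebra A1 K1] [IsFractionRing A1 K1]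
  [Field E] [Algebra K1 E] [Algebra A1 E] [IsScalarTower A1 K1 E]
  [Field F1] [Algebra K1 F1] [Algebra A1 F1] [IsScalarTower A1 K1 F1]
  [Field FE] [Algebra F1 FE] [Algebra E FE] [Algebra K1 FE] [IsScalarTower K1 F1 FE]
  [IsScalarTower K1 E FE]

/-- **Special fibre of a base change, injectivity core.**  `A1` a local PID with maximal ideal
`(q)`, `K1 = Frac A1`, `E / K1` finite with `K1`-basis `ℬ`, `F1 / K1` a field such that `ℬ` stays
`F1`-linearly independent in `FE` (linear disjointness).
If `b0 ∈ F1` equals `∑ bⱼ sⱼ` in `FE` with `bⱼ` in a subring `B ⊇ A1` of `F1` and `sⱼ` in an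
`A1`-submodule `I` of `E` not containing `1`, then `b0 ∈ q B`. -/
theorem exists_eq_mul_of_eq_sum (q : A1) (hq : IsLocalRing.maximalIdeal A1 = Ideal.span {q})
    (hq0 : q ≠ 0)
    {κ : Type*} [Fintype κ] (ℬ : Module.Basis κ K1 E)
    (hLD : LinearIndependent F1 (fun i => algebraMap E FE (ℬ i)))
    (I : Submodule A1 E) (h1 : (1 : E) ∉ I) (B : Subring F1)
    (hAB : ∀ c : A1, algebraMap A1 F1 c ∈ B)
    {ι : Type*} [Fintype ι] (b : ι → F1) (hb : ∀ j, b j ∈ B) (s : ι → E) (hs : ∀ j, s j ∈ I)
    (b0 : F1)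
    (h : algebraMap F1 FE b0 = ∑ j, algebraMap F1 FE (b j) * algebraMap E FE (s j)) :
    ∃ b' ∈ B, b0 = algebraMap A1 F1 q * b' := by
  classical
  have hw : (1 : E) ∉ Submodule.span A1 (Set.range s) := fun h' =>
    h1 ((Submodule.span_le.mpr (by rintro _ ⟨j, rfl⟩; exact hs j)) h')
  obtain ⟨lam, hlam1, hlams⟩ := exists_functional (K1 := K1) q hq hq0 (1 : E) s hw
  choose c hc using hlams
  let V : κ → FE := fun i => algebraMap E FE (ℬ i)
  have hV : LinearIndependent F1 V := hLD
  let am : K1 →+* F1 := algebraMap K1 F1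
  -- expansion of `algebraMap E FE e` in the `V i`
  have hexp : ∀ e : E, algebraMap E FE e = ∑ i, am (ℬ.repr e i) • V i := fun e => by
    conv_lhs => rw [← ℬ.sum_repr e]
    rw [map_sum]
    refine Finset.sum_congr rfl fun i _ => ?_
    rw [Algebra.smul_def, map_mul, ← IsScalarTower.algebraMap_apply K1 E FE,
      IsScalarTower.algebraMap_apply K1 F1 FE, Algebra.smul_def]
  -- the coefficient identity
  have hcoef : ∀ i, b0 * am (ℬ.repr 1 i) = ∑ j, b j * am (ℬ.repr (s j) i) := by
    have hzero : ∑ i, (b0 * am (ℬ.repr 1 i) - ∑ j, b j * am (ℬ.repr (s j) i)) • V i = 0 := by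
      simp_rw [sub_smul, Finset.sum_sub_distrib, Finset.sum_smul]
      rw [sub_eq_zero]
      have hL : ∑ i, (b0 * am (ℬ.repr 1 i)) • V i = algebraMap F1 FE b0 := by
        have := hexp 1
        rw [map_one] at this
        conv_rhs => rw [← mul_one (algebraMap F1 FE b0), this, Finset.mul_sum]
        refine Finset.sum_congr rfl fun i _ => ?_
        rw [mul_smul, Algebra.smul_def b0]
      have hR : ∑ i, ∑ j, (b j * am (ℬ.repr (s j) i)) • V i =
          ∑ j, algebraMap F1 FE (b j) * algebraMap E FE (s j) := by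
        rw [Finset.sum_comm]
        refine Finset.sum_congr rfl fun j _ => ?_
        rw [hexp (s j), Finset.mul_sum]
        refine Finset.sum_congr rfl fun i _ => ?_
        rw [mul_smul, Algebra.smul_def (b j)]
      rw [hL, hR, h]
    intro i
    have := (Fintype.linearIndependent_iff.mp hV) _ hzero i
    exact sub_eq_zero.mp this
  -- `lam` in coordinates
  have hlam : ∀ e : E, lam e = ∑ i, ℬ.repr e i * lam (ℬ i) := fun e => by
    conv_lhs => rw [← ℬ.sum_repr e]
    rw [map_sum]
    refine Finset.sum_congr rfl fun i _ => ?_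
    rw [map_smul, smul_eq_mul]
  refine ⟨∑ j, b j * algebraMap A1 F1 (c j), ?_, ?_⟩
  · exact Subring.sum_mem _ fun j _ => Subring.mul_mem _ (hb j) (hAB _)
  · calc b0 = b0 * am (lam 1) := by rw [hlam1, map_one, mul_one]
      _ = ∑ i, (b0 * am (ℬ.repr 1 i)) * am (lam (ℬ i)) := by
          rw [hlam 1, map_sum, Finset.mul_sum]
          refine Finset.sum_congr rfl fun i _ => ?_
          rw [map_mul, mul_assoc]
      _ = ∑ i, (∑ j, b j * am (ℬ.repr (s j) i)) * am (lam (ℬ i)) := by
          refine Finset.sum_congr rfl fun i _ => ?_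
          rw [hcoef i]
      _ = ∑ j, b j * am (lam (s j)) := by
          simp_rw [Finset.sum_mul]
          rw [Finset.sum_comm]
          refine Finset.sum_congr rfl fun j _ => ?_
          rw [hlam (s j), map_sum, Finset.mul_sum]
          refine Finset.sum_congr rfl fun i _ => ?_
          rw [map_mul, mul_assoc]
      _ = algebraMap A1 F1 q * ∑ j, b j * algebraMap A1 F1 (c j) := by
          rw [Finset.mul_sum]
          refine Finset.sum_congr rfl fun j _ => ?_
          rw [hc j, map_mul]
          show b j * algebraMap K1 F1 (algebraMap A1 K1 q * algebraMap A1 K1 (c j)) = _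
          rw [map_mul, ← IsScalarTower.algebraMap_apply A1 K1 F1,
            ← IsScalarTower.algebraMap_apply A1 K1 F1]
          ring

end Main

section SubringForm

variable {A1 K1 E F1 FE : Type*} [CommRing A1] [IsDomain A1] [IsPrincipalIdealRing A1]
  [IsLocalRing A1] [Field K1] [Algebra A1 K1] [IsFractionRing A1 K1]
  [Field E] [Algebra K1 E] [Algebra A1 E] [IsScalarTower A1 K1 E]
  [Field F1] [Algebra K1 F1] [Algebra A1 F1] [IsScalarTower A1 K1 F1]
  [Field FE] [Algebra F1 FE] [Algebra E FE] [Algebra K1 FE] [IsScalarTower K1 F1 FE]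
  [IsScalarTower K1 E FE]

/-- The subring of `FE` generated by (the images of) `B ⊆ F1` and `A'' ⊆ E`. -/
def genSubring (FE : Type*) [Field FE] [Algebra F1 FE] [Algebra E FE]
    (B : Subring F1) (A'' : Subring E) : Subring FE :=
  Subring.closure ((algebraMap F1 FE) '' B ∪ (algebraMap E FE) '' A'')

omit [Algebra K1 E] [Algebra K1 F1] [Algebra K1 FE] [IsScalarTower K1 F1 FE]
  [IsScalarTower K1 E FE] in
theorem algebraMap_mem_genSubring_left {B : Subring F1} (A'' : Subring E) {b : F1} (hb : b ∈ B) :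
    algebraMap F1 FE b ∈ genSubring FE B A'' :=
  Subring.subset_closure (Or.inl ⟨b, hb, rfl⟩)

omit [Algebra K1 E] [Algebra K1 F1] [Algebra K1 FE] [IsScalarTower K1 F1 FE]
  [IsScalarTower K1 E FE] in
theorem algebraMap_mem_genSubring_right (B : Subring F1) {A'' : Subring E} {a : E} (ha : a ∈ A'') :
    algebraMap E FE a ∈ genSubring FE B A'' :=
  Subring.subset_closure (Or.inr ⟨a, ha, rfl⟩)

omit [Algebra K1 E] [Algebra K1 F1] [Algebra K1 FE] [IsScalarTower K1 F1 FE]
  [IsScalarTower K1 E FE] in
/-- Every element of the generated subring is a finite sum `∑ bⱼ aⱼ`. -/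
theorem exists_sum_of_mem_genSubring {B : Subring F1} {A'' : Subring E} {r : FE}
    (hr : r ∈ genSubring FE B A'') :
    ∃ (ι : Type) (_ : Fintype ι) (b : ι → F1) (a : ι → E), (∀ j, b j ∈ B) ∧ (∀ j, a j ∈ A'') ∧
      r = ∑ j, algebraMap F1 FE (b j) * algebraMap E FE (a j) := by
  induction hr using Subring.closure_induction with
  | mem x hx =>
    rcases hx with ⟨b, hb, rfl⟩ | ⟨a, ha, rfl⟩
    · exact ⟨Unit, inferInstance, fun _ => b, fun _ => 1, fun _ => hb, fun _ => A''.one_mem,
        by simp⟩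
    · exact ⟨Unit, inferInstance, fun _ => 1, fun _ => a, fun _ => B.one_mem, fun _ => ha,
        by simp⟩
  | zero => exact ⟨Empty, inferInstance, Empty.elim, Empty.elim, fun j => j.elim, fun j => j.elim,
      by simp⟩
  | one => exact ⟨Unit, inferInstance, fun _ => 1, fun _ => 1, fun _ => B.one_mem,
      fun _ => A''.one_mem, by simp⟩
  | add x y _ _ hx hy =>
    obtain ⟨ι, _, b, a, hb, ha, rfl⟩ := hx
    obtain ⟨ι', _, b', a', hb', ha', rfl⟩ := hy
    refine ⟨ι ⊕ ι', inferInstance, Sum.elim b b', Sum.elim a a', ?_, ?_, ?_⟩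
    · rintro (j | j)
      · exact hb j
      · exact hb' j
    · rintro (j | j)
      · exact ha j
      · exact ha' j
    · rw [Fintype.sum_sum_type]
      rfl
  | neg x _ hx =>
    obtain ⟨ι, _, b, a, hb, ha, rfl⟩ := hx
    refine ⟨ι, inferInstance, fun j => - b j, a, fun j => B.neg_mem (hb j), ha, ?_⟩
    rw [← Finset.sum_neg_distrib]
    refine Finset.sum_congr rfl fun j _ => ?_
    rw [map_neg, neg_mul]
  | mul x y _ _ hx hy =>
    obtain ⟨ι, _, b, a, hb, ha, rfl⟩ := hx
    obtain ⟨ι', _, b', a', hb', ha', rfl⟩ := hy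
    refine ⟨ι × ι', inferInstance, fun p => b p.1 * b' p.2, fun p => a p.1 * a' p.2,
      fun p => B.mul_mem (hb _) (hb' _), fun p => A''.mul_mem (ha _) (ha' _), ?_⟩
    rw [Finset.sum_mul_sum, Fintype.sum_prod_type]
    refine Finset.sum_congr rfl fun j _ => Finset.sum_congr rfl fun k _ => ?_
    rw [map_mul, map_mul]
    ring

/-- **Injectivity of `B / q B → R / π R`**: `B ∩ π R ⊆ q B`. -/
theorem exists_eq_mul_of_mem_genSubring (q : A1)
    (hq : IsLocalRing.maximalIdeal A1 = Ideal.span {q}) (hq0 : q ≠ 0)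
    {κ : Type*} [Fintype κ] (ℬ : Module.Basis κ K1 E)
    (hLD : LinearIndependent F1 (fun i => algebraMap E FE (ℬ i)))
    (B : Subring F1) (hAB : ∀ c : A1, algebraMap A1 F1 c ∈ B)
    (A'' : Subring E) (hAA : ∀ c : A1, algebraMap A1 E c ∈ A'')
    (π : E) (hπ : ∀ a ∈ A'', π * a ≠ 1)
    {b0 : F1} {r : FE} (hr : r ∈ genSubring FE B A'')
    (h : algebraMap F1 FE b0 = algebraMap E FE π * r) :
    ∃ b' ∈ B, b0 = algebraMap A1 F1 q * b' := by
  obtain ⟨ι, _, b, a, hb, ha, rfl⟩ := exists_sum_of_mem_genSubring hr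
  -- the `A1`-submodule `π A''` of `E`
  let I : Submodule A1 E :=
    { carrier := {x | ∃ a ∈ A'', x = π * a}
      add_mem' := by
        rintro _ _ ⟨a, ha, rfl⟩ ⟨a', ha', rfl⟩
        exact ⟨a + a', A''.add_mem ha ha', by ring⟩
      zero_mem' := ⟨0, A''.zero_mem, by ring⟩
      smul_mem' := by
        rintro c _ ⟨a, ha, rfl⟩
        exact ⟨algebraMap A1 E c * a, A''.mul_mem (hAA c) ha, by rw [Algebra.smul_def]; ring⟩ }
  have h1 : (1 : E) ∉ I := by
    rintro ⟨a, ha, h1⟩
    exact hπ a ha h1.symm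
  refine exists_eq_mul_of_eq_sum (K1 := K1) q hq hq0 ℬ hLD I h1 B hAB b hb (fun j => π * a j)
    (fun j => ⟨a j, ha j, rfl⟩) b0 ?_
  rw [h, Finset.mul_sum]
  refine Finset.sum_congr rfl fun j _ => ?_
  rw [map_mul]
  ring

omit [IsDomain A1] [IsPrincipalIdealRing A1] [IsLocalRing A1] [IsFractionRing A1 K1] in
/-- The two maps `A1 → FE` (through `E` and through `F1`) agree. -/
theorem algebraMap_algebraMap_eq (K1 : Type*) [Field K1] [Algebra A1 K1] [Algebra K1 E]
    [IsScalarTower A1 K1 E] [Algebra K1 F1] [IsScalarTower A1 K1 F1] [Algebra K1 FE]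
    [IsScalarTower K1 F1 FE] [IsScalarTower K1 E FE] (x : A1) :
    algebraMap E FE (algebraMap A1 E x) = algebraMap F1 FE (algebraMap A1 F1 x) := by
  rw [IsScalarTower.algebraMap_apply A1 K1 E, ← IsScalarTower.algebraMap_apply K1 E FE,
    IsScalarTower.algebraMap_apply K1 F1 FE, ← IsScalarTower.algebraMap_apply A1 K1 F1]

omit [IsDomain A1] [IsPrincipalIdealRing A1] [IsLocalRing A1] [Field K1] [Algebra A1 K1]
  [IsFractionRing A1 K1] [Algebra K1 E] [IsScalarTower A1 K1 E]
  [Algebra K1 F1] [IsScalarTower A1 K1 F1] [Algebra K1 FE] [IsScalarTower K1 F1 FE]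
  [IsScalarTower K1 E FE] in
/-- **Surjectivity of `B / q B → R / π R`**: `R = B + π R` when `A'' = A1 + π A''`. -/
theorem exists_add_of_mem_genSubring
    (hcomp : ∀ x : A1, algebraMap E FE (algebraMap A1 E x) = algebraMap F1 FE (algebraMap A1 F1 x))
    (B : Subring F1) (hAB : ∀ c : A1, algebraMap A1 F1 c ∈ B)
    (A'' : Subring E) (π : E)
    (hres : ∀ a ∈ A'', ∃ c : A1, ∃ a' ∈ A'', a = algebraMap A1 E c + π * a')
    {r : FE} (hr : r ∈ genSubring FE B A'') :
    ∃ b ∈ B, ∃ r' ∈ genSubring FE B A'', r = algebraMap F1 FE b + algebraMap E FE π * r' := by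
  obtain ⟨ι, _, b, a, hb, ha, rfl⟩ := exists_sum_of_mem_genSubring hr
  choose c a' ha' hca using fun j => hres (a j) (ha j)
  refine ⟨∑ j, b j * algebraMap A1 F1 (c j), ?_, ∑ j, algebraMap F1 FE (b j) *
    algebraMap E FE (a' j), ?_, ?_⟩
  · exact Subring.sum_mem _ fun j _ => Subring.mul_mem _ (hb j) (hAB _)
  · exact Subring.sum_mem _ fun j _ => Subring.mul_mem _
      (algebraMap_mem_genSubring_left A'' (hb j)) (algebraMap_mem_genSubring_right B (ha' j))
  · rw [map_sum, Finset.mul_sum, ← Finset.sum_add_distrib]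
    refine Finset.sum_congr rfl fun j _ => ?_
    conv_lhs => rw [hca j]
    rw [map_add, map_mul, map_mul, hcomp]
    ring

end SubringForm

section PowerBasisBridge

variable {K1 E F1 FE : Type*} [Field K1] [Field E] [Algebra K1 E] [Field F1] [Algebra K1 F1]
  [Field FE] [Algebra F1 FE] [Algebra E FE] [Algebra K1 FE] [IsScalarTower K1 F1 FE]
  [IsScalarTower K1 E FE]

omit [Algebra K1 FE] [IsScalarTower K1 F1 FE] [IsScalarTower K1 E FE] in
/-- Linear disjointness from a minimal polynomial that stays irreducible: if `E = K1(α)` and the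
minimal polynomial of `α` over `F1` is the image of its minimal polynomial over `K1`, the power
basis `1, α, …, α^(d-1)` of `E / K1` stays `F1`-linearly independent in `FE`. -/
theorem linearIndependent_powerBasis_of_minpoly_eq (pb : PowerBasis K1 E)
    (hmin : minpoly F1 (algebraMap E FE pb.gen) =
      (minpoly K1 pb.gen).map (algebraMap K1 F1)) :
    LinearIndependent F1 (fun i => algebraMap E FE (pb.basis i)) := by
  have hdeg : (minpoly F1 (algebraMap E FE pb.gen)).natDegree = pb.dim := by
    rw [hmin, Polynomial.natDegree_map, pb.natDegree_minpoly]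
  have hli := linearIndependent_pow (K := F1) (algebraMap E FE pb.gen)
  have hli' : LinearIndependent F1 (fun i : Fin pb.dim =>
      (algebraMap E FE pb.gen) ^ ((Fin.cast hdeg.symm i : Fin _) : ℕ)) :=
    hli.comp (Fin.cast hdeg.symm) (Fin.cast_injective _)
  convert hli' using 2 with i
  rw [pb.basis_eq_pow, map_pow]
  rfl

end PowerBasisBridge

section QuotientForm

variable {A1 K1 E F1 FE : Type*} [CommRing A1] [IsDomain A1] [IsPrincipalIdealRing A1]
  [IsLocalRing A1] [Field K1] [Algebra A1 K1] [IsFractionRing A1 K1]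
  [Field E] [Algebra K1 E] [Algebra A1 E] [IsScalarTower A1 K1 E]
  [Field F1] [Algebra K1 F1] [Algebra A1 F1] [IsScalarTower A1 K1 F1]
  [Field FE] [Algebra F1 FE] [Algebra E FE] [Algebra K1 FE] [IsScalarTower K1 F1 FE]
  [IsScalarTower K1 E FE]

/-- The inclusion `B → R` into the subring generated by `B` and `A''`. -/
def toGenSubring (FE : Type*) [Field FE] [Algebra F1 FE] [Algebra E FE]
    (B : Subring F1) (A'' : Subring E) : B →+* genSubring FE B A'' :=
  (algebraMap F1 FE).restrict B (genSubring FE B A'')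
    fun _ hb => algebraMap_mem_genSubring_left A'' hb

omit [Algebra K1 E] [Algebra K1 F1] [Algebra K1 FE] [IsScalarTower K1 F1 FE]
  [IsScalarTower K1 E FE] in
@[simp] theorem coe_toGenSubring (B : Subring F1) (A'' : Subring E) (b : B) :
    ((toGenSubring FE B A'' b : genSubring FE B A'') : FE) = algebraMap F1 FE (b : F1) := rfl

/-- `B ∩ π R = q B`, in ideal form. -/
theorem comap_span_toGenSubring (q : A1)
    (hq : IsLocalRing.maximalIdeal A1 = Ideal.span {q}) (hq0 : q ≠ 0)
    {κ : Type*} [Fintype κ] (ℬ : Module.Basis κ K1 E)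
    (hLD : LinearIndependent F1 (fun i => algebraMap E FE (ℬ i)))
    (B : Subring F1) (hAB : ∀ c : A1, algebraMap A1 F1 c ∈ B)
    (A'' : Subring E) (hAA : ∀ c : A1, algebraMap A1 E c ∈ A'')
    (π : E) (hπA : π ∈ A'') (hπ : ∀ a ∈ A'', π * a ≠ 1)
    (hqπ : ∃ a ∈ A'', algebraMap A1 E q = π * a) :
    Ideal.comap (toGenSubring FE B A'')
      (Ideal.span {(⟨algebraMap E FE π, algebraMap_mem_genSubring_right B hπA⟩ :
        genSubring FE B A'')}) =
    Ideal.span {(⟨algebraMap A1 F1 q, hAB q⟩ : B)} := by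
  ext b
  rw [Ideal.mem_comap, Ideal.mem_span_singleton', Ideal.mem_span_singleton']
  constructor
  · rintro ⟨r, hr⟩
    have h : algebraMap F1 FE (b : F1) = algebraMap E FE π * (r : FE) := by
      have := congrArg (fun x : genSubring FE B A'' => (x : FE)) hr
      simp only [Subring.coe_mul, coe_toGenSubring] at this
      rw [← this, mul_comm]
    obtain ⟨b', hb', hbb⟩ := exists_eq_mul_of_mem_genSubring (K1 := K1) q hq hq0 ℬ hLD B hAB A''
      hAA π hπ r.2 h
    exact ⟨⟨b', hb'⟩, Subtype.ext (by rw [Subring.coe_mul, hbb, mul_comm])⟩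
  · rintro ⟨b', hb'⟩
    obtain ⟨a, ha, hqa⟩ := hqπ
    refine ⟨toGenSubring FE B A'' b' * ⟨algebraMap E FE a,
      algebraMap_mem_genSubring_right B ha⟩, Subtype.ext ?_⟩
    have hcomp := algebraMap_algebraMap_eq (A1 := A1) (E := E) (F1 := F1) (FE := FE) K1 q
    rw [hqa, map_mul] at hcomp
    rw [← hb']
    simp only [Subring.coe_mul, coe_toGenSubring]
    rw [map_mul, ← hcomp]
    ring

omit [IsDomain A1] [IsPrincipalIdealRing A1] [IsLocalRing A1] [Field K1] [Algebra A1 K1]
  [IsFractionRing A1 K1] [Algebra K1 E] [IsScalarTower A1 K1 E]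
  [Algebra K1 F1] [IsScalarTower A1 K1 F1] [Algebra K1 FE] [IsScalarTower K1 F1 FE]
  [IsScalarTower K1 E FE] in
/-- `B → R / π R` is surjective when `A'' = A1 + π A''`. -/
theorem surjective_mk_comp_toGenSubring
    (hcomp : ∀ x : A1, algebraMap E FE (algebraMap A1 E x) = algebraMap F1 FE (algebraMap A1 F1 x))
    (B : Subring F1) (hAB : ∀ c : A1, algebraMap A1 F1 c ∈ B)
    (A'' : Subring E) (π : E) (hπA : π ∈ A'')
    (hres : ∀ a ∈ A'', ∃ c : A1, ∃ a' ∈ A'', a = algebraMap A1 E c + π * a') :
    Function.Surjective ((Ideal.Quotient.mk (Ideal.span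
      {(⟨algebraMap E FE π, algebraMap_mem_genSubring_right B hπA⟩ :
        genSubring FE B A'')})).comp (toGenSubring FE B A'')) := by
  intro x
  obtain ⟨r, rfl⟩ := Ideal.Quotient.mk_surjective x
  obtain ⟨b, hb, r', hr', hrr⟩ := exists_add_of_mem_genSubring hcomp B hAB A'' π hres r.2
  refine ⟨⟨b, hb⟩, ?_⟩
  rw [RingHom.comp_apply, Ideal.Quotient.eq, Ideal.mem_span_singleton']
  refine ⟨-⟨r', hr'⟩, Subtype.ext ?_⟩
  have h1 : ((toGenSubring FE B A'' ⟨b, hb⟩ - r : genSubring FE B A'') : FE) =
      algebraMap F1 FE b - (r : FE) := rfl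
  rw [h1, hrr]
  simp only [Subring.coe_mul, Subring.coe_neg]
  ring

/-- **`B / q B ≃ R / π R`.** -/
noncomputable def quotientEquivGenSubring (q : A1)
    (hq : IsLocalRing.maximalIdeal A1 = Ideal.span {q}) (hq0 : q ≠ 0)
    {κ : Type*} [Fintype κ] (ℬ : Module.Basis κ K1 E)
    (hLD : LinearIndependent F1 (fun i => algebraMap E FE (ℬ i)))
    (B : Subring F1) (hAB : ∀ c : A1, algebraMap A1 F1 c ∈ B)
    (A'' : Subring E) (hAA : ∀ c : A1, algebraMap A1 E c ∈ A'')
    (π : E) (hπA : π ∈ A'') (hπ : ∀ a ∈ A'', π * a ≠ 1)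
    (hqπ : ∃ a ∈ A'', algebraMap A1 E q = π * a)
    (hres : ∀ a ∈ A'', ∃ c : A1, ∃ a' ∈ A'', a = algebraMap A1 E c + π * a') :
    (B ⧸ Ideal.span {(⟨algebraMap A1 F1 q, hAB q⟩ : B)}) ≃+*
      (genSubring FE B A'' ⧸ Ideal.span
        {(⟨algebraMap E FE π, algebraMap_mem_genSubring_right B hπA⟩ : genSubring FE B A'')}) :=
  let φ := (Ideal.Quotient.mk (Ideal.span
      {(⟨algebraMap E FE π, algebraMap_mem_genSubring_right B hπA⟩ :
        genSubring FE B A'')})).comp (toGenSubring FE B A'')
  have hker : RingHom.ker φ = Ideal.span {(⟨algebraMap A1 F1 q, hAB q⟩ : B)} := by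
    rw [← comap_span_toGenSubring (K1 := K1) q hq hq0 ℬ hLD B hAB A'' hAA π hπA hπ hqπ,
      ← RingHom.comap_ker, Ideal.mk_ker]
  (Ideal.quotEquivOfEq hker.symm).trans
    (RingHom.quotientKerEquivOfSurjective
      (surjective_mk_comp_toGenSubring (algebraMap_algebraMap_eq K1) B hAB A'' π hπA hres))

/-- The special fibre `R / π R` of the base change is reduced if `B / q B` is. -/
theorem isReduced_quotient_genSubring (q : A1)
    (hq : IsLocalRing.maximalIdeal A1 = Ideal.span {q}) (hq0 : q ≠ 0)
    {κ : Type*} [Fintype κ] (ℬ : Module.Basis κ K1 E)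
    (hLD : LinearIndependent F1 (fun i => algebraMap E FE (ℬ i)))
    (B : Subring F1) (hAB : ∀ c : A1, algebraMap A1 F1 c ∈ B)
    (A'' : Subring E) (hAA : ∀ c : A1, algebraMap A1 E c ∈ A'')
    (π : E) (hπA : π ∈ A'') (hπ : ∀ a ∈ A'', π * a ≠ 1)
    (hqπ : ∃ a ∈ A'', algebraMap A1 E q = π * a)
    (hres : ∀ a ∈ A'', ∃ c : A1, ∃ a' ∈ A'', a = algebraMap A1 E c + π * a')
    (hred : IsReduced (B ⧸ Ideal.span {(⟨algebraMap A1 F1 q, hAB q⟩ : B)})) :
    IsReduced (genSubring FE B A'' ⧸ Ideal.span
      {(⟨algebraMap E FE π, algebraMap_mem_genSubring_right B hπA⟩ : genSubring FE B A'')}) :=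
  isReduced_of_injective
    (quotientEquivGenSubring (K1 := K1) q hq hq0 ℬ hLD B hAB A'' hAA π hπA hπ hqπ hres).symm
    (RingEquiv.injective _)

end QuotientForm

section LDAll

variable {K1 E F1 FE : Type*} [Field K1] [Field E] [Algebra K1 E] [Field F1] [Algebra K1 F1]
  [Field FE] [Algebra F1 FE] [Algebra E FE] [Algebra K1 FE] [IsScalarTower K1 F1 FE]
  [IsScalarTower K1 E FE]

/-- Linear disjointness for one basis implies it for every family: if the images of a finite
`K1`-basis `ℬ` of `E` are `F1`-linearly independent in `FE`, then every `K1`-linearly independent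
family of `E` stays `F1`-linearly independent in `FE`. -/
theorem linearIndependent_map_of_basis {κ : Type*} [Fintype κ] (ℬ : Module.Basis κ K1 E)
    (hLD : LinearIndependent F1 (fun i => algebraMap E FE (ℬ i)))
    {ι : Type*} [Fintype ι] (v : ι → E) (hv : LinearIndependent K1 v) :
    LinearIndependent F1 (fun l => algebraMap E FE (v l)) := by
  classical
  let am : K1 →+* F1 := algebraMap K1 F1
  rw [Fintype.linearIndependent_iff]
  intro f hf l0
  -- a functional dual to `v l0`
  let φ : Submodule.span K1 (Set.range v) →ₗ[K1] K1 := (Finsupp.lapply l0).comp hv.repr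
  obtain ⟨lam, hlam⟩ := LinearMap.exists_extend φ
  have hlamv : ∀ l, lam (v l) = if l = l0 then 1 else 0 := fun l => by
    have h1 : lam (v l) = φ ⟨v l, Submodule.subset_span ⟨l, rfl⟩⟩ := by
      rw [← hlam]; rfl
    rw [h1]
    show (hv.repr ⟨v l, _⟩) l0 = _
    rw [hv.repr_eq_single l ⟨v l, _⟩ rfl, Finsupp.single_apply]
  -- expansion in the basis
  have hexp : ∀ e : E, algebraMap E FE e = ∑ k, am (ℬ.repr e k) • algebraMap E FE (ℬ k) :=
    fun e => by
      conv_lhs => rw [← ℬ.sum_repr e]
      rw [map_sum]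
      refine Finset.sum_congr rfl fun i _ => ?_
      rw [Algebra.smul_def, map_mul, ← IsScalarTower.algebraMap_apply K1 E FE,
        IsScalarTower.algebraMap_apply K1 F1 FE, Algebra.smul_def]
  have hcoef : ∀ k, ∑ l, f l * am (ℬ.repr (v l) k) = 0 := by
    have hzero : ∑ k, (∑ l, f l * am (ℬ.repr (v l) k)) • algebraMap E FE (ℬ k) = 0 := by
      rw [← hf]
      simp_rw [Finset.sum_smul]
      rw [Finset.sum_comm]
      refine Finset.sum_congr rfl fun l _ => ?_
      rw [hexp (v l), Finset.smul_sum]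
      refine Finset.sum_congr rfl fun k _ => ?_
      rw [mul_smul]
    exact fun k => (Fintype.linearIndependent_iff.mp hLD) _ hzero k
  have hlamc : ∀ e : E, lam e = ∑ k, ℬ.repr e k * lam (ℬ k) := fun e => by
    conv_lhs => rw [← ℬ.sum_repr e]
    rw [map_sum]
    refine Finset.sum_congr rfl fun i _ => ?_
    rw [map_smul, smul_eq_mul]
  calc f l0 = ∑ l, f l * am (lam (v l)) := by
        simp_rw [hlamv]
        rw [Finset.sum_eq_single l0]
        · simp
        · intro l _ hl; simp [hl]
        · intro h; exact absurd (Finset.mem_univ l0) h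
    _ = ∑ k, (∑ l, f l * am (ℬ.repr (v l) k)) * am (lam (ℬ k)) := by
        simp_rw [Finset.sum_mul]
        rw [Finset.sum_comm]
        refine Finset.sum_congr rfl fun l _ => ?_
        rw [hlamc (v l), map_sum, Finset.mul_sum]
        refine Finset.sum_congr rfl fun k _ => ?_
        rw [map_mul, mul_assoc]
    _ = 0 := by
        refine Finset.sum_eq_zero fun k _ => ?_
        rw [hcoef k, zero_mul]

end LDAll

section RingForm

variable {A1 A2 B K1 E F1 FE : Type*} [CommRing A1] [CommRing A2] [Algebra A1 A2]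
  [CommRing B]
  [Field K1] [Algebra A1 K1] [IsFractionRing A1 K1]
  [Field E] [Algebra K1 E] [Algebra A1 E] [IsScalarTower A1 K1 E] [Algebra A2 E]
  [IsScalarTower A1 A2 E]
  [Field F1] [Algebra K1 F1] [Algebra B F1]
  [Field FE] [Algebra F1 FE] [Algebra E FE] [Algebra K1 FE] [IsScalarTower K1 F1 FE]
  [IsScalarTower K1 E FE] [Algebra A2 FE] [IsScalarTower A2 E FE] [Algebra B FE]
  [IsScalarTower B F1 FE]

/-- Linear disjointness in ring form (the `hLD` of `CA.H79_BaseChangeFibre`): `A1`-linearly
independent families of `A2 ⊆ E` stay `B`-linearly independent in `FE`, for `B ⊆ F1`. -/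
theorem linearIndependent_ring_of_basis {κ : Type*} [Fintype κ] (ℬ : Module.Basis κ K1 E)
    (hLD : LinearIndependent F1 (fun i => algebraMap E FE (ℬ i)))
    (hA2 : Function.Injective (algebraMap A2 E)) (hB : Function.Injective (algebraMap B F1))
    (r : ℕ) (m : Fin r → A2) (hm : LinearIndependent A1 m) :
    LinearIndependent B (fun l => algebraMap A2 FE (m l)) := by
  have h1 : LinearIndependent A1 (fun l => algebraMap A2 E (m l)) := by
    have := hm.map' (IsScalarTower.toAlgHom A1 A2 E).toLinearMap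
      (LinearMap.ker_eq_bot.mpr hA2)
    exact this
  have h2 : LinearIndependent K1 (fun l => algebraMap A2 E (m l)) :=
    (LinearIndependent.iff_fractionRing A1 K1).mp h1
  have h3 : LinearIndependent F1 (fun l => algebraMap E FE (algebraMap A2 E (m l))) :=
    linearIndependent_map_of_basis ℬ hLD _ h2
  have h4 : LinearIndependent F1 (fun l => algebraMap A2 FE (m l)) := by
    convert h3 using 2 with l
    exact IsScalarTower.algebraMap_apply A2 E FE (m l)
  refine h4.restrict_scalars ?_
  intro x y hxy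
  apply hB
  simpa [Algebra.smul_def] using hxy

end RingForm

end Fermat.Agent.CA.H42
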