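/-
Generic commutative algebra (Mathlib only): lifting of elements and of units along two
surjections `ρ₁ : O → D₁`, `ρ₂ : O → D₂` (the two branches through a closed point of a
reduced special fibre), the "`1 + π O`" consequence of a reduced fibre, the one-branch case,
and evaluation at a point fixed by a semilinear endomorphism.

Abstract half of the row "special-fibre local rings" of the S35 blueprint.
-/
import Mathlib

namespace Fermat.Agent.CA.H42

open IsLocalRing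

section Pair

variable {O D₁ D₂ : Type*} [CommRing O] [CommRing D₁] [CommRing D₂]

/-- (a) Two elements whose difference lies in `ker ρ₁ + ker ρ₂` can be glued:
there is one element with the `ρ₁`-image of the first and the `ρ₂`-image of the second. -/
theorem exists_lift_pair (ρ₁ : O →+* D₁) (ρ₂ : O →+* D₂) (y₁ y₂ : O)
    (h : y₁ - y₂ ∈ RingHom.ker ρ₁ ⊔ RingHom.ker ρ₂) :
    ∃ x : O, ρ₁ x = ρ₁ y₁ ∧ ρ₂ x = ρ₂ y₂ := by
  obtain ⟨i₁, hi₁, i₂, hi₂, hsum⟩ := Submodule.mem_sup.1 h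
  refine ⟨y₁ - i₁, ?_, ?_⟩
  · rw [map_sub, (RingHom.mem_ker).1 hi₁, sub_zero]
  · have : y₁ - i₁ = y₂ + i₂ := by
      have h' : y₁ = i₁ + i₂ + y₂ := by rw [hsum]; ring
      rw [h']; ring
    rw [this, map_add, (RingHom.mem_ker).1 hi₂, add_zero]

/-- (a') Fibre-product form: a pair `(d₁, d₂)` lifts as soon as some lifts `y₁`, `y₂` of its
components differ by an element of `ker ρ₁ + ker ρ₂`. -/
theorem exists_lift_pair' (ρ₁ : O →+* D₁) (ρ₂ : O →+* D₂) {d₁ : D₁} {d₂ : D₂} (y₁ y₂ : O)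
    (h₁ : ρ₁ y₁ = d₁) (h₂ : ρ₂ y₂ = d₂) (h : y₁ - y₂ ∈ RingHom.ker ρ₁ ⊔ RingHom.ker ρ₂) :
    ∃ x : O, ρ₁ x = d₁ ∧ ρ₂ x = d₂ := by
  obtain ⟨x, hx₁, hx₂⟩ := exists_lift_pair ρ₁ ρ₂ y₁ y₂ h
  exact ⟨x, hx₁.trans h₁, hx₂.trans h₂⟩

/-- (a'') Coprime kernels: every pair lifts (Chinese remainder theorem), i.e.
`(ρ₁, ρ₂) : O → D₁ × D₂` is onto. -/
theorem exists_lift_pair_of_sup_eq_top (ρ₁ : O →+* D₁) (ρ₂ : O →+* D₂)
    (hρ₁ : Function.Surjective ρ₁) (hρ₂ : Function.Surjective ρ₂)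
    (hcop : RingHom.ker ρ₁ ⊔ RingHom.ker ρ₂ = ⊤) (d₁ : D₁) (d₂ : D₂) :
    ∃ x : O, ρ₁ x = d₁ ∧ ρ₂ x = d₂ := by
  obtain ⟨y₁, h₁⟩ := hρ₁ d₁
  obtain ⟨y₂, h₂⟩ := hρ₂ d₂
  exact exists_lift_pair' ρ₁ ρ₂ y₁ y₂ h₁ h₂ (by rw [hcop]; exact Submodule.mem_top)

/-- (a'') as surjectivity of the product map. -/
theorem surjective_prod_of_sup_eq_top (ρ₁ : O →+* D₁) (ρ₂ : O →+* D₂)
    (hρ₁ : Function.Surjective ρ₁) (hρ₂ : Function.Surjective ρ₂)
    (hcop : RingHom.ker ρ₁ ⊔ RingHom.ker ρ₂ = ⊤) :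
    Function.Surjective (ρ₁.prod ρ₂) := by
  rintro ⟨d₁, d₂⟩
  obtain ⟨x, hx₁, hx₂⟩ := exists_lift_pair_of_sup_eq_top ρ₁ ρ₂ hρ₁ hρ₂ hcop d₁ d₂
  exact ⟨x, by simp [hx₁, hx₂]⟩

/-- Criterion for coprime kernels: the first target is a field (the first kernel is maximal)
and some element is killed by `ρ₂` but not by `ρ₁`. -/
theorem ker_sup_ker_eq_top_of_field {κ₁ : Type*} [Field κ₁] (ρ₁ : O →+* κ₁) (ρ₂ : O →+* D₂)
    (hρ₁ : Function.Surjective ρ₁) (w : O) (hw₂ : ρ₂ w = 0) (hw₁ : ρ₁ w ≠ 0) :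
    RingHom.ker ρ₁ ⊔ RingHom.ker ρ₂ = ⊤ := by
  rw [Ideal.eq_top_iff_one]
  obtain ⟨v, hv⟩ := hρ₁ (ρ₁ w)⁻¹
  have h1 : (1 : O) = (1 - v * w) + v * w := by ring
  rw [h1]
  refine Submodule.add_mem_sup ?_ ?_
  · rw [RingHom.mem_ker, map_sub, map_one, map_mul, hv, inv_mul_cancel₀ hw₁, sub_self]
  · rw [RingHom.mem_ker, map_mul, hw₂, mul_zero]

end Pair

section Node

variable {O D₁ D₂ : Type*} [CommRing O] [CommRing D₁] [CommRing D₂]
  [IsLocalRing O] [IsLocalRing D₂]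

/-- The node condition `𝔪_O ≤ ker ρ₁ + ker ρ₂` from a uniformiser of the second branch
vanishing on the first branch. -/
theorem maximalIdeal_le_ker_sup_ker_of_uniformiser (ρ₁ : O →+* D₁) (ρ₂ : O →+* D₂)
    (hρ₂ : Function.Surjective ρ₂) (t : O) (ht₁ : ρ₁ t = 0)
    (ht₂ : maximalIdeal D₂ ≤ Ideal.span {ρ₂ t}) :
    maximalIdeal O ≤ RingHom.ker ρ₁ ⊔ RingHom.ker ρ₂ := by
  intro y hy
  have hloc : IsLocalHom ρ₂ := IsLocalHom.of_surjective ρ₂ hρ₂
  have hy₂ : ρ₂ y ∈ maximalIdeal D₂ := map_nonunit ρ₂ y hy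
  obtain ⟨z', hz'⟩ := Ideal.mem_span_singleton'.1 (ht₂ hy₂)
  obtain ⟨z, rfl⟩ := hρ₂ z'
  have h1 : y = z * t + (y - z * t) := by ring
  rw [h1]
  refine Submodule.add_mem_sup ?_ ?_
  · rw [RingHom.mem_ker, map_mul, ht₁, mul_zero]
  · rw [RingHom.mem_ker, map_sub, map_mul, hz', sub_self]

variable [IsLocalRing D₁]

/-- (b) NODE: if `𝔪_O ≤ ker ρ₁ + ker ρ₂`, then any pair `(u₁, u₂)` whose components are both
congruent to (the images of) one constant `c : O` modulo the maximal ideals lifts to `O`,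
and the lift is congruent to `c`. -/
theorem exists_lift_pair_of_node (ρ₁ : O →+* D₁) (ρ₂ : O →+* D₂)
    (hρ₁ : Function.Surjective ρ₁) (hρ₂ : Function.Surjective ρ₂)
    (hnode : maximalIdeal O ≤ RingHom.ker ρ₁ ⊔ RingHom.ker ρ₂)
    (c : O) (u₁ : D₁) (u₂ : D₂) (hu₁ : u₁ - ρ₁ c ∈ maximalIdeal D₁)
    (hu₂ : u₂ - ρ₂ c ∈ maximalIdeal D₂) :
    ∃ x : O, ρ₁ x = u₁ ∧ ρ₂ x = u₂ ∧ x - c ∈ maximalIdeal O := by
  have hloc₁ : IsLocalHom ρ₁ := IsLocalHom.of_surjective ρ₁ hρ₁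
  have hloc₂ : IsLocalHom ρ₂ := IsLocalHom.of_surjective ρ₂ hρ₂
  obtain ⟨y₁, h₁⟩ := hρ₁ u₁
  obtain ⟨y₂, h₂⟩ := hρ₂ u₂
  have hm₁ : y₁ - c ∈ maximalIdeal O := by
    rw [← maximalIdeal_comap ρ₁, Ideal.mem_comap, map_sub, h₁]; exact hu₁
  have hm₂ : y₂ - c ∈ maximalIdeal O := by
    rw [← maximalIdeal_comap ρ₂, Ideal.mem_comap, map_sub, h₂]; exact hu₂
  have hdiff : y₁ - y₂ ∈ maximalIdeal O := by
    have : y₁ - y₂ = (y₁ - c) - (y₂ - c) := by ring
    rw [this]; exact Ideal.sub_mem _ hm₁ hm₂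
  obtain ⟨x, hx₁, hx₂⟩ := exists_lift_pair' ρ₁ ρ₂ y₁ y₂ h₁ h₂ (hnode hdiff)
  refine ⟨x, hx₁, hx₂, ?_⟩
  rw [← maximalIdeal_comap ρ₁, Ideal.mem_comap, map_sub, hx₁]; exact hu₁

/-- (b) NODE, units: if moreover the constant `c` is a unit, the lift is a unit. -/
theorem exists_unit_lift_pair_of_node (ρ₁ : O →+* D₁) (ρ₂ : O →+* D₂)
    (hρ₁ : Function.Surjective ρ₁) (hρ₂ : Function.Surjective ρ₂)
    (hnode : maximalIdeal O ≤ RingHom.ker ρ₁ ⊔ RingHom.ker ρ₂)
    (c : O) (hc : IsUnit c) (u₁ : D₁) (u₂ : D₂) (hu₁ : u₁ - ρ₁ c ∈ maximalIdeal D₁)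
    (hu₂ : u₂ - ρ₂ c ∈ maximalIdeal D₂) :
    ∃ x : Oˣ, ρ₁ x = u₁ ∧ ρ₂ x = u₂ := by
  obtain ⟨x, hx₁, hx₂, hxc⟩ := exists_lift_pair_of_node ρ₁ ρ₂ hρ₁ hρ₂ hnode c u₁ u₂ hu₁ hu₂
  have hx : IsUnit x := by
    by_contra hnu
    have hxm : x ∈ maximalIdeal O := (mem_maximalIdeal x).2 hnu
    have hcm : c ∈ maximalIdeal O := by
      have : c = x - (x - c) := by ring
      rw [this]; exact Ideal.sub_mem _ hxm hxc
    exact (mem_maximalIdeal c).1 hcm hc
  exact ⟨hx.unit, hx₁, hx₂⟩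

/-- (b) NODE, `c = 1`: a pair of elements of `1 + 𝔪` lifts to a unit. -/
theorem exists_unit_lift_pair_of_node_one (ρ₁ : O →+* D₁) (ρ₂ : O →+* D₂)
    (hρ₁ : Function.Surjective ρ₁) (hρ₂ : Function.Surjective ρ₂)
    (hnode : maximalIdeal O ≤ RingHom.ker ρ₁ ⊔ RingHom.ker ρ₂)
    (u₁ : D₁) (u₂ : D₂) (hu₁ : u₁ - 1 ∈ maximalIdeal D₁) (hu₂ : u₂ - 1 ∈ maximalIdeal D₂) :
    ∃ x : Oˣ, ρ₁ x = u₁ ∧ ρ₂ x = u₂ :=
  exists_unit_lift_pair_of_node ρ₁ ρ₂ hρ₁ hρ₂ hnode 1 isUnit_one u₁ u₂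
    (by rwa [map_one]) (by rwa [map_one])

end Node

section Reduced

variable {O D₁ D₂ : Type*} [CommRing O] [CommRing D₁] [CommRing D₂]

/-- (c) REDUCED FIBRE: if `ker ρ₁ ∩ ker ρ₂ ≤ (π)`, two elements with the same images on both
branches, the second a unit, differ by a factor in `1 + π O`. -/
theorem exists_eq_mul_one_add_of_inf_le (ρ₁ : O →+* D₁) (ρ₂ : O →+* D₂) (π : O)
    (hred : RingHom.ker ρ₁ ⊓ RingHom.ker ρ₂ ≤ Ideal.span {π}) (a b : O) (hb : IsUnit b)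
    (h₁ : ρ₁ a = ρ₁ b) (h₂ : ρ₂ a = ρ₂ b) :
    ∃ e : O, a = b * (1 + π * e) := by
  have hmem : a - b ∈ RingHom.ker ρ₁ ⊓ RingHom.ker ρ₂ := by
    refine ⟨?_, ?_⟩
    · simp only [SetLike.mem_coe, RingHom.mem_ker, map_sub, h₁, sub_self]
    · simp only [SetLike.mem_coe, RingHom.mem_ker, map_sub, h₂, sub_self]
  obtain ⟨e, he⟩ := Ideal.mem_span_singleton'.1 (hred hmem)
  obtain ⟨b', hb'⟩ := hb.exists_right_inv
  refine ⟨e * b', ?_⟩
  have : a = b + e * π := by rw [he]; ring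
  rw [this]
  calc b + e * π = b + (b * b') * (e * π) := by rw [hb', one_mul]
    _ = b * (1 + π * (e * b')) := by ring

/-- (c'), one branch: if `ker ρ ≤ (π)`, two elements with the same image, the second a unit,
differ by a factor in `1 + π O`. -/
theorem exists_eq_mul_one_add_of_ker_le (ρ : O →+* D₁) (π : O)
    (hred : RingHom.ker ρ ≤ Ideal.span {π}) (a b : O) (hb : IsUnit b) (h : ρ a = ρ b) :
    ∃ e : O, a = b * (1 + π * e) :=
  exists_eq_mul_one_add_of_inf_le ρ ρ π (by rw [inf_idem]; exact hred) a b hb h h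

end Reduced

section Smooth

variable {O D : Type*} [CommRing O] [CommRing D] [IsLocalRing O]

/-- (d) SMOOTH POINT (one branch): units lift along a surjection from a local ring. -/
theorem exists_unit_lift (ρ : O →+* D) (hρ : Function.Surjective ρ) (u : D) (hu : IsUnit u) :
    ∃ x : Oˣ, ρ x = u := by
  rcases subsingleton_or_nontrivial D with hs | hnt
  · exact ⟨1, Subsingleton.elim _ _⟩
  · have hloc : IsLocalHom ρ := IsLocalHom.of_surjective ρ hρ
    obtain ⟨x, hx⟩ := surjective_units_map_of_local_ringHom ρ hρ hloc hu.unit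
    exact ⟨x, by simpa using congrArg Units.val hx⟩

/-- (d') a lift of a unit along a ring hom from a local ring onto a nontrivial ring is a unit. -/
theorem isUnit_of_isUnit_map_of_surjective [Nontrivial D] (ρ : O →+* D)
    (hρ : Function.Surjective ρ) (x : O) (hx : IsUnit (ρ x)) : IsUnit x := by
  have hloc : IsLocalHom ρ := IsLocalHom.of_surjective ρ hρ
  exact isUnit_of_map_unit ρ x hx

end Smooth

section Evaluation

variable {k D D' : Type*} [Field k] [CommRing D] [CommRing D'] [IsLocalRing D] [IsLocalRing D']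
  [Algebra k D] [Algebra k D']

/-- (e) EVALUATION AT A POINT: a local ring hom `τ : D → D'` which is `σ`-semilinear on the
constants `k` sends an element with value `c` (i.e. congruent to the constant `c` modulo the
maximal ideal) to an element with value `σ c`. -/
theorem map_sub_algebraMap_mem_maximalIdeal (τ : D →+* D') [IsLocalHom τ] (σ : k →+* k)
    (hτ : ∀ c : k, τ (algebraMap k D c) = algebraMap k D' (σ c)) (lam : D) (c : k)
    (h : lam - algebraMap k D c ∈ maximalIdeal D) :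
    τ lam - algebraMap k D' (σ c) ∈ maximalIdeal D' := by
  have := map_nonunit τ _ h
  rwa [map_sub, hτ] at this

/-- (e) in residue-field form. -/
theorem residue_map_eq (τ : D →+* D') [IsLocalHom τ] (σ : k →+* k)
    (hτ : ∀ c : k, τ (algebraMap k D c) = algebraMap k D' (σ c)) (lam : D) (c : k)
    (h : residue D lam = residue D (algebraMap k D c)) :
    residue D' (τ lam) = residue D' (algebraMap k D' (σ c)) := by
  rw [← sub_eq_zero, ← map_sub, residue_eq_zero_iff] at h ⊢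
  exact map_sub_algebraMap_mem_maximalIdeal τ σ hτ lam c h

/-- (e'') Frobenius form: if `τ` acts on the constants by `c ↦ c ^ n`, then
`(τ lam)(pt) = lam(pt) ^ n`. -/
theorem map_sub_algebraMap_pow_mem_maximalIdeal (τ : D →+* D') [IsLocalHom τ] (n : ℕ)
    (hτ : ∀ c : k, τ (algebraMap k D c) = algebraMap k D' (c ^ n)) (lam : D) (c : k)
    (h : lam - algebraMap k D c ∈ maximalIdeal D) :
    τ lam - algebraMap k D' (c ^ n) ∈ maximalIdeal D' := by
  have := map_nonunit τ _ h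
  rwa [map_sub, hτ] at this

/-- Units congruent to a constant: the ratio `τ lam / lam ^ n` of (e'') is congruent to `1`.
Stated multiplicatively without division: `τ lam - lam' ^ n ∈ 𝔪` when `lam` and `lam'` have the
same value `c` at the point (here `D' = D`). -/
theorem map_sub_pow_mem_maximalIdeal (τ : D →+* D) [IsLocalHom τ] (n : ℕ)
    (hτ : ∀ c : k, τ (algebraMap k D c) = algebraMap k D (c ^ n)) (lam : D) (c : k)
    (h : lam - algebraMap k D c ∈ maximalIdeal D) :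
    τ lam - lam ^ n ∈ maximalIdeal D := by
  have h1 := map_sub_algebraMap_pow_mem_maximalIdeal τ n hτ lam c h
  have h2 : lam ^ n - algebraMap k D (c ^ n) ∈ maximalIdeal D := by
    rw [map_pow]
    exact (sub_dvd_pow_sub_pow lam (algebraMap k D c) n).elim fun w hw => by
      rw [hw]; exact Ideal.mul_mem_right _ _ h
  have : τ lam - lam ^ n = (τ lam - algebraMap k D (c ^ n)) - (lam ^ n - algebraMap k D (c ^ n)) := by
    ring
  rw [this]; exact Ideal.sub_mem _ h1 h2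

/-- (e3) Unit form: for a unit `lam` of `D` with value in the constants, `τ lam = kap * lam ^ n`
with a unit `kap` congruent to `1` modulo the maximal ideal. -/
theorem exists_unit_map_eq_mul_pow (τ : D →+* D) [IsLocalHom τ] (n : ℕ)
    (hτ : ∀ c : k, τ (algebraMap k D c) = algebraMap k D (c ^ n)) (lam : Dˣ) (c : k)
    (h : (lam : D) - algebraMap k D c ∈ maximalIdeal D) :
    ∃ kap : Dˣ, τ lam = kap * (lam : D) ^ n ∧ (kap : D) - 1 ∈ maximalIdeal D := by
  have h1 := map_sub_pow_mem_maximalIdeal τ n hτ (lam : D) c h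
  refine ⟨Units.map τ.toMonoidHom lam * (lam ^ n)⁻¹, ?_, ?_⟩
  · simp only [Units.val_mul, Units.coe_map, RingHom.toMonoidHom_eq_coe, MonoidHom.coe_coe]
    rw [mul_assoc, ← Units.val_pow_eq_pow_val, Units.inv_mul, mul_one]
  · have : ((Units.map τ.toMonoidHom lam * (lam ^ n)⁻¹ : Dˣ) : D) - 1
        = (τ lam - (lam : D) ^ n) * ((lam ^ n)⁻¹ : Dˣ) := by
      simp only [Units.val_mul, Units.coe_map, RingHom.toMonoidHom_eq_coe, MonoidHom.coe_coe]
      rw [sub_mul, ← Units.val_pow_eq_pow_val, Units.mul_inv]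
    rw [this]
    exact Ideal.mul_mem_right _ _ h1

/-- (e3) with the hypothesis "the residue field is `k`". -/
theorem exists_unit_map_eq_mul_pow' (τ : D →+* D) [IsLocalHom τ] (n : ℕ)
    (hτ : ∀ c : k, τ (algebraMap k D c) = algebraMap k D (c ^ n))
    (hk : Function.Surjective fun c : k => residue D (algebraMap k D c)) (lam : Dˣ) :
    ∃ kap : Dˣ, τ lam = kap * (lam : D) ^ n ∧ (kap : D) - 1 ∈ maximalIdeal D := by
  obtain ⟨c, hc⟩ := hk (residue D lam)
  refine exists_unit_map_eq_mul_pow τ n hτ lam c ?_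
  rw [← residue_eq_zero_iff, map_sub, ← hc, sub_self]

end Evaluation

section Roots

variable {D κ : Type*} [CommRing D] [IsDomain D] [IsIntegrallyClosed D] [Field κ] [Algebra D κ]
  [IsFractionRing D κ]

/-- (f) In a normal domain, an element of the fraction field one of whose positive powers is a
unit of `D` is itself a unit of `D`. -/
theorem exists_unit_of_pow_eq_unit (m : ℕ) (hm : 0 < m) (lam : κ) (u : Dˣ)
    (h : lam ^ m = algebraMap D κ u) : ∃ v : Dˣ, algebraMap D κ v = lam := by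
  have hint : IsIntegral D (lam ^ m) := by rw [h]; exact isIntegral_algebraMap
  obtain ⟨y, hy⟩ := IsIntegrallyClosed.exists_algebraMap_eq_of_isIntegral_pow (R := D) hm hint
  have hu : algebraMap D κ (u : D) * algebraMap D κ ((u⁻¹ : Dˣ) : D) = 1 := by
    rw [← map_mul, Units.mul_inv, map_one]
  have hint' : IsIntegral D (lam⁻¹ ^ m) := by
    have : lam⁻¹ ^ m = algebraMap D κ ((u⁻¹ : Dˣ) : D) := by
      rw [inv_pow, h]
      exact inv_eq_of_mul_eq_one_right hu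
    rw [this]; exact isIntegral_algebraMap
  obtain ⟨y', hy'⟩ := IsIntegrallyClosed.exists_algebraMap_eq_of_isIntegral_pow (R := D) hm hint'
  have hlam : lam ≠ 0 := by
    rintro rfl
    rw [zero_pow hm.ne'] at h
    have : (u : D) = 0 := (IsFractionRing.injective D κ) (by rw [← h, map_zero])
    exact u.ne_zero this
  have hyy' : y * y' = 1 := by
    apply IsFractionRing.injective D κ
    rw [map_mul, hy, hy', map_one, mul_inv_cancel₀ hlam]
  exact ⟨⟨y, y', hyy', by rw [mul_comm]; exact hyy'⟩, hy⟩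

end Roots

end Fermat.Agent.CA.H42

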