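/-
helper42: algebraic Hartogs lemma (Mathlib only).

`B` a noetherian integrally closed domain with fraction field `K`.  If `x : K` is not in `B`,
then there is a prime `p` of height one such that `x ∉ B_p`.  Hence an element of `K` lying in
`B_p` for all height-one primes `p` lies in `B`, and an element with "trivial divisor" is a unit.

Also: a domain `B` with an element `π` such that `B ⧸ π` is reduced and `B[1/π]` is integrally
closed is integrally closed (normality of a flat model with reduced special fibre and normal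
generic fibre).
-/
import Mathlib

set_option autoImplicit false
set_option linter.unusedSectionVars false

namespace Fermat.Agent.CA.H42

open Ideal

section Hartogs

variable {B K : Type*} [CommRing B] [IsDomain B] [Field K] [Algebra B K] [IsFractionRing B K]

/-- The conductor ideal `(B : y) = {b | b y ∈ B}`. -/
def colonIdeal (B : Type*) [CommRing B] {K : Type*} [Field K] [Algebra B K] (y : K) : Ideal B where
  carrier := {b | algebraMap B K b * y ∈ Set.range (algebraMap B K)}
  add_mem' := by
    rintro a b ⟨a', ha⟩ ⟨b', hb⟩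
    exact ⟨a' + b', by rw [map_add, map_add, add_mul, ha, hb]⟩
  zero_mem' := ⟨0, by simp⟩
  smul_mem' := by
    rintro c a ⟨a', ha⟩
    exact ⟨c * a', by rw [smul_eq_mul, map_mul, map_mul, mul_assoc, ha]⟩

theorem mem_colonIdeal {y : K} {b : B} :
    b ∈ colonIdeal B y ↔ ∃ a : B, algebraMap B K a = algebraMap B K b * y := Iff.rfl

theorem one_mem_colonIdeal_iff {y : K} :
    (1 : B) ∈ colonIdeal B y ↔ y ∈ Set.range (algebraMap B K) := by
  rw [mem_colonIdeal]
  simp only [map_one, one_mul]
  rfl

theorem colonIdeal_ne_bot (y : K) : colonIdeal B y ≠ ⊥ := by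
  obtain ⟨a, s, hs, rfl⟩ := IsFractionRing.div_surjective (A := B) y
  have hs0 : s ≠ 0 := nonZeroDivisors.ne_zero hs
  intro h
  have : s ∈ colonIdeal B (algebraMap B K a / algebraMap B K s) := by
    refine ⟨a, ?_⟩
    have : algebraMap B K s ≠ 0 := by
      simpa using (IsFractionRing.injective B K).ne hs0
    field_simp
  rw [h] at this
  exact hs0 (by simpa using this)

/-- Key step: if `p = (B : y)` is prime and `y ∉ B`, with `B` noetherian integrally closed,
then `p` has height one. -/
theorem height_colonIdeal_eq_one [IsNoetherianRing B] [IsIntegrallyClosed B] {y : K}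
    (hy : y ∉ Set.range (algebraMap B K)) (hp : (colonIdeal B y).IsPrime) :
    (colonIdeal B y).height = 1 := by
  set p := colonIdeal B y with hpdef
  have hinj := IsFractionRing.injective B K
  -- multiplication by `y` maps `p` into `B`
  have hmul : ∀ b ∈ p, ∃ a : B, algebraMap B K a = algebraMap B K b * y := fun b hb => hb
  by_cases hcase : ∀ b ∈ p, ∀ a : B, algebraMap B K a = algebraMap B K b * y → a ∈ p
  · -- case (i): `y p ⊆ p`, so `y` is integral over `B`, contradiction
    exfalso
    let N : Submodule B K := Submodule.map (Algebra.linearMap B K) p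
    have hN : N ≠ ⊥ := by
      intro h
      apply colonIdeal_ne_bot (B := B) y
      rw [Submodule.eq_bot_iff]
      intro b hb
      have : algebraMap B K b ∈ N := ⟨b, hb, rfl⟩
      rw [h, Submodule.mem_bot] at this
      exact hinj (by simpa using this)
    have hN' : N.FG := (IsNoetherian.noetherian p).map _
    have hx : ∀ n ∈ N, y • n ∈ N := by
      rintro _ ⟨b, hb, rfl⟩
      obtain ⟨a, ha⟩ := hmul b hb
      refine ⟨a, hcase b hb a ha, ?_⟩
      simp only [Algebra.linearMap_apply, smul_eq_mul]
      rw [ha, mul_comm]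
    have hint : IsIntegral B y := isIntegral_of_smul_mem_submodule N hN hN' y hx
    exact hy (IsIntegrallyClosed.isIntegral_iff.mp hint)
  · -- case (ii): some `t ∈ p` with `u = t y ∈ B \\ p`; then `p` is minimal over `(t)`
    push Not at hcase
    obtain ⟨t, ht, u, hu, hup⟩ := hcase
    have hmin : p ∈ (Ideal.span {t}).minimalPrimes := by
      refine ⟨⟨hp, (Ideal.span_singleton_le_iff_mem _).mpr ht⟩, ?_⟩
      rintro q ⟨hq, htq⟩ hqp z hz
      -- `u z = t (z y)` lies in `q`, and `u ∉ q`
      obtain ⟨w, hw⟩ := hmul z hz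
      have huz : u * z = t * w := by
        apply hinj
        rw [map_mul, map_mul, hu, hw]
        ring
      have : u * z ∈ q := by
        rw [huz]
        exact q.mul_mem_right _ ((Ideal.span_singleton_le_iff_mem _).mp htq)
      rcases hq.mem_or_mem this with h | h
      · exact absurd (hqp h) hup
      · exact h
    have hle : p.height ≤ 1 :=
      Ideal.height_le_one_of_isPrincipal_of_mem_minimalPrimes (Ideal.span {t}) p hmin
    have hne : p ≠ ⊥ := colonIdeal_ne_bot y
    have hne0 : p.height ≠ 0 := fun h0 => hne (Ideal.height_eq_zero_iff_eq_bot.mp h0)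
    exact le_antisymm hle (Order.one_le_iff_pos.mpr (pos_iff_ne_zero.mpr hne0))

/-- For `x ∉ B` there is `c : B` with `c x ∉ B` and `(B : c x)` prime. -/
theorem exists_isPrime_colonIdeal [IsNoetherianRing B] {x : K}
    (hx : x ∉ Set.range (algebraMap B K)) :
    ∃ c : B, algebraMap B K c * x ∉ Set.range (algebraMap B K) ∧
      (colonIdeal B (algebraMap B K c * x)).IsPrime := by
  let 𝒮 : Set (Ideal B) := {I | ∃ c : B, algebraMap B K c * x ∉ Set.range (algebraMap B K) ∧
    I = colonIdeal B (algebraMap B K c * x)}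
  have hne : 𝒮.Nonempty := ⟨_, 1, by simpa using hx, rfl⟩
  obtain ⟨p, ⟨c, hc, rfl⟩, hmax⟩ := (wellFounded_gt (α := Ideal B)).has_min 𝒮 hne
  refine ⟨c, hc, ?_⟩
  set y := algebraMap B K c * x with hy
  rw [Ideal.isPrime_iff]
  refine ⟨?_, ?_⟩
  · rw [Ne, Ideal.eq_top_iff_one, one_mem_colonIdeal_iff]
    exact hc
  · intro a b hab
    by_contra hcon
    push Not at hcon
    obtain ⟨ha, hb⟩ := hcon
    -- `a y ∉ B`
    have hay : algebraMap B K (a * c) * x ∉ Set.range (algebraMap B K) := by
      rintro ⟨w, hw⟩
      apply ha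
      refine ⟨w, ?_⟩
      rw [hw, map_mul, hy]
      ring
    have hmem : colonIdeal B (algebraMap B K (a * c) * x) ∈ 𝒮 := ⟨a * c, hay, rfl⟩
    have hle : colonIdeal B y ≤ colonIdeal B (algebraMap B K (a * c) * x) := by
      rintro z ⟨w, hw⟩
      refine ⟨a * w, ?_⟩
      rw [map_mul, hw, map_mul, hy]
      ring
    have hbmem : b ∈ colonIdeal B (algebraMap B K (a * c) * x) := by
      obtain ⟨w, hw⟩ := hab
      refine ⟨w, ?_⟩
      rw [hw, map_mul, map_mul, hy]
      ring
    have hlt : colonIdeal B y < colonIdeal B (algebraMap B K (a * c) * x) :=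
      lt_of_le_of_ne hle (fun heq => hb (heq ▸ hbmem))
    exact hmax _ hmem hlt

/-- **Algebraic Hartogs lemma**, existence form: for `x ∉ B` there is a height-one prime `p`
with `x ∉ B_p`. -/
theorem exists_height_one_not_mem [IsNoetherianRing B] [IsIntegrallyClosed B] {x : K}
    (hx : x ∉ Set.range (algebraMap B K)) :
    ∃ p : Ideal B, p.IsPrime ∧ p.height = 1 ∧
      ∀ a b : B, b ∉ p → x * algebraMap B K b ≠ algebraMap B K a := by
  obtain ⟨c, hc, hprime⟩ := exists_isPrime_colonIdeal hx
  refine ⟨_, hprime, height_colonIdeal_eq_one hc hprime, ?_⟩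
  intro a b hb h
  apply hb
  refine ⟨c * a, ?_⟩
  rw [map_mul, ← h]
  ring

/-- **Algebraic Hartogs lemma**: an element of `K` lying in `B_p` for every height-one prime
`p` of the noetherian integrally closed domain `B` lies in `B`. -/
theorem mem_range_of_forall_height_one [IsNoetherianRing B] [IsIntegrallyClosed B] (x : K)
    (h : ∀ p : Ideal B, p.IsPrime → p.height = 1 →
      ∃ a b : B, b ∉ p ∧ x * algebraMap B K b = algebraMap B K a) :
    x ∈ Set.range (algebraMap B K) := by
  by_contra hx
  obtain ⟨p, hp, hp1, hne⟩ := exists_height_one_not_mem hx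
  obtain ⟨a, b, hb, hab⟩ := h p hp hp1
  exact hne a b hb hab

/-- An element with trivial divisor is a unit: if `x` and `x⁻¹` lie in `B_p` for all
height-one primes `p`, then `x` is the image of a unit of `B`. -/
theorem exists_unit_of_forall_height_one [IsNoetherianRing B] [IsIntegrallyClosed B] (x : K)
    (hx0 : x ≠ 0)
    (h : ∀ p : Ideal B, p.IsPrime → p.height = 1 →
      ∃ a b : B, a ∉ p ∧ b ∉ p ∧ x * algebraMap B K b = algebraMap B K a) :
    ∃ u : Bˣ, algebraMap B K u = x := by
  have h1 : x ∈ Set.range (algebraMap B K) :=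
    mem_range_of_forall_height_one x fun p hp hp1 => by
      obtain ⟨a, b, _, hb, hab⟩ := h p hp hp1
      exact ⟨a, b, hb, hab⟩
  have h2 : x⁻¹ ∈ Set.range (algebraMap B K) :=
    mem_range_of_forall_height_one x⁻¹ fun p hp hp1 => by
      obtain ⟨a, b, ha, _, hab⟩ := h p hp hp1
      refine ⟨b, a, ha, ?_⟩
      rw [← hab]
      field_simp
  obtain ⟨u, hu⟩ := h1
  obtain ⟨v, hv⟩ := h2
  have huv : u * v = 1 := by
    apply IsFractionRing.injective B K
    rw [map_mul, hu, hv, map_one, mul_inv_cancel₀ hx0]
  exact ⟨⟨u, v, huv, by rw [mul_comm]; exact huv⟩, hu⟩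

end Hartogs

/-! ## Normality from a reduced special fibre -/

section Reduced

open Polynomial

variable {B : Type*} [CommRing B] [IsDomain B]

omit [IsDomain B] in
/-- One step: if `B ⧸ π` is reduced, `z` is integral over `B` and `π z ∈ B`, then `z ∈ B`. -/
theorem mem_range_of_isIntegral_of_mul_mem {K : Type*} [Field K] [Algebra B K]
    [IsFractionRing B K] (π : B) (hπ : π ≠ 0)
    (hred : IsReduced (B ⧸ Ideal.span {π})) {z : K} (hz : IsIntegral B z) {y : B}
    (hy : algebraMap B K π * z = algebraMap B K y) :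
    z ∈ Set.range (algebraMap B K) := by
  obtain ⟨P, hP, hPz⟩ := hz
  have hPz' : aeval z P = 0 := hPz
  have hQ : aeval (algebraMap B K y) (P.scaleRoots π) = 0 := by
    rw [← hy]
    exact scaleRoots_aeval_eq_zero hPz'
  rw [aeval_algebraMap_apply] at hQ
  have hQ0 : aeval y (P.scaleRoots π) = 0 :=
    (IsFractionRing.injective B K) (by rw [hQ, map_zero])
  rw [coe_aeval_eq_eval, eval_eq_sum_range, natDegree_scaleRoots, Finset.sum_range_succ,
    coeff_scaleRoots_natDegree, hP.leadingCoeff, one_mul] at hQ0
  have hmem : y ^ P.natDegree ∈ Ideal.span {π} := by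
    have : y ^ P.natDegree = -∑ i ∈ Finset.range P.natDegree, (P.scaleRoots π).coeff i * y ^ i := by
      rw [eq_neg_iff_add_eq_zero, add_comm]
      exact hQ0
    rw [this]
    refine Ideal.neg_mem_iff _ |>.mpr (Ideal.sum_mem _ fun i hi => ?_)
    rw [Finset.mem_range] at hi
    rw [coeff_scaleRoots]
    have : P.natDegree - i = (P.natDegree - i - 1) + 1 := by omega
    rw [this, pow_succ]
    refine Ideal.mem_span_singleton'.mpr ⟨P.coeff i * π ^ (P.natDegree - i - 1) * y ^ i, ?_⟩
    ring
  have hnil : IsNilpotent (Ideal.Quotient.mk (Ideal.span {π}) y) :=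
    ⟨P.natDegree, by rw [← map_pow, Ideal.Quotient.eq_zero_iff_mem]; exact hmem⟩
  have hy0 : Ideal.Quotient.mk (Ideal.span {π}) y = 0 := hnil.eq_zero
  rw [Ideal.Quotient.eq_zero_iff_mem, Ideal.mem_span_singleton'] at hy0
  obtain ⟨b, hb⟩ := hy0
  refine ⟨b, ?_⟩
  have hπK : algebraMap B K π ≠ 0 := by
    rw [Ne, map_eq_zero_iff _ (IsFractionRing.injective B K)]
    exact hπ
  apply mul_left_cancel₀ hπK
  rw [hy, ← map_mul, mul_comm, hb]

/-- If `B ⧸ π` is reduced, `x` is integral over `B` and `π ^ n * x ∈ B`, then `x ∈ B`. -/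
theorem mem_range_of_isIntegral_of_pow_mul_mem {K : Type*} [Field K] [Algebra B K]
    [IsFractionRing B K] (π : B) (hπ : π ≠ 0)
    (hred : IsReduced (B ⧸ Ideal.span {π})) (n : ℕ) {x : K} (hx : IsIntegral B x) {y : B}
    (hy : algebraMap B K π ^ n * x = algebraMap B K y) :
    x ∈ Set.range (algebraMap B K) := by
  induction n generalizing y with
  | zero =>
    refine ⟨y, ?_⟩
    rw [← hy, pow_zero, one_mul]
  | succ n ih =>
    have hz : IsIntegral B (algebraMap B K π ^ n * x) :=
      (isIntegral_algebraMap.pow n).mul hx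
    have hy' : algebraMap B K π * (algebraMap B K π ^ n * x) = algebraMap B K y := by
      rw [← hy, pow_succ]
      ring
    obtain ⟨b, hb⟩ := mem_range_of_isIntegral_of_mul_mem π hπ hred hz hy'
    exact ih hb.symm

/-- If `B ⧸ π` is reduced and `B[1/π]` is integrally closed, then `B` is integrally closed. -/
theorem isIntegrallyClosed_of_isReduced_quotient (π : B) (hπ : π ≠ 0)
    (hred : IsReduced (B ⧸ Ideal.span {π}))
    (Bπ : Type*) [CommRing Bπ] [Algebra B Bπ] [IsLocalization.Away π Bπ]
    [IsDomain Bπ] [IsIntegrallyClosed Bπ] : IsIntegrallyClosed B := by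
  let K := FractionRing B
  have hπK : IsUnit (algebraMap B K π) := by
    apply IsUnit.mk0
    rw [Ne, map_eq_zero_iff _ (IsFractionRing.injective B K)]
    exact hπ
  let φ : Bπ →+* K := IsLocalization.Away.lift π hπK
  let _ : Algebra Bπ K := φ.toAlgebra
  have : IsScalarTower B Bπ K := IsScalarTower.of_algebraMap_eq fun b => by
    change algebraMap B K b = φ (algebraMap B Bπ b)
    rw [IsLocalization.Away.lift_eq]
  have : IsFractionRing Bπ K :=
    IsFractionRing.isFractionRing_of_isDomain_of_isLocalization (Submonoid.powers π) Bπ K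
  rw [isIntegrallyClosed_iff K]
  intro x hx
  have hx' : IsIntegral Bπ x := hx.tower_top
  obtain ⟨z, hz⟩ := (isIntegrallyClosed_iff K).mp (inferInstanceAs (IsIntegrallyClosed Bπ)) hx'
  obtain ⟨n, a, ha⟩ := IsLocalization.Away.surj π z
  have hy : algebraMap B K π ^ n * x = algebraMap B K a := by
    rw [← hz, IsScalarTower.algebraMap_apply B Bπ K, IsScalarTower.algebraMap_apply B Bπ K a,
      ← ha, map_mul, map_pow]
    ring
  exact mem_range_of_isIntegral_of_pow_mul_mem π hπ hred n hx hy

end Reduced

end Fermat.Agent.CA.H42
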