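/-
helper42: height-one primes of a noetherian integrally closed domain (Mathlib only, on top of
`H42_Hartogs`).

* the localisation at a height-one prime is a discrete valuation ring;
* height-one primes containing `π ≠ 0` are exactly the minimal primes over `(π)`;
* Hartogs relative to `π`: `B = B[1/π] ∩ ⋂_{p minimal over π} B_p`, and the unit criterion.
-/
import Fermat.Agent.CA.H42_Hartogs

set_option autoImplicit false

namespace Fermat.Agent.CA.H42

open Ideal

section KrullDvr

variable {B : Type*} [CommRing B] [IsDomain B]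

/-- In a noetherian integrally closed domain, the localisation at a height-one prime is a
discrete valuation ring. -/
theorem isDiscreteValuationRing_of_height_eq_one [IsNoetherianRing B] [IsIntegrallyClosed B]
    (p : Ideal B) [p.IsPrime] (hp : p.height = 1)
    (Bp : Type*) [CommRing Bp] [Algebra B Bp] [IsLocalization.AtPrime Bp p] [IsDomain Bp] :
    IsDiscreteValuationRing Bp := by
  have hloc : IsLocalRing Bp := IsLocalization.AtPrime.isLocalRing Bp p
  have hnoeth : IsNoetherianRing Bp := IsLocalization.isNoetherianRing p.primeCompl Bp inferInstance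
  have hic : IsIntegrallyClosed Bp :=
    isIntegrallyClosed_of_isLocalization Bp p.primeCompl p.primeCompl_le_nonZeroDivisors
  have hdim : ringKrullDim Bp = 1 := by
    rw [IsLocalization.AtPrime.ringKrullDim_eq_height p Bp, hp]; rfl
  have hmax : (IsLocalRing.maximalIdeal Bp).height = 1 := by
    have := IsLocalRing.maximalIdeal_height_eq_ringKrullDim (R := Bp)
    rw [hdim] at this
    exact_mod_cast this
  have hfield : ¬ IsField Bp := by
    intro h
    have := ringKrullDim_eq_zero_of_isField h
    rw [hdim] at this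
    exact one_ne_zero this
  have htfae := (IsDiscreteValuationRing.TFAE Bp hfield).out 0 3
  rw [htfae]
  refine ⟨hic, ?_⟩
  refine ⟨IsLocalRing.maximalIdeal Bp, ?_, ?_⟩
  · refine ⟨fun h => ?_, inferInstance⟩
    rw [h, Ideal.height_bot] at hmax
    exact zero_ne_one hmax
  · rintro P ⟨hP0, hP⟩
    have hle : P ≤ IsLocalRing.maximalIdeal Bp := IsLocalRing.le_maximalIdeal hP.ne_top
    refine Ideal.eq_of_le_of_height_le (I := P) hle ?_
    rw [hmax]
    refine Order.one_le_iff_pos.mpr (pos_iff_ne_zero.mpr fun h0 => hP0 ?_)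
    exact Ideal.height_eq_zero_iff_eq_bot.mp h0

/-- A height-one prime containing `π ≠ 0` is a minimal prime over `(π)`. -/
theorem mem_minimalPrimes_span_of_height_eq_one {π : B} (hπ : π ≠ 0)
    {p : Ideal B} [hp : p.IsPrime] (h1 : p.height = 1) (hπp : π ∈ p) :
    p ∈ (Ideal.span {π}).minimalPrimes := by
  have hfin : p.FiniteHeight := ⟨Or.inr (by rw [h1]; exact ENat.one_ne_top)⟩
  refine Ideal.mem_minimalPrimes_of_height_le ((Ideal.span_singleton_le_iff_mem _).mpr hπp) ?_
  rw [h1]
  refine Order.one_le_iff_pos.mpr (pos_iff_ne_zero.mpr fun h0 => hπ ?_)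
  have := Ideal.height_eq_zero_iff_eq_bot.mp h0
  simpa using this

/-- In a noetherian domain, a minimal prime over `(π)`, `π ≠ 0`, has height one. -/
theorem height_eq_one_of_mem_minimalPrimes_span [IsNoetherianRing B] {π : B} (hπ : π ≠ 0)
    {p : Ideal B} (hp : p ∈ (Ideal.span {π}).minimalPrimes) : p.height = 1 := by
  have hle : p.height ≤ 1 :=
    Ideal.height_le_one_of_isPrincipal_of_mem_minimalPrimes (Ideal.span {π}) p hp
  have hne : p ≠ ⊥ := by
    intro h
    have : π ∈ p := hp.1.2 (Ideal.mem_span_singleton_self π)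
    rw [h] at this
    exact hπ (by simpa using this)
  have hne0 : p.height ≠ 0 := fun h0 => hne (Ideal.height_eq_zero_iff_eq_bot.mp h0)
  exact le_antisymm hle (Order.one_le_iff_pos.mpr (pos_iff_ne_zero.mpr hne0))

/-- **Hartogs relative to `π`**: an element of `K` lying in `B_p` for every horizontal
height-one prime (`π ∉ p`) and every minimal prime over `(π)` lies in `B`. -/
theorem mem_range_of_forall_horizontal_of_forall_minimalPrimes [IsNoetherianRing B]
    [IsIntegrallyClosed B] {K : Type*} [Field K] [Algebra B K] [IsFractionRing B K]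
    {π : B} (hπ : π ≠ 0) (x : K)
    (hhor : ∀ p : Ideal B, p.IsPrime → p.height = 1 → π ∉ p →
      ∃ a b : B, b ∉ p ∧ x * algebraMap B K b = algebraMap B K a)
    (hvert : ∀ p ∈ (Ideal.span {π}).minimalPrimes,
      ∃ a b : B, b ∉ p ∧ x * algebraMap B K b = algebraMap B K a) :
    x ∈ Set.range (algebraMap B K) := by
  refine mem_range_of_forall_height_one x fun p hp h1 => ?_
  by_cases hπp : π ∈ p
  · exact hvert p (mem_minimalPrimes_span_of_height_eq_one (hp := hp) hπ h1 hπp)
  · exact hhor p hp h1 hπp

/-- **Hartogs relative to `π`**, generic-fibre form: an element of `B[1/π]` lying in `B_p` for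
every minimal prime `p` over `(π)` lies in `B`. -/
theorem mem_range_of_pow_mul_mem_of_forall_minimalPrimes [IsNoetherianRing B]
    [IsIntegrallyClosed B] {K : Type*} [Field K] [Algebra B K] [IsFractionRing B K]
    {π : B} (hπ : π ≠ 0) (x : K)
    (hgen : ∃ (n : ℕ) (a : B), x * algebraMap B K (π ^ n) = algebraMap B K a)
    (hvert : ∀ p ∈ (Ideal.span {π}).minimalPrimes,
      ∃ a b : B, b ∉ p ∧ x * algebraMap B K b = algebraMap B K a) :
    x ∈ Set.range (algebraMap B K) := by
  refine mem_range_of_forall_horizontal_of_forall_minimalPrimes hπ x (fun p hp _ hπp => ?_) hvert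
  obtain ⟨n, a, hna⟩ := hgen
  exact ⟨a, π ^ n, fun h => hπp (hp.mem_of_pow_mem n h), hna⟩

/-- Unit criterion relative to `π`: `x ≠ 0` with `x, x⁻¹ ∈ B[1/π]` and `x` a unit in `B_p` for
every minimal prime `p` over `(π)` is the image of a unit of `B`. -/
theorem exists_unit_of_pow_mul_mem_of_forall_minimalPrimes [IsNoetherianRing B]
    [IsIntegrallyClosed B] {K : Type*} [Field K] [Algebra B K] [IsFractionRing B K]
    {π : B} (hπ : π ≠ 0) (x : K) (hx0 : x ≠ 0)
    (hgen : ∃ (n : ℕ) (a : B), x * algebraMap B K (π ^ n) = algebraMap B K a)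
    (hgen' : ∃ (n : ℕ) (a : B), x⁻¹ * algebraMap B K (π ^ n) = algebraMap B K a)
    (hvert : ∀ p ∈ (Ideal.span {π}).minimalPrimes,
      ∃ a b : B, a ∉ p ∧ b ∉ p ∧ x * algebraMap B K b = algebraMap B K a) :
    ∃ u : Bˣ, algebraMap B K u = x := by
  have h1 : x ∈ Set.range (algebraMap B K) :=
    mem_range_of_pow_mul_mem_of_forall_minimalPrimes hπ x hgen fun p hp => by
      obtain ⟨a, b, _, hb, hab⟩ := hvert p hp
      exact ⟨a, b, hb, hab⟩
  have h2 : x⁻¹ ∈ Set.range (algebraMap B K) :=
    mem_range_of_pow_mul_mem_of_forall_minimalPrimes hπ x⁻¹ hgen' fun p hp => by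
      obtain ⟨a, b, ha, _, hab⟩ := hvert p hp
      refine ⟨b, a, ha, ?_⟩
      rw [← hab]
      field_simp
  obtain ⟨u, hu⟩ := h1
  obtain ⟨v, hv⟩ := h2
  have huv : u * v = 1 := by
    apply IsFractionRing.injective B K
    rw [map_mul, hu, hv, map_one, mul_inv_cancel₀ hx0]
  exact ⟨⟨u, v, huv, by rw [mul_comm]; exact huv⟩, hu⟩

end KrullDvr

end Fermat.Agent.CA.H42
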