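/-
helper42: reduction of norms (Mathlib only).

* `map_norm_eq_norm_map`: the norm of a finite free algebra commutes with a base ring hom once a
  basis is mapped to a basis (e.g. reduction modulo an ideal);
* `algebraNorm_prod`: the norm on a product algebra is the product of the norms;
* `algebraMap_norm_eq_pow_of_purelyInseparable`: for a purely inseparable extension `K2 / K` of
  degree `q = char K` (all `q`-th powers lie in `K`), `N(z) = z ^ q`;
* `exists_basis_map`: a basis of `W` over `O` maps to a basis of the special fibre;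
* `map_norm_eq_mul_pow`: for `W` finite free over `O`, with special fibre `W / ϖ W = K1 × K2`,
  `K1 = kO`, `K2 / kO` purely inseparable of degree `q`: `red (N u) = r1 u * (r2 u) ^ q`.
-/
import Mathlib

set_option autoImplicit false

namespace Fermat.Agent.CA.H42

open Module

section MapNorm

variable {O W O' W' : Type*} [CommRing O] [CommRing W] [Algebra O W] [CommRing O'] [CommRing W']
  [Algebra O' W']

/-- The norm commutes with a ring hom `r0 : O → O'`, `r : W → W'` mapping a basis to a basis. -/
theorem map_norm_eq_norm_map (r0 : O →+* O') (r : W →+* W')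
    (hr : ∀ o, r (algebraMap O W o) = algebraMap O' W' (r0 o))
    {ι : Type*} [Fintype ι] [DecidableEq ι] (b : Basis ι O W) (b' : Basis ι O' W')
    (hb : ∀ i, b' i = r (b i)) (u : W) :
    r0 (Algebra.norm O u) = Algebra.norm O' (r u) := by
  rw [Algebra.norm_eq_matrix_det b, Algebra.norm_eq_matrix_det b', RingHom.map_det]
  congr 1
  ext i j
  rw [RingHom.mapMatrix_apply, Matrix.map_apply, Algebra.leftMulMatrix_eq_repr_mul,
    Algebra.leftMulMatrix_eq_repr_mul]
  have h1 : r u * b' j = ∑ i, r0 (b.repr (u * b j) i) • b' i := by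
    rw [hb j, ← map_mul]
    conv_lhs => rw [← b.sum_repr (u * b j)]
    rw [map_sum]
    refine Finset.sum_congr rfl fun i _ => ?_
    rw [Algebra.smul_def, map_mul, hr, hb i, Algebra.smul_def]
  rw [h1, b'.repr_sum_self]

end MapNorm

section NormProd

variable {K K1 K2 : Type*} [CommRing K] [CommRing K1] [CommRing K2] [Algebra K K1] [Algebra K K2]
  [Module.Free K K1] [Module.Finite K K1] [Module.Free K K2] [Module.Finite K K2]

/-- The norm on a product algebra is the product of the norms. -/
theorem algebraNorm_prod (z1 : K1) (z2 : K2) :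
    Algebra.norm K ((z1, z2) : K1 × K2) = Algebra.norm K z1 * Algebra.norm K z2 := by
  rw [Algebra.norm_apply, Algebra.norm_apply, Algebra.norm_apply, ← LinearMap.det_prodMap]
  congr 1

end NormProd

section Insep

variable {K K2 : Type*} [Field K] [Field K2] [Algebra K K2] [FiniteDimensional K K2]

/-- For a purely inseparable extension of degree `q = char K` (every `q`-th power lies in `K`),
the norm is `z ↦ z ^ q`. -/
theorem algebraMap_norm_eq_pow_of_purelyInseparable (q : ℕ) [Fact q.Prime] [CharP K q]
    (hdeg : Module.finrank K K2 = q) (hpi : ∀ z : K2, ∃ c : K, algebraMap K K2 c = z ^ q)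
    (z : K2) : algebraMap K K2 (Algebra.norm K z) = z ^ q := by
  obtain ⟨c, hc⟩ := hpi z
  have h1 : Algebra.norm K z ^ q = c ^ q := by
    rw [← map_pow, ← hc, Algebra.norm_algebraMap, hdeg]
  have h2 : Algebra.norm K z = c := by
    have hinj := frobenius_inj K q
    apply hinj
    simpa [frobenius_def] using h1
  rw [h2, hc]

end Insep

section FibreBasis

variable {O W kO W' : Type*} [CommRing O] [CommRing W] [Algebra O W] [CommRing kO] [CommRing W']
  [Algebra kO W']

/-- A basis of `W` over `O` maps to a basis of the special fibre `W' = W / ϖ W` over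
`kO = O / ϖ`. -/
theorem exists_basis_map (red : O →+* kO) (hred : Function.Surjective red) (r : W →+* W')
    (hrs : Function.Surjective r)
    (hr : ∀ o, r (algebraMap O W o) = algebraMap kO W' (red o))
    (ϖ : O) (hϖ : red ϖ = 0) (hker : ∀ w, r w = 0 → ∃ w', w = ϖ • w')
    {ι : Type*} [Fintype ι] (b : Basis ι O W) :
    ∃ b' : Basis ι kO W', ∀ i, b' i = r (b i) := by
  classical
  have hsmul : ∀ (o : O) (w : W), r (o • w) = red o • r w := fun o w => by
    rw [Algebra.smul_def, map_mul, hr, Algebra.smul_def]
  have hli : LinearIndependent kO (fun i => r (b i)) := by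
    rw [Fintype.linearIndependent_iff]
    intro g hg i
    choose c hc using fun i => hred (g i)
    have h0 : r (∑ i, c i • b i) = 0 := by
      rw [map_sum, ← hg]
      refine Finset.sum_congr rfl fun i _ => ?_
      rw [hsmul, hc]
    obtain ⟨w', hw'⟩ := hker _ h0
    have h1 : ∑ i, c i • b i = ∑ i, (ϖ * b.repr w' i) • b i := by
      rw [hw']
      conv_lhs => rw [← b.sum_repr w', Finset.smul_sum]
      refine Finset.sum_congr rfl fun i _ => ?_
      rw [smul_smul]
    have h2 : c i = ϖ * b.repr w' i := by
      have := congrArg (fun x => b.repr x i) h1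
      simp only [b.repr_sum_self] at this
      exact this
    rw [← hc i, h2, map_mul, hϖ, zero_mul]
  have hsp : ⊤ ≤ Submodule.span kO (Set.range fun i => r (b i)) := by
    intro x _
    obtain ⟨w, rfl⟩ := hrs x
    rw [← b.sum_repr w, map_sum]
    refine Submodule.sum_mem _ fun i _ => ?_
    rw [hsmul]
    exact Submodule.smul_mem _ _ (Submodule.subset_span ⟨i, rfl⟩)
  exact ⟨Basis.mk hli hsp, fun i => Basis.mk_apply hli hsp i⟩

end FibreBasis

section Combined

variable {O W kO K1 K2 : Type*} [CommRing O] [CommRing W] [Algebra O W]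
  [Field kO] [Field K1] [Field K2] [Algebra kO K1] [Algebra kO K2] [FiniteDimensional kO K2]

/-- **Norm reduction on a two-component special fibre.**  `W` finite free over `O`, with
`W / ϖ W = K1 × K2`, where `K1 = kO = O / ϖ` and `K2 / kO` is purely inseparable of degree
`q = char kO`.  Then `red (N_{W/O} u) = r1 u * (r2 u) ^ q` (inside `K2`). -/
theorem map_norm_eq_mul_pow (red : O →+* kO) (hred : Function.Surjective red)
    (r1 : W →+* K1) (r2 : W →+* K2)
    (hr1 : ∀ o, r1 (algebraMap O W o) = algebraMap kO K1 (red o))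
    (hr2 : ∀ o, r2 (algebraMap O W o) = algebraMap kO K2 (red o))
    (hsurj : ∀ (x1 : K1) (x2 : K2), ∃ w, r1 w = x1 ∧ r2 w = x2)
    (ϖ : O) (hϖ : red ϖ = 0) (hker : ∀ w, r1 w = 0 → r2 w = 0 → ∃ w', w = ϖ • w')
    (hK1 : Function.Bijective (algebraMap kO K1))
    (q : ℕ) [Fact q.Prime] [CharP kO q] (hdeg : Module.finrank kO K2 = q)
    (hpi : ∀ z : K2, ∃ c : kO, algebraMap kO K2 c = z ^ q)
    {ι : Type*} [Fintype ι] (b : Basis ι O W) (u : W) (c1 : kO)
    (hc1 : algebraMap kO K1 c1 = r1 u) :
    algebraMap kO K2 (red (Algebra.norm O u)) = algebraMap kO K2 c1 * (r2 u) ^ q := by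
  classical
  have hfin1 : Module.Finite kO K1 :=
    Module.Finite.of_surjective (Algebra.linearMap kO K1) hK1.2
  have hrank1 : Module.finrank kO K1 = 1 := by
    have e : kO ≃ₗ[kO] K1 := LinearEquiv.ofBijective (Algebra.linearMap kO K1) hK1
    rw [← e.finrank_eq, Module.finrank_self]
  let r : W →+* K1 × K2 := r1.prod r2
  have hr : ∀ o, r (algebraMap O W o) = algebraMap kO (K1 × K2) (red o) := fun o => by
    show (r1 _, r2 _) = _
    rw [hr1, hr2]
    rfl
  have hrs : Function.Surjective r := fun x => by
    obtain ⟨w, h1, h2⟩ := hsurj x.1 x.2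
    exact ⟨w, Prod.ext h1 h2⟩
  have hker' : ∀ w, r w = 0 → ∃ w', w = ϖ • w' := fun w hw => by
    have h1 : r1 w = 0 := congrArg Prod.fst hw
    have h2 : r2 w = 0 := congrArg Prod.snd hw
    exact hker w h1 h2
  obtain ⟨b', hb'⟩ := exists_basis_map red hred r hrs hr ϖ hϖ hker' b
  have h1 := map_norm_eq_norm_map red r hr b b' hb' u
  have h2 : Algebra.norm kO (r u) = Algebra.norm kO (r1 u) * Algebra.norm kO (r2 u) :=
    algebraNorm_prod (r1 u) (r2 u)
  have h3 : Algebra.norm kO (r1 u) = c1 := by
    rw [← hc1, Algebra.norm_algebraMap, hrank1, pow_one]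
  rw [h1, h2, h3, map_mul, algebraMap_norm_eq_pow_of_purelyInseparable q hdeg hpi]

end Combined

end Fermat.Agent.CA.H42
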