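/-
Generic commutative algebra (Mathlib only): the *triple-point unit lemma*.

Let `O` be a local ring and `P₁ P₂ P₃` three proper ideals ("branches through the closed
point") such that `P₁`, `P₂` are transversal (`𝔪 ≤ P₁ ⊔ P₂`) and the third branch sees
`P₁ ⊓ P₂` as the square of the maximal ideal (`𝔪² ≤ (P₁ ⊓ P₂) ⊔ P₃`; e.g. three pairwise
transversal lines `s = 0`, `θ = 0`, `s + θ v = 0` in a two-dimensional regular local ring with
parameters `s, θ`).  Let `m` be a natural number invertible in `O`.  If three units `a₁ a₂ a₃`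
have the same value at the closed point and their `m`-th powers are the branch values of ONE
element `η` of `O`, then `a₁ a₂ a₃` are the branch values of ONE unit `Λ` of `O`.

(The obstruction group "compatible triples of branch units modulo units of `O`" is `(k, +)`,
which has no `m`-torsion.)  No regularity, primality or noetherian hypothesis is needed.

Two-branch version: `CA/H42_FibreUnits.lean`.
-/
import Mathlib

namespace Fermat.Agent.CA.H42

open IsLocalRing

/-- `(1 + x) ^ m = 1 + m x + x² r` for some `r`. -/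
theorem exists_one_add_pow_eq_add_sq_mul {O : Type*} [CommRing O] (x : O) (m : ℕ) :
    ∃ r : O, (1 + x) ^ m = 1 + (m : O) * x + x ^ 2 * r := by
  induction m with
  | zero => exact ⟨0, by simp⟩
  | succ m ih =>
    obtain ⟨r, hr⟩ := ih
    refine ⟨(m : O) + r + r * x, ?_⟩
    rw [pow_succ, hr]
    push_cast
    ring

/-- Congruent elements have congruent powers. -/
theorem pow_sub_pow_mem_of_sub_mem {O : Type*} [CommRing O] (P : Ideal O) {a b : O}
    (h : a - b ∈ P) (m : ℕ) : a ^ m - b ^ m ∈ P := by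
  obtain ⟨k, hk⟩ := sub_dvd_pow_sub_pow a b m
  rw [hk]
  exact P.mul_mem_right _ h

section Triple

variable {O : Type*} [CommRing O] [IsLocalRing O]

/-- In a local ring, a unit minus an element of the maximal ideal is a unit. -/
theorem isUnit_sub_of_mem_maximalIdeal {a i : O} (ha : IsUnit a) (hi : i ∈ maximalIdeal O) :
    IsUnit (a - i) := by
  by_contra hb
  have hb' : a - i ∈ maximalIdeal O := (mem_maximalIdeal _).2 hb
  have : a ∈ maximalIdeal O := by
    have := (maximalIdeal O).add_mem hb' hi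
    simpa using this
  exact ((mem_maximalIdeal _).1 this) ha

/-- **Triple-point unit lemma**, ideal form.  See the file header. -/
theorem exists_unit_lift_triple (P₁ P₂ P₃ : Ideal O) (hP₁ : P₁ ≠ ⊤) (hP₂ : P₂ ≠ ⊤)
    (h12 : maximalIdeal O ≤ P₁ ⊔ P₂)
    (hsq : maximalIdeal O ^ 2 ≤ (P₁ ⊓ P₂) ⊔ P₃)
    (m : ℕ) (hm : IsUnit (m : O))
    (a₁ a₂ a₃ η : O) (ha₁ : IsUnit a₁)
    (h12' : a₁ - a₂ ∈ maximalIdeal O) (h13 : a₁ - a₃ ∈ maximalIdeal O)
    (h₁ : η - a₁ ^ m ∈ P₁) (h₂ : η - a₂ ^ m ∈ P₂) (h₃ : η - a₃ ^ m ∈ P₃) :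
    ∃ Λ : Oˣ, (Λ : O) - a₁ ∈ P₁ ∧ (Λ : O) - a₂ ∈ P₂ ∧ (Λ : O) - a₃ ∈ P₃ := by
  have hP₁m : P₁ ≤ maximalIdeal O := le_maximalIdeal hP₁
  have hP₂m : P₂ ≤ maximalIdeal O := le_maximalIdeal hP₂
  -- Step 1: glue `a₁` and `a₂` along the transversal pair.
  obtain ⟨i₁, hi₁, i₂, hi₂, hsum⟩ := Submodule.mem_sup.1 (h12 h12')
  have hbunit : IsUnit (a₁ - i₁) := isUnit_sub_of_mem_maximalIdeal ha₁ (hP₁m hi₁)
  obtain ⟨bu, hbu⟩ := hbunit
  set b : O := a₁ - i₁ with hb
  have hb₁ : b - a₁ ∈ P₁ := by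
    have : b - a₁ = -i₁ := by rw [hb]; ring
    rw [this]; exact P₁.neg_mem hi₁
  have hb₂ : b - a₂ ∈ P₂ := by
    have : b - a₂ = i₂ := by
      rw [hb]
      have h' : a₁ - a₂ = i₁ + i₂ := hsum.symm
      linear_combination h'
    rw [this]; exact hi₂
  -- the inverse of `b`
  set c : O := ((bu⁻¹ : Oˣ) : O) with hc
  have hbc : b * c = 1 := by rw [← hbu, hc]; exact bu.mul_inv
  have hbcm : b ^ m * c ^ m = 1 := by rw [← mul_pow, hbc, one_pow]
  -- Step 2: normalise.  `x := a₃ / b - 1` lies in the maximal ideal.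
  set x : O := a₃ * c - 1 with hx
  have hxm : x ∈ maximalIdeal O := by
    have : x = (a₃ - b) * c := by rw [hx]; linear_combination hbc
    rw [this]
    refine (maximalIdeal O).mul_mem_right _ ?_
    have : a₃ - b = -(a₁ - a₃) + i₁ := by rw [hb]; ring
    rw [this]
    exact (maximalIdeal O).add_mem ((maximalIdeal O).neg_mem h13) (hP₁m hi₁)
  -- `η / b^m - 1 ∈ P₁ ⊓ P₂`
  have hη12 : η * c ^ m - 1 ∈ P₁ ⊓ P₂ := by
    have hform : η * c ^ m - 1 = (η - b ^ m) * c ^ m := by linear_combination hbcm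
    rw [hform]
    refine ⟨P₁.mul_mem_right _ ?_, P₂.mul_mem_right _ ?_⟩
    · have : η - b ^ m = (η - a₁ ^ m) - (b ^ m - a₁ ^ m) := by ring
      rw [this]
      exact P₁.sub_mem h₁ (pow_sub_pow_mem_of_sub_mem P₁ hb₁ m)
    · have : η - b ^ m = (η - a₂ ^ m) - (b ^ m - a₂ ^ m) := by ring
      rw [this]
      exact P₂.sub_mem h₂ (pow_sub_pow_mem_of_sub_mem P₂ hb₂ m)
  -- `η / b^m - (a₃/b)^m ∈ P₃`
  have hη3 : η * c ^ m - (1 + x) ^ m ∈ P₃ := by
    have : η * c ^ m - (1 + x) ^ m = (η - a₃ ^ m) * c ^ m := by rw [hx]; ring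
    rw [this]
    exact P₃.mul_mem_right _ h₃
  -- Step 3: the first-order term of `x` vanishes on the third branch.
  obtain ⟨r, hr⟩ := exists_one_add_pow_eq_add_sq_mul x m
  have hmx : (m : O) * x ∈ (P₁ ⊓ P₂) ⊔ P₃ := by
    have hform : (m : O) * x
        = (η * c ^ m - 1) - (η * c ^ m - (1 + x) ^ m) - x ^ 2 * r := by
      rw [hr]; ring
    rw [hform]
    refine Ideal.sub_mem _ (Ideal.sub_mem _ (Ideal.mem_sup_left hη12) (Ideal.mem_sup_right hη3)) ?_
    exact Ideal.mul_mem_right _ _ (hsq (Ideal.pow_mem_pow hxm 2))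
  have hx3 : x ∈ (P₁ ⊓ P₂) ⊔ P₃ := by
    obtain ⟨mu, hmu⟩ := hm
    have : x = ((mu⁻¹ : Oˣ) : O) * ((m : O) * x) := by
      rw [← hmu, ← mul_assoc, Units.inv_mul, one_mul]
    rw [this]
    exact Ideal.mul_mem_left _ _ hmx
  obtain ⟨w, hw, p₃, hp₃, hwx⟩ := Submodule.mem_sup.1 hx3
  -- Step 4: `Λ := b (1 + w)`.
  have hwunit : IsUnit (1 + w) := by
    have : (1 : O) + w = 1 - (-w) := by ring
    rw [this]
    exact isUnit_sub_of_mem_maximalIdeal isUnit_one ((maximalIdeal O).neg_mem (hP₁m hw.1))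
  obtain ⟨wu, hwu⟩ := hwunit
  refine ⟨bu * wu, ?_, ?_, ?_⟩
  · have : ((bu * wu : Oˣ) : O) - a₁ = (b - a₁) + b * w := by
      rw [Units.val_mul, hbu, hwu]; ring
    rw [this]
    exact P₁.add_mem hb₁ (P₁.mul_mem_left _ hw.1)
  · have : ((bu * wu : Oˣ) : O) - a₂ = (b - a₂) + b * w := by
      rw [Units.val_mul, hbu, hwu]; ring
    rw [this]
    exact P₂.add_mem hb₂ (P₂.mul_mem_left _ hw.2)
  · have : ((bu * wu : Oˣ) : O) - a₃ = -(b * p₃) := by
      rw [Units.val_mul, hbu, hwu]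
      have h1 : a₃ = b * (1 + x) := by
        rw [hx]; linear_combination (-a₃) * hbc
      have h2 : x = w + p₃ := hwx.symm
      rw [h1, h2]; ring
    rw [this]
    exact P₃.neg_mem (P₃.mul_mem_left _ hp₃)

/-- **Triple-point unit lemma**, coordinate form: three pairwise transversal lines
`s = 0`, `θ = 0`, `s + θ v = 0` (`v` a unit) through the closed point of a local ring whose
maximal ideal is generated by `s, θ`. -/
theorem exists_unit_lift_triple_of_coords (s θ v : O)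
    (hs : s ∈ maximalIdeal O) (hθ : θ ∈ maximalIdeal O) (hv : IsUnit v)
    (hgen : maximalIdeal O ≤ Ideal.span {s, θ})
    (m : ℕ) (hm : IsUnit (m : O))
    (a₁ a₂ a₃ η : O) (ha₁ : IsUnit a₁)
    (h12' : a₁ - a₂ ∈ maximalIdeal O) (h13 : a₁ - a₃ ∈ maximalIdeal O)
    (h₁ : η - a₁ ^ m ∈ Ideal.span {s}) (h₂ : η - a₂ ^ m ∈ Ideal.span {θ})
    (h₃ : η - a₃ ^ m ∈ Ideal.span {s + θ * v}) :
    ∃ Λ : Oˣ, (Λ : O) - a₁ ∈ Ideal.span {s} ∧ (Λ : O) - a₂ ∈ Ideal.span {θ} ∧
      (Λ : O) - a₃ ∈ Ideal.span {s + θ * v} := by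
  have hne : ∀ t : O, t ∈ maximalIdeal O → Ideal.span {t} ≠ ⊤ := by
    intro t ht htop
    have h1 : (1 : O) ∈ Ideal.span {t} := by rw [htop]; exact Submodule.mem_top
    have : Ideal.span {t} ≤ maximalIdeal O := (Ideal.span_singleton_le_iff_mem _).2 ht
    exact (Ideal.ne_top_iff_one _).1 (Ideal.IsMaximal.ne_top inferInstance) (this h1)
  refine exists_unit_lift_triple (Ideal.span {s}) (Ideal.span {θ}) (Ideal.span {s + θ * v})
    (hne s hs) (hne θ hθ) ?_ ?_ m hm a₁ a₂ a₃ η ha₁ h12' h13 h₁ h₂ h₃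
  · rw [← Ideal.span_insert]; exact hgen
  · obtain ⟨vu, hvu⟩ := hv
    have hsθ : s * θ ∈ Ideal.span {s} ⊓ Ideal.span {θ} :=
      ⟨Ideal.mul_mem_right _ _ (Ideal.mem_span_singleton_self s),
        Ideal.mul_mem_left _ _ (Ideal.mem_span_singleton_self θ)⟩
    have hl : s + θ * v ∈ Ideal.span {s + θ * v} := Ideal.mem_span_singleton_self _
    have hss : s * s ∈ (Ideal.span {s} ⊓ Ideal.span {θ}) ⊔ Ideal.span {s + θ * v} := by
      have : s * s = -(v * (s * θ)) + s * (s + θ * v) := by ring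
      rw [this]
      exact Ideal.add_mem _ (Ideal.mem_sup_left (neg_mem (Ideal.mul_mem_left _ _ hsθ)))
        (Ideal.mem_sup_right (Ideal.mul_mem_left _ _ hl))
    have hθθ : θ * θ ∈ (Ideal.span {s} ⊓ Ideal.span {θ}) ⊔ Ideal.span {s + θ * v} := by
      have : θ * θ = -(((vu⁻¹ : Oˣ) : O) * (s * θ)) + (((vu⁻¹ : Oˣ) : O) * θ) * (s + θ * v) := by
        have hvv : ((vu⁻¹ : Oˣ) : O) * v = 1 := by rw [← hvu]; exact vu.inv_mul
        linear_combination (-(θ * θ)) * hvv
      rw [this]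
      exact Ideal.add_mem _ (Ideal.mem_sup_left (neg_mem (Ideal.mul_mem_left _ _ hsθ)))
        (Ideal.mem_sup_right (Ideal.mul_mem_left _ _ hl))
    have hsθ' : s * θ ∈ (Ideal.span {s} ⊓ Ideal.span {θ}) ⊔ Ideal.span {s + θ * v} :=
      Ideal.mem_sup_left hsθ
    calc maximalIdeal O ^ 2 ≤ Ideal.span {s, θ} ^ 2 := Ideal.pow_right_mono hgen 2
      _ = Ideal.span {s * s, s * θ, θ * s, θ * θ} := by
          rw [pow_two, Ideal.span_pair_mul_span_pair]
      _ ≤ _ := by
          rw [Ideal.span_le]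
          rintro y hy
          simp only [Set.mem_insert_iff, Set.mem_singleton_iff] at hy
          rcases hy with rfl | rfl | rfl | rfl
          · exact hss
          · exact hsθ'
          · rw [mul_comm θ s]; exact hsθ'
          · exact hθθ

end Triple

end Fermat.Agent.CA.H42
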