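import Mathlib

/-!
# CA / H49_DerivDVRZero (helper49): derivations and discrete valuation rings, residue char. 0

S36 rows (Der-3) + (Der-4) of helper78's Coordination Note 3.  Mathlib only, generic.

Setting: `K ⊆ F` fields of characteristic `0`, `del : Derivation K F F`, `O : Subring F` a
"local subring with principal maximal ideal `(π)` containing the constants, with residue field
algebraic over `K`".  All of this is spelled by elementary membership hypotheses, so that the
statements can be instantiated at `ValuationSubring`s, at `MemAt`-style predicates or at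
localisations alike:

* `hK   : ∀ c : K, algebraMap K F c ∈ O`                      (constants)
* `hπ1  : ∀ y ∈ O, π * y ≠ 1`                                  (`π` is not a unit)
* `hloc : ∀ x ∈ O, (∃ y ∈ O, x = π * y) ∨ x⁻¹ ∈ O`            (local, maximal ideal `π O`)
* `halg : ∀ x ∈ O, ∃ p : K[X], p ≠ 0 ∧ ∃ z ∈ O, aeval x p = π * z`  (residue field algebraic)

Main results:

* `exists_poly_unit_derivative` : for `x ∈ O` there is `μ ∈ K[X]` with `μ(x) ∈ π O` and
  `μ'(x)` a unit of `O` (a polynomial of minimal degree killing the residue of `x`; char. `0`).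
* `derivation_mem_of_pow_mul_mem` **(Der-3)** : if `del π ∈ O` and the poles of `del` on `O` are
  bounded (`π ^ N * del x ∈ O` for all `x ∈ O`), then `del O ⊆ O`.
* `inv_derivation_uniformiser_mem` **(Der-4)** : if `del O ⊆ O` and `del s` is a unit of `O`
  for some `s ∈ O` (e.g. `del s = 1`), then `del π` is a unit of `O`.
* `derivation_zpow_mul_unit` **(Der-4, valuations)** : `del (π ^ n * w) = π ^ (n - 1) * w'` with
  `w'` a unit of `O`, for `n : ℤ`, `n ≠ 0`, `w` a unit of `O`; and `derivation_unit_mem` for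
  `n = 0`.
* `ValuationSubring` wrappers: `derivation_mem_valuationSubring`,
  `derivation_uniformiser_isUnit_valuationSubring`, `valuation_derivation_mul_eq`.
-/

set_option autoImplicit false

namespace Fermat.Agent.CA.H49

open Polynomial

section Core

variable {K F : Type*} [Field K] [Field F] [Algebra K F]

/-- `p(x) ∈ O` for `x ∈ O` when the constants lie in `O`. -/
theorem aeval_mem (O : Subring F) (hK : ∀ c : K, algebraMap K F c ∈ O) {x : F} (hx : x ∈ O)
    (p : K[X]) : aeval x p ∈ O := by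
  induction p using Polynomial.induction_on' with
  | add p q hp hq => rw [map_add]; exact O.add_mem hp hq
  | monomial n a =>
    rw [aeval_monomial]
    exact O.mul_mem (hK a) (O.pow_mem hx n)

/-- A unit of `O` is not in `π O` when `π` is not a unit. -/
theorem not_mem_span_of_inv_mem (O : Subring F) {π : F} (hπ1 : ∀ y ∈ O, π * y ≠ 1) {u : F}
    (hu0 : u ≠ 0) (hu : u⁻¹ ∈ O) : ¬ ∃ y ∈ O, u = π * y := by
  rintro ⟨y, hy, rfl⟩
  refine hπ1 (y * (π * y)⁻¹) (O.mul_mem hy hu) ?_
  rw [← mul_assoc, mul_inv_cancel₀ hu0]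

variable [CharZero K]

/-- **A polynomial with unit derivative.**  For `x ∈ O` whose residue is algebraic over `K`
there is `μ ∈ K[X]` with `μ(x) ∈ π O` and `μ'(x)` a unit of `O`. -/
theorem exists_poly_unit_derivative (O : Subring F) {π : F}
    (hK : ∀ c : K, algebraMap K F c ∈ O) (hπ1 : ∀ y ∈ O, π * y ≠ 1)
    (hloc : ∀ x ∈ O, (∃ y ∈ O, x = π * y) ∨ x⁻¹ ∈ O) {x : F} (hx : x ∈ O)
    (halg : ∃ p : K[X], p ≠ 0 ∧ ∃ z ∈ O, aeval x p = π * z) :
    ∃ μ : K[X], (∃ z ∈ O, aeval x μ = π * z) ∧ aeval x (derivative μ) ≠ 0 ∧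
      (aeval x (derivative μ))⁻¹ ∈ O := by
  obtain ⟨p, hp0, hp⟩ := halg
  -- strong induction on the degree
  induction hd : p.natDegree using Nat.strong_induction_on generalizing p with
  | _ d ih =>
    by_cases hder : ∃ y ∈ O, aeval x (derivative p) = π * y
    · -- the derivative also kills the residue: it is nonzero of smaller degree
      have hdpos : 0 < p.natDegree := by
        rcases Nat.eq_zero_or_pos p.natDegree with h0 | h0
        · exfalso
          rw [Polynomial.eq_C_of_natDegree_eq_zero h0] at hp hp0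
          obtain ⟨z, hz, hpz⟩ := hp
          rw [aeval_C] at hpz
          have hc0 : p.coeff 0 ≠ 0 := fun h => hp0 (by rw [h, map_zero])
          have hc0F : algebraMap K F (p.coeff 0) ≠ 0 := by
            simpa using (algebraMap K F).injective.ne hc0
          refine hπ1 (z * algebraMap K F (p.coeff 0)⁻¹) (O.mul_mem hz (hK _)) ?_
          rw [← mul_assoc, ← hpz, ← map_mul, mul_inv_cancel₀ hc0, map_one]
        · exact h0
      have hder0 : derivative p ≠ 0 := by
        intro h
        have := Polynomial.derivative_eq_zero.mp h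
        omega
      have hlt : (derivative p).natDegree < d := by
        rw [← hd]
        exact Polynomial.natDegree_derivative_lt hdpos.ne'
      exact ih _ hlt (derivative p) hder0 hder rfl
    · refine ⟨p, hp, ?_, ?_⟩
      · intro h0
        exact hder ⟨0, O.zero_mem, by rw [h0, mul_zero]⟩
      · rcases hloc _ (aeval_mem O hK hx (derivative p)) with h | h
        · exact absurd h hder
        · exact h

/-- **(Der-3).**  `K ⊆ F` fields of characteristic `0`, `O` a local subring of `F` containing `K`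
with maximal ideal `π O` and residue field algebraic over `K`.  A `K`-derivation `del` of `F`
with `del π ∈ O` and bounded poles on `O` maps `O` into `O`. -/
theorem derivation_mem_of_pow_mul_mem (del : Derivation K F F) (O : Subring F) {π : F}
    (hπ : π ∈ O) (hdelπ : del π ∈ O)
    (hK : ∀ c : K, algebraMap K F c ∈ O) (hπ1 : ∀ y ∈ O, π * y ≠ 1)
    (hloc : ∀ x ∈ O, (∃ y ∈ O, x = π * y) ∨ x⁻¹ ∈ O)
    (halg : ∀ x ∈ O, ∃ p : K[X], p ≠ 0 ∧ ∃ z ∈ O, aeval x p = π * z)
    (N : ℕ) (hN : ∀ x ∈ O, π ^ N * del x ∈ O) : ∀ x ∈ O, del x ∈ O := by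
  induction N with
  | zero => intro x hx; simpa using hN x hx
  | succ n ih =>
    apply ih
    intro x hx
    obtain ⟨μ, ⟨z, hz, hμz⟩, hu0, hu⟩ := exists_poly_unit_derivative O hK hπ1 hloc hx (halg x hx)
    -- differentiate `μ(x) = π z`
    have h1 : del (aeval x μ) = aeval x (derivative μ) * del x := by
      rw [Derivation.comp_aeval_eq, smul_eq_mul]
    have h2 : del (π * z) = π * del z + z * del π := by
      rw [Derivation.leibniz, smul_eq_mul, smul_eq_mul]
    have h3 : del x = (aeval x (derivative μ))⁻¹ * (π * del z + z * del π) := by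
      rw [← h2, ← hμz, h1, ← mul_assoc, inv_mul_cancel₀ hu0, one_mul]
    have h4 : π ^ n * del x =
        (aeval x (derivative μ))⁻¹ * (π ^ (n + 1) * del z + π ^ n * (z * del π)) := by
      rw [h3, pow_succ]; ring
    rw [h4]
    exact O.mul_mem hu
      (O.add_mem (hN z hz) (O.mul_mem (O.pow_mem hπ n) (O.mul_mem hz hdelπ)))

/-- **(Der-4), unit derivation.**  If `del` preserves `O` and `del s` is a unit of `O` for some
`s ∈ O`, then `del π` is a unit of `O`: it is nonzero and its inverse lies in `O`. -/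
theorem inv_derivation_uniformiser_mem (del : Derivation K F F) (O : Subring F) {π s : F}
    (hK : ∀ c : K, algebraMap K F c ∈ O) (hπ1 : ∀ y ∈ O, π * y ≠ 1)
    (hloc : ∀ x ∈ O, (∃ y ∈ O, x = π * y) ∨ x⁻¹ ∈ O)
    (halg : ∀ x ∈ O, ∃ p : K[X], p ≠ 0 ∧ ∃ z ∈ O, aeval x p = π * z)
    (hdel : ∀ x ∈ O, del x ∈ O) (hs : s ∈ O) (hds0 : del s ≠ 0) (hds : (del s)⁻¹ ∈ O)
    (hπ : π ∈ O) : del π ≠ 0 ∧ (del π)⁻¹ ∈ O := by
  obtain ⟨μ, ⟨z, hz, hμz⟩, hu0, hu⟩ := exists_poly_unit_derivative O hK hπ1 hloc hs (halg s hs)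
  have h1 : del (aeval s μ) = aeval s (derivative μ) * del s := by
    rw [Derivation.comp_aeval_eq, smul_eq_mul]
  have h2 : del (π * z) = π * del z + z * del π := by
    rw [Derivation.leibniz, smul_eq_mul, smul_eq_mul]
  have hkey : aeval s (derivative μ) * del s = π * del z + z * del π := by
    rw [← h1, hμz, h2]
  -- the left side is a unit of `O`
  have hunit0 : aeval s (derivative μ) * del s ≠ 0 := mul_ne_zero hu0 hds0
  have hunit : (aeval s (derivative μ) * del s)⁻¹ ∈ O := by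
    rw [mul_inv]; exact O.mul_mem hu hds
  have hnot : ¬ ∃ y ∈ O, del π = π * y := by
    rintro ⟨y, hy, hyπ⟩
    refine not_mem_span_of_inv_mem O hπ1 hunit0 hunit ⟨del z + z * y, ?_, ?_⟩
    · exact O.add_mem (hdel z hz) (O.mul_mem hz hy)
    · rw [hkey, hyπ]; ring
  refine ⟨fun h0 => hnot ⟨0, O.zero_mem, by rw [h0, mul_zero]⟩, ?_⟩
  rcases hloc _ (hdel π hπ) with h | h
  · exact absurd h hnot
  · exact h

/-- `del s = 1` form of **(Der-4)**. -/
theorem inv_derivation_uniformiser_mem_of_eq_one (del : Derivation K F F) (O : Subring F)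
    {π s : F} (hK : ∀ c : K, algebraMap K F c ∈ O) (hπ1 : ∀ y ∈ O, π * y ≠ 1)
    (hloc : ∀ x ∈ O, (∃ y ∈ O, x = π * y) ∨ x⁻¹ ∈ O)
    (halg : ∀ x ∈ O, ∃ p : K[X], p ≠ 0 ∧ ∃ z ∈ O, aeval x p = π * z)
    (hdel : ∀ x ∈ O, del x ∈ O) (hs : s ∈ O) (hds : del s = 1) (hπ : π ∈ O) :
    del π ≠ 0 ∧ (del π)⁻¹ ∈ O :=
  inv_derivation_uniformiser_mem del O hK hπ1 hloc halg hdel hs (by rw [hds]; exact one_ne_zero)
    (by rw [hds, inv_one]; exact O.one_mem) hπ

/-- A unit plus an element of `π O` is a unit. -/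
theorem inv_add_mem (O : Subring F) {π : F} (hπ1 : ∀ y ∈ O, π * y ≠ 1)
    (hloc : ∀ x ∈ O, (∃ y ∈ O, x = π * y) ∨ x⁻¹ ∈ O) (hπ : π ∈ O) {u y : F}
    (hu : u ∈ O) (hu0 : u ≠ 0) (hui : u⁻¹ ∈ O) (hy : y ∈ O) :
    u + π * y ≠ 0 ∧ (u + π * y)⁻¹ ∈ O := by
  have hnot : ¬ ∃ y' ∈ O, u + π * y = π * y' := by
    rintro ⟨y', hy', h⟩
    refine not_mem_span_of_inv_mem O hπ1 hu0 hui ⟨y' - y, O.sub_mem hy' hy, ?_⟩
    rw [mul_sub, ← h]; ring
  refine ⟨fun h0 => hnot ⟨0, O.zero_mem, by rw [h0, mul_zero]⟩, ?_⟩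
  rcases hloc _ (O.add_mem hu (O.mul_mem hπ hy)) with h | h
  · exact absurd h hnot
  · exact h

/-- **(Der-4), valuations.**  If `del` preserves `O` and `del π` is a unit of `O`, then for
`n : ℤ`, `n ≠ 0`, and a unit `w` of `O`:  `del (π ^ n * w) = π ^ (n - 1) * w'` with `w'` a unit
of `O`.  (So `v(del x) = v(x) - 1` whenever `v(x) ≠ 0`.) -/
theorem derivation_zpow_mul_unit (del : Derivation K F F) (O : Subring F) {π : F}
    (hK : ∀ c : K, algebraMap K F c ∈ O) (hπ1 : ∀ y ∈ O, π * y ≠ 1)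
    (hloc : ∀ x ∈ O, (∃ y ∈ O, x = π * y) ∨ x⁻¹ ∈ O)
    (hdel : ∀ x ∈ O, del x ∈ O) (hπ : π ∈ O) (hπ0 : π ≠ 0)
    (hdπ0 : del π ≠ 0) (hdπ : (del π)⁻¹ ∈ O)
    {n : ℤ} (hn : n ≠ 0) {w : F} (hw : w ∈ O) (hw0 : w ≠ 0) (hwi : w⁻¹ ∈ O) :
    ∃ w' : F, w' ∈ O ∧ w' ≠ 0 ∧ w'⁻¹ ∈ O ∧ del (π ^ n * w) = π ^ (n - 1) * w' := by
  have hnK : (n : K) ≠ 0 := by exact_mod_cast hn
  have hnF : algebraMap K F (n : K) ≠ 0 := by
    simpa using (algebraMap K F).injective.ne hnK
  have hnFeq : algebraMap K F (n : K) = (n : F) := by simp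
  -- the leading unit
  set u : F := algebraMap K F (n : K) * w * del π with hu
  have hu0 : u ≠ 0 := mul_ne_zero (mul_ne_zero hnF hw0) hdπ0
  have huO : u ∈ O := O.mul_mem (O.mul_mem (hK _) hw) (hdel π hπ)
  have hui : u⁻¹ ∈ O := by
    rw [hu, mul_inv, mul_inv, ← map_inv₀]
    exact O.mul_mem (O.mul_mem (hK _) hwi) hdπ
  obtain ⟨h0, hi⟩ := inv_add_mem O hπ1 hloc hπ huO hu0 hui (hdel w hw)
  refine ⟨u + π * del w, O.add_mem huO (O.mul_mem hπ (hdel w hw)), h0, hi, ?_⟩
  rw [Derivation.leibniz, Derivation.leibniz_zpow, smul_eq_mul, smul_eq_mul, hu, hnFeq,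
    ← Int.cast_smul_eq_zsmul F, smul_eq_mul, smul_eq_mul]
  have hz : π ^ n = π ^ (n - 1) * π := by
    rw [← zpow_add_one₀ hπ0, sub_add_cancel]
  rw [hz]
  ring

end Core

section ValSub

variable {K F : Type*} [Field K] [Field F] [Algebra K F]

/-- An element of valuation `< 1` is a multiple of the uniformiser `π`. -/
theorem exists_eq_mul_of_valuation_lt_one (A : ValuationSubring F) {π : F}
    (hπgen : ∀ x : F, A.valuation x < 1 → A.valuation x ≤ A.valuation π) {x : F}
    (hx : A.valuation x < 1) : ∃ y ∈ A, x = π * y := by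
  by_cases hπ0 : π = 0
  · have h0 : A.valuation x ≤ 0 := by simpa [hπ0] using hπgen x hx
    have hx0 : x = 0 := by
      have : A.valuation x = 0 := le_antisymm h0 zero_le
      exact (_root_.map_eq_zero _).mp this
    exact ⟨0, A.zero_mem, by rw [hx0, mul_zero]⟩
  · refine ⟨π⁻¹ * x, ?_, ?_⟩
    · rw [← A.valuation_le_one_iff, map_mul, map_inv₀]
      have hvπ : A.valuation π ≠ 0 := (_root_.map_ne_zero _).mpr hπ0
      rw [inv_mul_le_iff₀ (zero_lt_iff.mpr hvπ), mul_one]
      exact hπgen x hx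
    · rw [← mul_assoc, mul_inv_cancel₀ hπ0, one_mul]

/-- The "local with maximal ideal `π A`" hypothesis of the core lemmas, for a valuation
subring whose elements of valuation `< 1` have valuation `≤ v(π)`. -/
theorem hloc_valuationSubring (A : ValuationSubring F) {π : F}
    (hπgen : ∀ x : F, A.valuation x < 1 → A.valuation x ≤ A.valuation π) :
    ∀ x ∈ A.toSubring, (∃ y ∈ A.toSubring, x = π * y) ∨ x⁻¹ ∈ A.toSubring := by
  intro x hx
  have hx1 : A.valuation x ≤ 1 := (A.valuation_le_one_iff x).mpr hx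
  rcases lt_or_eq_of_le hx1 with h | h
  · exact Or.inl (exists_eq_mul_of_valuation_lt_one A hπgen h)
  · refine Or.inr ?_
    change x⁻¹ ∈ A
    rw [← A.valuation_le_one_iff, map_inv₀, h, inv_one]

/-- `π` is not a unit. -/
theorem hπ1_valuationSubring (A : ValuationSubring F) {π : F} (hπ : A.valuation π < 1) :
    ∀ y ∈ A.toSubring, π * y ≠ 1 := by
  intro y hy h
  have hy1 : A.valuation y ≤ 1 := (A.valuation_le_one_iff y).mpr hy
  have : A.valuation (π * y) < 1 := by
    rw [map_mul]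
    calc A.valuation π * A.valuation y ≤ A.valuation π * 1 := by gcongr
      _ = A.valuation π := mul_one _
      _ < 1 := hπ
  rw [h, map_one] at this
  exact lt_irrefl _ this

variable [CharZero K]

/-- **(Der-3), `ValuationSubring` form.**  `A` a valuation subring of `F ⊇ K` (char. `0`)
containing `K`, whose maximal ideal is generated by `π` (`hπgen`), with residue field algebraic
over `K` (`halg`).  If `del π ∈ A` and `v(del x) ≥ -N v(π)` on `A`, then `del A ⊆ A`. -/
theorem derivation_mem_valuationSubring (del : Derivation K F F) (A : ValuationSubring F) {π : F}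
    (hπ : A.valuation π < 1)
    (hπgen : ∀ x : F, A.valuation x < 1 → A.valuation x ≤ A.valuation π)
    (hK : ∀ c : K, algebraMap K F c ∈ A)
    (halg : ∀ x ∈ A, ∃ p : K[X], p ≠ 0 ∧ A.valuation (aeval x p) < 1)
    (hdelπ : del π ∈ A)
    (N : ℕ) (hN : ∀ x ∈ A, A.valuation (del x) * A.valuation π ^ N ≤ 1) :
    ∀ x ∈ A, del x ∈ A := by
  have hπA : π ∈ A := (A.valuation_le_one_iff π).mp hπ.le
  refine derivation_mem_of_pow_mul_mem del A.toSubring hπA hdelπ hK (hπ1_valuationSubring A hπ)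
    (hloc_valuationSubring A hπgen) ?_ N ?_
  · intro x hx
    obtain ⟨p, hp0, hp⟩ := halg x hx
    exact ⟨p, hp0, exists_eq_mul_of_valuation_lt_one A hπgen hp⟩
  · intro x hx
    change π ^ N * del x ∈ A
    rw [← A.valuation_le_one_iff, map_mul, map_pow, mul_comm]
    exact hN x hx

/-- **(Der-4), `ValuationSubring` form.**  If moreover `del A ⊆ A` and `del s = 1` for some
`s ∈ A`, then `del π` is a unit of `A`: `v(del π) = 1`. -/
theorem valuation_derivation_uniformiser (del : Derivation K F F) (A : ValuationSubring F)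
    {π s : F} (hπ : A.valuation π < 1)
    (hπgen : ∀ x : F, A.valuation x < 1 → A.valuation x ≤ A.valuation π)
    (hK : ∀ c : K, algebraMap K F c ∈ A)
    (halg : ∀ x ∈ A, ∃ p : K[X], p ≠ 0 ∧ A.valuation (aeval x p) < 1)
    (hdel : ∀ x ∈ A, del x ∈ A) (hs : s ∈ A) (hds : del s = 1) :
    A.valuation (del π) = 1 := by
  have hπA : π ∈ A := (A.valuation_le_one_iff π).mp hπ.le
  obtain ⟨h0, hi⟩ := inv_derivation_uniformiser_mem_of_eq_one del A.toSubring hK
    (hπ1_valuationSubring A hπ) (hloc_valuationSubring A hπgen)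
    (fun x hx => by
      obtain ⟨p, hp0, hp⟩ := halg x hx
      exact ⟨p, hp0, exists_eq_mul_of_valuation_lt_one A hπgen hp⟩)
    hdel hs hds hπA
  have h1 : A.valuation (del π) ≤ 1 := (A.valuation_le_one_iff _).mpr (hdel π hπA)
  have h2 : A.valuation (del π)⁻¹ ≤ 1 := (A.valuation_le_one_iff _).mpr hi
  rw [map_inv₀] at h2
  have hv0 : A.valuation (del π) ≠ 0 := (_root_.map_ne_zero _).mpr h0
  refine le_antisymm h1 ?_
  rwa [inv_le_one₀ (zero_lt_iff.mpr hv0)] at h2

/-- **(Der-4), valuation formula.**  In the situation of `valuation_derivation_uniformiser`,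
if `x = π ^ n * w` with `n ≠ 0` and `v(w) = 1`, then `v(del x) * v(π) = v(x)`,
i.e. `ord (del x) = ord x - 1`. -/
theorem valuation_derivation_mul_eq (del : Derivation K F F) (A : ValuationSubring F)
    {π s : F} (hπ : A.valuation π < 1) (hπ0 : π ≠ 0)
    (hπgen : ∀ x : F, A.valuation x < 1 → A.valuation x ≤ A.valuation π)
    (hK : ∀ c : K, algebraMap K F c ∈ A)
    (halg : ∀ x ∈ A, ∃ p : K[X], p ≠ 0 ∧ A.valuation (aeval x p) < 1)
    (hdel : ∀ x ∈ A, del x ∈ A) (hs : s ∈ A) (hds : del s = 1)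
    {n : ℤ} (hn : n ≠ 0) {w : F} (hw : A.valuation w = 1) :
    A.valuation (del (π ^ n * w)) * A.valuation π = A.valuation (π ^ n * w) := by
  have hπA : π ∈ A := (A.valuation_le_one_iff π).mp hπ.le
  have hdπ := valuation_derivation_uniformiser del A hπ hπgen hK halg hdel hs hds
  have hdπ0 : del π ≠ 0 := by
    intro h; rw [h, map_zero] at hdπ; exact zero_ne_one hdπ
  have hdπi : (del π)⁻¹ ∈ A := by
    rw [← A.valuation_le_one_iff, map_inv₀, hdπ, inv_one]
  have hw0 : w ≠ 0 := by
    intro h; rw [h, map_zero] at hw; exact zero_ne_one hw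
  have hwA : w ∈ A := (A.valuation_le_one_iff w).mp hw.le
  have hwi : w⁻¹ ∈ A := by
    rw [← A.valuation_le_one_iff, map_inv₀, hw, inv_one]
  obtain ⟨w', hw'A, hw'0, hw'i, hw'⟩ := derivation_zpow_mul_unit del A.toSubring hK
    (hπ1_valuationSubring A hπ) (hloc_valuationSubring A hπgen) hdel hπA hπ0 hdπ0 hdπi hn
    hwA hw0 hwi
  have hvw' : A.valuation w' = 1 := by
    have h1 : A.valuation w' ≤ 1 := (A.valuation_le_one_iff _).mpr hw'A
    have h2 : A.valuation w'⁻¹ ≤ 1 := (A.valuation_le_one_iff _).mpr hw'i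
    rw [map_inv₀] at h2
    have hv0 : A.valuation w' ≠ 0 := (_root_.map_ne_zero _).mpr hw'0
    refine le_antisymm h1 ?_
    rwa [inv_le_one₀ (zero_lt_iff.mpr hv0)] at h2
  have hvπ : A.valuation π ≠ 0 := (_root_.map_ne_zero _).mpr hπ0
  rw [hw', map_mul, map_mul, hvw', hw, mul_one, mul_one, map_zpow₀, map_zpow₀,
    ← zpow_add_one₀ hvπ, sub_add_cancel]

end ValSub

end Fermat.Agent.CA.H49
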