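/-
helper53 — S36 row (D2-aux) (helper78 #3338): **the auxiliary prime `r ≡ 11 mod 12`.**

Mathlib only (Dirichlet's theorem on primes in arithmetic progressions,
`Nat.forall_exists_prime_gt_and_modEq`).

* `exists_prime_eleven_mod_twelve_gt n` : a prime `r > n` with `r % 12 = 11`.
* `exists_prime_eleven_mod_twelve_not_mem S` : a prime `r ∉ S` with `r % 12 = 11`
  (`S : Finset ℕ`); `..._not_mem_of_finite` for a finite `Set ℕ`.
* `exists_prime_eleven_mod_twelve_not_dvd n (hn : n ≠ 0)` : a prime `r` with `r % 12 = 11`,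
  `¬ r ∣ n` (and `n < r`); `..._coprime` : the same with `Nat.Coprime r n`.
* `exists_prime_eleven_mod_twelve_not_dvd_three a b c` : `¬ r ∣ a`, `¬ r ∣ b`, `¬ r ∣ c`,
  `r ≠ a`, `r ≠ b`, `r ≠ c` at once (`a b c ≠ 0`), the shape `(D2)` uses with `(q, M0, p)`.
* small arithmetic consequences of `r % 12 = 11`: `r % 3 = 2`, `r % 4 = 3`, `11 ≤ r`, `r ≠ 2`,
  `r ≠ 3`, `¬ 2 ∣ r`, `¬ 3 ∣ r`, `12 ∣ r + 1`.
-/
import Mathlib

set_option autoImplicit false

namespace Fermat.Agent.CA.H53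

/-- **Dirichlet**: there is a prime `r > n` with `r % 12 = 11`. -/
theorem exists_prime_eleven_mod_twelve_gt (n : ℕ) :
    ∃ r : ℕ, n < r ∧ r.Prime ∧ r % 12 = 11 := by
  obtain ⟨r, hgt, hr, hmod⟩ :=
    Nat.forall_exists_prime_gt_and_modEq n (q := 12) (a := 11) (by norm_num) (by norm_num)
  exact ⟨r, hgt, hr, by simpa [Nat.ModEq] using hmod⟩

/-- **(D2-aux)**: there is a prime `r ≡ 11 mod 12` outside any given finite set. -/
theorem exists_prime_eleven_mod_twelve_not_mem (S : Finset ℕ) :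
    ∃ r : ℕ, r.Prime ∧ r % 12 = 11 ∧ r ∉ S := by
  obtain ⟨r, hgt, hr, hmod⟩ := exists_prime_eleven_mod_twelve_gt (S.sup id)
  refine ⟨r, hr, hmod, fun hrS => ?_⟩
  have hle : r ≤ S.sup id := Finset.le_sup (f := id) hrS
  omega

/-- The same for a finite `Set ℕ`. -/
theorem exists_prime_eleven_mod_twelve_not_mem_of_finite {S : Set ℕ} (hS : S.Finite) :
    ∃ r : ℕ, r.Prime ∧ r % 12 = 11 ∧ r ∉ S := by
  obtain ⟨r, hr, hmod, hrS⟩ := exists_prime_eleven_mod_twelve_not_mem hS.toFinset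
  exact ⟨r, hr, hmod, fun h => hrS (hS.mem_toFinset.mpr h)⟩

/-- The set of primes `r ≡ 11 mod 12` is infinite. -/
theorem infinite_setOf_prime_eleven_mod_twelve :
    {r : ℕ | r.Prime ∧ r % 12 = 11}.Infinite := by
  intro hfin
  obtain ⟨r, hr, hmod, hrS⟩ := exists_prime_eleven_mod_twelve_not_mem_of_finite hfin
  exact hrS ⟨hr, hmod⟩

/-- **(D2-aux), divisibility form**: for `n ≠ 0` there is a prime `r ≡ 11 mod 12` with
`n < r`, hence `¬ r ∣ n`. -/
theorem exists_prime_eleven_mod_twelve_not_dvd (n : ℕ) (hn : n ≠ 0) :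
    ∃ r : ℕ, r.Prime ∧ r % 12 = 11 ∧ n < r ∧ ¬ r ∣ n := by
  obtain ⟨r, hgt, hr, hmod⟩ := exists_prime_eleven_mod_twelve_gt n
  exact ⟨r, hr, hmod, hgt, fun hdvd =>
    absurd (Nat.le_of_dvd (Nat.pos_of_ne_zero hn) hdvd) (by omega)⟩

/-- **(D2-aux), coprime form**. -/
theorem exists_prime_eleven_mod_twelve_coprime (n : ℕ) (hn : n ≠ 0) :
    ∃ r : ℕ, r.Prime ∧ r % 12 = 11 ∧ Nat.Coprime r n := by
  obtain ⟨r, hr, hmod, -, hdvd⟩ := exists_prime_eleven_mod_twelve_not_dvd n hn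
  exact ⟨r, hr, hmod, (Nat.Prime.coprime_iff_not_dvd hr).mpr hdvd⟩

/-- **(D2-aux), the shape used with `(a, b, c) = (q, M0, p)`**: a prime `r ≡ 11 mod 12`
dividing none of `a`, `b`, `c` and different from all three. -/
theorem exists_prime_eleven_mod_twelve_not_dvd_three (a b c : ℕ) (ha : a ≠ 0) (hb : b ≠ 0)
    (hc : c ≠ 0) :
    ∃ r : ℕ, r.Prime ∧ r % 12 = 11 ∧ ¬ r ∣ a ∧ ¬ r ∣ b ∧ ¬ r ∣ c ∧ ¬ r ∣ a * b * c ∧
      r ≠ a ∧ r ≠ b ∧ r ≠ c := by
  have habc : a * b * c ≠ 0 := mul_ne_zero (mul_ne_zero ha hb) hc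
  obtain ⟨r, hr, hmod, -, hdvd⟩ := exists_prime_eleven_mod_twelve_not_dvd (a * b * c) habc
  have h1 : ¬ r ∣ a := fun h => hdvd (Dvd.dvd.mul_right (Dvd.dvd.mul_right h b) c)
  have h2 : ¬ r ∣ b := fun h => hdvd (Dvd.dvd.mul_right (Dvd.dvd.mul_left h a) c)
  have h3 : ¬ r ∣ c := fun h => hdvd (Dvd.dvd.mul_left h (a * b))
  exact ⟨r, hr, hmod, h1, h2, h3, hdvd, fun h => h1 (h ▸ dvd_rfl), fun h => h2 (h ▸ dvd_rfl),
    fun h => h3 (h ▸ dvd_rfl)⟩

section arithmetic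

variable {r : ℕ}

theorem mod_three_of_mod_twelve (h : r % 12 = 11) : r % 3 = 2 := by omega

theorem mod_four_of_mod_twelve (h : r % 12 = 11) : r % 4 = 3 := by omega

theorem eleven_le_of_mod_twelve (h : r % 12 = 11) : 11 ≤ r := by omega

theorem ne_two_of_mod_twelve (h : r % 12 = 11) : r ≠ 2 := by omega

theorem ne_three_of_mod_twelve (h : r % 12 = 11) : r ≠ 3 := by omega

theorem not_two_dvd_of_mod_twelve (h : r % 12 = 11) : ¬ 2 ∣ r := by omega

theorem not_three_dvd_of_mod_twelve (h : r % 12 = 11) : ¬ 3 ∣ r := by omega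

theorem twelve_dvd_succ_of_mod_twelve (h : r % 12 = 11) : 12 ∣ r + 1 := by omega

theorem ne_zero_of_mod_twelve (h : r % 12 = 11) : r ≠ 0 := by omega

end arithmetic

end Fermat.Agent.CA.H53
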