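import Mathlib
import Fermat.Agent.S18.H92_GaussModel

/-!
# CA / S36 (M1)(d) (helper92): the big Gauss ball of `L((t))`

`A` a valuation subring of a field `L`, `π : A →+* k` a ring hom to a field.  The **big ball**
`G' = {f ∈ L((t)) : ∃ a b ∈ A((t)), b̄ ≠ 0, f * b = a}` (the ball of `S18.H92.TwoGen` WITHOUT the
restriction `a, b ∈ A[x, y]`), the coefficientwise reduction `bigRes : G' →+* k((t))`,
`bigRes (up z) = z̄`, division by elements with non-zero residue, the kernel of `bigRes` when the
kernel of `π` is principal, and the comparison with the ball of a `TwoGen`.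
-/

set_option autoImplicit false

noncomputable section

namespace Fermat.Agent.CA.H92

open ModularCurve Polynomial Fermat.Agent.S18.H92

variable {L : Type*} [Field L] {k : Type*} [Field k] (A : ValuationSubring L) (π : A →+* k)

/-- The big Gauss ball `{a / b : a, b ∈ A((t)), b̄ ≠ 0}` as a subring of `L((t))`. -/
def bigBall : Subring (LaurentSeries L) where
  carrier := {f | ∃ a b : LaurentSeries A, coeffMap π b ≠ 0 ∧ f * up A b = up A a}
  mul_mem' := by
    rintro f g ⟨a, b, hb0, hf⟩ ⟨a', b', hb0', hg⟩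
    refine ⟨a * a', b * b', ?_, ?_⟩
    · rw [map_mul]; exact mul_ne_zero hb0 hb0'
    · rw [map_mul, map_mul, ← hf, ← hg]; ring
  one_mem' := ⟨1, 1, by simp, by simp⟩
  add_mem' := by
    rintro f g ⟨a, b, hb0, hf⟩ ⟨a', b', hb0', hg⟩
    refine ⟨a * b' + a' * b, b * b', ?_, ?_⟩
    · rw [map_mul]; exact mul_ne_zero hb0 hb0'
    · rw [map_mul, map_add, map_mul, map_mul, ← hf, ← hg]; ring
  zero_mem' := ⟨0, 1, by simp, by simp⟩
  neg_mem' := by
    rintro f ⟨a, b, hb0, hf⟩
    exact ⟨-a, b, hb0, by rw [map_neg, ← hf]; ring⟩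

theorem mem_bigBall {f : LaurentSeries L} :
    f ∈ bigBall A π ↔ ∃ a b : LaurentSeries A, coeffMap π b ≠ 0 ∧ f * up A b = up A a := Iff.rfl

variable {A π}

theorem up_ne_zero_of_coeffMap_ne_zero {b : LaurentSeries A} (hb : coeffMap π b ≠ 0) :
    up A b ≠ 0 := by
  intro h
  have : b = 0 := up_injective A (by rw [h, map_zero])
  exact hb (by rw [this, map_zero])

variable (A π)

/-- the residue of an element of the big ball (junk value outside) -/
def bigResFun (f : LaurentSeries L) : LaurentSeries k :=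
  open Classical in
  if h : f ∈ bigBall A π then coeffMap π h.choose / coeffMap π h.choose_spec.choose else 0

variable {A π}

theorem bigResFun_eq {f : LaurentSeries L} {a b : LaurentSeries A} (hb0 : coeffMap π b ≠ 0)
    (hf : f * up A b = up A a) : bigResFun A π f = coeffMap π a / coeffMap π b := by
  have hmem : f ∈ bigBall A π := ⟨a, b, hb0, hf⟩
  rw [bigResFun, dif_pos hmem]
  obtain ⟨hb0', hf'⟩ := hmem.choose_spec.choose_spec
  set a' := hmem.choose
  set b' := hmem.choose_spec.choose
  rw [div_eq_div_iff hb0' hb0]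
  have h1 : up A (a' * b) = up A (a * b') := by
    rw [map_mul, map_mul, ← hf, ← hf']; ring
  have h2 := up_injective A h1
  rw [← map_mul, ← map_mul, h2]

theorem bigResFun_one : bigResFun A π (1 : LaurentSeries L) = 1 := by
  rw [bigResFun_eq (a := 1) (b := 1) (by simp) (by simp)]
  simp

theorem bigResFun_zero : bigResFun A π (0 : LaurentSeries L) = 0 := by
  rw [bigResFun_eq (a := 0) (b := 1) (by simp) (by simp)]
  simp

theorem bigResFun_mul {f g : LaurentSeries L} (hf : f ∈ bigBall A π) (hg : g ∈ bigBall A π) :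
    bigResFun A π (f * g) = bigResFun A π f * bigResFun A π g := by
  obtain ⟨a, b, hb0, hf'⟩ := hf
  obtain ⟨a', b', hb0', hg'⟩ := hg
  rw [bigResFun_eq hb0 hf', bigResFun_eq hb0' hg',
    bigResFun_eq (a := a * a') (b := b * b') (by rw [map_mul]; exact mul_ne_zero hb0 hb0')
      (by rw [map_mul, map_mul, ← hf', ← hg']; ring),
    map_mul, map_mul, div_mul_div_comm]

theorem bigResFun_add {f g : LaurentSeries L} (hf : f ∈ bigBall A π) (hg : g ∈ bigBall A π) :
    bigResFun A π (f + g) = bigResFun A π f + bigResFun A π g := by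
  obtain ⟨a, b, hb0, hf'⟩ := hf
  obtain ⟨a', b', hb0', hg'⟩ := hg
  rw [bigResFun_eq hb0 hf', bigResFun_eq hb0' hg',
    bigResFun_eq (a := a * b' + a' * b) (b := b * b')
      (by rw [map_mul]; exact mul_ne_zero hb0 hb0')
      (by rw [map_mul, map_add, map_mul, map_mul, ← hf', ← hg']; ring),
    map_mul, map_add, map_mul, map_mul, div_add_div _ _ hb0 hb0', mul_comm (coeffMap π a')
      (coeffMap π b)]

variable (A π)

/-- **the coefficientwise reduction on the big ball** -/
def bigRes : bigBall A π →+* LaurentSeries k where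
  toFun f := bigResFun A π f
  map_one' := bigResFun_one
  map_mul' f g := bigResFun_mul f.2 g.2
  map_zero' := bigResFun_zero
  map_add' f g := bigResFun_add f.2 g.2

variable {A π}

theorem bigRes_apply (f : bigBall A π) : bigRes A π f = bigResFun A π (f : LaurentSeries L) := rfl

/-- integral expansions lie in the big ball ... -/
theorem up_mem_bigBall (z : LaurentSeries A) : up A z ∈ bigBall A π :=
  ⟨z, 1, by simp, by simp⟩

/-- ... and reduce coefficientwise. -/
theorem bigResFun_up (z : LaurentSeries A) : bigResFun A π (up A z) = coeffMap π z := by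
  rw [bigResFun_eq (a := z) (b := 1) (by simp) (by simp)]
  simp

theorem bigRes_up (z : LaurentSeries A) :
    bigRes A π ⟨up A z, up_mem_bigBall z⟩ = coeffMap π z := bigResFun_up z

/-- **division**: `f * g = h` with `g, h` in the big ball and `ḡ ≠ 0` puts `f` in the big ball,
with residue `h̄ / ḡ`. -/
theorem mem_bigBall_of_mul_eq {f g h : LaurentSeries L} (hg : g ∈ bigBall A π)
    (hh : h ∈ bigBall A π) (hg0 : bigResFun A π g ≠ 0) (hfg : f * g = h) :
    f ∈ bigBall A π ∧ bigResFun A π f = bigResFun A π h / bigResFun A π g := by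
  obtain ⟨a, b, hb0, hg'⟩ := hg
  obtain ⟨a', b', hb0', hh'⟩ := hh
  have hga : coeffMap π a ≠ 0 := by
    intro h0
    apply hg0
    rw [bigResFun_eq hb0 hg', h0, zero_div]
  have hbL : up A b ≠ 0 := up_ne_zero_of_coeffMap_ne_zero hb0
  -- `f * (a b') = a' b`
  have key : f * up A (a * b') = up A (a' * b) := by
    rw [map_mul, map_mul, ← hg', ← hh', ← hfg]; ring
  have hden : coeffMap π (a * b') ≠ 0 := by rw [map_mul]; exact mul_ne_zero hga hb0'
  refine ⟨⟨a' * b, a * b', hden, key⟩, ?_⟩
  rw [bigResFun_eq hden key, bigResFun_eq hb0 hg', bigResFun_eq hb0' hh', map_mul, map_mul]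
  field_simp

/-- elements with non-zero residue are units of the big ball -/
theorem inv_mem_bigBall {f : LaurentSeries L} (hf : f ∈ bigBall A π)
    (h : bigResFun A π f ≠ 0) : f⁻¹ ∈ bigBall A π := by
  have hf0 : f ≠ 0 := by
    rintro rfl
    exact h bigResFun_zero
  exact (mem_bigBall_of_mul_eq hf (bigBall A π).one_mem h (inv_mul_cancel₀ hf0)).1

theorem bigResFun_inv {f : LaurentSeries L} (hf : f ∈ bigBall A π)
    (h : bigResFun A π f ≠ 0) : bigResFun A π f⁻¹ = (bigResFun A π f)⁻¹ := by
  have hf0 : f ≠ 0 := by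
    rintro rfl
    exact h bigResFun_zero
  rw [(mem_bigBall_of_mul_eq hf (bigBall A π).one_mem h (inv_mul_cancel₀ hf0)).2, bigResFun_one,
    one_div]

/-- a unit of the big ball has non-zero residue -/
theorem bigResFun_ne_zero_of_inv_mem {f : LaurentSeries L} (hf : f ∈ bigBall A π) (hf0 : f ≠ 0)
    (hinv : f⁻¹ ∈ bigBall A π) : bigResFun A π f ≠ 0 := by
  intro h0
  have h1 := bigResFun_mul hf hinv
  rw [mul_inv_cancel₀ hf0, bigResFun_one, h0, zero_mul] at h1
  exact one_ne_zero h1

/-- evaluation of polynomials with coefficients in a subring mapping to the big ball -/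
theorem aeval_mem_bigBall {O : Type*} [CommRing O] (φ : O →+* LaurentSeries L)
    (hφ : ∀ a, φ a ∈ bigBall A π) {θ : LaurentSeries L} (hθ : θ ∈ bigBall A π) (p : O[X]) :
    p.eval₂ φ θ ∈ bigBall A π := by
  rw [Polynomial.eval₂_eq_sum_range]
  exact Subring.sum_mem _ fun i _ => Subring.mul_mem _ (hφ _) (Subring.pow_mem _ hθ i)

theorem bigResFun_eval₂ {O : Type*} [CommRing O] (φ : O →+* LaurentSeries L)
    (hφ : ∀ a, φ a ∈ bigBall A π) (ι : O →+* LaurentSeries k)
    (hι : ∀ a, bigResFun A π (φ a) = ι a) {θ : LaurentSeries L} (hθ : θ ∈ bigBall A π)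
    (p : O[X]) :
    bigResFun A π (p.eval₂ φ θ) = p.eval₂ ι (bigResFun A π θ) := by
  set ψ : O →+* bigBall A π := φ.codRestrict (bigBall A π) hφ with hψ
  have hcomp : (bigBall A π).subtype.comp ψ = φ := RingHom.ext fun a => rfl
  have h1 : p.eval₂ φ θ = (bigBall A π).subtype (p.eval₂ ψ ⟨θ, hθ⟩) := by
    rw [Polynomial.hom_eval₂, hcomp]
    rfl
  have h3 : (bigRes A π).comp ψ = ι := RingHom.ext fun a => hι a
  calc bigResFun A π (p.eval₂ φ θ) = bigRes A π (p.eval₂ ψ ⟨θ, hθ⟩) := by rw [h1]; rfl
    _ = p.eval₂ ((bigRes A π).comp ψ) (bigRes A π ⟨θ, hθ⟩) :=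
        Polynomial.hom_eval₂ p ψ (bigRes A π) ⟨θ, hθ⟩
    _ = p.eval₂ ι (bigResFun A π θ) := by rw [h3]; rfl

/-- **kernel of the reduction**: if the kernel of `π` is generated by `ϖ`, an element of the big
ball with residue `0` is `ϖ` times an element of the big ball. -/
theorem exists_mul_of_bigResFun_eq_zero {ϖ : A} (hϖ : ∀ a : A, π a = 0 → ∃ c : A, a = ϖ * c)
    {f : LaurentSeries L} (hf : f ∈ bigBall A π) (h0 : bigResFun A π f = 0) :
    ∃ g ∈ bigBall A π, f = HahnSeries.C (ϖ : L) * g := by
  obtain ⟨a, b, hb0, hf'⟩ := hf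
  rw [bigResFun_eq hb0 hf', div_eq_zero_iff, or_iff_left hb0] at h0
  -- all coefficients of `a` are divisible by `ϖ`
  have hcoeff : ∀ n : ℤ, ∃ c : A, a.coeff n = ϖ * c := fun n => by
    apply hϖ
    have := congrArg (fun z : LaurentSeries k => z.coeff n) h0
    simpa [coeffMap_coeff] using this
  choose c hc using hcoeff
  have hsupp : (Function.support c) ⊆ a.support ∪ {n | ϖ = 0} := by
    intro n hn
    by_cases hϖ0 : ϖ = 0
    · exact Or.inr hϖ0
    · left
      rw [HahnSeries.mem_support, hc n]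
      exact mul_ne_zero hϖ0 hn
  by_cases hϖ0 : ϖ = 0
  · -- then `π` is injective-ish and `a = 0`
    have ha : a = 0 := by
      ext n
      rw [hc n, hϖ0, zero_mul]; rfl
    refine ⟨0, (bigBall A π).zero_mem, ?_⟩
    rw [mul_zero]
    have hbL : up A b ≠ 0 := up_ne_zero_of_coeffMap_ne_zero hb0
    have : f * up A b = 0 := by rw [hf', ha, map_zero]
    exact (mul_eq_zero.mp this).resolve_right hbL
  · have hpwo : (Function.support c).IsPWO :=
      a.isPWO_support.mono (fun n hn => by
        rcases hsupp hn with h | h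
        · exact h
        · exact absurd h hϖ0)
    let a' : LaurentSeries A := ⟨c, hpwo⟩
    have haa' : a = HahnSeries.C ϖ * a' := by
      apply HahnSeries.ext
      funext n
      rw [HahnSeries.C_mul_eq_smul, HahnSeries.coeff_smul, smul_eq_mul]
      exact hc n
    have hbL : up A b ≠ 0 := up_ne_zero_of_coeffMap_ne_zero hb0
    have hupC : up A (HahnSeries.C ϖ) = HahnSeries.C (ϖ : L) := by
      show coeffMap A.subtype (HahnSeries.single 0 ϖ) = _
      rw [coeffMap_single]; rfl
    have hup : up A a = HahnSeries.C (ϖ : L) * up A a' := by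
      rw [haa', map_mul, hupC]
    refine ⟨up A a' / up A b, ⟨a', b, hb0, div_mul_cancel₀ _ hbL⟩, ?_⟩
    rw [← mul_div_assoc, eq_div_iff hbL, hf', hup]

/-- the ball of a `TwoGen` lies in the big ball, with the same residue. -/
theorem ball_le_bigBall (T : TwoGen A π) : T.ball ≤ bigBall A π := by
  rintro f ⟨a, -, b, -, hb0, hf⟩
  exact ⟨a, b, hb0, hf⟩

theorem bigResFun_eq_resFun (T : TwoGen A π) {f : LaurentSeries L} (hf : f ∈ T.ball) :
    bigResFun A π f = T.resFun f := by
  obtain ⟨a, ha, b, hb, hb0, hf'⟩ := hf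
  rw [bigResFun_eq hb0 hf', T.resFun_eq hb0 hf' ⟨a, ha, b, hb, hb0, hf'⟩]

end Fermat.Agent.CA.H92
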