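/-
CA / S36 (M1)(e) (helper55): GENERIC Gauss bridge for a place over a base inside the big ball.

`A` a valuation subring of a field `L`, `π : A →+* k`, `G' = CA.H92.bigBall A π ⊆ L((t))`.
`F'` a field with a ring hom `c : F' →+* L((t))` ("`t`-expansion"), `O → F'` an algebra,
`P : CA.H99.PlaceOver ϖ θ ι θb` a place of `F'` over `O` with residues in `k((t))`.
If the expansions of `O` and of `θ` lie in `G'` with `bigResFun = ι`, resp. `= θb`, then
* every `x ∈ P.O1` has `c x ∈ G'` and `bigResFun (c x) = P.res1 x`;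
* conversely `c x ∈ G'` implies `x ∈ P.O1`
(so `P.O1 = c⁻¹ G'` is the Gauss valuation ring and `P.res1` the coefficientwise reduction).
-/
import Fermat.Agent.CA.H92_BigBall
import Fermat.Agent.CA.H99_TwoPlacesThm

set_option autoImplicit false
set_option linter.unusedSectionVars false

noncomputable section

namespace Fermat.Agent.CA.H55

open ModularCurve Polynomial Fermat.Agent.S18.H92 Fermat.Agent.CA.H92 Fermat.Agent.CA.H99

variable {L : Type*} [Field L] {k : Type*} [Field k] {A : ValuationSubring L} {π : A →+* k}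
  {O : Type*} [CommRing O] {F' : Type*} [Field F'] [Algebra O F']
  (c : F' →+* LaurentSeries L)
  {ϖ : O} {θ : F'} {ι : O →+* LaurentSeries k} {θb : LaurentSeries k}
  (P : PlaceOver ϖ θ ι θb)

/-- the expansion of `p(θ)`, `p ∈ O[X]`. -/
theorem coe_aeval (p : O[X]) :
    c (aeval θ p) = p.eval₂ (c.comp (algebraMap O F')) (c θ) := by
  rw [aeval_def, Polynomial.hom_eval₂]

/-- **Gauss fraction form**: elements of the place ring have expansions in the big ball, and the
residue map is the coefficientwise reduction. -/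
theorem coe_mem_bigBall_of_mem_place
    (hO : ∀ a : O, c (algebraMap O F' a) ∈ bigBall A π ∧
      bigResFun A π (c (algebraMap O F' a)) = ι a)
    (hθ : c θ ∈ bigBall A π ∧ bigResFun A π (c θ) = θb)
    (x : F') (hx : x ∈ P.O1) :
    c x ∈ bigBall A π ∧ bigResFun A π (c x) = P.res1 ⟨x, hx⟩ := by
  obtain ⟨a, s, hs, h⟩ := P.exists_repr x hx
  set φ : O →+* LaurentSeries L := c.comp (algebraMap O F') with hφdef
  have hφ : ∀ a : O, φ a ∈ bigBall A π := fun a => (hO a).1
  have hι : ∀ a : O, bigResFun A π (φ a) = ι a := fun a => (hO a).2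
  have hsmem : c (aeval θ s) ∈ bigBall A π := by
    rw [coe_aeval]; exact aeval_mem_bigBall φ hφ hθ.1 s
  have hamem : c (aeval θ a) ∈ bigBall A π := by
    rw [coe_aeval]; exact aeval_mem_bigBall φ hφ hθ.1 a
  have hsres : bigResFun A π (c (aeval θ s)) = s.eval₂ ι θb := by
    rw [coe_aeval, bigResFun_eval₂ φ hφ ι hι hθ.1, hθ.2]
  have hares : bigResFun A π (c (aeval θ a)) = a.eval₂ ι θb := by
    rw [coe_aeval, bigResFun_eval₂ φ hφ ι hι hθ.1, hθ.2]
  have hmul : c x * c (aeval θ s) = c (aeval θ a) := by rw [← map_mul, h]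
  have hs0 : bigResFun A π (c (aeval θ s)) ≠ 0 := by rw [hsres]; exact hs
  obtain ⟨hxmem, hxres⟩ := mem_bigBall_of_mul_eq hsmem hamem hs0 hmul
  refine ⟨hxmem, ?_⟩
  have hsO : aeval θ s ∈ P.O1 := P.aeval_mem s
  have haO : aeval θ a ∈ P.O1 := P.aeval_mem a
  have hrs : P.res1 ⟨_, hsO⟩ = s.eval₂ ι θb := P.res1_aeval s
  have hra : P.res1 ⟨_, haO⟩ = a.eval₂ ι θb := P.res1_aeval a
  have hprod : P.res1 ⟨x, hx⟩ * P.res1 ⟨_, hsO⟩ = P.res1 ⟨_, haO⟩ := by
    rw [← map_mul]
    congr 1
    exact Subtype.ext h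
  rw [hxres, hares, hsres, ← hra, ← hrs, ← hprod]
  have hne : P.res1 ⟨_, hsO⟩ ≠ 0 := by rw [hrs]; exact hs
  exact mul_div_cancel_right₀ _ hne

/-- the converse: an element whose expansion lies in the big ball lies in the place ring. -/
theorem mem_place_of_coe_mem_bigBall
    (hO : ∀ a : O, c (algebraMap O F' a) ∈ bigBall A π ∧
      bigResFun A π (c (algebraMap O F' a)) = ι a)
    (hθ : c θ ∈ bigBall A π ∧ bigResFun A π (c θ) = θb)
    (x : F') (hx : c x ∈ bigBall A π) : x ∈ P.O1 := by
  rcases P.mem_or_inv_mem x with h | h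
  · exact h
  · by_cases hx0 : x = 0
    · rw [hx0]; exact P.O1.zero_mem
    by_cases hres : P.res1 ⟨x⁻¹, h⟩ = 0
    · exfalso
      obtain ⟨hinv, hinvres⟩ := coe_mem_bigBall_of_mem_place c P hO hθ x⁻¹ h
      have h1 := bigResFun_mul hx hinv
      rw [← map_mul, mul_inv_cancel₀ hx0, map_one, bigResFun_one, hinvres, hres, mul_zero] at h1
      exact one_ne_zero h1
    · have := P.inv_mem _ h hres
      rwa [inv_inv] at this

/-- membership in the place ring is membership of the expansion in the big ball. -/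
theorem mem_place_iff
    (hO : ∀ a : O, c (algebraMap O F' a) ∈ bigBall A π ∧
      bigResFun A π (c (algebraMap O F' a)) = ι a)
    (hθ : c θ ∈ bigBall A π ∧ bigResFun A π (c θ) = θb) (x : F') :
    x ∈ P.O1 ↔ c x ∈ bigBall A π :=
  ⟨fun h => (coe_mem_bigBall_of_mem_place c P hO hθ x h).1,
    mem_place_of_coe_mem_bigBall c P hO hθ x⟩

/-- **the `t`-expansion principle at `P`**: an element with an `A`-integral expansion lies in the
place ring and reduces coefficientwise. -/
theorem exists_mem_place_of_up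
    (hO : ∀ a : O, c (algebraMap O F' a) ∈ bigBall A π ∧
      bigResFun A π (c (algebraMap O F' a)) = ι a)
    (hθ : c θ ∈ bigBall A π ∧ bigResFun A π (c θ) = θb)
    (x : F') (z : LaurentSeries A) (hz : c x = up A z) :
    ∃ hx : x ∈ P.O1, P.res1 ⟨x, hx⟩ = coeffMap π z := by
  have hmem : c x ∈ bigBall A π := by rw [hz]; exact up_mem_bigBall z
  have hx := mem_place_of_coe_mem_bigBall c P hO hθ x hmem
  refine ⟨hx, ?_⟩
  rw [← (coe_mem_bigBall_of_mem_place c P hO hθ x hx).2, hz, bigResFun_up]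

end Fermat.Agent.CA.H55
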