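/-
CA library (helper55), Mathlib only: **the product coordinate `J = x * y`**.

`Φ : R[X][X]` monic in the outer variable, `Φ(x; y) = 0` (inner `↦ x`, outer `↦ y`) in a field `F`.
Then
* `isIntegral_adjoin_mul` : `y` is integral over `R[x * y]`;
* `isIntegral_adjoin_mul_inv` : `x⁻¹` is integral over `R[(x * y)⁻¹]` (`x, y ≠ 0`).
With the root swap (`Φ(y; x) = 0` as well) all of `x, y` are integral over `R[x y]` and
`x⁻¹, y⁻¹` over `R[(x y)⁻¹]`: the charts `J ≠ ∞`, `J ≠ 0` of the coordinate `J = j * j_q`.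
-/
import Mathlib

set_option autoImplicit false

namespace Fermat.Agent.CA.H55

open Polynomial

section

variable {R F : Type*} [CommRing R] [Field F] [Algebra R F]

/-- integrality over `R[u]` in polynomial form (local copy of the standard argument). -/
theorem isIntegral_adjoin_of_monic (u b : F) (G : R[X][X]) (hG : G.Monic)
    (h0 : G.eval₂ ((aeval u : R[X] →ₐ[R] F) : R[X] →+* F) b = 0) :
    IsIntegral (Algebra.adjoin R {u}) b := by
  let c : R[X] →+* Algebra.adjoin R {u} :=
    ((aeval u : R[X] →ₐ[R] F) : R[X] →+* F).codRestrict (Algebra.adjoin R {u}).toSubring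
      fun _ => aeval_mem_adjoin_singleton R u
  refine ⟨G.map c, hG.map _, ?_⟩
  rw [eval₂_map]
  exact h0

/-- the homogenisation `∑ cₐ Jᵃ T^(A-a)` of `p = ∑ cₐ Xᵃ`, as a polynomial in `T` over `R[J]`. -/
noncomputable def homog (A : ℕ) (p : R[X]) : R[X][X] :=
  p.sum fun a c => C (C c * X ^ a) * X ^ (A - a)

theorem natDegree_homog_le (A : ℕ) (p : R[X]) : (homog A p).natDegree ≤ A := by
  unfold homog Polynomial.sum
  apply natDegree_sum_le_of_forall_le
  intro a _
  refine (natDegree_C_mul_le _ _).trans ?_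
  exact (natDegree_X_pow_le _).trans (Nat.sub_le A a)

theorem eval₂_homog (A : ℕ) (p : R[X]) (hp : p.natDegree ≤ A) (x y : F) :
    (homog A p).eval₂ ((aeval (x * y) : R[X] →ₐ[R] F) : R[X] →+* F) y = y ^ A * aeval x p := by
  unfold homog Polynomial.sum
  rw [eval₂_finsetSum, aeval_eq_sum_range' (Nat.lt_succ_of_le hp), Finset.mul_sum]
  rw [Finset.sum_subset (s₁ := p.support) (s₂ := Finset.range (A + 1))]
  · apply Finset.sum_congr rfl
    intro a ha
    have haA : a ≤ A := Nat.lt_succ_iff.mp (Finset.mem_range.mp ha)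
    rw [eval₂_mul, eval₂_C, eval₂_X_pow]
    simp only [RingHom.coe_coe, map_mul, aeval_C, map_pow, aeval_X, Algebra.smul_def]
    have : y ^ A = y ^ a * y ^ (A - a) := by rw [← pow_add, Nat.add_sub_cancel' haA]
    rw [this, mul_pow]
    ring
  · intro a ha
    rw [Finset.mem_range]
    exact Nat.lt_succ_of_le ((le_natDegree_of_mem_supp a ha).trans hp)
  · intro a _ ha
    rw [notMem_support_iff] at ha
    rw [ha]
    simp

theorem natDegree_reflect_le_of_le (A : ℕ) (p : R[X]) (hp : p.natDegree ≤ A) :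
    (reflect A p).natDegree ≤ A := by
  rw [natDegree_le_iff_coeff_eq_zero]
  intro i hi
  rw [coeff_reflect]
  have : revAt A i = i := by
    rw [revAt_eq_self_of_lt hi]
  rw [this]
  exact coeff_eq_zero_of_natDegree_lt (lt_of_le_of_lt hp hi)

/-- a bound for the inner degrees of the coefficients of `Φ`. -/
noncomputable def innerBound (Φ : R[X][X]) : ℕ :=
  (Finset.range (Φ.natDegree + 1)).sup fun b => (Φ.coeff b).natDegree

theorem natDegree_coeff_le_innerBound (Φ : R[X][X]) (b : ℕ) :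
    (Φ.coeff b).natDegree ≤ innerBound Φ := by
  by_cases hb : b ≤ Φ.natDegree
  · exact Finset.le_sup (f := fun b => (Φ.coeff b).natDegree)
      (Finset.mem_range.mpr (Nat.lt_succ_of_le hb))
  · rw [coeff_eq_zero_of_natDegree_lt (not_le.mp hb), natDegree_zero]
    exact Nat.zero_le _

/-- **(J1)** `Φ(x; y) = 0`, `Φ` monic in the outer variable ⟹ `y` is integral over `R[x * y]`. -/
theorem isIntegral_adjoin_mul (Φ : R[X][X]) (hΦ : Φ.Monic) (x y : F)
    (h0 : Φ.eval₂ ((aeval x : R[X] →ₐ[R] F) : R[X] →+* F) y = 0) :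
    IsIntegral (Algebra.adjoin R {x * y}) y := by
  classical
  set n := Φ.natDegree with hn
  set A := innerBound Φ with hA
  let low : R[X][X] := ∑ b ∈ Finset.range n, homog A (Φ.coeff b) * X ^ b
  have hlowdeg : low.degree < ((A + n : ℕ) : WithBot ℕ) := by
    by_cases hn0 : n = 0
    · have : low = 0 := by
        change ∑ b ∈ Finset.range n, homog A (Φ.coeff b) * X ^ b = 0
        rw [hn0, Finset.range_zero, Finset.sum_empty]
      rw [this, degree_zero]
      exact WithBot.bot_lt_coe _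
    · have h1 : low.natDegree ≤ A + (n - 1) := by
        apply natDegree_sum_le_of_forall_le
        intro b hb
        have hb' : b ≤ n - 1 := Nat.le_pred_of_lt (Finset.mem_range.mp hb)
        refine natDegree_mul_le.trans ?_
        exact Nat.add_le_add (natDegree_homog_le A _) ((natDegree_X_pow_le _).trans hb')
      refine lt_of_le_of_lt degree_le_natDegree ?_
      rw [Nat.cast_lt]
      omega
  refine isIntegral_adjoin_of_monic (x * y) y (X ^ (A + n) + low)
    (monic_X_pow_add hlowdeg) ?_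
  rw [eval₂_add, eval₂_X_pow]
  change y ^ (A + n) + (∑ b ∈ Finset.range n, homog A (Φ.coeff b) * X ^ b).eval₂ _ y = 0
  rw [eval₂_finsetSum]
  have hterm : ∀ b ∈ Finset.range n,
      (homog A (Φ.coeff b) * X ^ b).eval₂ ((aeval (x * y) : R[X] →ₐ[R] F) : R[X] →+* F) y =
        y ^ A * (aeval x (Φ.coeff b) * y ^ b) := by
    intro b _
    rw [eval₂_mul, eval₂_X_pow, eval₂_homog A _ (natDegree_coeff_le_innerBound Φ b), mul_assoc]
  rw [Finset.sum_congr rfl hterm, ← Finset.mul_sum, pow_add, ← mul_add]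
  have hΦsum : Φ.eval₂ ((aeval x : R[X] →ₐ[R] F) : R[X] →+* F) y =
      y ^ n + ∑ b ∈ Finset.range n, aeval x (Φ.coeff b) * y ^ b := by
    conv_lhs => rw [hΦ.as_sum]
    rw [eval₂_add, eval₂_X_pow, eval₂_finsetSum]
    congr 1
    apply Finset.sum_congr rfl
    intro b _
    rw [eval₂_mul, eval₂_C, eval₂_X_pow]
    rfl
  rw [← hΦsum, h0, mul_zero]

/-- **(J2)** `Φ(x; y) = 0`, `Φ` monic in the outer variable, `x, y ≠ 0` ⟹ `x⁻¹` is integral over
`R[(x * y)⁻¹]`. -/
theorem isIntegral_adjoin_mul_inv (Φ : R[X][X]) (hΦ : Φ.Monic) (x y : F) (hx : x ≠ 0) (hy : y ≠ 0)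
    (h0 : Φ.eval₂ ((aeval x : R[X] →ₐ[R] F) : R[X] →+* F) y = 0) :
    IsIntegral (Algebra.adjoin R {(x * y)⁻¹}) x⁻¹ := by
  classical
  set n := Φ.natDegree with hn
  set A := innerBound Φ with hA
  set W : F := (x * y)⁻¹ with hW
  -- `T^(A+n) + ∑_{b<n} J^(n-b) * T^b * reflect A p_b`, coefficients mapped into `R[J]`
  let low : R[X][X] := ∑ b ∈ Finset.range n,
    C (X ^ (n - b)) * X ^ b * (reflect A (Φ.coeff b)).map (C : R →+* R[X])
  have hlowdeg : low.degree < ((A + n : ℕ) : WithBot ℕ) := by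
    by_cases hn0 : n = 0
    · have : low = 0 := by
        change ∑ b ∈ Finset.range n, _ = 0
        rw [hn0, Finset.range_zero, Finset.sum_empty]
      rw [this, degree_zero]
      exact WithBot.bot_lt_coe _
    · have h1 : low.natDegree ≤ (n - 1) + A := by
        apply natDegree_sum_le_of_forall_le
        intro b hb
        have hb' : b ≤ n - 1 := Nat.le_pred_of_lt (Finset.mem_range.mp hb)
        refine natDegree_mul_le.trans ?_
        refine Nat.add_le_add ?_ ?_
        · refine (natDegree_C_mul_le _ _).trans ?_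
          exact (natDegree_X_pow_le _).trans hb'
        · exact (natDegree_map_le).trans
            (natDegree_reflect_le_of_le A _ (natDegree_coeff_le_innerBound Φ b))
      refine lt_of_le_of_lt degree_le_natDegree ?_
      rw [Nat.cast_lt]
      omega
  refine isIntegral_adjoin_of_monic W x⁻¹ (X ^ (A + n) + low) (monic_X_pow_add hlowdeg) ?_
  rw [eval₂_add, eval₂_X_pow]
  change x⁻¹ ^ (A + n) + (∑ b ∈ Finset.range n,
    C (X ^ (n - b)) * X ^ b * (reflect A (Φ.coeff b)).map (C : R →+* R[X])).eval₂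
      ((aeval W : R[X] →ₐ[R] F) : R[X] →+* F) x⁻¹ = 0
  rw [eval₂_finsetSum]
  have hyW : y * W = x⁻¹ := by
    rw [hW, mul_inv]
    field_simp
  have hrefl : ∀ p : R[X], p.natDegree ≤ A →
      ((reflect A p).map (C : R →+* R[X])).eval₂
        ((aeval W : R[X] →ₐ[R] F) : R[X] →+* F) x⁻¹ = x⁻¹ ^ A * aeval x p := by
    intro p hp
    rw [eval₂_map]
    have hcomp : (((aeval W : R[X] →ₐ[R] F) : R[X] →+* F).comp (C : R →+* R[X])) =
        algebraMap R F := by
      ext r
      simp
    rw [hcomp]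
    letI : Invertible x := invertibleOfNonzero hx
    have h := eval₂_reflect_mul_pow (algebraMap R F) x A p hp
    rw [invOf_eq_inv] at h
    rw [aeval_def, ← h]
    have hx' : x⁻¹ ^ A * x ^ A = 1 := by rw [← mul_pow, inv_mul_cancel₀ hx, one_pow]
    rw [mul_comm (x⁻¹ ^ A), mul_assoc, mul_comm (x ^ A), hx', mul_one]
  have hterm : ∀ b ∈ Finset.range n,
      (C (X ^ (n - b)) * X ^ b * (reflect A (Φ.coeff b)).map (C : R →+* R[X])).eval₂
        ((aeval W : R[X] →ₐ[R] F) : R[X] →+* F) x⁻¹ =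
        (x⁻¹ ^ A * W ^ n) * (aeval x (Φ.coeff b) * y ^ b) := by
    intro b hb
    have hbn : b ≤ n := (Finset.mem_range.mp hb).le
    rw [eval₂_mul, eval₂_mul, eval₂_C, eval₂_X_pow,
      hrefl _ (natDegree_coeff_le_innerBound Φ b)]
    simp only [RingHom.coe_coe, map_pow, aeval_X]
    have h1 : W ^ n = W ^ (n - b) * W ^ b := by rw [← pow_add, Nat.sub_add_cancel hbn]
    rw [h1, ← hyW, mul_pow]
    ring
  rw [Finset.sum_congr rfl hterm, ← Finset.mul_sum]
  have htop : x⁻¹ ^ (A + n) = (x⁻¹ ^ A * W ^ n) * y ^ n := by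
    rw [pow_add, ← hyW, mul_pow]
    ring
  rw [htop, ← mul_add]
  have hΦsum : Φ.eval₂ ((aeval x : R[X] →ₐ[R] F) : R[X] →+* F) y =
      y ^ n + ∑ b ∈ Finset.range n, aeval x (Φ.coeff b) * y ^ b := by
    conv_lhs => rw [hΦ.as_sum]
    rw [eval₂_add, eval₂_X_pow, eval₂_finsetSum]
    congr 1
    apply Finset.sum_congr rfl
    intro b _
    rw [eval₂_mul, eval₂_C, eval₂_X_pow]
    rfl
  rw [← hΦsum, h0, mul_zero]

end

end Fermat.Agent.CA.H55
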