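/-
helper56 — generic (Mathlib only): ideals of a base change `B = B₁[R]` through `π`, in the
"algebra" form used by `S34/H56_CoordGlue` (`B` an algebra over both `B₁` and `R`, generated by
the two images), twin of helper79's `CA.H79.eq_extIdeal_comap` (which is stated for `genRing`).

`A₁ → R` with `R = A₁ + π R` (residue fields agree):
* `exists_add_mul_of_adjoin_eq_top` : `B = B₁ + π B`;
* `le_map_comap_sup_span` : every ideal `n ∋ π` of `B` is `(n ∩ B₁, π)`;
* `comap_isMaximal` : `n` maximal, `π ∈ n` ⇒ `n ∩ B₁` maximal.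
-/
import Mathlib

set_option autoImplicit false

namespace Fermat.Agent.CA.H56

variable {A₁ R B₁ B : Type*} [CommRing A₁] [CommRing R] [CommRing B₁] [CommRing B]
  [Algebra A₁ R] [Algebra A₁ B₁] [Algebra B₁ B] [Algebra R B]

/-- `B = B₁ + π B`. -/
theorem exists_add_mul_of_adjoin_eq_top (π : R)
    (hcomp : ∀ a : A₁, algebraMap B₁ B (algebraMap A₁ B₁ a) = algebraMap R B (algebraMap A₁ R a))
    (hgenR : Algebra.adjoin B₁ (Set.range (algebraMap R B)) = ⊤)
    (h1 : ∀ a : R, ∃ c : A₁, ∃ a' : R, a = algebraMap A₁ R c + π * a') (r : B) :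
    ∃ b : B₁, ∃ r' : B, r = algebraMap B₁ B b + algebraMap R B π * r' := by
  have hr : r ∈ Algebra.adjoin B₁ (Set.range (algebraMap R B)) := by rw [hgenR]; trivial
  induction hr using Algebra.adjoin_induction with
  | mem x hx =>
    obtain ⟨a, rfl⟩ := hx
    obtain ⟨c, a', rfl⟩ := h1 a
    exact ⟨algebraMap A₁ B₁ c, algebraMap R B a', by rw [map_add, map_mul, hcomp]⟩
  | algebraMap b => exact ⟨b, 0, by simp⟩
  | add x y _ _ hx hy =>
    obtain ⟨b, r', rfl⟩ := hx
    obtain ⟨b', r'', rfl⟩ := hy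
    exact ⟨b + b', r' + r'', by rw [map_add]; ring⟩
  | mul x y _ _ hx hy =>
    obtain ⟨b, r', rfl⟩ := hx
    obtain ⟨b', r'', rfl⟩ := hy
    exact ⟨b * b', algebraMap B₁ B b * r'' + r' * algebraMap B₁ B b' +
      algebraMap R B π * r' * r'', by rw [map_mul]; ring⟩

/-- Every ideal of `B = B₁[R]` through `π` is `(n ∩ B₁, π)`. -/
theorem le_map_comap_sup_span (π : R)
    (hcomp : ∀ a : A₁, algebraMap B₁ B (algebraMap A₁ B₁ a) = algebraMap R B (algebraMap A₁ R a))
    (hgenR : Algebra.adjoin B₁ (Set.range (algebraMap R B)) = ⊤)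
    (h1 : ∀ a : R, ∃ c : A₁, ∃ a' : R, a = algebraMap A₁ R c + π * a')
    (n : Ideal B) (hπn : algebraMap R B π ∈ n) :
    n ≤ Ideal.map (algebraMap B₁ B) (n.comap (algebraMap B₁ B)) ⊔
      Ideal.span {algebraMap R B π} := by
  intro r hr
  obtain ⟨b, r', rfl⟩ := exists_add_mul_of_adjoin_eq_top π hcomp hgenR h1 r
  have hb : algebraMap B₁ B b ∈ n := by
    have := Ideal.sub_mem _ hr (Ideal.mul_mem_right r' _ hπn)
    rwa [add_sub_cancel_right] at this
  refine Ideal.add_mem _ (Ideal.mem_sup_left (Ideal.mem_map_of_mem _ hb))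
    (Ideal.mem_sup_right ?_)
  exact Ideal.mul_mem_right _ _ (Ideal.subset_span rfl)

/-- The contraction of a maximal ideal through `π` is maximal. -/
theorem comap_isMaximal (π : R)
    (hcomp : ∀ a : A₁, algebraMap B₁ B (algebraMap A₁ B₁ a) = algebraMap R B (algebraMap A₁ R a))
    (hgenR : Algebra.adjoin B₁ (Set.range (algebraMap R B)) = ⊤)
    (h1 : ∀ a : R, ∃ c : A₁, ∃ a' : R, a = algebraMap A₁ R c + π * a')
    (n : Ideal B) [hn : n.IsMaximal] (hπn : algebraMap R B π ∈ n) :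
    (n.comap (algebraMap B₁ B)).IsMaximal := by
  rw [Ideal.isMaximal_iff]
  refine ⟨fun h => ?_, fun J x hJ hx hxJ => ?_⟩
  · have h1' : algebraMap B₁ B 1 ∈ n := h
    rw [map_one] at h1'
    exact hn.ne_top ((Ideal.eq_top_iff_one _).mpr h1')
  · have hx' : algebraMap B₁ B x ∉ n := hx
    obtain ⟨r, m, hm, hrm⟩ := hn.exists_inv hx'
    obtain ⟨b, r', rfl⟩ := exists_add_mul_of_adjoin_eq_top π hcomp hgenR h1 r
    -- `b x - 1 ∈ n ∩ B₁`
    have hmem : b * x - 1 ∈ n.comap (algebraMap B₁ B) := by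
      show algebraMap B₁ B (b * x - 1) ∈ n
      have e : algebraMap B₁ B (b * x - 1) =
          -(algebraMap R B π * (r' * algebraMap B₁ B x)) - m := by
        rw [map_sub, map_mul, map_one, ← hrm]; ring
      rw [e]
      exact Ideal.sub_mem _ (neg_mem (Ideal.mul_mem_right _ _ hπn)) hm
    have : (1 : B₁) = b * x - (b * x - 1) := by ring
    rw [this]
    exact Ideal.sub_mem _ (Ideal.mul_mem_left _ _ hxJ) (hJ hmem)

end Fermat.Agent.CA.H56
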