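import Mathlib
import Fermat.Agent.CA.H92_BigBall
import Fermat.Agent.S28.H39_Laurent

/-!
# CA / S36 (M2e)(A-ode) (helper59): `t`-calculus on the big Gauss ball

`A` a valuation subring of a field `L`, `π : A →+* k` a ring hom to a field, `bigBall A π ⊆ L((t))`
helper92's big Gauss ball with its coefficientwise reduction `bigResFun A π`.

* `thetaOp_mem_bigBall`, `bigResFun_thetaOp` : `θ = t d/dt` preserves the big ball and commutes with
  the reduction (quotient rule);
* `qExpand_mem_bigBall`, `bigResFun_qExpand` : so does `f(t) ↦ f(t^m)`;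
* `exists_delta` : if `s̄₁ ^ q = s̄(t^q)` and `ker π = (ϖ)` then `s(t^q) - s₁^q = ϖ δ` with `δ` in the
  big ball;
* `ode` : for `q δ = s(t^q) - s₁^q` (all in the big ball, `q ≠ 0` in `L`, `char k = q`):
  `θ δ̄ = (θ s̄)(t^q) - s̄₁^(q-1) θ s̄₁`;
* `hode` : the same in the spelling of `S36.H54.isUnit_of_ode`
  (`T := k((t))`, `θ := S28.thetaDer'`, `P := (θ s̄)(t^q) / θ s̄`).
-/

set_option autoImplicit false

noncomputable section

namespace Fermat.Agent.CA.H59

open ModularCurve Fermat.Agent.S18.H92 Fermat.Agent.CA.H92 Fermat.Agent.S28 Fermat.Agent.S28.H39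

variable {L : Type*} [Field L] {k : Type*} [Field k] {A : ValuationSubring L} {π : A →+* k}

/-! ### `θ` on the big ball -/

/-- quotient rule in `L((t))`, cleared of denominators. -/
theorem thetaOp_mul_sq {K : Type*} [Field K] {f a b : LaurentSeries K} (h : f * b = a) :
    thetaOp f * (b * b) = thetaOp a * b - a * thetaOp b := by
  have h1 : thetaOp f * b + f * thetaOp b = thetaOp a := by rw [← thetaOp_mul, h]
  rw [← h1, ← h]
  ring

theorem up_thetaOp (a : LaurentSeries A) : up A (thetaOp a) = thetaOp (up A a) :=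
  coeffMap_thetaOp _ a

/-- `θ` preserves the big ball. -/
theorem thetaOp_mem_bigBall {f : LaurentSeries L} (hf : f ∈ bigBall A π) :
    thetaOp f ∈ bigBall A π := by
  obtain ⟨a, b, hb0, hf'⟩ := hf
  refine ⟨thetaOp a * b - a * thetaOp b, b * b, ?_, ?_⟩
  · rw [map_mul]; exact mul_ne_zero hb0 hb0
  · rw [map_mul, map_sub, map_mul, map_mul, up_thetaOp, up_thetaOp]
    exact thetaOp_mul_sq hf'

/-- `θ` commutes with the reduction. -/
theorem bigResFun_thetaOp {f : LaurentSeries L} (hf : f ∈ bigBall A π) :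
    bigResFun A π (thetaOp f) = thetaOp (bigResFun A π f) := by
  obtain ⟨a, b, hb0, hf'⟩ := hf
  have hnum : thetaOp f * up A (b * b) = up A (thetaOp a * b - a * thetaOp b) := by
    rw [map_mul, map_sub, map_mul, map_mul, up_thetaOp, up_thetaOp]
    exact thetaOp_mul_sq hf'
  have hden : coeffMap π (b * b) ≠ 0 := by rw [map_mul]; exact mul_ne_zero hb0 hb0
  rw [bigResFun_eq hden hnum, bigResFun_eq hb0 hf', map_mul, map_sub, map_mul, map_mul,
    coeffMap_thetaOp, coeffMap_thetaOp]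
  have hq : (coeffMap π a / coeffMap π b) * coeffMap π b = coeffMap π a :=
    div_mul_cancel₀ _ hb0
  have := thetaOp_mul_sq hq
  rw [← this]
  field_simp

/-! ### `f(t) ↦ f(t^m)` on the big ball -/

theorem up_qExpand (m : ℕ) [NeZero m] (a : LaurentSeries A) :
    up A (qExpand A m a) = qExpand L m (up A a) := coeffMap_qExpand _ m a

theorem qExpand_mem_bigBall (m : ℕ) [NeZero m] {f : LaurentSeries L} (hf : f ∈ bigBall A π) :
    qExpand L m f ∈ bigBall A π := by
  obtain ⟨a, b, hb0, hf'⟩ := hf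
  refine ⟨qExpand A m a, qExpand A m b, ?_, ?_⟩
  · rw [coeffMap_qExpand]
    exact fun h => hb0 (qExpand_injective m (by rw [h, map_zero]))
  · rw [up_qExpand, up_qExpand, ← map_mul, hf']

theorem bigResFun_qExpand (m : ℕ) [NeZero m] {f : LaurentSeries L} (hf : f ∈ bigBall A π) :
    bigResFun A π (qExpand L m f) = qExpand k m (bigResFun A π f) := by
  obtain ⟨a, b, hb0, hf'⟩ := hf
  have hden : coeffMap π (qExpand A m b) ≠ 0 := by
    rw [coeffMap_qExpand]
    exact fun h => hb0 (qExpand_injective m (by rw [h, map_zero]))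
  have hnum : qExpand L m f * up A (qExpand A m b) = up A (qExpand A m a) := by
    rw [up_qExpand, up_qExpand, ← map_mul, hf']
  rw [bigResFun_eq hden hnum, bigResFun_eq hb0 hf', coeffMap_qExpand, coeffMap_qExpand, map_div₀]

/-! ### powers, constants -/

theorem bigResFun_pow {f : LaurentSeries L} (hf : f ∈ bigBall A π) (n : ℕ) :
    bigResFun A π (f ^ n) = bigResFun A π f ^ n := by
  have := map_pow (bigRes A π) ⟨f, hf⟩ n
  simpa [bigRes_apply] using this

theorem bigResFun_sub {f g : LaurentSeries L} (hf : f ∈ bigBall A π) (hg : g ∈ bigBall A π) :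
    bigResFun A π (f - g) = bigResFun A π f - bigResFun A π g := by
  have := map_sub (bigRes A π) ⟨f, hf⟩ ⟨g, hg⟩
  simpa [bigRes_apply] using this

/-! ### the element `δ = (s(t^q) - s₁^q) / q` -/

/-- **existence of `δ` in the big ball.** -/
theorem exists_delta {ϖ : A} (hϖ : ∀ a : A, π a = 0 → ∃ c : A, a = ϖ * c) (q : ℕ) [NeZero q]
    {s s1 : LaurentSeries L} (hs : s ∈ bigBall A π) (hs1 : s1 ∈ bigBall A π)
    (h : bigResFun A π s1 ^ q = qExpand k q (bigResFun A π s)) :
    ∃ δ ∈ bigBall A π, HahnSeries.C (ϖ : L) * δ = qExpand L q s - s1 ^ q := by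
  have hx : qExpand L q s - s1 ^ q ∈ bigBall A π :=
    Subring.sub_mem _ (qExpand_mem_bigBall q hs) (Subring.pow_mem _ hs1 q)
  have h0 : bigResFun A π (qExpand L q s - s1 ^ q) = 0 := by
    rw [bigResFun_sub (qExpand_mem_bigBall q hs) (Subring.pow_mem _ hs1 q), bigResFun_qExpand q hs,
      bigResFun_pow hs1, h, sub_self]
  obtain ⟨g, hg, hfg⟩ := exists_mul_of_bigResFun_eq_zero hϖ hx h0
  exact ⟨g, hg, hfg.symm⟩

/-! ### the differential equation -/

/-- the ODE in `L((t))` (characteristic `0`-style: `q ≠ 0` in `L`). -/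
theorem thetaOp_delta (q : ℕ) [NeZero q] (hq0 : (q : L) ≠ 0) {s s1 δ : LaurentSeries L}
    (hδ : HahnSeries.C (q : L) * δ = qExpand L q s - s1 ^ q) :
    thetaOp δ = qExpand L q (thetaOp s) - s1 ^ (q - 1) * thetaOp s1 := by
  have hC : ((q : ℕ) : LaurentSeries L) = HahnSeries.C (q : L) := by rw [map_natCast]
  have hC0 : HahnSeries.C (q : L) ≠ (0 : LaurentSeries L) := by
    intro h
    exact hq0 (HahnSeries.C_injective (by rw [h, map_zero]))
  have h1 : HahnSeries.C (q : L) * thetaOp δ =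
      HahnSeries.C (q : L) * (qExpand L q (thetaOp s) - s1 ^ (q - 1) * thetaOp s1) := by
    rw [← thetaOp_C_mul, hδ, map_sub, thetaOp_qExpand, thetaOp_pow, hC]
    ring
  exact mul_left_cancel₀ hC0 h1

/-- **the ODE mod `q`**: `θ δ̄ = (θ s̄)(t^q) - s̄₁^(q-1) θ s̄₁`. -/
theorem ode (q : ℕ) [NeZero q] (hq0 : (q : L) ≠ 0) {s s1 δ : LaurentSeries L}
    (hs : s ∈ bigBall A π) (hs1 : s1 ∈ bigBall A π) (hδm : δ ∈ bigBall A π)
    (hδ : HahnSeries.C (q : L) * δ = qExpand L q s - s1 ^ q) :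
    thetaOp (bigResFun A π δ) = qExpand k q (thetaOp (bigResFun A π s)) -
      bigResFun A π s1 ^ (q - 1) * thetaOp (bigResFun A π s1) := by
  have h := congrArg (bigResFun A π) (thetaOp_delta q hq0 hδ)
  have hm1 : qExpand L q (thetaOp s) ∈ bigBall A π :=
    qExpand_mem_bigBall q (thetaOp_mem_bigBall hs)
  have hm2 : s1 ^ (q - 1) * thetaOp s1 ∈ bigBall A π :=
    Subring.mul_mem _ (Subring.pow_mem _ hs1 _) (thetaOp_mem_bigBall hs1)
  rw [bigResFun_thetaOp hδm, bigResFun_sub hm1 hm2, bigResFun_qExpand q (thetaOp_mem_bigBall hs),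
    bigResFun_thetaOp hs, bigResFun_mul (Subring.pow_mem _ hs1 _) (thetaOp_mem_bigBall hs1),
    bigResFun_pow hs1, bigResFun_thetaOp hs1] at h
  exact h

/-- **(A-ode), consumer spelling** (`hode` of `S36.H54.isUnit_of_ode` with `T := k((t))`,
`θ := S28.thetaDer'`, `P := (θ s̄)(t^q) / θ s̄`). -/
theorem hode (q : ℕ) [NeZero q] (hq0 : (q : L) ≠ 0) {s s1 δ : LaurentSeries L}
    (hs : s ∈ bigBall A π) (hs1 : s1 ∈ bigBall A π) (hδm : δ ∈ bigBall A π)
    (hδ : HahnSeries.C (q : L) * δ = qExpand L q s - s1 ^ q)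
    (hθs : thetaOp (bigResFun A π s) ≠ 0) :
    (thetaDer' (R := k)) (bigResFun A π δ) =
      (thetaDer' (R := k)) (bigResFun A π s) *
          (qExpand k q (thetaOp (bigResFun A π s)) / thetaOp (bigResFun A π s)) -
        bigResFun A π s1 ^ (q - 1) * (thetaDer' (R := k)) (bigResFun A π s1) := by
  rw [thetaDer'_apply, thetaDer'_apply, thetaDer'_apply, mul_div_cancel₀ _ hθs]
  exact ode q hq0 hs hs1 hδm hδ

end Fermat.Agent.CA.H59
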