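import Mathlib

/-!
# CA / H66_DerivLocalize (helper66): rows (Der-7) and (Der-8) of the S36 derivation chain

Mathlib only, generic.

## (Der-7)  residue field algebraic over the constants, from "function field of a curve"

`K ⊆ F` fields, `O` a subring of `F` containing the constants `K`, `π ∈ O`, `π ≠ 0`.  If
`x ∈ O` is algebraic over `K(π)` (e.g. `F / K(π)` algebraic), then there is `p ∈ K[X]`,
`p ≠ 0`, with `p(x) ∈ π O`.  This is the hypothesis `halg` of the landed consumers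
`CA.H49_DerivDVRZero`, `CA.H32_DerivHorizontal`, `CA.H33_DerivDVR`, `CA.H33_DerivUnit`, and it is
delivered here in each of their spellings.

Proof: clear denominators to get `H ∈ K[X][Y]`, `H ≠ 0`, `H(x, π) = 0`; divide by the highest
power of `Y`, so that `H(X, 0) ≠ 0`; then `H(x, 0) = H(x, 0) - H(x, π) ∈ π O`.

## (Der-8)  a derivation preserving `O₀` preserves every ring of fractions of `O₀`

`del` a derivation of the field `F`, `O₀` a subring with `del O₀ ⊆ O₀`, `O` a subring in which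
every element is `c / u` with `c, u ∈ O₀` and `u⁻¹ ∈ O`, and `O₀ ⊆ O`.  Then `del O ⊆ O`
(quotient rule).
-/

set_option autoImplicit false

namespace Fermat.Agent.CA.H66

open Polynomial IntermediateField
open scoped Polynomial.Bivariate IntermediateField.algebraAdjoinAdjoin

section Der7

variable {K F : Type*} [Field K] [Field F] [Algebra K F]

/-- `p(x) ∈ O` for `x ∈ O` when the constants lie in `O`. -/
theorem aeval_mem_of_mem (O : Subring F) (hK : ∀ c : K, algebraMap K F c ∈ O) {x : F}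
    (hx : x ∈ O) (p : K[X]) : aeval x p ∈ O := by
  induction p using Polynomial.induction_on' with
  | add p q hp hq => rw [map_add]; exact O.add_mem hp hq
  | monomial n a =>
    rw [aeval_monomial]
    exact O.mul_mem (hK a) (O.pow_mem hx n)

/-- `H(x, y) ∈ O` for `x y ∈ O` when the constants lie in `O`. -/
theorem aevalAeval_mem_of_mem (O : Subring F) (hK : ∀ c : K, algebraMap K F c ∈ O) {x y : F}
    (hx : x ∈ O) (hy : y ∈ O) (H : K[X][Y]) : aevalAeval x y H ∈ O := by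
  induction H using Polynomial.induction_on' with
  | add p q hp hq => rw [map_add]; exact O.add_mem hp hq
  | monomial n a =>
    rw [← C_mul_X_pow_eq_monomial, map_mul, map_pow, aevalAeval_C, aevalAeval_Y]
    exact O.mul_mem (aeval_mem_of_mem O hK hx a) (O.pow_mem hy n)

/-- The bivariate evaluation is the iterated `eval₂`. -/
theorem aevalAeval_eq_eval₂ (a b : F) (G : K[X][Y]) :
    aevalAeval a b G = eval₂ ((aeval a : K[X] →ₐ[K] F) : K[X] →+* F) b G := by
  induction G using Polynomial.induction_on' with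
  | add p q hp hq => rw [map_add, eval₂_add, hp, hq]
  | monomial n c =>
    rw [eval₂_monomial, ← C_mul_X_pow_eq_monomial, map_mul, map_pow, aevalAeval_C, aevalAeval_Y]
    rfl

/-- **Clearing denominators.**  If `x` is algebraic over `K(π)`, then `H(x, π) = 0` for some
nonzero `H ∈ K[X][Y]`. -/
theorem exists_bivariate_of_isAlgebraic {π x : F} (halg : IsAlgebraic K⟮π⟯ x) :
    ∃ H : K[X][Y], H ≠ 0 ∧ aevalAeval x π H = 0 := by
  have h1 : IsAlgebraic (Algebra.adjoin K {π}) x :=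
    (IsFractionRing.isAlgebraic_iff (Algebra.adjoin K {π}) K⟮π⟯ F).mpr halg
  obtain ⟨G, hG0, hG⟩ := h1
  -- the surjection `K[T] → K[π]`
  have hmem : ∀ q : K[X], (aeval π q : F) ∈ Algebra.adjoin K {π} := fun q => by
    rw [Algebra.adjoin_singleton_eq_range_aeval]; exact ⟨q, rfl⟩
  let φ : K[X] →+* Algebra.adjoin K {π} :=
    ((aeval π : K[X] →ₐ[K] F) : K[X] →+* F).codRestrict (Algebra.adjoin K {π}) hmem
  have hφ : Function.Surjective φ := by
    rintro ⟨y, hy⟩
    rw [Algebra.adjoin_singleton_eq_range_aeval] at hy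
    obtain ⟨q, rfl⟩ := hy
    exact ⟨q, Subtype.ext rfl⟩
  obtain ⟨G', rfl⟩ := Polynomial.map_surjective φ hφ G
  have hG'0 : G' ≠ 0 := by
    rintro rfl
    exact hG0 (Polynomial.map_zero _)
  have hcomp : (algebraMap (Algebra.adjoin K {π}) F).comp φ
      = ((aeval π : K[X] →ₐ[K] F) : K[X] →+* F) := by
    ext q <;> rfl
  have hG' : aevalAeval π x G' = 0 := by
    rw [aevalAeval_eq_eval₂, ← hcomp, ← eval₂_map]
    exact hG
  refine ⟨Bivariate.swap G', ?_, ?_⟩
  · exact (EmbeddingLike.map_ne_zero_iff (f := (Bivariate.swap (R := K)))).mpr hG'0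
  · rw [Bivariate.aevalAeval_swap]; exact hG'

/-- **(Der-7), core.**  `O ⊆ F` a subring containing the constants `K`, `π ∈ O` nonzero, `x ∈ O`
algebraic over `K(π)`.  Then `p(x) ∈ π O` for some nonzero `p ∈ K[X]`.
(Spelling of `halg` in `CA.H49_DerivDVRZero`.) -/
theorem exists_poly_aeval_eq_mul (O : Subring F) (hK : ∀ c : K, algebraMap K F c ∈ O) {π : F}
    (hπ : π ∈ O) (hπ0 : π ≠ 0) {x : F} (hx : x ∈ O) (halg : IsAlgebraic K⟮π⟯ x) :
    ∃ p : K[X], p ≠ 0 ∧ ∃ z ∈ O, aeval x p = π * z := by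
  obtain ⟨H, hH0, hH⟩ := exists_bivariate_of_isAlgebraic halg
  obtain ⟨Q, hHQ, hQ⟩ := exists_eq_pow_rootMultiplicity_mul_and_not_dvd H hH0 0
  rw [C_0, sub_zero] at hHQ hQ
  have hQ0 : Q.coeff 0 ≠ 0 := fun h => hQ (X_dvd_iff.mpr h)
  have hQx : aevalAeval x π Q = 0 := by
    rw [hHQ, map_mul, map_pow, aevalAeval_Y] at hH
    exact (mul_eq_zero.mp hH).resolve_left (pow_ne_zero _ hπ0)
  refine ⟨Q.coeff 0, hQ0, -(aevalAeval x π (divX Q)),
    O.neg_mem (aevalAeval_mem_of_mem O hK hx hπ _), ?_⟩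
  have h2 : aevalAeval x π (divX Q * X + C (Q.coeff 0)) = 0 := by rw [divX_mul_X_add]; exact hQx
  rw [map_add, map_mul, aevalAeval_Y, aevalAeval_C] at h2
  linear_combination h2

/-- **(Der-7)**, all of `O` at once, `F / K(π)` algebraic. -/
theorem forall_exists_poly_aeval_eq_mul {π : F} [Algebra.IsAlgebraic K⟮π⟯ F] (O : Subring F)
    (hK : ∀ c : K, algebraMap K F c ∈ O) (hπ : π ∈ O) (hπ0 : π ≠ 0) :
    ∀ x ∈ O, ∃ p : K[X], p ≠ 0 ∧ ∃ z ∈ O, aeval x p = π * z :=
  fun x hx => exists_poly_aeval_eq_mul O hK hπ hπ0 hx (Algebra.IsAlgebraic.isAlgebraic x)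

/-- A non-unit in the sense `π⁻¹ ∉ O` is nonzero. -/
theorem ne_zero_of_inv_not_mem (O : Subring F) {π : F} (hπnu : π⁻¹ ∉ O) : π ≠ 0 := by
  rintro rfl
  exact hπnu (by rw [inv_zero]; exact O.zero_mem)

/-- **(Der-7)** in the spelling of `CA.H33_DerivUnit` / `CA.H33_DerivDVR` (second half):
`μ(x) = 0` or `μ(x)` is not a unit of `O`, when `π` is not a unit of `O`. -/
theorem exists_poly_aeval_eq_zero_or_inv_not_mem (O : Subring F)
    (hK : ∀ c : K, algebraMap K F c ∈ O) {π : F} (hπ : π ∈ O) (hπnu : π⁻¹ ∉ O)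
    {x : F} (hx : x ∈ O) (halg : IsAlgebraic K⟮π⟯ x) :
    ∃ μ : K[X], μ ≠ 0 ∧ (aeval x μ = 0 ∨ (aeval x μ)⁻¹ ∉ O) := by
  have hπ0 : π ≠ 0 := ne_zero_of_inv_not_mem O hπnu
  obtain ⟨p, hp0, z, hz, hpz⟩ := exists_poly_aeval_eq_mul O hK hπ hπ0 hx halg
  refine ⟨p, hp0, ?_⟩
  by_cases h0 : aeval x p = 0
  · exact Or.inl h0
  · refine Or.inr fun hinv => hπnu ?_
    have : π⁻¹ = z * (aeval x p)⁻¹ := by
      rw [hpz] at h0 ⊢
      have hz0 : z ≠ 0 := right_ne_zero_of_mul h0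
      field_simp
    rw [this]
    exact O.mul_mem hz hinv

end Der7

section Der7Val

variable {K F : Type*} [Field K] [Field F] [Algebra K F]

/-- A nonzero non-unit of a valuation subring has valuation `< 1`. -/
theorem valuation_lt_one_of_inv_not_mem (A : ValuationSubring F) {π : F}
    (hπnu : π⁻¹ ∉ A) : A.valuation π < 1 := by
  by_contra h
  rw [not_lt] at h
  apply hπnu
  rw [← A.valuation_le_one_iff, map_inv₀]
  exact inv_le_one_of_one_le₀ h

/-- Converse of `valuation_lt_one_of_inv_not_mem` for nonzero elements. -/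
theorem inv_not_mem_of_valuation_lt_one (A : ValuationSubring F) {π : F} (hπ0 : π ≠ 0)
    (hπ : A.valuation π < 1) : π⁻¹ ∉ A := by
  intro h
  rw [← A.valuation_le_one_iff, map_inv₀] at h
  have hv0 : 0 < A.valuation π := zero_lt_iff.mpr ((_root_.map_ne_zero _).mpr hπ0)
  exact absurd ((inv_le_one₀ hv0).mp h) (not_le.mpr hπ)

/-- **(Der-7)** in the spelling of `CA.H49_DerivDVRZero` (valuation wrappers),
`CA.H32_DerivHorizontal` and `CA.H33_DerivDVR` (first half): `v(μ(x)) < 1`. -/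
theorem exists_poly_valuation_aeval_lt_one (A : ValuationSubring F)
    (hK : ∀ c : K, algebraMap K F c ∈ A) {π : F} (hπ : π ∈ A) (hπnu : π⁻¹ ∉ A)
    {x : F} (hx : x ∈ A) (halg : IsAlgebraic K⟮π⟯ x) :
    ∃ μ : K[X], μ ≠ 0 ∧ A.valuation (aeval x μ) < 1 := by
  have hπ0 : π ≠ 0 := ne_zero_of_inv_not_mem A.toSubring hπnu
  obtain ⟨p, hp0, z, hz, hpz⟩ := exists_poly_aeval_eq_mul A.toSubring hK hπ hπ0 hx halg
  refine ⟨p, hp0, ?_⟩
  rw [hpz, map_mul]
  calc A.valuation π * A.valuation z ≤ A.valuation π * 1 :=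
        mul_le_mul' le_rfl ((A.valuation_le_one_iff z).mpr hz)
    _ = A.valuation π := mul_one _
    _ < 1 := valuation_lt_one_of_inv_not_mem A hπnu

/-- **(Der-7)**, spelling `∀ x ∈ A, …` (`CA.H49_DerivDVRZero`, `CA.H32_DerivHorizontal`),
`F / K(π)` algebraic. -/
theorem forall_mem_exists_poly_valuation_lt_one {π : F} [Algebra.IsAlgebraic K⟮π⟯ F]
    (A : ValuationSubring F) (hK : ∀ c : K, algebraMap K F c ∈ A) (hπ : π ∈ A)
    (hπnu : π⁻¹ ∉ A) :
    ∀ x ∈ A, ∃ μ : K[X], μ ≠ 0 ∧ A.valuation (aeval x μ) < 1 :=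
  fun x hx => exists_poly_valuation_aeval_lt_one A hK hπ hπnu hx
    (Algebra.IsAlgebraic.isAlgebraic x)

/-- **(Der-7)**, spelling `∀ x, v x ≤ 1 → …` (`CA.H33_DerivDVR`), `F / K(π)` algebraic. -/
theorem forall_valuation_le_one_exists_poly_valuation_lt_one {π : F}
    [Algebra.IsAlgebraic K⟮π⟯ F] (A : ValuationSubring F)
    (hK : ∀ c : K, algebraMap K F c ∈ A) (hπ : π ∈ A) (hπnu : π⁻¹ ∉ A) :
    ∀ x : F, A.valuation x ≤ 1 → ∃ μ : K[X], μ ≠ 0 ∧ A.valuation (aeval x μ) < 1 :=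
  fun x hx => forall_mem_exists_poly_valuation_lt_one A hK hπ hπnu x
    ((A.valuation_le_one_iff x).mp hx)

/-- **(Der-7)**, spelling of `CA.H33_DerivUnit` (`∀ x ∈ O', … = 0 ∨ …⁻¹ ∉ O'`),
`F / K(π)` algebraic. -/
theorem forall_mem_exists_poly_zero_or_inv_not_mem {π : F} [Algebra.IsAlgebraic K⟮π⟯ F]
    (A : ValuationSubring F) (hK : ∀ c : K, algebraMap K F c ∈ A) (hπ : π ∈ A)
    (hπnu : π⁻¹ ∉ A) :
    ∀ x ∈ A, ∃ μ : K[X], μ ≠ 0 ∧ (aeval x μ = 0 ∨ (aeval x μ)⁻¹ ∉ A) :=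
  fun x hx => exists_poly_aeval_eq_zero_or_inv_not_mem A.toSubring hK hπ hπnu hx
    (Algebra.IsAlgebraic.isAlgebraic x)

/-- An element of `F` integral over `K` lies in every valuation subring containing `K`. -/
theorem mem_valuationSubring_of_isIntegral (A : ValuationSubring F)
    (hK : ∀ c : K, algebraMap K F c ∈ A) {y : F} (hy : IsIntegral K y) : y ∈ A := by
  obtain ⟨p, hp, hpy⟩ := hy
  let ψ : K →+* A := (algebraMap K F).codRestrict A hK
  have hint : IsIntegral A y := by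
    refine ⟨p.map ψ, hp.map ψ, ?_⟩
    rw [eval₂_map]
    exact hpy
  obtain ⟨y', rfl⟩ := (IsIntegrallyClosed.isIntegral_iff (R := A) (K := F)).mp hint
  exact y'.2

/-- A non-unit of a valuation subring containing `K` is transcendental over `K`. -/
theorem transcendental_of_inv_not_mem (A : ValuationSubring F)
    (hK : ∀ c : K, algebraMap K F c ∈ A) {π : F} (hπnu : π⁻¹ ∉ A) : Transcendental K π :=
  fun halg => hπnu (mem_valuationSubring_of_isIntegral A hK halg.inv.isIntegral)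

end Der7Val

section Der8

variable {A F : Type*} [CommRing A] [Field F] [Algebra A F]

/-- **Quotient rule, membership form.**  `c, u, u⁻¹, del c, del u ∈ O` gives `del (c / u) ∈ O`. -/
theorem derivation_div_mem (del : Derivation A F F) (O : Subring F) {c u : F} (hc : c ∈ O)
    (hu : u ∈ O) (huinv : u⁻¹ ∈ O) (hdc : del c ∈ O) (hdu : del u ∈ O) : del (c / u) ∈ O := by
  rw [Derivation.leibniz_div]
  simp only [smul_eq_mul]
  exact O.mul_mem (O.pow_mem huinv 2) (O.sub_mem (O.mul_mem hu hdc) (O.mul_mem hc hdu))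

/-- **(Der-8).**  `del` preserves `O₀ ⊆ O` and every element of `O` is a fraction `c / u`,
`c u ∈ O₀`, `u⁻¹ ∈ O`.  Then `del` preserves `O`. -/
theorem derivation_mem_of_fractions (del : Derivation A F F) (O₀ O : Subring F)
    (hdel : ∀ c ∈ O₀, del c ∈ O₀) (hO₀ : ∀ c ∈ O₀, c ∈ O)
    (hfrac : ∀ x ∈ O, ∃ c ∈ O₀, ∃ u ∈ O₀, u⁻¹ ∈ O ∧ x = c / u) :
    ∀ x ∈ O, del x ∈ O := by
  intro x hx
  obtain ⟨c, hc, u, hu, huinv, rfl⟩ := hfrac x hx
  exact derivation_div_mem del O (hO₀ c hc) (hO₀ u hu) huinv (hO₀ _ (hdel c hc))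
    (hO₀ _ (hdel u hu))

/-- **(Der-8)**, spelling `x = c * u⁻¹` (as in `CA.H9_DerivationLocal2`). -/
theorem derivation_mem_of_fractions_mul_inv (del : Derivation A F F) (O₀ O : Subring F)
    (hdel : ∀ c ∈ O₀, del c ∈ O₀) (hO₀ : ∀ c ∈ O₀, c ∈ O)
    (hfrac : ∀ x ∈ O, ∃ c ∈ O₀, ∃ u ∈ O₀, u⁻¹ ∈ O ∧ x = c * u⁻¹) :
    ∀ x ∈ O, del x ∈ O :=
  derivation_mem_of_fractions del O₀ O hdel hO₀ fun x hx => by
    obtain ⟨c, hc, u, hu, huinv, h⟩ := hfrac x hx
    exact ⟨c, hc, u, hu, huinv, by rw [h, div_eq_mul_inv]⟩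

/-- **(Der-8)**, spelling `x * u = c` with `u ≠ 0` (cross-multiplied fractions). -/
theorem derivation_mem_of_fractions_mul (del : Derivation A F F) (O₀ O : Subring F)
    (hdel : ∀ c ∈ O₀, del c ∈ O₀) (hO₀ : ∀ c ∈ O₀, c ∈ O)
    (hfrac : ∀ x ∈ O, ∃ c ∈ O₀, ∃ u ∈ O₀, u ≠ 0 ∧ u⁻¹ ∈ O ∧ x * u = c) :
    ∀ x ∈ O, del x ∈ O :=
  derivation_mem_of_fractions del O₀ O hdel hO₀ fun x hx => by
    obtain ⟨c, hc, u, hu, hu0, huinv, h⟩ := hfrac x hx
    exact ⟨c, hc, u, hu, huinv, by rw [← h, mul_div_cancel_right₀ _ hu0]⟩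

/-- **(Der-8)** for a ring of fractions of a ring `B` mapping to `F` (the `MemAt` spelling
`x * algebraMap b = algebraMap a` of `S34.H56.valuationSubringAt`): `O₀` a subring preserved by
`del` and containing the image of `B`, `O ⊇ O₀` consisting of fractions of elements of `B` with
denominators invertible in `O`. -/
theorem derivation_mem_of_fractions_algebraMap {B : Type*} [CommRing B] [Algebra B F]
    (del : Derivation A F F) (O₀ O : Subring F)
    (hdel : ∀ c ∈ O₀, del c ∈ O₀) (hO₀ : ∀ c ∈ O₀, c ∈ O) (hB : ∀ b : B, algebraMap B F b ∈ O₀)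
    (hfrac : ∀ x ∈ O, ∃ a b : B, algebraMap B F b ≠ 0 ∧ (algebraMap B F b)⁻¹ ∈ O ∧
      x * algebraMap B F b = algebraMap B F a) :
    ∀ x ∈ O, del x ∈ O :=
  derivation_mem_of_fractions_mul del O₀ O hdel hO₀ fun x hx => by
    obtain ⟨a, b, hb0, hbinv, h⟩ := hfrac x hx
    exact ⟨_, hB a, _, hB b, hb0, hbinv, h⟩

/-- **(Der-8), `ValuationSubring` front-end.**  `del` preserves the subring `O₀ ⊆ V`, and every
element of the valuation subring `V` is a fraction `c / u` with `c u ∈ O₀`, `u` a unit of `V`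
(`v u = 1`), written `x * u = c`.  Then `del` preserves `V`. -/
theorem derivation_mem_valuationSubring_of_fractions (del : Derivation A F F) (O₀ : Subring F)
    (V : ValuationSubring F) (hdel : ∀ c ∈ O₀, del c ∈ O₀) (hO₀ : ∀ c ∈ O₀, c ∈ V)
    (hfrac : ∀ x ∈ V, ∃ c ∈ O₀, ∃ u ∈ O₀, V.valuation u = 1 ∧ x * u = c) :
    ∀ x ∈ V, del x ∈ V :=
  derivation_mem_of_fractions_mul del O₀ V.toSubring hdel hO₀ fun x hx => by
    obtain ⟨c, hc, u, hu, hvu, h⟩ := hfrac x hx
    have hu0 : u ≠ 0 := by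
      rintro rfl
      rw [map_zero] at hvu
      exact zero_ne_one hvu
    refine ⟨c, hc, u, hu, hu0, ?_, h⟩
    change u⁻¹ ∈ V
    rw [← V.valuation_le_one_iff, map_inv₀, hvu, inv_one]

/-- **(Der-8), `ValuationSubring` front-end**, denominators given by `u⁻¹ ∈ V`. -/
theorem derivation_mem_valuationSubring_of_fractions' (del : Derivation A F F) (O₀ : Subring F)
    (V : ValuationSubring F) (hdel : ∀ c ∈ O₀, del c ∈ O₀) (hO₀ : ∀ c ∈ O₀, c ∈ V)
    (hfrac : ∀ x ∈ V, ∃ c ∈ O₀, ∃ u ∈ O₀, u⁻¹ ∈ V ∧ x = c / u) :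
    ∀ x ∈ V, del x ∈ V :=
  derivation_mem_of_fractions del O₀ V.toSubring hdel hO₀ hfrac

/-- **(Der-8), two valuation subrings** `V₀ ≤ V` (e.g. `V` a localisation of `V₀`): if every
element of `V` is a fraction of elements of `V₀` with denominator a unit of `V`, a derivation
preserving `V₀` preserves `V`. -/
theorem derivation_mem_valuationSubring_of_le (del : Derivation A F F)
    (V₀ V : ValuationSubring F) (hdel : ∀ c ∈ V₀, del c ∈ V₀) (hle : V₀ ≤ V)
    (hfrac : ∀ x ∈ V, ∃ c ∈ V₀, ∃ u ∈ V₀, u⁻¹ ∈ V ∧ x = c / u) :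
    ∀ x ∈ V, del x ∈ V :=
  derivation_mem_of_fractions del V₀.toSubring V.toSubring hdel (fun _ hc => hle hc) hfrac

end Der8

end Fermat.Agent.CA.H66
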