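/-
helper95: any transcendental element of a function field in one variable is a coordinate
(Mathlib only).

If `F / K(x)` is finite (resp. algebraic) and `J ∈ F` is transcendental over `K`, then
`F / K(J)` is finite (resp. algebraic).
-/
import Mathlib

set_option autoImplicit false

namespace Fermat.Agent.CA.H95

open IntermediateField Algebra Cardinal
open scoped IntermediateField.algebraAdjoinAdjoin

variable {K F : Type*} [Field K] [Field F] [Algebra K F]

/-- If `F` is algebraic over `K(x)`, then `trdeg K F ≤ 1`. -/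
theorem trdeg_le_one_of_isAlgebraic_adjoin_simple (x : F) [Algebra.IsAlgebraic K⟮x⟯ F] :
    trdeg K F ≤ 1 := by
  haveI : Algebra.IsAlgebraic (Algebra.adjoin K ({x} : Set F)) F :=
    (IsFractionRing.comap_isAlgebraic_iff (A := Algebra.adjoin K ({x} : Set F))
      (K := K⟮x⟯) (C := F)).2 inferInstance
  have h := Algebra.IsAlgebraic.trdeg_le_cardinalMk K ({x} : Set F)
  simpa using h

/-- If `J` is transcendental over `K`, then `1 ≤ trdeg K K(J)`. -/
theorem one_le_trdeg_adjoin_simple {J : F} (hJ : Transcendental K J) :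
    1 ≤ trdeg K K⟮J⟯ := by
  have hgen : Transcendental K (AdjoinSimple.gen K J) := by
    intro h
    apply hJ
    have := h.algebraMap (A := F)
    simpa using this
  have hind : AlgebraicIndependent K (fun _ : PUnit => AdjoinSimple.gen K J) :=
    algebraicIndependent_unique_type_iff.2 hgen
  have := hind.cardinalMk_le_trdeg
  simpa using this

/-- **Exchange**: if `F / K(x)` is algebraic and `J ∈ F` is transcendental over `K`, then
`F / K(J)` is algebraic. -/
theorem isAlgebraic_adjoin_simple_of_transcendental (x : F) {J : F}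
    [Algebra.IsAlgebraic K⟮x⟯ F] (hJ : Transcendental K J) : Algebra.IsAlgebraic K⟮J⟯ F := by
  have h1 : trdeg K F ≤ 1 := trdeg_le_one_of_isAlgebraic_adjoin_simple x
  have h2 : 1 ≤ trdeg K K⟮J⟯ := one_le_trdeg_adjoin_simple hJ
  have h3 : trdeg K K⟮J⟯ + trdeg K⟮J⟯ F = trdeg K F := trdeg_add_eq K K⟮J⟯
  rw [← trdeg_eq_zero_iff]
  by_contra hne
  have h4 : 1 ≤ trdeg K⟮J⟯ F := Cardinal.one_le_iff_ne_zero.2 hne
  have h5 : (1 : Cardinal) + 1 ≤ 1 := by
    calc (1 : Cardinal) + 1 ≤ trdeg K K⟮J⟯ + trdeg K⟮J⟯ F := add_le_add h2 h4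
      _ = trdeg K F := h3
      _ ≤ 1 := h1
  have h6 : ((2 : ℕ) : Cardinal) ≤ ((1 : ℕ) : Cardinal) := by
    have : ((2 : ℕ) : Cardinal) = 1 + 1 := by norm_num [one_add_one_eq_two]
    rw [this]
    simpa using h5
  exact absurd (Nat.cast_le.1 h6) (by norm_num)

/-- If `F / K(x)` is finite and `J ∈ F` is transcendental over `K`, then `F / K(J)` is finite. -/
theorem finiteDimensional_adjoin_simple_of_transcendental (x : F) {J : F}
    [FiniteDimensional K⟮x⟯ F] (hJ : Transcendental K J) : FiniteDimensional K⟮J⟯ F := by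
  haveI : Algebra.IsAlgebraic K⟮J⟯ F := isAlgebraic_adjoin_simple_of_transcendental x hJ
  haveI : Algebra.EssFiniteType K K⟮x⟯ := by
    rw [IntermediateField.essFiniteType_iff]
    have := IntermediateField.fg_adjoin_finset (F := K) ({x} : Finset F)
    simpa using this
  haveI : Algebra.EssFiniteType K F := Algebra.EssFiniteType.comp K K⟮x⟯ F
  haveI : Algebra.EssFiniteType K⟮J⟯ F := Algebra.EssFiniteType.of_comp K K⟮J⟯ F
  exact Algebra.finite_of_essFiniteType_of_isAlgebraic

end Fermat.Agent.CA.H95
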