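import Fermat.Agent.CA.H66_DerivLocalize
import Fermat.Agent.CA.H95_FinDimCoord

/-!
# CA / H66_DerivLocalizeCoord (helper66): (Der-7) from ONE coordinate

`F / K(j)` algebraic for some coordinate `j` (function field in one variable), `A` a valuation
subring of `F` containing `K`, `π ∈ A` a non-unit (`π⁻¹ ∉ A`).  Then `π` is transcendental over
`K`, hence `F / K(π)` is algebraic (`CA.H95.isAlgebraic_adjoin_simple_of_transcendental`), hence
the residue field of `A` is algebraic over `K` in each of the landed spellings of `halg`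
(`CA.H49_DerivDVRZero`, `CA.H32_DerivHorizontal`, `CA.H33_DerivDVR`, `CA.H33_DerivUnit`).
-/

set_option autoImplicit false

namespace Fermat.Agent.CA.H66

open Polynomial IntermediateField

variable {K F : Type*} [Field K] [Field F] [Algebra K F]

/-- `F / K(j)` algebraic and `π` a non-unit of a valuation subring containing `K`:
`F / K(π)` is algebraic. -/
theorem isAlgebraic_adjoin_of_inv_not_mem (j : F) [Algebra.IsAlgebraic K⟮j⟯ F]
    (A : ValuationSubring F) (hK : ∀ c : K, algebraMap K F c ∈ A) {π : F} (hπnu : π⁻¹ ∉ A) :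
    Algebra.IsAlgebraic K⟮π⟯ F :=
  Fermat.Agent.CA.H95.isAlgebraic_adjoin_simple_of_transcendental j
    (transcendental_of_inv_not_mem A hK hπnu)

/-- **(Der-7) from one coordinate**, spelling `∃ z ∈ A, aeval x p = π * z`
(`CA.H49_DerivDVRZero`, core). -/
theorem forall_exists_poly_aeval_eq_mul_of_coord (j : F) [Algebra.IsAlgebraic K⟮j⟯ F]
    (A : ValuationSubring F) (hK : ∀ c : K, algebraMap K F c ∈ A) {π : F} (hπ : π ∈ A)
    (hπnu : π⁻¹ ∉ A) :
    ∀ x ∈ A.toSubring, ∃ p : K[X], p ≠ 0 ∧ ∃ z ∈ A.toSubring, aeval x p = π * z := by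
  have := isAlgebraic_adjoin_of_inv_not_mem j A hK hπnu
  exact forall_exists_poly_aeval_eq_mul A.toSubring hK hπ
    (ne_zero_of_inv_not_mem A.toSubring hπnu)

/-- **(Der-7) from one coordinate**, spelling `v (aeval x μ) < 1` on `x ∈ A`
(`CA.H49_DerivDVRZero` wrappers, `CA.H32_DerivHorizontal`). -/
theorem forall_mem_exists_poly_valuation_lt_one_of_coord (j : F) [Algebra.IsAlgebraic K⟮j⟯ F]
    (A : ValuationSubring F) (hK : ∀ c : K, algebraMap K F c ∈ A) {π : F} (hπ : π ∈ A)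
    (hπnu : π⁻¹ ∉ A) :
    ∀ x ∈ A, ∃ μ : K[X], μ ≠ 0 ∧ A.valuation (aeval x μ) < 1 := by
  have := isAlgebraic_adjoin_of_inv_not_mem j A hK hπnu
  exact forall_mem_exists_poly_valuation_lt_one A hK hπ hπnu

/-- **(Der-7) from one coordinate**, spelling `∀ x, v x ≤ 1 → …` (`CA.H33_DerivDVR`). -/
theorem forall_valuation_le_one_exists_poly_valuation_lt_one_of_coord (j : F)
    [Algebra.IsAlgebraic K⟮j⟯ F] (A : ValuationSubring F)
    (hK : ∀ c : K, algebraMap K F c ∈ A) {π : F} (hπ : π ∈ A) (hπnu : π⁻¹ ∉ A) :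
    ∀ x : F, A.valuation x ≤ 1 → ∃ μ : K[X], μ ≠ 0 ∧ A.valuation (aeval x μ) < 1 := by
  have := isAlgebraic_adjoin_of_inv_not_mem j A hK hπnu
  exact forall_valuation_le_one_exists_poly_valuation_lt_one A hK hπ hπnu

/-- **(Der-7) from one coordinate**, spelling `aeval x μ = 0 ∨ (aeval x μ)⁻¹ ∉ A`
(`CA.H33_DerivUnit`, `CA.H33_DerivDVR` membership wrappers). -/
theorem forall_mem_exists_poly_zero_or_inv_not_mem_of_coord (j : F)
    [Algebra.IsAlgebraic K⟮j⟯ F] (A : ValuationSubring F)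
    (hK : ∀ c : K, algebraMap K F c ∈ A) {π : F} (hπ : π ∈ A) (hπnu : π⁻¹ ∉ A) :
    ∀ x ∈ A, ∃ μ : K[X], μ ≠ 0 ∧ (aeval x μ = 0 ∨ (aeval x μ)⁻¹ ∉ A) := by
  have := isAlgebraic_adjoin_of_inv_not_mem j A hK hπnu
  exact forall_mem_exists_poly_zero_or_inv_not_mem A hK hπ hπnu

end Fermat.Agent.CA.H66
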