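import Mathlib

/-!
# Going-down for the minimal primes over a prime element (helper69)

`A ⊆ B` an integral extension of domains, `A` integrally closed, `π : A` a prime element.
Every minimal prime `P` of `B` over `π B` lies over `π A` (going-down); hence an element
`t : A` with `π ∤ t` is not in `P`.

For `A ≅ R[X]` (the coordinate ring of the affine line over `R`) and `t = X` this says that every
vertical component of the normalisation of the affine line dominates the line.
-/

set_option autoImplicit false

namespace Fermat.Agent.CA.H69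

section GoingDown

variable {A B : Type*} [CommRing A] [IsIntegrallyClosed A] [CommRing B] [IsDomain B]
  [Algebra A B] [FaithfulSMul A B] [Algebra.IsIntegral A B]

/-- A minimal prime over `π B` lies over `π A`. -/
theorem under_eq_span_of_mem_minimalPrimes {π : A} (hπ : Prime π) {P : Ideal B}
    (hP : P ∈ (Ideal.span {algebraMap A B π} : Ideal B).minimalPrimes) :
    P.under A = Ideal.span {π} := by
  have hPp : P.IsPrime := hP.1.1
  have hp : (Ideal.span {π} : Ideal A).IsPrime :=
    (Ideal.span_singleton_prime hπ.ne_zero).mpr hπ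
  have hπP : algebraMap A B π ∈ P := hP.1.2 (Ideal.mem_span_singleton_self _)
  have hle : Ideal.span {π} ≤ P.under A := by
    rw [Ideal.span_singleton_le_iff_mem]
    exact hπP
  have hlo : P.LiesOver (P.under A) := ⟨rfl⟩
  obtain ⟨P', hP'le, hP'p, hP'lo⟩ :=
    Ideal.exists_ideal_le_liesOver_of_le (p := Ideal.span {π}) (q := P.under A) P hle
  have hπP' : algebraMap A B π ∈ P' := by
    have h1 : π ∈ P'.under A := by
      rw [← hP'lo.over]
      exact Ideal.mem_span_singleton_self π
    exact h1
  have hPP' : P ≤ P' :=
    hP.2 ⟨hP'p, (Ideal.span_singleton_le_iff_mem _).mpr hπP'⟩ hP'le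
  have heq : P' = P := le_antisymm hP'le hPP'
  rw [← heq]
  exact hP'lo.over.symm

/-- An element of `A` not divisible by `π` lies in no minimal prime over `π B`. -/
theorem not_mem_of_mem_minimalPrimes {π : A} (hπ : Prime π) {P : Ideal B}
    (hP : P ∈ (Ideal.span {algebraMap A B π} : Ideal B).minimalPrimes) {t : A} (ht : ¬ π ∣ t) :
    algebraMap A B t ∉ P := by
  intro h
  have h1 : t ∈ P.under A := h
  rw [under_eq_span_of_mem_minimalPrimes hπ hP, Ideal.mem_span_singleton] at h1
  exact ht h1

end GoingDown

section Line

open Polynomial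

variable {R : Type*} [CommRing R] [IsDomain R] [IsIntegrallyClosed R]
  {F : Type*} [Field F] [Algebra R F]

/-- For `J` transcendental over `R`, the constant `π` is a prime element of `R[J]` which does
not divide `J`; and `R[J]` is integrally closed. -/
theorem prime_algebraMap_adjoin {J : F} (htr : Transcendental R J) {π : R} (hπ : Prime π) :
    Prime (algebraMap R ↥(Algebra.adjoin R {J}) π) ∧
      ¬ algebraMap R ↥(Algebra.adjoin R {J}) π ∣ ⟨J, Algebra.self_mem_adjoin_singleton R J⟩ ∧
      IsIntegrallyClosed ↥(Algebra.adjoin R {J}) := by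
  let e : R[X] ≃ₐ[R] ↥(Algebra.adjoin R {J}) := Polynomial.algEquivOfTranscendental R J htr
  have hC : e (C π) = algebraMap R ↥(Algebra.adjoin R {J}) π := e.commutes π
  have hX : e X = ⟨J, Algebra.self_mem_adjoin_singleton R J⟩ :=
    Polynomial.algEquivOfTranscendental_apply_X (R := R) J htr
  refine ⟨?_, ?_, IsIntegrallyClosed.of_equiv e.toRingEquiv⟩
  · rw [← hC]
    exact (MulEquiv.prime_iff e.toMulEquiv).mpr ((Polynomial.prime_C_iff).mpr hπ)
  · rw [← hC, ← hX]
    rintro ⟨a, ha⟩
    obtain ⟨f, rfl⟩ := e.surjective a
    rw [← map_mul] at ha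
    have h1 : (X : R[X]) = C π * f := e.injective ha
    have h2 := congrArg (fun p : R[X] => p.coeff 1) h1
    simp only [coeff_X_one, coeff_C_mul] at h2
    exact hπ.not_isUnit (IsUnit.of_mul_eq_one _ h2.symm)

end Line

end Fermat.Agent.CA.H69
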