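import Fermat.Agent.CA.H69_KummerLocal

/-!
# Kummer covers over a normal chart: local idempotents (helper69)

`B` an integrally closed domain with fraction field `K`, `L = K(W)`, `W ^ l = u`.
Everything is stated "in the field" (helper3's shape, board #2549):

* `x ∈ C_P`  :↔ `∃ s ∉ P, s • x ∈ integralClosure B L`
* `x ∈ π C_P` :↔ `∃ s ∉ P, ∃ c ∈ integralClosure B L, s • x = π • c`
* `x ∈ π B_P` (for `x : K`) :↔ `∃ s ∉ P, ∃ b, algebraMap s * x = algebraMap π * algebraMap b`
-/

set_option autoImplicit false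

open Polynomial

namespace Fermat.Agent.CA.H69

noncomputable section

variable {K L : Type*} [Field K] [Field L] [Algebra K L]
variable {B : Type*} [CommRing B] [IsDomain B] [Algebra B K] [IsFractionRing B K]
  [Algebra B L] [IsScalarTower B K L]

/-- `x ∈ π B_P`, in the field. -/
def InPiB (π : B) (P : Ideal B) (x : K) : Prop :=
  ∃ s : B, s ∉ P ∧ ∃ b : B, algebraMap B K s * x = algebraMap B K π * algebraMap B K b

/-- `x ∈ C_P`, in the field. -/
def InLocC (P : Ideal B) (x : L) : Prop :=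
  ∃ s : B, s ∉ P ∧ s • x ∈ integralClosure B L

/-- `x ∈ π C_P`, in the field. -/
def InPiC (π : B) (P : Ideal B) (x : L) : Prop :=
  ∃ s : B, s ∉ P ∧ ∃ c ∈ integralClosure B L, s • x = π • c

/-- the localisation `B_P` as a subalgebra of `K`. -/
abbrev locB (P : Ideal B) [P.IsPrime] : Subalgebra B K :=
  Localization.subalgebra.ofField K P.primeCompl P.primeCompl_le_nonZeroDivisors

section Loc

variable (P : Ideal B) [P.IsPrime]

theorem mem_locB_iff {x : K} :
    x ∈ locB (K := K) P ↔ ∃ a s : B, s ∉ P ∧ x * algebraMap B K s = algebraMap B K a := by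
  constructor
  · rintro ⟨a, s, hs, rfl⟩
    refine ⟨a, s, hs, ?_⟩
    have hs0 : algebraMap B K s ≠ 0 := by
      intro h0
      have : s = 0 := (IsFractionRing.injective B K) (by rw [h0, map_zero])
      exact hs (this ▸ P.zero_mem)
    rw [mul_assoc, inv_mul_cancel₀ hs0, mul_one]
  · rintro ⟨a, s, hs, h⟩
    refine ⟨a, s, hs, ?_⟩
    have hs0 : algebraMap B K s ≠ 0 := by
      intro h0
      have : s = 0 := (IsFractionRing.injective B K) (by rw [h0, map_zero])
      exact hs (this ▸ P.zero_mem)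
    rw [← h, mul_assoc, mul_inv_cancel₀ hs0, mul_one]

theorem algebraMap_mem_locB (b : B) : algebraMap B K b ∈ locB (K := K) P :=
  (locB (K := K) P).algebraMap_mem b

theorem mem_range_locB_iff {x : K} :
    x ∈ (algebraMap (locB (K := K) P) K).range ↔ x ∈ locB (K := K) P :=
  ⟨by rintro ⟨⟨y, hy⟩, rfl⟩; exact hy, fun h => ⟨⟨x, h⟩, rfl⟩⟩

variable [IsIntegrallyClosed B]

theorem locB_integrallyClosed (x : K) (hx : IsIntegral (locB (K := K) P) x) :
    x ∈ (algebraMap (locB (K := K) P) K).range := by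
  have : IsIntegrallyClosed (locB (K := K) P) :=
    isIntegrallyClosed_of_isLocalization (locB (K := K) P) P.primeCompl
      P.primeCompl_le_nonZeroDivisors
  obtain ⟨y, hy⟩ := IsIntegrallyClosed.isIntegral_iff.mp hx
  exact ⟨y, hy⟩

omit [IsIntegrallyClosed B] in
theorem exists_smul_isIntegral {y : L} (hy : IsIntegral (locB (K := K) P) y) :
    ∃ s : B, s ∉ P ∧ IsIntegral B (s • y) := by
  obtain ⟨m, hm⟩ := IsIntegral.exists_multiple_integral_of_isLocalization P.primeCompl
    (Rₘ := locB (K := K) P) y hy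
  exact ⟨m.1, m.2, hm⟩

end Loc


/-! ### membership in `π B_P` -/

section PiB

variable (P : Ideal B) [P.IsPrime] {π : B}

theorem exists_of_inPiB {x : K} (h : InPiB π P x) :
    ∃ t ∈ locB (K := K) P, x = algebraMap B K π * t := by
  obtain ⟨s, hs, b, hb⟩ := h
  have hs0 : algebraMap B K s ≠ 0 := by
    intro h0
    have : s = 0 := (IsFractionRing.injective B K) (by rw [h0, map_zero])
    exact hs (this ▸ P.zero_mem)
  refine ⟨algebraMap B K b * (algebraMap B K s)⁻¹, ⟨b, s, hs, rfl⟩, ?_⟩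
  rw [← mul_assoc, ← hb, mul_comm (algebraMap B K s) x, mul_assoc, mul_inv_cancel₀ hs0, mul_one]

theorem inPiB_of_exists {x : K} (h : ∃ t ∈ locB (K := K) P, x = algebraMap B K π * t) :
    InPiB π P x := by
  obtain ⟨t, ht, rfl⟩ := h
  obtain ⟨a, s, hs, hta⟩ := (mem_locB_iff P).mp ht
  refine ⟨s, hs, a, ?_⟩
  rw [← hta]
  ring

/-- `1 + π t` is a unit of `B_P` when `π ∈ P`. -/
theorem one_add_mem_locB (hπP : π ∈ P) {x t : K} (ht : t ∈ locB (K := K) P)
    (hx : x - 1 = algebraMap B K π * t) :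
    x ∈ locB (K := K) P ∧ x ≠ 0 ∧ x⁻¹ ∈ locB (K := K) P := by
  have hx' : x = 1 + algebraMap B K π * t := by rw [← hx]; ring
  have hxmem : x ∈ locB (K := K) P := by
    rw [hx']
    exact add_mem (one_mem _) (mul_mem (algebraMap_mem_locB P π) ht)
  obtain ⟨a, s, hs, hta⟩ := (mem_locB_iff P).mp ht
  have hs0 : algebraMap B K s ≠ 0 := by
    intro h0
    have : s = 0 := (IsFractionRing.injective B K) (by rw [h0, map_zero])
    exact hs (this ▸ P.zero_mem)
  -- `x * s = s + π a`
  have hxs : x * algebraMap B K s = algebraMap B K (s + π * a) := by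
    rw [hx', map_add, map_mul, ← hta]
    ring
  have hne : s + π * a ∉ P := by
    intro hmem
    have : s ∈ P := by
      have h2 : π * a ∈ P := P.mul_mem_right a hπP
      have := P.sub_mem hmem h2
      rwa [add_sub_cancel_right] at this
    exact hs this
  have hne0 : algebraMap B K (s + π * a) ≠ 0 := by
    intro h0
    have : s + π * a = 0 := (IsFractionRing.injective B K) (by rw [h0, map_zero])
    exact hne (this ▸ P.zero_mem)
  have hx0 : x ≠ 0 := by
    intro h0
    rw [h0, zero_mul] at hxs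
    exact hne0 hxs.symm
  refine ⟨hxmem, hx0, ?_⟩
  rw [mem_locB_iff]
  refine ⟨s, s + π * a, hne, ?_⟩
  rw [← hxs, ← mul_assoc, inv_mul_cancel₀ hx0, one_mul]

theorem pow_sub_one_mem (hπP : π ∈ P) {x t : K} (ht : t ∈ locB (K := K) P)
    (hx : x - 1 = algebraMap B K π * t) (k : ℕ) :
    ∃ t' ∈ locB (K := K) P, x ^ k - 1 = algebraMap B K π * t' := by
  have hxmem := (one_add_mem_locB P hπP ht hx).1
  refine ⟨(∑ i ∈ Finset.range k, x ^ i) * t, mul_mem (sum_mem fun i _ => pow_mem hxmem i) ht, ?_⟩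
  rw [← geom_sum_mul, hx]
  ring

theorem inv_pow_sub_one_mem (hπP : π ∈ P) {x t : K} (ht : t ∈ locB (K := K) P)
    (hx : x - 1 = algebraMap B K π * t) (k : ℕ) :
    ∃ t' ∈ locB (K := K) P, (x⁻¹) ^ k - 1 = algebraMap B K π * t' := by
  obtain ⟨hxmem, hx0, hxinv⟩ := one_add_mem_locB P hπP ht hx
  have h1 : x⁻¹ - 1 = algebraMap B K π * (-(t * x⁻¹)) := by
    have : x⁻¹ - 1 = -((x - 1) * x⁻¹) := by
      rw [sub_mul, mul_inv_cancel₀ hx0]
      ring
    rw [this, hx]
    ring
  exact pow_sub_one_mem P hπP (neg_mem (mul_mem ht hxinv)) h1 k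

end PiB

/-! ### The idempotents -/

section Chart

variable (pb : PowerBasis K L) {l : ℕ} (hdim : pb.dim = l) {u : K}
  (hgen : pb.gen ^ l = algebraMap K L u)

/-- the generic idempotent `g = (1/l) ∑ W^k`. -/
def gGen (l : ℕ) : L := ∑ k ∈ Finset.range l, ((l : K)⁻¹) • pb.gen ^ k

/-- the local idempotent `e = (1/l) ∑ (W/ψ)^k`. -/
def eLoc (l : ℕ) (ψ : K) : L := ∑ k ∈ Finset.range l, ((l : K)⁻¹ * (ψ⁻¹) ^ k) • pb.gen ^ k

include hdim in
theorem coord_gGen {k : ℕ} (hk : k < l) : coord pb (gGen pb l) k = (l : K)⁻¹ :=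
  coord_eq_of_sum pb (c := fun _ => (l : K)⁻¹) (by rw [hdim]; rfl) (hdim ▸ hk)

include hdim in
theorem coord_eLoc (ψ : K) {k : ℕ} (hk : k < l) :
    coord pb (eLoc pb l ψ) k = (l : K)⁻¹ * (ψ⁻¹) ^ k :=
  coord_eq_of_sum pb (c := fun k => (l : K)⁻¹ * (ψ⁻¹) ^ k) (by rw [hdim]; rfl) (hdim ▸ hk)

variable [IsIntegrallyClosed B]
variable {rl w : B} (hrl : algebraMap B K rl * (l : K) = 1)
  (hw : IsPrimitiveRoot (algebraMap B K w) l)

include hdim hgen hrl in
omit [IsIntegrallyClosed B] in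
/-- (L1a): the local idempotent is integral over `B_n` as soon as `u / ψ ^ l ∈ B_n`. -/
theorem eLoc_inLocC (n : Ideal B) [n.IsPrime] {ψ : K} (hψ : ψ ≠ 0)
    (hε : ∃ a s : B, s ∉ n ∧ u * algebraMap B K s = ψ ^ l * algebraMap B K a) :
    InLocC n (eLoc pb l ψ) := by
  have hl0 : (l : K) ≠ 0 := right_ne_zero_of_mul_eq_one hrl
  have hlinv : (l : K)⁻¹ = algebraMap B K rl := (eq_inv_of_mul_eq_one_left hrl).symm
  have hint : IsIntegral (locB (K := K) n) (eLoc pb l ψ) := by
    refine isIntegral_of_coord_mul_pow_mem pb hdim hgen (S := locB (K := K) n) hψ ?_ ?_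
    · rw [mem_range_locB_iff, mem_locB_iff]
      obtain ⟨a, s, hs, h⟩ := hε
      refine ⟨a, s, hs, ?_⟩
      rw [div_mul_eq_mul_div, h, mul_div_assoc, mul_div_cancel₀ _ (pow_ne_zero _ hψ)]
    · intro k hk
      rw [coord_eLoc pb hdim ψ hk, mul_assoc, ← mul_pow, inv_mul_cancel₀ hψ, one_pow, mul_one,
        hlinv, mem_range_locB_iff]
      exact algebraMap_mem_locB n rl
  obtain ⟨s, hs, hsint⟩ := exists_smul_isIntegral n hint
  exact ⟨s, hs, hsint⟩


include hdim hgen hrl in
omit [IsIntegrallyClosed B] in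
/-- (L1b): at a vertical prime `P` (`π ∈ P`) where `u ≡ 1` and `ψ ≡ 1` modulo `π B_P`, the local
idempotent agrees with the generic one modulo `π C_P`. -/
theorem eLoc_sub_gGen_inPiC {π : B} (P : Ideal B) [P.IsPrime] (hπP : π ∈ P) {ψ : K}
    (hu1 : InPiB π P (u - 1)) (hψ1 : InPiB π P (ψ - 1)) :
    InPiC π P (eLoc pb l ψ - gGen pb l) := by
  have hlinv : (l : K)⁻¹ = algebraMap B K rl := (eq_inv_of_mul_eq_one_left hrl).symm
  obtain ⟨tu, htu, hu⟩ := exists_of_inPiB P hu1
  obtain ⟨tψ, htψ, hψ⟩ := exists_of_inPiB P hψ1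
  have hk : ∀ k, ∃ t' ∈ locB (K := K) P, (ψ⁻¹) ^ k - 1 = algebraMap B K π * t' :=
    inv_pow_sub_one_mem P hπP htψ hψ
  choose t ht htk using hk
  set y : L := ∑ k ∈ Finset.range l, ((l : K)⁻¹ * t k) • pb.gen ^ k with hy
  have hdiff : eLoc pb l ψ - gGen pb l = (algebraMap B K π) • y := by
    rw [eLoc, gGen, ← Finset.sum_sub_distrib, hy, Finset.smul_sum]
    refine Finset.sum_congr rfl fun k _ => ?_
    rw [← sub_smul, smul_smul]
    congr 1
    rw [← mul_sub_one, htk k]
    ring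
  have humem := one_add_mem_locB P hπP htu hu
  have hint : IsIntegral (locB (K := K) P) y := by
    refine isIntegral_of_coord_mul_pow_mem pb hdim hgen (S := locB (K := K) P) one_ne_zero ?_ ?_
    · rw [one_pow, div_one, mem_range_locB_iff]
      exact humem.1
    · intro k hk
      have hc : coord pb y k = (l : K)⁻¹ * t k :=
        coord_eq_of_sum pb (c := fun k => (l : K)⁻¹ * t k) (by rw [hdim]) (hdim ▸ hk)
      rw [hc, one_pow, mul_one, mem_range_locB_iff, hlinv]
      exact mul_mem (algebraMap_mem_locB P rl) (ht k)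
  obtain ⟨d, hd, hdint⟩ := exists_smul_isIntegral P hint
  refine ⟨d, hd, d • y, hdint, ?_⟩
  rw [hdiff, algebraMap_smul, smul_comm]

include hdim hgen hrl hw in
/-- an element of `π C_P` has all coordinates in `π B_P`. -/
theorem coord_inPiB_of_inPiC {π : B} (P : Ideal B) [P.IsPrime] (hπP : π ∈ P)
    (hu1 : InPiB π P (u - 1)) {x : L} (hx : InPiC π P x) (k : ℕ) :
    InPiB π P (coord pb x k) := by
  have hl0 : (l : K) ≠ 0 := right_ne_zero_of_mul_eq_one hrl
  have hlinv : (l : K)⁻¹ = algebraMap B K rl := (eq_inv_of_mul_eq_one_left hrl).symm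
  obtain ⟨tu, htu, hu⟩ := exists_of_inPiB P hu1
  obtain ⟨humem, hu0, huinv⟩ := one_add_mem_locB P hπP htu hu
  obtain ⟨s, hs, c, hc, h⟩ := hx
  have hcint : IsIntegral (locB (K := K) P) c :=
    IsIntegral.tower_top (R := B) hc
  have hcoord := coord_mul_pow_mem_of_isIntegral pb hdim hgen (S := locB (K := K) P)
    (locB_integrallyClosed P) hw ((mem_range_locB_iff P).mpr (algebraMap_mem_locB P w))
    (by rw [hlinv, mem_range_locB_iff]; exact algebraMap_mem_locB P rl) hl0 (ψ := 1) hu0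
    (by rw [one_pow, one_div, mem_range_locB_iff]; exact huinv) hcint k
  rw [one_pow, mul_one, mem_range_locB_iff] at hcoord
  -- `s * coord x k = π * coord c k`
  have h2 : algebraMap B K s * coord pb x k = algebraMap B K π * coord pb c k := by
    have h3 : coord pb (s • x) k = coord pb (π • c) k := by rw [h]
    rwa [← algebraMap_smul K s x, ← algebraMap_smul K π c, coord_smul, coord_smul] at h3
  obtain ⟨a, s', hs', ha⟩ := (mem_locB_iff P).mp hcoord
  refine ⟨s * s', fun hmem => (Ideal.IsPrime.mem_or_mem ‹_› hmem).elim hs hs', a, ?_⟩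
  rw [map_mul, mul_right_comm, h2, mul_assoc, ha]

omit [IsIntegrallyClosed B] [IsDomain B] in
theorem not_inPiB_algebraMap {π : B} (P : Ideal B) [P.IsPrime] (hπP : π ∈ P) {b : B}
    (hb : b ∉ P) : ¬ InPiB π P (algebraMap B K b) := by
  rintro ⟨s, hs, b', h⟩
  rw [← map_mul, ← map_mul] at h
  have h' : s * b = π * b' := IsFractionRing.injective B K h
  have : s * b ∈ P := h' ▸ P.mul_mem_right b' hπP
  exact (Ideal.IsPrime.mem_or_mem ‹_› this).elim hs hb

include hrl in
omit [IsIntegrallyClosed B] [IsDomain B] in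
theorem rl_notMem (P : Ideal B) [P.IsPrime] : rl ∉ P := by
  intro h
  have h1 : rl * (l : B) = 1 := by
    apply IsFractionRing.injective B K
    rw [map_mul, map_natCast, hrl, map_one]
  have : (1 : B) ∈ P := h1 ▸ P.mul_mem_right _ h
  exact (Ideal.IsPrime.ne_top ‹_›) ((Ideal.eq_top_iff_one P).mpr this)

include hdim hgen hrl hw in
/-- (L2 ii): the generic idempotent is not `0` modulo `π C_P`. -/
theorem not_inPiC_gGen {π : B} (P : Ideal B) [P.IsPrime] (hπP : π ∈ P)
    (hu1 : InPiB π P (u - 1)) : ¬ InPiC π P (gGen pb l) := by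
  intro h
  have hl : 0 < l := hdim ▸ pb.dim_pos
  have hlinv : (l : K)⁻¹ = algebraMap B K rl := (eq_inv_of_mul_eq_one_left hrl).symm
  have := coord_inPiB_of_inPiC pb hdim hgen hrl hw P hπP hu1 h 0
  rw [coord_gGen pb hdim hl, hlinv] at this
  exact not_inPiB_algebraMap P hπP (rl_notMem hrl P) this

include hdim in
omit [IsIntegrallyClosed B] in
theorem coord_one_one (hl : 1 < l) : coord pb (1 : L) 1 = 0 := by
  have h : ∑ k ∈ Finset.range pb.dim, (if k = 0 then (1 : K) else 0) • pb.gen ^ k = 1 := by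
    rw [Finset.sum_eq_single 0]
    · rw [if_pos rfl, pow_zero, one_smul]
    · intro k _ hk
      rw [if_neg hk, zero_smul]
    · intro h
      exact absurd (Finset.mem_range.mpr pb.dim_pos) h
  have := coord_eq_of_sum pb h (k := 1) (hdim ▸ hl)
  rw [this, if_neg one_ne_zero]

include hdim hgen hrl hw in
/-- (L2 iii): the generic idempotent is not `1` modulo `π C_P` (`l ≥ 2`). -/
theorem not_inPiC_gGen_sub_one {π : B} (P : Ideal B) [P.IsPrime] (hπP : π ∈ P) (hl : 1 < l)
    (hu1 : InPiB π P (u - 1)) : ¬ InPiC π P (gGen pb l - 1) := by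
  intro h
  have hlinv : (l : K)⁻¹ = algebraMap B K rl := (eq_inv_of_mul_eq_one_left hrl).symm
  have := coord_inPiB_of_inPiC pb hdim hgen hrl hw P hπP hu1 h 1
  rw [coord_sub, coord_gGen pb hdim hl, coord_one_one pb hdim hl, sub_zero, hlinv] at this
  exact not_inPiB_algebraMap P hπP (rl_notMem hrl P) this

include hdim hgen hrl in
omit [IsIntegrallyClosed B] in
/-- (L2 i): the generic idempotent is idempotent modulo `π C_P`. -/
theorem gGen_sq_sub_inPiC {π : B} (P : Ideal B) [P.IsPrime] (hπP : π ∈ P)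
    (hu1 : InPiB π P (u - 1)) : InPiC π P (gGen pb l ^ 2 - gGen pb l) := by
  have hl : 0 < l := hdim ▸ pb.dim_pos
  have hl0 : (l : K) ≠ 0 := right_ne_zero_of_mul_eq_one hrl
  have hlinv : (l : K)⁻¹ = algebraMap B K rl := (eq_inv_of_mul_eq_one_left hrl).symm
  obtain ⟨tu, htu, hu⟩ := exists_of_inPiB P hu1
  obtain ⟨humem, hu0, huinv⟩ := one_add_mem_locB P hπP htu hu
  set W := pb.gen with hW
  set Sg : L := ∑ k ∈ Finset.range l, W ^ k with hSg
  set q : L := ∑ k ∈ Finset.range l, ∑ i ∈ Finset.range k, W ^ i with hq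
  have hg : gGen pb l = (l : K)⁻¹ • Sg := by rw [gGen, hSg, Finset.smul_sum]
  -- `Sg * (W - 1) = u - 1`
  have h1 : Sg * (W - 1) = algebraMap K L (u - 1) := by
    rw [hSg, geom_sum_mul, hgen, map_sub, map_one]
  -- `Sg - l = q * (W - 1)`
  have h2 : Sg - (l : L) = q * (W - 1) := by
    rw [hq, Finset.sum_mul]
    have : ∀ k ∈ Finset.range l, (∑ i ∈ Finset.range k, W ^ i) * (W - 1) = W ^ k - 1 :=
      fun k _ => geom_sum_mul W k
    rw [Finset.sum_congr rfl this, Finset.sum_sub_distrib, hSg]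
    simp
  have h3 : gGen pb l - 1 = (l : K)⁻¹ • (q * (W - 1)) := by
    rw [← h2, smul_sub, hg]
    congr 1
    rw [Algebra.smul_def, ← map_natCast (algebraMap K L), ← map_mul, inv_mul_cancel₀ hl0, map_one]
  set y : L := ((l : K)⁻¹ * (l : K)⁻¹ * tu) • q with hy
  have hdiff : gGen pb l ^ 2 - gGen pb l = (algebraMap B K π) • y := by
    have : gGen pb l ^ 2 - gGen pb l = gGen pb l * (gGen pb l - 1) := by ring
    rw [this, h3, hg, smul_mul_smul_comm, mul_left_comm, h1, hu, hy, smul_smul,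
      Algebra.smul_def, Algebra.smul_def, mul_comm q, ← mul_assoc, ← map_mul]
    congr 2
    ring
  have hWint : IsIntegral (locB (K := K) P) W := by
    refine IsIntegral.of_pow hl ?_
    rw [hgen]
    exact isIntegral_algebraMap_of_mem ((mem_range_locB_iff P).mpr humem)
  have hint : IsIntegral (locB (K := K) P) y := by
    refine isIntegral_smul_of_mem ?_ ?_
    · rw [mem_range_locB_iff, hlinv]
      exact mul_mem (mul_mem (algebraMap_mem_locB P rl) (algebraMap_mem_locB P rl)) htu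
    · exact IsIntegral.sum _ fun k _ => IsIntegral.sum _ fun i _ => hWint.pow i
  obtain ⟨d, hd, hdint⟩ := exists_smul_isIntegral P hint
  refine ⟨d, hd, d • y, hdint, ?_⟩
  rw [hdiff, algebraMap_smul, smul_comm]

end Chart

end

end Fermat.Agent.CA.H69
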