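import Mathlib

/-!
# Kummer extensions `F' = K(W)`, `W ^ l = u`: integrality in coordinates (helper69)

`pb : PowerBasis K F'` with `pb.gen ^ l = u`, `pb.dim = l`, `ω ∈ K` a primitive `l`-th root of unity.
For a subring `S ⊆ K`, integrally closed in `K`, with `l⁻¹, ω ∈ S`, and `ψ ∈ Kˣ` such that
`ε := u / ψ ^ l` is a unit of `S`:

`y = ∑ c_k W^k` is integral over `S`  ⇔  `c_k ψ^k ∈ S` for all `k`
(i.e. the integral closure of `S` in `F'` is `S[W/ψ]`).
-/

set_option autoImplicit false

open Polynomial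

namespace Fermat.Agent.CA.H69

noncomputable section

variable {K F' : Type*} [Field K] [Field F'] [Algebra K F']

section Kummer

variable (pb : PowerBasis K F') {l : ℕ} (hdim : pb.dim = l) {u : K}
  (hgen : pb.gen ^ l = algebraMap K F' u)

/-- coordinates of `y` in the basis `1, W, …, W^(l-1)` (as a function on `ℕ`, zero for `k ≥ l`). -/
def coord (y : F') (k : ℕ) : K :=
  if h : k < pb.dim then pb.basis.repr y ⟨k, h⟩ else 0

theorem sum_coord (y : F') :
    ∑ k ∈ Finset.range pb.dim, coord pb y k • pb.gen ^ k = y := by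
  conv_rhs => rw [← pb.basis.sum_repr y]
  rw [Finset.sum_range]
  refine Finset.sum_congr rfl fun i _ => ?_
  rw [coord, dif_pos i.2, pb.basis_eq_pow]

theorem coord_eq_of_sum {c : ℕ → K} {y : F'}
    (h : ∑ k ∈ Finset.range pb.dim, c k • pb.gen ^ k = y) {k : ℕ} (hk : k < pb.dim) :
    coord pb y k = c k := by
  have hy : y = ∑ i : Fin pb.dim, c i • pb.basis i := by
    rw [← h, Finset.sum_range]
    refine Finset.sum_congr rfl fun i _ => ?_
    rw [pb.basis_eq_pow]
  rw [coord, dif_pos hk, hy, pb.basis.repr_sum_self]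

theorem coord_add (y z : F') (k : ℕ) : coord pb (y + z) k = coord pb y k + coord pb z k := by
  unfold coord
  split_ifs
  · rw [map_add, Finsupp.add_apply]
  · rw [add_zero]

theorem coord_smul (a : K) (y : F') (k : ℕ) : coord pb (a • y) k = a * coord pb y k := by
  unfold coord
  split_ifs
  · rw [map_smul, Finsupp.smul_apply, smul_eq_mul]
  · rw [mul_zero]

theorem coord_zero (k : ℕ) : coord pb (0 : F') k = 0 := by
  unfold coord
  split_ifs
  · rw [map_zero, Finsupp.zero_apply]
  · rfl

theorem coord_sub (y z : F') (k : ℕ) : coord pb (y - z) k = coord pb y k - coord pb z k := by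
  unfold coord
  split_ifs
  · rw [map_sub, Finsupp.sub_apply]
  · rw [sub_zero]

theorem coord_of_ge (y : F') {k : ℕ} (hk : pb.dim ≤ k) : coord pb y k = 0 := by
  rw [coord, dif_neg (not_lt.mpr hk)]

include hdim hgen in
/-- the minimal polynomial of the generator is `X ^ l - u`. -/
theorem minpoly_gen_eq : minpoly K pb.gen = X ^ l - C u := by
  have hl : 0 < l := hdim ▸ pb.dim_pos
  have hmonic : (X ^ l - C u : K[X]).Monic := monic_X_pow_sub_C u hl.ne'
  have hroot : aeval pb.gen (X ^ l - C u : K[X]) = 0 := by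
    rw [map_sub, map_pow, aeval_X, aeval_C, hgen, sub_self]
  have hdvd := minpoly.dvd K pb.gen hroot
  have hdeg : (minpoly K pb.gen).natDegree = (X ^ l - C u : K[X]).natDegree := by
    rw [pb.natDegree_minpoly, natDegree_X_pow_sub_C, hdim]
  exact (eq_of_monic_of_dvd_of_natDegree_le (minpoly.monic pb.isIntegral_gen) hmonic hdvd
    (le_of_eq hdeg.symm)).symm

include hdim hgen in
theorem aeval_rootOfUnity_smul_gen {ζ : K} (hζ : ζ ^ l = 1) :
    aeval (ζ • pb.gen) (minpoly K pb.gen) = 0 := by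
  rw [minpoly_gen_eq pb hdim hgen, map_sub, map_pow, aeval_X, aeval_C, _root_.smul_pow, hζ, one_smul, hgen,
    sub_self]

/-- the `K`-algebra endomorphism `W ↦ ζ W` for an `l`-th root of unity `ζ`. -/
def twist {ζ : K} (hζ : ζ ^ l = 1) : F' →ₐ[K] F' :=
  pb.lift (ζ • pb.gen) (aeval_rootOfUnity_smul_gen pb hdim hgen hζ)

theorem twist_gen {ζ : K} (hζ : ζ ^ l = 1) : twist pb hdim hgen hζ pb.gen = ζ • pb.gen :=
  pb.lift_gen _ _

theorem twist_apply {ζ : K} (hζ : ζ ^ l = 1) (y : F') :
    twist pb hdim hgen hζ y =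
      ∑ k ∈ Finset.range pb.dim, (coord pb y k * ζ ^ k) • pb.gen ^ k := by
  conv_lhs => rw [← sum_coord pb y]
  rw [map_sum]
  refine Finset.sum_congr rfl fun k _ => ?_
  rw [map_smul, map_pow, twist_gen, _root_.smul_pow, smul_smul]


/-! ### The discrete Fourier transform on `F'` -/

section DFT

variable {ω : K} (hω : IsPrimitiveRoot ω l)

include hω in
theorem geom_sum_root (a : ℕ) :
    ∑ j ∈ Finset.range l, (ω ^ a) ^ j = if l ∣ a then (l : K) else 0 := by
  split_ifs with h
  · rw [(hω.pow_eq_one_iff_dvd a).mpr h]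
    simp
  · have hne : ω ^ a ≠ 1 := fun h1 => h ((hω.pow_eq_one_iff_dvd a).mp h1)
    rw [geom_sum_eq hne, ← pow_mul, mul_comm, pow_mul, hω.pow_eq_one, one_pow, sub_self, zero_div]

theorem root_pow_pow {ω : K} (hω : IsPrimitiveRoot ω l) (j : ℕ) : (ω ^ j) ^ l = 1 := by
  rw [← pow_mul, mul_comm, pow_mul, hω.pow_eq_one, one_pow]

include hω in
/-- Fourier inversion: `∑_j ω^(j (l - k)) τ_j y = l • (c_k W^k)`. -/
theorem dft (y : F') {k : ℕ} (hk : k < l) :
    ∑ j ∈ Finset.range l, (ω ^ (j * (l - k))) • twist pb hdim hgen (root_pow_pow hω j) y =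
      (l : K) • (coord pb y k • pb.gen ^ k) := by
  have h1 : ∀ j ∈ Finset.range l,
      (ω ^ (j * (l - k))) • twist pb hdim hgen (root_pow_pow hω j) y =
        ∑ m ∈ Finset.range l, ((ω ^ (m + (l - k))) ^ j * coord pb y m) • pb.gen ^ m := by
    intro j _
    rw [twist_apply, hdim, Finset.smul_sum]
    refine Finset.sum_congr rfl fun m _ => ?_
    rw [smul_smul]
    congr 1
    rw [← pow_mul, ← pow_mul]
    have : (m + (l - k)) * j = j * (l - k) + j * m := by ring
    rw [this, pow_add]
    ring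
  rw [Finset.sum_congr rfl h1, Finset.sum_comm]
  have h2 : ∀ m ∈ Finset.range l,
      ∑ j ∈ Finset.range l, ((ω ^ (m + (l - k))) ^ j * coord pb y m) • pb.gen ^ m =
        if m = k then (l : K) • (coord pb y k • pb.gen ^ k) else 0 := by
    intro m hm
    rw [← Finset.sum_smul, ← Finset.sum_mul, geom_sum_root hω]
    have hm' : m < l := Finset.mem_range.mp hm
    have hiff : l ∣ m + (l - k) ↔ m = k := by
      constructor
      · intro hd
        obtain ⟨q, hq⟩ := hd
        have hq1 : q = 1 := by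
          rcases Nat.lt_or_ge q 1 with h0 | h0
          · have : q = 0 := by omega
            subst this
            omega
          · rcases Nat.lt_or_ge 1 q with h2 | h2
            · have : 2 * l ≤ l * q := by
                calc 2 * l = l * 2 := by ring
                _ ≤ l * q := Nat.mul_le_mul_left _ h2
              omega
            · omega
        subst hq1
        omega
      · rintro rfl
        exact ⟨1, by omega⟩
    by_cases hmk : m = k
    · subst hmk
      rw [if_pos (hiff.mpr rfl), if_pos rfl, smul_smul]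
    · rw [if_neg (fun h => hmk (hiff.mp h)), if_neg hmk, zero_mul, zero_smul]
  rw [Finset.sum_congr rfl h2, Finset.sum_ite_eq' _ k]
  rw [if_pos (Finset.mem_range.mpr hk)]

end DFT

/-! ### Lemma A: integrality in coordinates -/

section LemmaA

variable {S : Type*} [CommRing S] [Algebra S K] [Algebra S F'] [IsScalarTower S K F']

theorem isIntegral_algebraMap_of_mem {x : K} (hx : x ∈ (algebraMap S K).range) :
    IsIntegral S (algebraMap K F' x) := by
  obtain ⟨s, rfl⟩ := hx
  rw [← IsScalarTower.algebraMap_apply S K F']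
  exact isIntegral_algebraMap

theorem isIntegral_smul_of_mem {x : K} (hx : x ∈ (algebraMap S K).range) {y : F'}
    (hy : IsIntegral S y) : IsIntegral S (x • y) := by
  rw [Algebra.smul_def]
  exact (isIntegral_algebraMap_of_mem hx).mul hy

variable (hS : ∀ x : K, IsIntegral S x → x ∈ (algebraMap S K).range)
  {ω : K} (hω : IsPrimitiveRoot ω l) (hωS : ω ∈ (algebraMap S K).range)
  (hlS : ((l : K))⁻¹ ∈ (algebraMap S K).range) (hl0 : (l : K) ≠ 0)
  {ψ : K} (hψ : ψ ≠ 0) (hu : u ≠ 0)
  (hε : u / ψ ^ l ∈ (algebraMap S K).range) (hε' : ψ ^ l / u ∈ (algebraMap S K).range)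

include hdim hgen hS hω hωS hlS hl0 in
/-- Lemma A (→), first half: `c_k ^ l * u ^ k ∈ S`. -/
theorem coord_pow_mul_pow_mem_of_isIntegral {y : F'} (hy : IsIntegral S y) (k : ℕ) :
    coord pb y k ^ l * u ^ k ∈ (algebraMap S K).range := by
  have hl : 0 < l := hdim ▸ pb.dim_pos
  rcases Nat.lt_or_ge k l with hk | hk
  swap
  · rw [coord_of_ge pb y (hdim ▸ hk), zero_pow hl.ne', zero_mul]
    exact zero_mem _
  -- the twists are integral
  have htw : ∀ j : ℕ, IsIntegral S (twist pb hdim hgen (root_pow_pow hω j) y) := fun j =>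
    IsIntegral.map (R := S) (A := K) (twist pb hdim hgen (root_pow_pow hω j)) hy
  have hsum : IsIntegral S ((l : K) • (coord pb y k • pb.gen ^ k)) := by
    rw [← dft pb hdim hgen hω y hk]
    refine IsIntegral.sum _ fun j _ => ?_
    exact isIntegral_smul_of_mem (pow_mem hωS _) (htw j)
  have hz : IsIntegral S (coord pb y k • pb.gen ^ k) := by
    have := isIntegral_smul_of_mem hlS hsum
    rwa [smul_smul, inv_mul_cancel₀ hl0, one_smul] at this
  -- its `l`-th power lies in `K`
  have hzl : (coord pb y k • pb.gen ^ k) ^ l = algebraMap K F' (coord pb y k ^ l * u ^ k) := by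
    rw [_root_.smul_pow, ← pow_mul, mul_comm k l, pow_mul, hgen, ← map_pow, Algebra.smul_def,
      ← map_mul]
  apply hS
  rw [← isIntegral_algebraMap_iff (algebraMap K F').injective (R := S), ← hzl]
  exact hz.pow l

include hdim hgen hS hω hωS hlS hl0 hu hε' in
/-- Lemma A (→). -/
theorem coord_mul_pow_mem_of_isIntegral {y : F'} (hy : IsIntegral S y) (k : ℕ) :
    coord pb y k * ψ ^ k ∈ (algebraMap S K).range := by
  have hl : 0 < l := hdim ▸ pb.dim_pos
  have h1 : coord pb y k ^ l * u ^ k ∈ (algebraMap S K).range :=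
    coord_pow_mul_pow_mem_of_isIntegral pb hdim hgen hS hω hωS hlS hl0 hy k
  have h2 : (coord pb y k * ψ ^ k) ^ l ∈ (algebraMap S K).range := by
    have : (coord pb y k * ψ ^ k) ^ l = (coord pb y k ^ l * u ^ k) * (ψ ^ l / u) ^ k := by
      rw [mul_pow, div_pow, ← pow_mul, ← pow_mul, mul_comm k l]
      field_simp
    rw [this]
    exact mul_mem h1 (pow_mem hε' k)
  apply hS
  refine IsIntegral.of_pow hl ?_
  obtain ⟨s, hs⟩ := h2
  rw [← hs]
  exact isIntegral_algebraMap

include hdim hgen hψ hε in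
/-- Lemma A (←). -/
theorem isIntegral_of_coord_mul_pow_mem {y : F'}
    (h : ∀ k < l, coord pb y k * ψ ^ k ∈ (algebraMap S K).range) : IsIntegral S y := by
  have hl : 0 < l := hdim ▸ pb.dim_pos
  -- `W / ψ` is integral
  have hW : IsIntegral S (ψ⁻¹ • pb.gen) := by
    refine IsIntegral.of_pow hl ?_
    have : (ψ⁻¹ • pb.gen) ^ l = algebraMap K F' (u / ψ ^ l) := by
      rw [_root_.smul_pow, hgen, Algebra.smul_def, ← map_mul, inv_pow, div_eq_inv_mul]
    rw [this]
    exact isIntegral_algebraMap_of_mem hε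
  rw [← sum_coord pb y, hdim]
  refine IsIntegral.sum _ fun k hk => ?_
  have : coord pb y k • pb.gen ^ k = (coord pb y k * ψ ^ k) • (ψ⁻¹ • pb.gen) ^ k := by
    rw [_root_.smul_pow, smul_smul, inv_pow, mul_assoc, mul_inv_cancel₀ (pow_ne_zero _ hψ), mul_one]
  rw [this]
  exact isIntegral_smul_of_mem (h k (Finset.mem_range.mp hk)) (hW.pow k)

end LemmaA


/-! ### The constant field of the cover -/

section Constants

variable {K₀ : Type*} [Field K₀] [Algebra K₀ K] [Algebra K₀ F'] [IsScalarTower K₀ K F']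

include hdim hgen in
/-- If `K₀` is algebraically closed in `K`, `l` is a prime invertible in `K`, `K` contains a
primitive `l`-th root of unity and `u ∉ K₀ · K ^ l`, then `K₀` is algebraically closed in
`F' = K(u ^ (1 / l))`. -/
theorem mem_range_of_isAlgebraic (hl : l.Prime) (hl0 : (l : K) ≠ 0)
    {ω : K} (hω : IsPrimitiveRoot ω l)
    (hK₀ : ∀ x : K, IsAlgebraic K₀ x → x ∈ (algebraMap K₀ K).range)
    (hu : ∀ (a : K₀) (g : K), u ≠ algebraMap K₀ K a * g ^ l)
    {z : F'} (hz : IsAlgebraic K₀ z) : z ∈ (algebraMap K₀ F').range := by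
  have hS : ∀ x : K, IsIntegral K₀ x → x ∈ (algebraMap K₀ K).range := fun x hx =>
    hK₀ x hx.isAlgebraic
  have hωS : ω ∈ (algebraMap K₀ K).range := by
    apply hS
    refine ⟨X ^ l - 1, monic_X_pow_sub_C (1 : K₀) hl.pos.ne', ?_⟩
    simp [hω.pow_eq_one]
  have hlS : ((l : K))⁻¹ ∈ (algebraMap K₀ K).range := ⟨((l : K₀))⁻¹, by simp⟩
  have hu0 : u ≠ 0 := by
    intro h0
    exact hu 0 0 (by rw [h0, map_zero, zero_mul])
  have hmem : ∀ k, coord pb z k ^ l * u ^ k ∈ (algebraMap K₀ K).range := fun k =>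
    coord_pow_mul_pow_mem_of_isIntegral pb hdim hgen hS hω hωS hlS hl0 hz.isIntegral k
  -- the coordinates `c_k`, `0 < k < l`, vanish
  have hzero : ∀ k, 0 < k → k < l → coord pb z k = 0 := by
    intro k hk0 hkl
    by_contra hc
    obtain ⟨a, ha⟩ := hmem k
    have hcop : Nat.Coprime k l := (Nat.coprime_of_lt_prime hk0.ne' hkl hl).symm
    obtain ⟨r, -, hr⟩ := Nat.exists_mul_mod_eq_one_of_coprime hcop hl.one_lt
    have hdiv := Nat.div_add_mod (k * r) l
    rw [hr] at hdiv
    set q := k * r / l with hq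
    -- `u ^ (k r) = u ^ (l q) * u`
    have h1 : u ^ (k * r) = (u ^ q) ^ l * u := by
      rw [← hdiv, pow_add, pow_one, pow_mul, pow_right_comm]
    have h2 : u ^ (k * r) = algebraMap K₀ K (a ^ r) * ((coord pb z k)⁻¹ ^ r) ^ l := by
      rw [map_pow, ha, mul_pow, ← pow_mul u, pow_right_comm _ l r, mul_right_comm, ← mul_pow,
        ← mul_pow, mul_inv_cancel₀ hc, one_pow, one_pow, one_mul]
    refine hu (a ^ r) ((coord pb z k)⁻¹ ^ r * (u ^ q)⁻¹) ?_
    rw [mul_pow, ← mul_assoc, ← h2, h1, inv_pow, mul_right_comm,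
      mul_inv_cancel₀ (pow_ne_zero _ (pow_ne_zero _ hu0)), one_mul]
  -- hence `z = c_0`
  have hz0 : z = algebraMap K F' (coord pb z 0) := by
    conv_lhs => rw [← sum_coord pb z, hdim]
    rw [Finset.sum_eq_single 0]
    · rw [pow_zero, Algebra.smul_def, mul_one]
    · intro k hk hk0
      rw [hzero k (Nat.pos_of_ne_zero hk0) (Finset.mem_range.mp hk), zero_smul]
    · intro h
      exact absurd (Finset.mem_range.mpr hl.pos) h
  have hc0 : coord pb z 0 ∈ (algebraMap K₀ K).range := by
    apply hS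
    rw [← isIntegral_algebraMap_iff (algebraMap K F').injective (R := K₀), ← hz0]
    exact hz.isIntegral
  obtain ⟨b, hb⟩ := hc0
  exact ⟨b, by rw [hz0, ← hb, ← IsScalarTower.algebraMap_apply]⟩


include hdim hgen in
/-- `hconst` for the cover: if moreover `A` is an integrally closed domain with fraction field
`K₀`, every element of `F'` integral over `A` comes from `A`. -/
theorem exists_algebraMap_eq_of_isIntegral {A : Type*} [CommRing A] [IsDomain A]
    [IsIntegrallyClosed A] [Algebra A K₀] [IsFractionRing A K₀] [Algebra A F']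
    [IsScalarTower A K₀ F'] (hl : l.Prime) (hl0 : (l : K) ≠ 0)
    {ω : K} (hω : IsPrimitiveRoot ω l)
    (hK₀ : ∀ x : K, IsAlgebraic K₀ x → x ∈ (algebraMap K₀ K).range)
    (hu : ∀ (a : K₀) (g : K), u ≠ algebraMap K₀ K a * g ^ l)
    (z : F') (hz : IsIntegral A z) : ∃ r : A, algebraMap A F' r = z := by
  have hz' : IsIntegral K₀ z := hz.tower_top
  obtain ⟨b, hb⟩ := mem_range_of_isAlgebraic pb hdim hgen hl hl0 hω hK₀ hu hz'.isAlgebraic
  have hbint : IsIntegral A b := by
    rw [← isIntegral_algebraMap_iff (algebraMap K₀ F').injective (R := A), hb]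
    exact hz
  obtain ⟨r, hr⟩ := IsIntegrallyClosed.isIntegral_iff.mp hbint
  exact ⟨r, by rw [IsScalarTower.algebraMap_apply A K₀ F', hr, hb]⟩

end Constants

end Kummer

/-- the cover exists as soon as `u` is not an `l`-th power (`l` prime). -/
theorem exists_cover.{v} {K : Type v} [Field K] {l : ℕ} (hl : l.Prime) {u : K}
    (hu : ∀ b : K, b ^ l ≠ u) :
    ∃ (F' : Type v) (_ : Field F') (_ : Algebra K F') (pb : PowerBasis K F'),
      pb.dim = l ∧ pb.gen ^ l = algebraMap K F' u := by
  have hirr : Irreducible (X ^ l - C u : K[X]) := (X_pow_sub_C_irreducible_iff_of_prime hl).mpr hu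
  have : Fact (Irreducible (X ^ l - C u : K[X])) := ⟨hirr⟩
  have hne : (X ^ l - C u : K[X]) ≠ 0 := hirr.ne_zero
  refine ⟨AdjoinRoot (X ^ l - C u : K[X]), inferInstance, inferInstance,
    AdjoinRoot.powerBasis hne, ?_, ?_⟩
  · rw [AdjoinRoot.powerBasis_dim, natDegree_X_pow_sub_C]
  · rw [AdjoinRoot.powerBasis_gen]
    have := AdjoinRoot.eval₂_root (X ^ l - C u : K[X])
    rw [eval₂_sub, eval₂_X_pow, eval₂_C, sub_eq_zero] at this
    exact this


end

end Fermat.Agent.CA.H69
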