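import Fermat.Agent.CA.H69_KummerLocal

/-!
# Kummer covers: separability and finiteness over a rational subfield (helper69)

* `isSeparable_of_kummer` : `L = K(W)`, `W ^ l = u ≠ 0`, `(l : K) ≠ 0` ⟹ `L / K` separable.
* `finiteDimensional_adjoin_map`, `isSeparable_adjoin_map` : if `F / K₀⟮J⟯` is finite (separable)
  and `L / F` is finite (separable) then `L / K₀⟮algebraMap F L J⟯` is finite (separable).
-/

set_option autoImplicit false

open Polynomial IntermediateField

namespace Fermat.Agent.CA.H69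

section Sep

variable {K L : Type*} [Field K] [Field L] [Algebra K L]
  (pb : PowerBasis K L) {l : ℕ} (hdim : pb.dim = l) {u : K}
  (hgen : pb.gen ^ l = algebraMap K L u)

include hdim hgen in
theorem isSeparable_of_kummer (hl0 : (l : K) ≠ 0) (hu : u ≠ 0) : Algebra.IsSeparable K L := by
  have hsep : IsSeparable K pb.gen := by
    unfold IsSeparable
    rw [minpoly_gen_eq pb hdim hgen]
    exact separable_X_pow_sub_C u hl0 hu
  have htop : K⟮pb.gen⟯ = ⊤ := adjoin_eq_top_of_algebra K _ pb.adjoin_gen_eq_top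
  have h1 : Algebra.IsSeparable K K⟮pb.gen⟯ :=
    (isSeparable_adjoin_simple_iff_isSeparable K L).mpr hsep
  refine ⟨fun x => ?_⟩
  exact isSeparable_of_mem_isSeparable K L (L := K⟮pb.gen⟯) (htop ▸ mem_top)

end Sep

section Tower

variable {K₀ F L : Type*} [Field K₀] [Field F] [Field L] [Algebra K₀ F] [Algebra F L]
  [Algebra K₀ L] [IsScalarTower K₀ F L] (J : F)

/-- the map `K₀⟮J⟯ → K₀⟮algebraMap F L J⟯`. -/
noncomputable def adjoinMap : K₀⟮J⟯ →+* K₀⟮algebraMap F L J⟯ :=
  RingHom.codRestrict ((algebraMap F L).comp (algebraMap K₀⟮J⟯ F)) K₀⟮algebraMap F L J⟯ (by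
    intro x
    have h : (IsScalarTower.toAlgHom K₀ F L) (x : F) ∈
        (K₀⟮J⟯).map (IsScalarTower.toAlgHom K₀ F L) := ⟨x, x.2, rfl⟩
    rw [adjoin_map, Set.image_singleton] at h
    exact h)

theorem finiteDimensional_adjoin_map [FiniteDimensional K₀⟮J⟯ F] [FiniteDimensional F L] :
    FiniteDimensional K₀⟮algebraMap F L J⟯ L := by
  let _ : Algebra K₀⟮J⟯ K₀⟮algebraMap F L J⟯ := (adjoinMap (K₀ := K₀) (L := L) J).toAlgebra
  have : IsScalarTower K₀⟮J⟯ K₀⟮algebraMap F L J⟯ L :=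
    IsScalarTower.of_algebraMap_eq fun x => rfl
  have : FiniteDimensional K₀⟮J⟯ L := Module.Finite.trans F L
  exact Module.Finite.of_restrictScalars_finite K₀⟮J⟯ K₀⟮algebraMap F L J⟯ L

theorem isSeparable_adjoin_map [Algebra.IsSeparable K₀⟮J⟯ F] [Algebra.IsSeparable F L] :
    Algebra.IsSeparable K₀⟮algebraMap F L J⟯ L := by
  let _ : Algebra K₀⟮J⟯ K₀⟮algebraMap F L J⟯ := (adjoinMap (K₀ := K₀) (L := L) J).toAlgebra
  have : IsScalarTower K₀⟮J⟯ K₀⟮algebraMap F L J⟯ L :=
    IsScalarTower.of_algebraMap_eq fun x => rfl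
  have : Algebra.IsSeparable K₀⟮J⟯ L := Algebra.IsSeparable.trans K₀⟮J⟯ F L
  exact Algebra.isSeparable_tower_top_of_isSeparable K₀⟮J⟯ K₀⟮algebraMap F L J⟯ L

theorem transcendental_algebraMap (hJ : Transcendental K₀ J) :
    Transcendental K₀ (algebraMap F L J) := by
  intro h
  apply hJ
  obtain ⟨p, hp0, hp⟩ := h
  refine ⟨p, hp0, ?_⟩
  have : algebraMap F L (aeval J p) = 0 := by
    rw [← aeval_algebraMap_apply]
    exact hp
  exact (algebraMap F L).injective (by rw [this, map_zero])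

end Tower

end Fermat.Agent.CA.H69
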