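import Mathlib

/-!
# A field is algebraically closed in its field of Laurent series (helper69)

`mem_range_of_isAlgebraic_laurent`: an element of `k((t))` algebraic over the field `k` is a
constant.  (`k[[t]]` is integrally closed in `k((t))`; an algebraic `z` and the inverse of
`z - z(0)` would both be power series.)

`mem_range_of_isAlgebraic_intermediateField`: the same inside any intermediate field
`k ⊆ F ⊆ k((t))` — this is the hypothesis `hcl` of the S34 Kummer chain for the modular function
fields `modularFunctionFieldFullC k N`, for an arbitrary (not algebraically closed) field `k`.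
-/

set_option autoImplicit false

namespace Fermat.Agent.CA.H69

open PowerSeries

variable {k : Type*} [Field k]

theorem isScalarTower_powerSeries_laurent :
    @IsScalarTower k (PowerSeries k) (LaurentSeries k) Algebra.toSMul Algebra.toSMul
      Algebra.toSMul :=
  IsScalarTower.of_algebraMap_eq (R := k) (S := PowerSeries k) (A := LaurentSeries k)
    (fun x => by
      rw [HahnSeries.algebraMap_apply', LaurentSeries.coe_algebraMap])

/-- an element of `k((t))` integral over `k` is a power series. -/
theorem exists_powerSeries_of_isIntegral {z : LaurentSeries k} (hz : IsIntegral k z) :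
    ∃ p : PowerSeries k, algebraMap (PowerSeries k) (LaurentSeries k) p = z := by
  have := isScalarTower_powerSeries_laurent (k := k)
  have h : IsIntegral (PowerSeries k) z := hz.tower_top
  exact IsIntegrallyClosed.isIntegral_iff.mp h

/-- **`k` is algebraically closed in `k((t))`.** -/
theorem mem_range_of_isAlgebraic_laurent {z : LaurentSeries k} (hz : IsAlgebraic k z) :
    z ∈ (algebraMap k (LaurentSeries k)).range := by
  obtain ⟨p, hp⟩ := exists_powerSeries_of_isIntegral hz.isIntegral
  set c : k := PowerSeries.constantCoeff p with hc
  refine ⟨c, ?_⟩
  by_contra hne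
  have hw0 : z - algebraMap k (LaurentSeries k) c ≠ 0 := fun h => hne (sub_eq_zero.mp h).symm
  have hwalg : IsAlgebraic k (z - algebraMap k (LaurentSeries k) c) :=
    hz.sub (isAlgebraic_algebraMap c)
  obtain ⟨p', hp'⟩ := exists_powerSeries_of_isIntegral hwalg.inv.isIntegral
  have hw : z - algebraMap k (LaurentSeries k) c =
      algebraMap (PowerSeries k) (LaurentSeries k) (p - PowerSeries.C c) := by
    rw [map_sub, hp]
    rfl
  have hmul : (p - PowerSeries.C c) * p' = 1 := by
    apply (IsFractionRing.injective (PowerSeries k) (LaurentSeries k))
    rw [map_mul, map_one, ← hw, hp', mul_inv_cancel₀ hw0]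
  have h0 := congrArg PowerSeries.constantCoeff hmul
  rw [map_mul, map_sub, PowerSeries.constantCoeff_C, ← hc, sub_self, zero_mul, map_one] at h0
  exact zero_ne_one h0

/-- `k` is algebraically closed in every intermediate field of `k((t)) / k`. -/
theorem mem_range_of_isAlgebraic_intermediateField (F : IntermediateField k (LaurentSeries k))
    (z : F) (hz : IsAlgebraic k z) : z ∈ (algebraMap k F).range := by
  have hz' : IsAlgebraic k (z : LaurentSeries k) := by
    have := (isAlgebraic_algebraMap_iff (R := k) (S := F) (A := LaurentSeries k)
      (algebraMap F (LaurentSeries k)).injective).mpr hz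
    exact this
  obtain ⟨c, hc⟩ := mem_range_of_isAlgebraic_laurent hz'
  exact ⟨c, Subtype.ext hc⟩

end Fermat.Agent.CA.H69
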