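import Fermat.Agent.CA.H69_KummerChart

/-!
# Localisations of a domain at primes, "in the field" (helper69)

`B` a domain with fraction field `K`, `P` a prime of `B`.  `locB P ⊆ K` is `B_P`;
`InPiB π P x` means `x ∈ π B_P`; `InMaxB P x` means `x ∈ P B_P`.
-/

set_option autoImplicit false
set_option linter.unusedSectionVars false

namespace Fermat.Agent.CA.H69

variable {K : Type*} [Field K] {B : Type*} [CommRing B] [IsDomain B] [Algebra B K]
  [IsFractionRing B K]

/-- `x ∈ P B_P`, in the field. -/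
def InMaxB (P : Ideal B) (x : K) : Prop :=
  ∃ a ∈ P, ∃ s : B, s ∉ P ∧ x * algebraMap B K s = algebraMap B K a

section

variable (P : Ideal B) [P.IsPrime] {π : B}

theorem algebraMap_ne_zero_of_notMem {s : B} (hs : s ∉ P) : algebraMap B K s ≠ 0 := by
  intro h0
  have : s = 0 := (IsFractionRing.injective B K) (by rw [h0, map_zero])
  exact hs (this ▸ P.zero_mem)

theorem inPiB_iff {x : K} :
    InPiB π P x ↔ ∃ t ∈ locB (K := K) P, x = algebraMap B K π * t :=
  ⟨exists_of_inPiB P, inPiB_of_exists P⟩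

theorem InPiB.add {x y : K} (hx : InPiB π P x) (hy : InPiB π P y) : InPiB π P (x + y) := by
  rw [inPiB_iff] at *
  obtain ⟨t, ht, rfl⟩ := hx
  obtain ⟨t', ht', rfl⟩ := hy
  exact ⟨t + t', add_mem ht ht', by ring⟩

theorem InPiB.neg {x : K} (hx : InPiB π P x) : InPiB π P (-x) := by
  rw [inPiB_iff] at *
  obtain ⟨t, ht, rfl⟩ := hx
  exact ⟨-t, neg_mem ht, by ring⟩

theorem InPiB.sub {x y : K} (hx : InPiB π P x) (hy : InPiB π P y) : InPiB π P (x - y) := by
  rw [sub_eq_add_neg]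
  exact hx.add P (hy.neg P)

theorem InPiB.mul_right {x y : K} (hx : InPiB π P x) (hy : y ∈ locB (K := K) P) :
    InPiB π P (x * y) := by
  rw [inPiB_iff] at *
  obtain ⟨t, ht, rfl⟩ := hx
  exact ⟨t * y, (locB (K := K) P).mul_mem ht hy, by ring⟩

theorem InPiB.mul_left {x y : K} (hx : x ∈ locB (K := K) P) (hy : InPiB π P y) :
    InPiB π P (x * y) := by
  rw [mul_comm]
  exact hy.mul_right P hx

theorem InPiB.mem_locB {x : K} (hx : InPiB π P x) : x ∈ locB (K := K) P := by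
  rw [inPiB_iff] at hx
  obtain ⟨t, ht, rfl⟩ := hx
  exact (locB (K := K) P).mul_mem (algebraMap_mem_locB P π) ht

theorem inPiB_zero : InPiB π P (0 : K) :=
  (inPiB_iff P).mpr ⟨0, zero_mem _, by ring⟩

theorem inPiB_algebraMap_of_dvd {b : B} (h : π ∣ b) : InPiB π P (algebraMap B K b) := by
  obtain ⟨c, rfl⟩ := h
  exact (inPiB_iff P).mpr ⟨algebraMap B K c, algebraMap_mem_locB P c, by rw [map_mul]⟩

/-- localisation is monotone: `P ≤ n` implies `B_n ⊆ B_P`. -/
theorem locB_mono {n : Ideal B} [n.IsPrime] (h : P ≤ n) {x : K} (hx : x ∈ locB (K := K) n) :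
    x ∈ locB (K := K) P := by
  rw [mem_locB_iff] at *
  obtain ⟨a, s, hs, hx⟩ := hx
  exact ⟨a, s, fun hsP => hs (h hsP), hx⟩

theorem InPiB.mono {n : Ideal B} [n.IsPrime] (h : P ≤ n) {x : K} (hx : InPiB π n x) :
    InPiB π P x := by
  obtain ⟨s, hs, b, hb⟩ := hx
  exact ⟨s, fun hsP => hs (h hsP), b, hb⟩

/-! ### `P B_P` -/

theorem InMaxB.mem_locB {x : K} (hx : InMaxB P x) : x ∈ locB (K := K) P := by
  obtain ⟨a, _, s, hs, h⟩ := hx
  exact (mem_locB_iff P).mpr ⟨a, s, hs, h⟩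

theorem InMaxB.add {x y : K} (hx : InMaxB P x) (hy : InMaxB P y) : InMaxB P (x + y) := by
  obtain ⟨a, ha, s, hs, h⟩ := hx
  obtain ⟨a', ha', s', hs', h'⟩ := hy
  refine ⟨a * s' + a' * s, P.add_mem (P.mul_mem_right _ ha) (P.mul_mem_right _ ha'), s * s',
    fun hm => (Ideal.IsPrime.mem_or_mem ‹_› hm).elim hs hs', ?_⟩
  rw [map_add, map_mul, map_mul, map_mul, ← h, ← h']
  ring

theorem InMaxB.neg {x : K} (hx : InMaxB P x) : InMaxB P (-x) := by
  obtain ⟨a, ha, s, hs, h⟩ := hx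
  exact ⟨-a, P.neg_mem ha, s, hs, by rw [map_neg, ← h]; ring⟩

theorem InMaxB.sub {x y : K} (hx : InMaxB P x) (hy : InMaxB P y) : InMaxB P (x - y) := by
  rw [sub_eq_add_neg]
  exact hx.add P (hy.neg P)

theorem InMaxB.mul_right {x y : K} (hx : InMaxB P x) (hy : y ∈ locB (K := K) P) :
    InMaxB P (x * y) := by
  obtain ⟨a, ha, s, hs, h⟩ := hx
  obtain ⟨b, t, ht, h'⟩ := (mem_locB_iff P).mp hy
  refine ⟨a * b, P.mul_mem_right _ ha, s * t,
    fun hm => (Ideal.IsPrime.mem_or_mem ‹_› hm).elim hs ht, ?_⟩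
  rw [map_mul, map_mul, ← h, ← h']
  ring

/-- the numerator of an element of `P B_P` lies in `P`. -/
theorem InMaxB.num_mem {x : K} (hx : InMaxB P x) {a s : B} (_hs : s ∉ P)
    (h : x * algebraMap B K s = algebraMap B K a) : a ∈ P := by
  obtain ⟨a', ha', s', hs', h'⟩ := hx
  have heq : a * s' = a' * s := by
    apply IsFractionRing.injective B K
    rw [map_mul, map_mul, ← h, ← h']
    ring
  have hmem : a * s' ∈ P := heq ▸ P.mul_mem_right _ ha'
  exact (Ideal.IsPrime.mem_or_mem ‹_› hmem).resolve_right hs'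

theorem not_inMaxB_algebraMap {b : B} (hb : b ∉ P) : ¬ InMaxB P (algebraMap B K b) := by
  intro h
  exact hb (h.num_mem P (s := 1) (Ideal.IsPrime.one_notMem ‹_›) (by rw [map_one, mul_one]))

theorem not_inMaxB_one : ¬ InMaxB P (1 : K) := by
  have := not_inMaxB_algebraMap (K := K) P (b := 1) (Ideal.IsPrime.one_notMem ‹_›)
  rwa [map_one] at this

theorem InPiB.inMaxB (hπP : π ∈ P) {x : K} (hx : InPiB π P x) : InMaxB P x := by
  obtain ⟨s, hs, b, hb⟩ := hx
  exact ⟨π * b, P.mul_mem_right _ hπP, s, hs, by rw [map_mul, ← hb]; ring⟩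

/-- `P B_P = π B_P` when `P` is reduced at its generic point. -/
theorem InMaxB.inPiB (hred : ∀ b ∈ P, ∃ s, s ∉ P ∧ π ∣ s * b) {x : K} (hx : InMaxB P x) :
    InPiB π P x := by
  obtain ⟨a, ha, s, hs, h⟩ := hx
  obtain ⟨s', hs', c, hc⟩ := hred a ha
  refine ⟨s' * s, fun hm => (Ideal.IsPrime.mem_or_mem ‹_› hm).elim hs' hs, c, ?_⟩
  rw [← map_mul, ← hc, map_mul, map_mul, ← h]
  ring

/-- `P B_P` is a prime ideal of `B_P`. -/
theorem inMaxB_or_of_mul {x y : K} (hx : x ∈ locB (K := K) P) (hy : y ∈ locB (K := K) P)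
    (h : InMaxB P (x * y)) : InMaxB P x ∨ InMaxB P y := by
  obtain ⟨a, s, hs, hxa⟩ := (mem_locB_iff P).mp hx
  obtain ⟨b, t, ht, hyb⟩ := (mem_locB_iff P).mp hy
  have hab : a * b ∈ P := h.num_mem P (s := s * t)
    (fun hm => (Ideal.IsPrime.mem_or_mem ‹_› hm).elim hs ht)
    (by rw [map_mul, map_mul, ← hxa, ← hyb]; ring)
  rcases Ideal.IsPrime.mem_or_mem ‹_› hab with ha | hb
  · exact Or.inl ⟨a, ha, s, hs, hxa⟩
  · exact Or.inr ⟨b, hb, t, ht, hyb⟩

theorem inMaxB_of_pow {x : K} (hx : x ∈ locB (K := K) P) {k : ℕ} (h : InMaxB P (x ^ k)) :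
    InMaxB P x := by
  induction k with
  | zero => rw [pow_zero] at h; exact absurd h (not_inMaxB_one P)
  | succ k ih =>
    rw [pow_succ] at h
    rcases inMaxB_or_of_mul P (pow_mem hx k) hx h with h1 | h1
    · exact ih h1
    · exact h1

/-- `B_P` is local with maximal ideal `P B_P`. -/
theorem inMaxB_or_inv_mem {x : K} (hx : x ∈ locB (K := K) P) :
    InMaxB P x ∨ (x ≠ 0 ∧ x⁻¹ ∈ locB (K := K) P) := by
  obtain ⟨a, s, hs, hxa⟩ := (mem_locB_iff P).mp hx
  by_cases ha : a ∈ P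
  · exact Or.inl ⟨a, ha, s, hs, hxa⟩
  · right
    have ha0 := algebraMap_ne_zero_of_notMem (K := K) P ha
    have hs0 := algebraMap_ne_zero_of_notMem (K := K) P hs
    have hx0 : x ≠ 0 := by
      intro h0
      rw [h0, zero_mul] at hxa
      exact ha0 hxa.symm
    refine ⟨hx0, (mem_locB_iff P).mpr ⟨s, a, ha, ?_⟩⟩
    rw [← hxa, ← mul_assoc, inv_mul_cancel₀ hx0, one_mul]

/-- a unit of `B_P` is not in `P B_P`. -/
theorem not_inMaxB_of_inv_mem {x : K} (hx0 : x ≠ 0) (hinv : x⁻¹ ∈ locB (K := K) P) :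
    ¬ InMaxB P x := by
  intro h
  have := h.mul_right P hinv
  rw [mul_inv_cancel₀ hx0] at this
  exact not_inMaxB_one P this

end

/-! ### local saturation -/

section Sat

variable {ι : Type*} [Finite ι] (Pv : ι → Ideal B) (hPv : ∀ i, (Pv i).IsPrime) {π : B}

include hPv in
/-- (SAT) at a prime `n`: an element of `B_n` which is divisible by `π` at every vertical prime
through `n` is divisible by `π` in `B_n`. -/
theorem inPiB_of_forall_le
    (hred : ∀ i, ∀ b ∈ Pv i, ∃ s, s ∉ Pv i ∧ π ∣ s * b)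
    (hsat : ∀ b : B, (∀ i, ∃ s, s ∉ Pv i ∧ π ∣ s * b) → π ∣ b)
    (n : Ideal B) [n.IsPrime] {x : K} (hx : x ∈ locB (K := K) n)
    (h : ∀ i, Pv i ≤ n → InPiB π (Pv i) x) : InPiB π n x := by
  classical
  cases nonempty_fintype ι
  obtain ⟨a, s, hs, hxa⟩ := (mem_locB_iff n).mp hx
  have hs0 := algebraMap_ne_zero_of_notMem (K := K) n hs
  -- for the primes not through `n` choose `d i ∈ Pv i`, `d i ∉ n`
  have hd : ∀ i, ∃ d : B, d ∉ n ∧ (¬ Pv i ≤ n → d ∈ Pv i) := by
    intro i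
    by_cases hle : Pv i ≤ n
    · exact ⟨1, Ideal.IsPrime.one_notMem ‹_›, fun h => absurd hle h⟩
    · obtain ⟨d, hdP, hdn⟩ := Set.not_subset.mp hle
      exact ⟨d, hdn, fun _ => hdP⟩
  choose d hdn hdP using hd
  set D : B := ∏ i, d i with hD
  have hDn : D ∉ n := by
    intro hmem
    obtain ⟨i, _, hi⟩ := (Ideal.IsPrime.prod_mem_iff (p := n)).mp hmem
    exact hdn i hi
  have hdvd : π ∣ D * a := by
    apply hsat
    intro i
    have := hPv i
    by_cases hle : Pv i ≤ n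
    · -- `a` itself is divisible at `Pv i`
      obtain ⟨s', hs', b, hb⟩ := h i hle
      refine ⟨s', hs', ?_⟩
      have heq : s' * a = π * (b * s) := by
        apply IsFractionRing.injective B K
        rw [map_mul, map_mul, map_mul, ← hxa, ← mul_assoc (algebraMap B K π), ← hb]
        ring
      exact Dvd.dvd.mul_left ⟨b * s, heq⟩ D |>.trans (by
        rw [show D * (s' * a) = s' * (D * a) by ring])
    · obtain ⟨s', hs', hdv⟩ := hred i (d i) (hdP i hle)
      refine ⟨s', hs', ?_⟩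
      have hdD : d i ∣ D := Finset.dvd_prod_of_mem d (Finset.mem_univ i)
      obtain ⟨e, he⟩ := hdD
      rw [he]
      have : s' * (d i * e * a) = (s' * d i) * (e * a) := by ring
      rw [this]
      exact Dvd.dvd.mul_right hdv _
  obtain ⟨c, hc⟩ := hdvd
  refine ⟨D * s, fun hm => (Ideal.IsPrime.mem_or_mem ‹_› hm).elim hDn hs, c, ?_⟩
  rw [← map_mul, ← hc, map_mul, map_mul, ← hxa]
  ring

end Sat

end Fermat.Agent.CA.H69
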