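import Mathlib

/-!
# A separating element of a function field is not a `q`-th power (helper6)

`k` a field of characteristic `q`, `F / k` a field, `x : F` transcendental over `k` with
`F / k(x)` separable.  Then `x` is not a `q`-th power in `F`, hence `X ^ q - C x` is irreducible
over `F`.

Generic, Mathlib only.
-/

set_option autoImplicit false
set_option linter.style.haveILetI false

noncomputable section

namespace Fermat.Agent.CA.H6

open Polynomial IntermediateField

/-- In `RatFunc k`, the variable `X` is not a `q`-th power (`q ≥ 2`). -/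
theorem ratFunc_pow_ne_X {k : Type*} [Field k] {q : ℕ} (hq : 2 ≤ q) (r : RatFunc k) :
    r ^ q ≠ RatFunc.X := by
  intro h
  have hr : r ≠ 0 := by
    rintro rfl
    rw [zero_pow (by omega)] at h
    exact RatFunc.X_ne_zero h.symm
  have hdeg : ∀ n : ℕ, (r ^ n).intDegree = n * r.intDegree := by
    intro n
    induction n with
    | zero => simp
    | succ n ih =>
      rw [pow_succ, RatFunc.intDegree_mul (pow_ne_zero n hr) hr, ih]
      push_cast
      ring
  have h1 := hdeg q
  rw [h, RatFunc.intDegree_X] at h1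
  have h2 : (q : ℤ) ∣ 1 := ⟨r.intDegree, h1⟩
  have h3 := Int.le_of_dvd one_pos h2
  omega

variable {k F : Type*} [Field k] [Field F] [Algebra k F]

/-- The generator of `k⟮x⟯` is not a `q`-th power in `k⟮x⟯` (for `x` transcendental). -/
theorem gen_ne_pow {q : ℕ} (hq : 2 ≤ q) {x : F} (hx : Transcendental k x) (b : k⟮x⟯) :
    b ^ q ≠ AdjoinSimple.gen k x := by
  intro h
  set e := RatFunc.algEquivOfTranscendental x hx with he
  have hX : e RatFunc.X = AdjoinSimple.gen k x := by
    apply Subtype.ext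
    rw [RatFunc.algEquivOfTranscendental_apply]
    simp
  apply ratFunc_pow_ne_X (k := k) hq (e.symm b)
  apply e.injective
  rw [map_pow, AlgEquiv.apply_symm_apply, h, hX]

/-- **A separating element is not a `q`-th power.** -/
theorem forall_pow_ne_of_separable (q : ℕ) [hq : Fact q.Prime] [CharP k q] {x : F}
    (hx : Transcendental k x) [Algebra.IsSeparable k⟮x⟯ F] : ∀ b : F, b ^ q ≠ x := by
  intro b hb
  haveI : ExpChar k q := ExpChar.prime hq.out
  haveI : ExpChar k⟮x⟯ q := expChar_of_injective_algebraMap (algebraMap k k⟮x⟯).injective q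
  -- `b` is purely inseparable over `k⟮x⟯`
  have hpi : IsPurelyInseparable k⟮x⟯ (k⟮x⟯)⟮b⟯ := by
    rw [isPurelyInseparable_adjoin_simple_iff_pow_mem k⟮x⟯ F q]
    exact ⟨1, ⟨AdjoinSimple.gen k x, by rw [pow_one, hb]; rfl⟩⟩
  -- and separable
  haveI : Algebra.IsSeparable k⟮x⟯ (k⟮x⟯)⟮b⟯ := isSeparable_tower_bot k⟮x⟯ ((k⟮x⟯)⟮b⟯)
  have hsurj := IsPurelyInseparable.surjective_algebraMap_of_isSeparable k⟮x⟯ ((k⟮x⟯)⟮b⟯)
  obtain ⟨c, hc⟩ := hsurj (AdjoinSimple.gen k⟮x⟯ b)
  have hcb : ((c : k⟮x⟯) : F) = b := by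
    have := congrArg (fun z : (k⟮x⟯)⟮b⟯ => (z : F)) hc
    simpa using this
  apply gen_ne_pow (k := k) hq.out.two_le hx c
  apply Subtype.ext
  rw [SubmonoidClass.coe_pow, hcb, hb]
  rfl

/-- **`X ^ q - x` is irreducible over `F`** for a separating element `x`. -/
theorem irreducible_X_pow_sub_C_of_separable (q : ℕ) [hq : Fact q.Prime] [CharP k q] {x : F}
    (hx : Transcendental k x) [Algebra.IsSeparable k⟮x⟯ F] :
    Irreducible (X ^ q - C x : F[X]) :=
  X_pow_sub_C_irreducible_of_prime hq.out (forall_pow_ne_of_separable q hx)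

end Fermat.Agent.CA.H6
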