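import Mathlib
import Fermat.Agent.CA.H6_NotPthPower
import Fermat.Agent.S18.H16_FbarBasics

/-!
# `j` is not a `q`-th power in the function field of `X₀(M)` in characteristic `q ∤ M` (helper6)

Instance of `CA.H6.forall_pow_ne_of_separable` at `F = modularFunctionFieldFullC k M`,
`x = H16.jK k M`: hence `X ^ q - j` is irreducible over `F` (the second factor of Kronecker's
congruence `Φ_q ≡ (X - j^q)(X^q - j)` stays irreducible over the level-`M` function field).
-/

set_option autoImplicit false
set_option linter.style.haveILetI false

noncomputable section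

namespace Fermat.Agent.CA.H6

open ModularCurve Polynomial IntermediateField Fermat.Agent.S18

variable (M : ℕ) [NeZero M] (q : ℕ) [Fact q.Prime] (hqM : ¬ q ∣ M) (k : Type) [Field k] [CharP k q]

include hqM in
theorem jK_ne_pow : ∀ b : ↥(modularFunctionFieldFullC k M), b ^ q ≠ H16.jK k M := by
  haveI := H16.isSeparable_fullC M q hqM k
  exact forall_pow_ne_of_separable q (H16.transcendental_jK k M)

include hqM in
theorem irreducible_X_pow_sub_C_jK :
    Irreducible (X ^ q - C (H16.jK k M) : (↥(modularFunctionFieldFullC k M))[X]) := by
  haveI := H16.isSeparable_fullC M q hqM k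
  exact irreducible_X_pow_sub_C_of_separable q (H16.transcendental_jK k M)

end Fermat.Agent.CA.H6
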