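import Mathlib
import Fermat.Agent.CA.H6_JKNotPower
import Fermat.Agent.S16.H36_DeltaUnit

/-!
# `j_M` is not a `q`-th power in the function field of `X₀(M)` in characteristic `q ∤ M` (helper6)

Twin of `CA.H6.jK_ne_pow` for the second generator `j_M = H16.jNK k M`, transported along
helper36's Atkin–Lehner involution `S16.H36.alHom` (`j ↔ j_M`).  Hence `X ^ q - j_M` is
irreducible over `modularFunctionFieldFullC k M`: the factor `g_0 = Y^q - j̄_M` of Kronecker's
congruence `Φ_q(j̄_M, Y) = (Y - j̄_M^q)(Y^q - j̄_M)` is irreducible over the level-`M` field.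
-/

set_option autoImplicit false
set_option linter.style.haveILetI false

noncomputable section

namespace Fermat.Agent.CA.H6

open ModularCurve Polynomial IntermediateField Fermat.Agent.S18

variable (M : ℕ) [NeZero M] (q : ℕ) [Fact q.Prime] (hqM : ¬ q ∣ M) (k : Type) [Field k] [CharP k q]

include hqM in
theorem natCast_ne_zero_of_not_dvd : ((M : ℕ) : k) ≠ 0 := by
  rw [Ne, CharP.cast_eq_zero_iff k q]
  exact hqM

include hqM in
theorem jNK_ne_pow : ∀ b : ↥(modularFunctionFieldFullC k M), b ^ q ≠ H16.jNK k M := by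
  intro b hb
  have hM := natCast_ne_zero_of_not_dvd M q hqM k
  have h := congrArg (Fermat.Agent.S16.H36.alHom M k hM) hb
  rw [map_pow, Fermat.Agent.S16.H36.alHom_jNK] at h
  exact jK_ne_pow M q hqM k _ h

include hqM in
theorem irreducible_X_pow_sub_C_jNK :
    Irreducible (X ^ q - C (H16.jNK k M) : (↥(modularFunctionFieldFullC k M))[X]) :=
  X_pow_sub_C_irreducible_of_prime (Fact.out : q.Prime) (jNK_ne_pow M q hqM k)

/-- Both generators at once, in the shape `∀ y, y ^ q ≠ x`. -/
theorem jK_jNK_ne_pow (hqM : ¬ q ∣ M) :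
    (∀ b : ↥(modularFunctionFieldFullC k M), b ^ q ≠ H16.jK k M) ∧
      ∀ b : ↥(modularFunctionFieldFullC k M), b ^ q ≠ H16.jNK k M :=
  ⟨jK_ne_pow M q hqM k, jNK_ne_pow M q hqM k⟩

end Fermat.Agent.CA.H6
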