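import Mathlib

/-!
# `hmin` over the base ring: a monic `f : O[X]` whose image over `K ⊇ O` is the minimal polynomial
of `θ` divides every `p : O[X]` killing `θ` (helper6)

Generic (Mathlib only).  This is the `hmin` hypothesis of `CA.H99.nonempty_placeOver`
(`∀ p : O[X], aeval θ p = 0 → f ∣ p`) from the field-level statement
`minpoly K θ = f.map (algebraMap O K)` (for the S34 L0 instance: helper16's
`S34.H16.minpoly_jNK_over`).  No integral-closedness of `O` is needed because `f` is monic: divide
with remainder in `O[X]`.
-/

set_option autoImplicit false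

namespace Fermat.Agent.CA.H6

open Polynomial

variable {O K L : Type*} [CommRing O] [Field K] [Field L] [Algebra O K] [Algebra O L] [Algebra K L]
  [IsScalarTower O K L]

/-- If `f : O[X]` is monic and `f.map (algebraMap O K)` is the minimal polynomial of `θ` over the
field `K`, and `O → K` is injective, then `f` divides every `p : O[X]` with `p(θ) = 0`. -/
theorem dvd_of_aeval_eq_zero_of_minpoly_eq_map (hinj : Function.Injective (algebraMap O K))
    {f : O[X]} (hf : f.Monic) {θ : L} (hmp : minpoly K θ = f.map (algebraMap O K)) {p : O[X]}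
    (hp : aeval θ p = 0) : f ∣ p := by
  have hfθ : aeval θ f = 0 := by
    rw [← aeval_map_algebraMap K θ f, ← hmp, minpoly.aeval]
  have hne : minpoly K θ ≠ 0 := by
    rw [hmp]
    exact (hf.map _).ne_zero
  have hint : IsIntegral K θ := by
    by_contra h
    exact hne (minpoly.eq_zero h)
  have : Nontrivial O := (algebraMap O K).domain_nontrivial
  rw [← Polynomial.modByMonic_eq_zero_iff_dvd hf]
  set r := p %ₘ f with hr
  have hrθ : aeval θ r = 0 := by
    have h1 : p = r + f * (p /ₘ f) := (Polynomial.modByMonic_add_div p f).symm
    have h2 := congrArg (aeval θ) h1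
    rw [hp, map_add, map_mul, hfθ, zero_mul, add_zero] at h2
    exact h2.symm
  by_contra hr0
  have hr0' : r.map (algebraMap O K) ≠ 0 := by
    rwa [Ne, Polynomial.map_eq_zero_iff hinj]
  have hrθ' : aeval θ (r.map (algebraMap O K)) = 0 := by
    rw [aeval_map_algebraMap, hrθ]
  have h3 : (minpoly K θ).degree ≤ (r.map (algebraMap O K)).degree :=
    minpoly.degree_le_of_ne_zero K θ hr0' hrθ'
  have h4 : (r.map (algebraMap O K)).degree ≤ r.degree := Polynomial.degree_map_le
  have h5 : r.degree < f.degree := Polynomial.degree_modByMonic_lt p hf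
  have h6 : (minpoly K θ).degree = f.degree := by
    rw [hmp, Polynomial.degree_map_eq_of_injective hinj]
  rw [h6] at h3
  exact absurd (lt_of_le_of_lt (h3.trans h4) h5) (lt_irrefl _)

end Fermat.Agent.CA.H6
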