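import Mathlib
import Fermat.Agent.CA.H79_BaseChangeFibre

/-!
# Automorphisms of `R = B·A₂` trivial modulo `π` (helper79)

Row (R-a3b)(c) of the S34 plan, abstract form.  `σE` is a ring automorphism of the big ring `E`
which is the identity on the image of `B` and acts on the image of `A₂` through an automorphism
`σ₂` of `A₂` with `σ₂ a ≡ a (mod π)`.  Then `σE` preserves `R = genRing A₂ B E` (and any subring
`S` of `E` with the same underlying set, e.g. `chartB A₂ J`), and `σE x ≡ x (mod π)` on it.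
-/

set_option autoImplicit false
set_option linter.style.haveILetI false

namespace Fermat.Agent.CA.H79

section Aut

variable {A₂ B E : Type*} [CommRing A₂] [CommRing B] [CommRing E] [Algebra A₂ E] [Algebra B E]

/-- `σE` maps `R = genRing` into itself. -/
theorem map_mem_genRing (σE : E →+* E) (σ₂ : A₂ →+* A₂)
    (hB : ∀ b : B, σE (algebraMap B E b) = algebraMap B E b)
    (hA : ∀ a : A₂, σE (algebraMap A₂ E a) = algebraMap A₂ E (σ₂ a))
    {r : E} (hr : r ∈ genRing A₂ B E) : σE r ∈ genRing A₂ B E := by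
  obtain ⟨n, β, a, rfl⟩ := exists_sum_of_mem_genRing hr
  rw [map_sum]
  refine Subalgebra.sum_mem _ fun i _ => ?_
  rw [map_mul, hB, hA]
  exact Subalgebra.mul_mem _ (algebraMap_mem_genRing' _) (algebraMap_mem_genRing _)

/-- `σE r - r ∈ π R` for `r ∈ R = genRing`. -/
theorem exists_map_sub_eq_mul (σE : E →+* E) (σ₂ : A₂ →+* A₂) (π : A₂)
    (hB : ∀ b : B, σE (algebraMap B E b) = algebraMap B E b)
    (hA : ∀ a : A₂, σE (algebraMap A₂ E a) = algebraMap A₂ E (σ₂ a))
    (hπ : ∀ a : A₂, π ∣ σ₂ a - a)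
    {r : E} (hr : r ∈ genRing A₂ B E) :
    ∃ r' ∈ genRing A₂ B E, σE r - r = algebraMap A₂ E π * r' := by
  classical
  obtain ⟨n, β, a, rfl⟩ := exists_sum_of_mem_genRing hr
  choose a' ha' using hπ
  refine ⟨∑ i, algebraMap B E (β i) * algebraMap A₂ E (a' (a i)), sum_mem_genRing _ _ _, ?_⟩
  rw [map_sum, ← Finset.sum_sub_distrib, Finset.mul_sum]
  refine Finset.sum_congr rfl fun i _ => ?_
  rw [map_mul, hB, hA]
  have : algebraMap A₂ E (σ₂ (a i)) = algebraMap A₂ E (a i) +
      algebraMap A₂ E π * algebraMap A₂ E (a' (a i)) := by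
    rw [← map_mul, ← map_add, ← ha' (a i)]
    congr 1
    ring
  rw [this]
  ring

/-- **The induced automorphism of a subring `S` of `E` with the same elements as `R = genRing`**
(e.g. `S = chartB A₂ J`), together with the congruence `σ x ≡ x (mod π)`.  `S` is given as a
subalgebra over `A₂`. -/
theorem exists_ringEquiv_of_eq_genRing (S : Subalgebra A₂ E)
    (hS : ∀ z : E, z ∈ S ↔ z ∈ genRing A₂ B E)
    (σE : E ≃+* E) (σ₂ : A₂ ≃+* A₂) (π : A₂)
    (hB : ∀ b : B, σE (algebraMap B E b) = algebraMap B E b)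
    (hA : ∀ a : A₂, σE (algebraMap A₂ E a) = algebraMap A₂ E (σ₂ a))
    (hπ : ∀ a : A₂, π ∣ σ₂ a - a) :
    ∃ sS : S ≃+* S, (∀ x : S, σE (x : E) = (sS x : E)) ∧
      ∀ x : S, sS x - x ∈ Ideal.span {algebraMap A₂ S π} := by
  classical
  have hB' : ∀ b : B, σE.symm (algebraMap B E b) = algebraMap B E b := fun b => by
    rw [RingEquiv.symm_apply_eq, hB]
  have hA' : ∀ a : A₂, σE.symm (algebraMap A₂ E a) = algebraMap A₂ E (σ₂.symm a) := fun a => by
    rw [RingEquiv.symm_apply_eq, hA, RingEquiv.apply_symm_apply]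
  have hmem : ∀ x : E, x ∈ S → σE x ∈ S := fun x hx =>
    (hS _).mpr (map_mem_genRing (σE : E →+* E) (σ₂ : A₂ →+* A₂) hB hA ((hS _).mp hx))
  have hmem' : ∀ x : E, x ∈ S → σE.symm x ∈ S := fun x hx =>
    (hS _).mpr (map_mem_genRing (σE.symm : E →+* E) (σ₂.symm : A₂ →+* A₂) hB' hA'
      ((hS _).mp hx))
  let sS : S ≃+* S :=
    { toFun := fun x => ⟨σE x, hmem x x.2⟩
      invFun := fun x => ⟨σE.symm x, hmem' x x.2⟩
      left_inv := fun x => Subtype.ext (σE.symm_apply_apply x)
      right_inv := fun x => Subtype.ext (σE.apply_symm_apply x)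
      map_mul' := fun x y => Subtype.ext (map_mul σE (x : E) y)
      map_add' := fun x y => Subtype.ext (map_add σE (x : E) y) }
  refine ⟨sS, fun x => rfl, fun x => ?_⟩
  obtain ⟨r', hr', hrr⟩ := exists_map_sub_eq_mul (σE : E →+* E) (σ₂ : A₂ →+* A₂) π hB hA hπ
    ((hS _).mp x.2)
  rw [Ideal.mem_span_singleton]
  refine ⟨⟨r', (hS _).mpr hr'⟩, ?_⟩
  apply Subtype.ext
  simp only [Subalgebra.coe_sub, Subalgebra.coe_mul, Subalgebra.coe_algebraMap]
  exact hrr

end Aut

end Fermat.Agent.CA.H79
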