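import Mathlib

/-!
# Uniqueness of derivations on a separable extension of `k(s)` (helper79)

S36 project, row (Der-6) of helper78's ruling #3231.  Mathlib only, any characteristic.

`k ⊆ κ` fields, `s ∈ κ` such that every element of `κ` is separable (algebraic) over `k(s)`;
`M` a `κ`-vector space.

* `derivation_eq_zero_of_apply_eq_zero` : a `k`-derivation `D : κ → M` with `D s = 0` is zero;
* `derivation_ext_of_apply_eq` : two `k`-derivations `κ → M` that agree at `s` are equal;
* `derivation_apply_eq_smul` : if `δ : κ → κ` is a `k`-derivation with `δ s = 1`, every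
  `k`-derivation `Θ : κ → M` is `Θ x = δ x • Θ s`;
* `derivation_apply_eq_mul` : the same for `M := L` a field extension of `κ`:
  `Θ x = algebraMap κ L (δ x) * Θ s`.
-/

set_option autoImplicit false

namespace Fermat.Agent.CA.H79

open Polynomial

section DerivUnique

variable {k κ M : Type*} [Field k] [Field κ] [Algebra k κ] [AddCommGroup M] [Module κ M]
  [Module k M] [IsScalarTower k κ M]

omit [IsScalarTower k κ M] in
/-- A `k`-derivation killing `s` kills `k[s]`. -/
theorem derivation_apply_eq_zero_of_mem_algebraAdjoin (s : κ) (D : Derivation k κ M)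
    (hs : D s = 0) {a : κ} (ha : a ∈ Algebra.adjoin k {s}) : D a = 0 := by
  have h := Derivation.eqOn_adjoin (D1 := D) (D2 := 0) (s := {s})
    (fun x hx => by
      rw [Set.mem_singleton_iff] at hx
      rw [hx, hs]; rfl) ha
  simpa using h

omit [IsScalarTower k κ M] in
/-- A `k`-derivation killing `s` kills `k(s)`. -/
theorem derivation_apply_eq_zero_of_mem_adjoin (s : κ) (D : Derivation k κ M)
    (hs : D s = 0) {c : κ} (hc : c ∈ IntermediateField.adjoin k {s}) : D c = 0 := by
  obtain ⟨r, t, rfl⟩ := (IntermediateField.mem_adjoin_simple_iff k c).mp hc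
  have hr : D (aeval s r) = 0 := by
    rw [Derivation.map_aeval, hs, smul_zero]
  have ht : D (aeval s t) = 0 := by
    rw [Derivation.map_aeval, hs, smul_zero]
  rw [Derivation.leibniz_div, hr, ht, smul_zero, smul_zero, sub_zero, smul_zero]

omit [IsScalarTower k κ M] in
/-- Chain rule for a polynomial with coefficients in a subfield killed by `D`. -/
theorem derivation_aeval_of_coeff_eq_zero (E : IntermediateField k κ) (D : Derivation k κ M)
    (hE : ∀ c ∈ E, D c = 0) (x : κ) (p : (↥E)[X]) :
    D (aeval x p) = aeval x (derivative p) • D x := by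
  induction p using Polynomial.induction_on' with
  | add p q hp hq => rw [map_add, map_add, hp, hq, derivative_add, map_add, add_smul]
  | monomial n a =>
      rw [← C_mul_X_pow_eq_monomial, map_mul, map_pow, aeval_C, aeval_X, Derivation.leibniz,
        Derivation.leibniz_pow, derivative_mul, derivative_C, zero_mul, zero_add,
        derivative_X_pow, map_mul, aeval_C, map_mul, map_pow, aeval_X, aeval_C]
      have hz : D (algebraMap (↥E) κ a) = 0 := hE _ a.2
      rw [hz, smul_zero, add_zero, map_natCast, ← Nat.cast_smul_eq_nsmul κ n, smul_smul, smul_smul,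
        mul_assoc]

/-- **(Der-6), vanishing.**  If every element of `κ` is separable over `k(s)`, a `k`-derivation
`κ → M` killing `s` is zero. -/
theorem derivation_eq_zero_of_apply_eq_zero (s : κ)
    (hsep : ∀ x : κ, IsSeparable (↥(IntermediateField.adjoin k {s})) x)
    (D : Derivation k κ M) (hs : D s = 0) : D = 0 := by
  ext x
  have h1 := derivation_aeval_of_coeff_eq_zero (IntermediateField.adjoin k {s}) D
    (fun c hc => derivation_apply_eq_zero_of_mem_adjoin s D hs hc) x
    (minpoly (↥(IntermediateField.adjoin k {s})) x)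
  rw [minpoly.aeval, map_zero] at h1
  have h2 : aeval x (derivative (minpoly (↥(IntermediateField.adjoin k {s})) x)) ≠ 0 :=
    (hsep x).aeval_derivative_ne_zero (minpoly.aeval _ x)
  rcases smul_eq_zero.mp h1.symm with h | h
  · exact absurd h h2
  · simpa using h

/-- **(Der-6), uniqueness.**  Two `k`-derivations `κ → M` that agree at `s` are equal. -/
theorem derivation_ext_of_apply_eq (s : κ)
    (hsep : ∀ x : κ, IsSeparable (↥(IntermediateField.adjoin k {s})) x)
    (D₁ D₂ : Derivation k κ M) (h : D₁ s = D₂ s) : D₁ = D₂ := by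
  have h0 : D₁ - D₂ = 0 := derivation_eq_zero_of_apply_eq_zero s hsep (D₁ - D₂)
    (by rw [Derivation.sub_apply, h, sub_self])
  exact sub_eq_zero.mp h0

/-- **(Der-6), identification.**  If `δ : κ → κ` is a `k`-derivation with `δ s = 1`, every
`k`-derivation `Θ : κ → M` is `Θ x = δ x • Θ s`. -/
theorem derivation_apply_eq_smul (s : κ)
    (hsep : ∀ x : κ, IsSeparable (↥(IntermediateField.adjoin k {s})) x)
    (Θ : Derivation k κ M) (δ : Derivation k κ κ) (hδ : δ s = 1) (x : κ) :
    Θ x = δ x • Θ s := by
  have h := derivation_ext_of_apply_eq s hsep Θ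
    ((LinearMap.toSpanSingleton κ M (Θ s)).compDer δ)
    (by
      rw [Derivation.coe_comp]
      simp [hδ])
  have h2 := congrArg (fun D : Derivation k κ M => D x) h
  simpa using h2

/-- The same under the typeclass `Algebra.IsSeparable k(s) κ`. -/
theorem derivation_apply_eq_smul' (s : κ)
    [Algebra.IsSeparable (↥(IntermediateField.adjoin k {s})) κ]
    (Θ : Derivation k κ M) (δ : Derivation k κ κ) (hδ : δ s = 1) (x : κ) :
    Θ x = δ x • Θ s :=
  derivation_apply_eq_smul s (fun y => Algebra.IsSeparable.isSeparable _ y) Θ δ hδ x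

/-- Uniqueness under the typeclass `Algebra.IsSeparable k(s) κ`. -/
theorem derivation_ext_of_apply_eq' (s : κ)
    [Algebra.IsSeparable (↥(IntermediateField.adjoin k {s})) κ]
    (D₁ D₂ : Derivation k κ M) (h : D₁ s = D₂ s) : D₁ = D₂ :=
  derivation_ext_of_apply_eq s (fun y => Algebra.IsSeparable.isSeparable _ y) D₁ D₂ h

end DerivUnique

section Field

variable {k κ L : Type*} [Field k] [Field κ] [Algebra k κ] [Field L] [Algebra κ L] [Algebra k L]
  [IsScalarTower k κ L]

/-- **(Der-6), identification, field-valued form.**  For `L ⊇ κ` a field (e.g. Laurent series),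
every `k`-derivation `Θ : κ → L` is `Θ x = (δ x) * Θ s`. -/
theorem derivation_apply_eq_mul (s : κ)
    (hsep : ∀ x : κ, IsSeparable (↥(IntermediateField.adjoin k {s})) x)
    (Θ : Derivation k κ L) (δ : Derivation k κ κ) (hδ : δ s = 1) (x : κ) :
    Θ x = algebraMap κ L (δ x) * Θ s := by
  rw [derivation_apply_eq_smul s hsep Θ δ hδ x, Algebra.smul_def]

end Field

end Fermat.Agent.CA.H79
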