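import Mathlib

/-!
# Rings generated by two subrings: the special fibre, intrinsic form (helper79)

Intrinsic companions of `CA/H79_BaseChangeFibre` in the shape of the `ChartPkg` fields of
`S34/H61_ChainSkeleton` (`hgenR`, `hnn`, `hmax`).  `B` is a ring which is generated by the images
of `B₁` and `A₂` (`hgen : Algebra.adjoin B₁ (Set.range (algebraMap A₂ B)) = ⊤`), and
`A₂ = A₁ + π A₂`.  Then `B = B₁ + π B`, every ideal `n ∋ π` of `B` is `(n ∩ B₁, π)`, and the
contraction of a maximal ideal `n ∋ π` to `B₁` is maximal, with the same residue field.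
No injectivity / linear disjointness is needed for these statements.
-/

set_option autoImplicit false
set_option linter.style.haveILetI false

namespace Fermat.Agent.CA.H79

section GenTop

variable {A₁ A₂ B₁ B : Type*} [CommRing A₁] [CommRing A₂] [CommRing B₁] [CommRing B]
  [Algebra A₁ A₂] [Algebra A₁ B₁] [Algebra B₁ B] [Algebra A₂ B]

/-- Elements of a ring generated by `B₁` and `A₂` are finite sums `∑ βᵢ aᵢ`. -/
theorem exists_sum_of_adjoin_eq_top
    (hgen : Algebra.adjoin B₁ (Set.range (algebraMap A₂ B)) = ⊤) (b : B) :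
    ∃ (n : ℕ) (β : Fin n → B₁) (a : Fin n → A₂),
      b = ∑ i, algebraMap B₁ B (β i) * algebraMap A₂ B (a i) := by
  classical
  have h0 : b ∈ Subalgebra.toSubmodule (Algebra.adjoin B₁ (Set.range (algebraMap A₂ B))) := by
    rw [hgen]; exact Algebra.mem_top (R := B₁)
  rw [Algebra.adjoin_eq_span] at h0
  have hcl : (Submonoid.closure (Set.range (algebraMap A₂ B)) : Set B) =
      Set.range (algebraMap A₂ B) := by
    have : Set.range (algebraMap A₂ B) =
        ((MonoidHom.mrange ((algebraMap A₂ B : A₂ →+* B) : A₂ →* B) : Submonoid B) : Set B) := by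
      ext x; simp
    rw [this, Submonoid.closure_eq]
  rw [hcl] at h0
  obtain ⟨n, f, g, hfg⟩ := (Submodule.mem_span_set').mp h0
  choose a ha using fun i => (g i).2
  refine ⟨n, f, a, ?_⟩
  rw [← hfg]
  refine Finset.sum_congr rfl fun i _ => ?_
  rw [Algebra.smul_def, ha i]

/-- `B = B₁ + π B`. -/
theorem exists_add_mul_of_adjoin_eq_top
    (hcomp : ∀ a : A₁, algebraMap B₁ B (algebraMap A₁ B₁ a) = algebraMap A₂ B (algebraMap A₁ A₂ a))
    (π : A₂) (h1 : ∀ a : A₂, ∃ c : A₁, ∃ a' : A₂, a = algebraMap A₁ A₂ c + π * a')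
    (hgen : Algebra.adjoin B₁ (Set.range (algebraMap A₂ B)) = ⊤) (b : B) :
    ∃ b₁ : B₁, ∃ b' : B, b = algebraMap B₁ B b₁ + algebraMap A₂ B π * b' := by
  classical
  obtain ⟨n, β, a, rfl⟩ := exists_sum_of_adjoin_eq_top hgen b
  choose c a' hca using h1
  refine ⟨∑ i, β i * algebraMap A₁ B₁ (c (a i)),
    ∑ i, algebraMap B₁ B (β i) * algebraMap A₂ B (a' (a i)), ?_⟩
  rw [map_sum, Finset.mul_sum, ← Finset.sum_add_distrib]
  refine Finset.sum_congr rfl fun i _ => ?_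
  conv_lhs => rw [hca (a i)]
  rw [map_add, map_mul, map_mul, hcomp]
  ring

/-- **`hnn`**: every ideal of `B` containing `π` is contained in `(n ∩ B₁, π)`. -/
theorem le_map_comap_sup_of_adjoin_eq_top
    (hcomp : ∀ a : A₁, algebraMap B₁ B (algebraMap A₁ B₁ a) = algebraMap A₂ B (algebraMap A₁ A₂ a))
    (π : A₂) (h1 : ∀ a : A₂, ∃ c : A₁, ∃ a' : A₂, a = algebraMap A₁ A₂ c + π * a')
    (hgen : Algebra.adjoin B₁ (Set.range (algebraMap A₂ B)) = ⊤)
    (n : Ideal B) (hπ : algebraMap A₂ B π ∈ n) :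
    n ≤ Ideal.map (algebraMap B₁ B) (n.comap (algebraMap B₁ B)) ⊔
      Ideal.span {algebraMap A₂ B π} := by
  intro r hr
  obtain ⟨b₁, b', rfl⟩ := exists_add_mul_of_adjoin_eq_top hcomp π h1 hgen r
  have hb : algebraMap B₁ B b₁ ∈ n := by
    have : algebraMap B₁ B b₁ =
        (algebraMap B₁ B b₁ + algebraMap A₂ B π * b') - algebraMap A₂ B π * b' := by ring
    rw [this]
    exact n.sub_mem hr (n.mul_mem_right _ hπ)
  exact Ideal.add_mem _ (Ideal.mem_sup_left (Ideal.mem_map_of_mem _ hb))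
    (Ideal.mem_sup_right (Ideal.mul_mem_right _ _ (Ideal.mem_span_singleton_self _)))

/-- Equality form of `le_map_comap_sup_of_adjoin_eq_top`. -/
theorem eq_map_comap_sup_of_adjoin_eq_top
    (hcomp : ∀ a : A₁, algebraMap B₁ B (algebraMap A₁ B₁ a) = algebraMap A₂ B (algebraMap A₁ A₂ a))
    (π : A₂) (h1 : ∀ a : A₂, ∃ c : A₁, ∃ a' : A₂, a = algebraMap A₁ A₂ c + π * a')
    (hgen : Algebra.adjoin B₁ (Set.range (algebraMap A₂ B)) = ⊤)
    (n : Ideal B) (hπ : algebraMap A₂ B π ∈ n) :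
    n = Ideal.map (algebraMap B₁ B) (n.comap (algebraMap B₁ B)) ⊔
      Ideal.span {algebraMap A₂ B π} := by
  apply le_antisymm (le_map_comap_sup_of_adjoin_eq_top hcomp π h1 hgen n hπ)
  refine sup_le (Ideal.map_le_iff_le_comap.mpr le_rfl) ?_
  rw [Ideal.span_le, Set.singleton_subset_iff]
  exact hπ

/-- The composite `B₁ → B → B ⧸ n` is surjective when `π ∈ n`. -/
theorem mk_comp_algebraMap_surjective_of_adjoin_eq_top
    (hcomp : ∀ a : A₁, algebraMap B₁ B (algebraMap A₁ B₁ a) = algebraMap A₂ B (algebraMap A₁ A₂ a))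
    (π : A₂) (h1 : ∀ a : A₂, ∃ c : A₁, ∃ a' : A₂, a = algebraMap A₁ A₂ c + π * a')
    (hgen : Algebra.adjoin B₁ (Set.range (algebraMap A₂ B)) = ⊤)
    (n : Ideal B) (hπ : algebraMap A₂ B π ∈ n) :
    Function.Surjective ((Ideal.Quotient.mk n).comp (algebraMap B₁ B)) := by
  intro x
  obtain ⟨r, rfl⟩ := Ideal.Quotient.mk_surjective x
  obtain ⟨b₁, b', rfl⟩ := exists_add_mul_of_adjoin_eq_top hcomp π h1 hgen r
  refine ⟨b₁, ?_⟩
  rw [RingHom.comp_apply, Ideal.Quotient.eq]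
  have : algebraMap B₁ B b₁ - (algebraMap B₁ B b₁ + algebraMap A₂ B π * b') =
      algebraMap A₂ B π * (-b') := by ring
  rw [this]
  exact n.mul_mem_right _ hπ

/-- The residue fields agree: `B₁ ⧸ (n ∩ B₁) ≃+* B ⧸ n`. -/
noncomputable def residueEquivOfAdjoinEqTop
    (hcomp : ∀ a : A₁, algebraMap B₁ B (algebraMap A₁ B₁ a) = algebraMap A₂ B (algebraMap A₁ A₂ a))
    (π : A₂) (h1 : ∀ a : A₂, ∃ c : A₁, ∃ a' : A₂, a = algebraMap A₁ A₂ c + π * a')
    (hgen : Algebra.adjoin B₁ (Set.range (algebraMap A₂ B)) = ⊤)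
    (n : Ideal B) (hπ : algebraMap A₂ B π ∈ n) :
    (B₁ ⧸ n.comap (algebraMap B₁ B)) ≃+* (B ⧸ n) :=
  (Ideal.quotEquivOfEq (by
    ext b
    rw [RingHom.mem_ker, RingHom.comp_apply, Ideal.Quotient.eq_zero_iff_mem, Ideal.mem_comap])).trans
    (RingHom.quotientKerEquivOfSurjective
      (mk_comp_algebraMap_surjective_of_adjoin_eq_top hcomp π h1 hgen n hπ))

/-- **`hmax`**: the contraction to `B₁` of a maximal ideal of `B` containing `π` is maximal. -/
theorem comap_isMaximal_of_adjoin_eq_top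
    (hcomp : ∀ a : A₁, algebraMap B₁ B (algebraMap A₁ B₁ a) = algebraMap A₂ B (algebraMap A₁ A₂ a))
    (π : A₂) (h1 : ∀ a : A₂, ∃ c : A₁, ∃ a' : A₂, a = algebraMap A₁ A₂ c + π * a')
    (hgen : Algebra.adjoin B₁ (Set.range (algebraMap A₂ B)) = ⊤)
    (n : Ideal B) [hn : n.IsMaximal] (hπ : algebraMap A₂ B π ∈ n) :
    (n.comap (algebraMap B₁ B)).IsMaximal := by
  have hfield : IsField (B ⧸ n) := (Ideal.Quotient.maximal_ideal_iff_isField_quotient n).mp hn
  exact Ideal.Quotient.maximal_of_isField _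
    ((residueEquivOfAdjoinEqTop hcomp π h1 hgen n hπ).toMulEquiv.isField hfield)

/-- `q ∈ n ∩ B₁` when `π ∣ q` and `π ∈ n`. -/
theorem algebraMap_mem_comap_of_dvd
    (hcomp : ∀ a : A₁, algebraMap B₁ B (algebraMap A₁ B₁ a) = algebraMap A₂ B (algebraMap A₁ A₂ a))
    (q : A₁) (π : A₂) (h3 : π ∣ algebraMap A₁ A₂ q)
    (n : Ideal B) (hπ : algebraMap A₂ B π ∈ n) :
    algebraMap A₁ B₁ q ∈ n.comap (algebraMap B₁ B) := by
  rw [Ideal.mem_comap, hcomp]
  obtain ⟨a, ha⟩ := h3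
  rw [ha, map_mul]
  exact n.mul_mem_right _ hπ

end GenTop

end Fermat.Agent.CA.H79
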