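import Mathlib
import Fermat.Agent.CA.H79_BaseChangeFibre

/-!
# From "generated inside a big ring" to `Algebra.adjoin … = ⊤` (helper79)

Bridges between the three ways of saying "`B` is generated by `B₁` and `A₂`":
* intrinsic: `Algebra.adjoin B₁ (Set.range (algebraMap A₂ B)) = ⊤` (`ChartPkg.hgenR`);
* inside a big ring `E` via an injective `ι : B →+* E`: every `ι b` lies in
  `Subring.closure (range (ι ∘ algebraMap B₁ B) ∪ range (ι ∘ algebraMap A₂ B))`;
* `genRing A₂ B₁ E` of `CA/H79_BaseChangeFibre`.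
-/

set_option autoImplicit false
set_option linter.style.haveILetI false

namespace Fermat.Agent.CA.H79

section Bridge

variable {A₂ B₁ B E : Type*} [CommRing A₂] [CommRing B₁] [CommRing B] [CommRing E]
  [Algebra B₁ B] [Algebra A₂ B]

/-- If, inside `E`, every element of `B` lies in the subring generated by the images of `B₁` and
`A₂`, then `B` is generated by `B₁` and `A₂`. -/
theorem adjoin_eq_top_of_mem_closure (ι : B →+* E) (hι : Function.Injective ι)
    (hmem : ∀ b : B, ι b ∈ Subring.closure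
      (Set.range (ι.comp (algebraMap B₁ B)) ∪ Set.range (ι.comp (algebraMap A₂ B)))) :
    Algebra.adjoin B₁ (Set.range (algebraMap A₂ B)) = ⊤ := by
  rw [eq_top_iff]
  intro b _
  set T : Subring E := (Algebra.adjoin B₁ (Set.range (algebraMap A₂ B))).toSubring.map ι with hT
  have hle : Subring.closure
      (Set.range (ι.comp (algebraMap B₁ B)) ∪ Set.range (ι.comp (algebraMap A₂ B))) ≤ T := by
    rw [Subring.closure_le]
    rintro x (⟨b₁, rfl⟩ | ⟨a, rfl⟩)
    · exact ⟨algebraMap B₁ B b₁, Subalgebra.algebraMap_mem _ b₁, rfl⟩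
    · exact ⟨algebraMap A₂ B a, Algebra.subset_adjoin ⟨a, rfl⟩, rfl⟩
  obtain ⟨b', hb', hbb⟩ := hle (hmem b)
  have : b' = b := hι hbb
  rw [← this]
  exact hb'

variable [Algebra B₁ E] [Algebra A₂ E]

/-- Same with `genRing`: if `ι : B →+* E` is injective, compatible with the structure maps, and
every `ι b` lies in `genRing A₂ B₁ E`, then `B` is generated by `B₁` and `A₂`. -/
theorem adjoin_eq_top_of_mem_genRing (ι : B →+* E) (hι : Function.Injective ι)
    (hB₁ : ∀ b₁ : B₁, ι (algebraMap B₁ B b₁) = algebraMap B₁ E b₁)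
    (hA₂ : ∀ a : A₂, ι (algebraMap A₂ B a) = algebraMap A₂ E a)
    (hmem : ∀ b : B, ι b ∈ genRing A₂ B₁ E) :
    Algebra.adjoin B₁ (Set.range (algebraMap A₂ B)) = ⊤ := by
  classical
  rw [eq_top_iff]
  intro b _
  obtain ⟨n, β, a, hsum⟩ := exists_sum_of_mem_genRing (hmem b)
  have hb : b = ∑ i, algebraMap B₁ B (β i) * algebraMap A₂ B (a i) := by
    apply hι
    rw [hsum, map_sum]
    refine Finset.sum_congr rfl fun i _ => ?_
    rw [map_mul, hB₁, hA₂]
  rw [hb]
  exact Subalgebra.sum_mem _ fun i _ =>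
    Subalgebra.mul_mem _ (Subalgebra.algebraMap_mem _ _) (Algebra.subset_adjoin ⟨a i, rfl⟩)

/-- `genRing` and the `Subring.closure` of the two images have the same elements. -/
theorem mem_genRing_iff_mem_closure (z : E) :
    z ∈ genRing A₂ B₁ E ↔
      z ∈ Subring.closure (Set.range (algebraMap B₁ E) ∪ Set.range (algebraMap A₂ E)) := by
  constructor
  · intro hz
    obtain ⟨n, β, a, rfl⟩ := exists_sum_of_mem_genRing hz
    exact Subring.sum_mem _ fun i _ =>
      Subring.mul_mem _ (Subring.subset_closure (Or.inl ⟨β i, rfl⟩))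
        (Subring.subset_closure (Or.inr ⟨a i, rfl⟩))
  · intro hz
    have hle : Subring.closure (Set.range (algebraMap B₁ E) ∪ Set.range (algebraMap A₂ E)) ≤
        (genRing A₂ B₁ E).toSubring := by
      rw [Subring.closure_le]
      rintro x (⟨b₁, rfl⟩ | ⟨a, rfl⟩)
      · exact algebraMap_mem_genRing' b₁
      · exact algebraMap_mem_genRing a
    exact hle hz

end Bridge

end Fermat.Agent.CA.H79
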