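import Mathlib

/-!
# S34 / L0, cut (I2) (helper90): the "infinitely many roots" exclusion, abstract form

Setting of helper99's L0 plan: `F = K(j, j_N)` a function field with the universal property
"(I1)": for `x y : B` with `x` transcendental and `Φ(x, y) = 0` there is a `K`-algebra map
`F → B`, `j ↦ x`, `j_N ↦ y`.  If `Φ((ι j)^Q, ι j_N) = 0` for some `Q ≥ 2` and an embedding
`ι : F → B`, then iterating gives `Φ((ι j)^(Q^n), ι j_N) = 0` for all `n ≥ 1`, so the nonzero
one-variable polynomial `Φ(X, ι j_N)` has infinitely many roots: contradiction.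

Mathlib only.  `Φ : (ℤ[X])[X]`; the inner variable is evaluated through
`(Polynomial.aeval (R := ℤ) x).toRingHom` (`= S28.evalJ x` on Laurent series), the outer one at `y`.
-/

set_option autoImplicit false

noncomputable section

namespace Fermat.Agent.CA.H90

open Polynomial

/-- `ℤ[X] → R`, `X ↦ x`. -/
abbrev evZ {R : Type*} [CommRing R] (x : R) : ℤ[X] →+* R :=
  (Polynomial.aeval (R := ℤ) x).toRingHom

theorem evZ_X {R : Type*} [CommRing R] (x : R) : evZ x X = x := by
  simp [evZ]

/-- A ring homomorphism out of `ℤ[X]` is determined by the image of `X`. -/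
theorem ringHom_int_poly_ext {R : Type*} [CommRing R] (f g : ℤ[X] →+* R) (h : f X = g X) :
    f = g := by
  apply Polynomial.ringHom_ext'
  · exact RingHom.ext_int _ _
  · exact h

theorem comp_evZ {R S : Type*} [CommRing R] [CommRing S] (φ : R →+* S) (x : R) :
    φ.comp (evZ x) = evZ (φ x) := by
  apply ringHom_int_poly_ext
  simp [evZ]

/-- Ring homomorphisms commute with the two-variable evaluation. -/
theorem map_eval₂_evZ {R S : Type*} [CommRing R] [CommRing S] (φ : R →+* S)
    (Φ : Polynomial (Polynomial ℤ)) (x y : R) :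
    φ (Φ.eval₂ (evZ x) y) = Φ.eval₂ (evZ (φ x)) (φ y) := by
  rw [Polynomial.hom_eval₂, comp_evZ]

/-- The one-variable polynomial `Φ(X, y) ∈ R[X]` (inner variable free, outer variable `:= y`). -/
def sliceAt {R : Type*} [CommRing R] (Φ : Polynomial (Polynomial ℤ)) (y : R) : R[X] :=
  Φ.eval₂ (Polynomial.mapRingHom (Int.castRingHom R)) (C y)

theorem eval_sliceAt {R : Type*} [CommRing R] (Φ : Polynomial (Polynomial ℤ)) (x y : R) :
    (sliceAt Φ y).eval x = Φ.eval₂ (evZ x) y := by
  have h : (Polynomial.evalRingHom x).comp (Polynomial.mapRingHom (Int.castRingHom R)) =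
      evZ x := by
    apply ringHom_int_poly_ext
    simp [evZ]
  have h2 := Polynomial.hom_eval₂ Φ (Polynomial.mapRingHom (Int.castRingHom R))
    (Polynomial.evalRingHom x) (C y)
  rw [h] at h2
  simpa [sliceAt] using h2

variable {K B : Type*} [Field K] [Field B] [Algebra K B]

/-- `Φ(X, y) ≠ 0` when `Φ` is monic in the outer variable and `y` is transcendental. -/
theorem sliceAt_ne_zero (Φ : Polynomial (Polynomial ℤ)) (hΦ : Φ.Monic) {y : B}
    (hy : Transcendental K y) : sliceAt Φ y ≠ 0 := by
  intro h0
  -- evaluate the inner variable at `0`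
  have h1 : Φ.eval₂ (evZ (0 : B)) y = 0 := by
    rw [← eval_sliceAt, h0, Polynomial.eval_zero]
  -- the constant-coefficient specialisation of `Φ`, a monic polynomial over `K`
  let c : ℤ[X] →+* K := (Int.castRingHom K).comp Polynomial.constantCoeff
  have hc : (algebraMap K B).comp c = evZ (0 : B) := by
    apply ringHom_int_poly_ext
    simp [c, evZ]
  have hmonic : (Φ.map c).Monic := hΦ.map c
  apply hy
  refine ⟨Φ.map c, hmonic.ne_zero, ?_⟩
  rw [Polynomial.aeval_def, Polynomial.eval₂_map, hc]
  exact h1

/-- Powers of a transcendental element with distinct exponents are distinct. -/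
theorem pow_injective_of_transcendental {x : B} (hx : Transcendental K x) :
    Function.Injective fun n : ℕ => x ^ n := by
  have hx0 : x ≠ 0 := by
    rintro rfl
    exact hx (isAlgebraic_zero)
  have key : ∀ a b : ℕ, a < b → x ^ a ≠ x ^ b := by
    intro a b hab h
    obtain ⟨d, rfl⟩ := Nat.exists_eq_add_of_lt hab
    have h1 : x ^ (d + 1) = 1 := by
      have h2 : x ^ a * x ^ (d + 1) = x ^ a * 1 := by
        rw [mul_one, ← pow_add]
        rw [show a + (d + 1) = a + d + 1 by ring]
        exact h.symm
      exact mul_left_cancel₀ (pow_ne_zero a hx0) h2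
    apply hx
    refine ⟨X ^ (d + 1) - C 1, Polynomial.X_pow_sub_C_ne_zero (Nat.succ_pos d) 1, ?_⟩
    simp [h1]
  intro a b hab
  by_contra hne
  rcases Nat.lt_or_gt_of_ne hne with h | h
  · exact key a b h hab
  · exact key b a h hab.symm

variable {F : Type*} [Field F] [Algebra K F]

/-- **(I2), abstract form.**  Under the universal property `hUP` of `F = K(j, j_N)` with respect
to `Φ`, a relation `Φ((ι j)^Q, ι j_N) = 0` with `Q ≥ 2` is impossible. -/
theorem false_of_iter (Φ : Polynomial (Polynomial ℤ)) (hΦ : Φ.Monic) (ι : F →ₐ[K] B)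
    (j jN : F) (hj : Transcendental K j) (hjN : Transcendental K jN)
    (hUP : ∀ x y : B, Transcendental K x →
      Φ.eval₂ ((Polynomial.aeval (R := ℤ) x).toRingHom) y = 0 →
        ∃ τ : F →ₐ[K] B, τ j = x ∧ τ jN = y)
    (Q : ℕ) (hQ : 2 ≤ Q)
    (hrel : Φ.eval₂ ((Polynomial.aeval (R := ℤ) (ι j ^ Q)).toRingHom) (ι jN) = 0) : False := by
  have hιinj : Function.Injective ι := ι.toRingHom.injective
  have hιj : Transcendental K (ι j) := by
    intro halg
    exact hj ((isAlgebraic_algHom_iff ι hιinj).1 halg)
  have hιjN : Transcendental K (ι jN) := by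
    intro halg
    exact hjN ((isAlgebraic_algHom_iff ι hιinj).1 halg)
  -- the relation pulled back to `F`
  have hrelF : Φ.eval₂ (evZ (j ^ Q)) jN = 0 := by
    apply hιinj
    have := map_eval₂_evZ (ι : F →+* B) Φ (j ^ Q) jN
    simp only [RingHom.coe_coe, map_pow] at this
    rw [map_zero]
    rw [this]
    exact hrel
  -- iterate
  have hiter : ∀ n : ℕ, Φ.eval₂ (evZ (ι j ^ Q ^ (n + 1))) (ι jN) = 0 := by
    intro n
    induction n with
    | zero => simpa using hrel
    | succ n ih =>
      have htr : Transcendental K (ι j ^ Q ^ (n + 1)) :=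
        hιj.pow (Nat.pos_of_ne_zero (pow_ne_zero _ (by omega)))
      obtain ⟨τ, hτj, hτjN⟩ := hUP _ _ htr ih
      have := map_eval₂_evZ (τ : F →+* B) Φ (j ^ Q) jN
      simp only [RingHom.coe_coe, map_pow] at this
      rw [hrelF, map_zero, hτj, hτjN, ← pow_mul, ← pow_succ] at this
      exact this.symm
  -- infinitely many roots of the nonzero slice
  have hne : sliceAt Φ (ι jN) ≠ 0 := sliceAt_ne_zero (K := K) Φ hΦ hιjN
  apply hne
  apply Polynomial.eq_zero_of_infinite_isRoot
  have hinj : Function.Injective fun n : ℕ => ι j ^ Q ^ (n + 1) := by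
    intro a b hab
    have h1 := pow_injective_of_transcendental hιj hab
    have h2 := Nat.pow_right_injective hQ h1
    omega
  refine Set.infinite_of_injective_forall_mem hinj ?_
  intro n
  show (sliceAt Φ (ι jN)).IsRoot _
  rw [Polynomial.IsRoot, eval_sliceAt]
  exact hiter n

end Fermat.Agent.CA.H90
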