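import Mathlib
import Fermat.Agent.CA.H92_BigBall
import Fermat.Agent.S28.H39_Laurent
import Fermat.Prelude.Thm_ModularCurve_coeffMap_qExpand

/-!
# CA / S36 (A-exp) (helper92): `θ = t d/dt` and `t ↦ t ^ e` on the big Gauss ball

`A` a valuation subring of a field `L`, `π : A →+* k` a ring hom to a field, `G' = bigBall A π` the
big Gauss ball of `L((t))` (fractions `a / b` of `A`-integral expansions with `b̄ ≠ 0`) and
`bigResFun` its coefficientwise reduction (`CA/H92_BigBall`).

* `thetaOp_mem_bigBall`, `bigResFun_thetaOp` : `θ` preserves `G'` and commutes with the reduction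
  (quotient rule);
* `qExpand_mem_bigBall`, `bigResFun_qExpand` : the same for `t ↦ t ^ e`;
* `ne_zero_of_bigResFun_ne_zero`;
* `ratio_mem_bigBall` : **the expansion of `ω_s`**: if `σ ∈ G'`, `θ σ̄ ≠ 0` and
  `y * θ σ = (θ σ)(t ^ e)`, then `y` is a unit of `G'` with residue `(θ σ̄)(t ^ e) / θ σ̄`.
-/

set_option autoImplicit false

noncomputable section

namespace Fermat.Agent.CA.H92

open ModularCurve Polynomial Fermat.Agent.S18.H92 Fermat.Agent.S28 Fermat.Agent.S28.H39

variable {L : Type*} [Field L] {k : Type*} [Field k] {A : ValuationSubring L} {π : A →+* k}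

theorem up_thetaOp (z : LaurentSeries A) : up A (thetaOp z) = thetaOp (up A z) :=
  coeffMap_thetaOp A.subtype z

theorem up_qExpand (e : ℕ) [NeZero e] (z : LaurentSeries A) :
    up A (qExpand A e z) = qExpand L e (up A z) :=
  coeffMap_qExpand A.subtype e z

theorem qExpand_injective' (K : Type*) [Field K] (e : ℕ) [NeZero e] :
    Function.Injective (qExpand K e) := (qExpand K e).injective

/-- the quotient rule on representatives -/
theorem thetaOp_mul_up_sq {f : LaurentSeries L} {a b : LaurentSeries A}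
    (hf : f * up A b = up A a) :
    thetaOp f * up A (b * b) = up A (thetaOp a * b - a * thetaOp b) := by
  have h := congrArg thetaOp hf
  rw [thetaOp_mul, ← up_thetaOp, ← up_thetaOp] at h
  rw [map_mul, map_sub, map_mul, map_mul, ← h, ← hf]
  ring

/-- `θ` preserves the big ball. -/
theorem thetaOp_mem_bigBall {f : LaurentSeries L} (hf : f ∈ bigBall A π) :
    thetaOp f ∈ bigBall A π := by
  obtain ⟨a, b, hb0, hf'⟩ := hf
  exact ⟨thetaOp a * b - a * thetaOp b, b * b, by rw [map_mul]; exact mul_ne_zero hb0 hb0,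
    thetaOp_mul_up_sq hf'⟩

/-- `θ` commutes with the coefficientwise reduction on the big ball. -/
theorem bigResFun_thetaOp {f : LaurentSeries L} (hf : f ∈ bigBall A π) :
    bigResFun A π (thetaOp f) = thetaOp (bigResFun A π f) := by
  obtain ⟨a, b, hb0, hf'⟩ := hf
  rw [bigResFun_eq (by rw [map_mul]; exact mul_ne_zero hb0 hb0) (thetaOp_mul_up_sq hf'),
    bigResFun_eq hb0 hf']
  set a' := coeffMap π a with ha'
  set b' := coeffMap π b with hb'
  have h1 : thetaOp (a' / b') * b' + a' / b' * thetaOp b' = thetaOp a' := by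
    rw [← thetaOp_mul, div_mul_cancel₀ _ hb0]
  have h2 : thetaOp (a' / b') = (thetaOp a' - a' / b' * thetaOp b') / b' := by
    rw [eq_div_iff hb0, ← h1]; ring
  rw [h2, map_sub, map_mul, map_mul, map_mul, coeffMap_thetaOp, coeffMap_thetaOp, ← ha', ← hb']
  field_simp

/-- `t ↦ t ^ e` preserves the big ball. -/
theorem qExpand_mem_bigBall (e : ℕ) [NeZero e] {f : LaurentSeries L} (hf : f ∈ bigBall A π) :
    qExpand L e f ∈ bigBall A π := by
  obtain ⟨a, b, hb0, hf'⟩ := hf
  refine ⟨qExpand A e a, qExpand A e b, ?_, ?_⟩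
  · rw [coeffMap_qExpand]
    exact (map_ne_zero_iff _ (qExpand_injective' k e)).mpr hb0
  · rw [up_qExpand, up_qExpand, ← map_mul, hf']

/-- `t ↦ t ^ e` commutes with the coefficientwise reduction on the big ball. -/
theorem bigResFun_qExpand (e : ℕ) [NeZero e] {f : LaurentSeries L} (hf : f ∈ bigBall A π) :
    bigResFun A π (qExpand L e f) = qExpand k e (bigResFun A π f) := by
  obtain ⟨a, b, hb0, hf'⟩ := hf
  have hb0' : coeffMap π (qExpand A e b) ≠ 0 := by
    rw [coeffMap_qExpand]
    exact (map_ne_zero_iff _ (qExpand_injective' k e)).mpr hb0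
  have hf'' : qExpand L e f * up A (qExpand A e b) = up A (qExpand A e a) := by
    rw [up_qExpand, up_qExpand, ← map_mul, hf']
  rw [bigResFun_eq hb0' hf'', bigResFun_eq hb0 hf', coeffMap_qExpand, coeffMap_qExpand, map_div₀]

theorem ne_zero_of_bigResFun_ne_zero {f : LaurentSeries L} (h : bigResFun A π f ≠ 0) : f ≠ 0 := by
  rintro rfl
  exact h bigResFun_zero

/-- **The expansion of `ω_s`.**  If `σ` lies in the big ball, `θ σ̄ ≠ 0` and
`y * θ σ = (θ σ)(t ^ e)`, then `y` is a unit of the big ball with residue `(θ σ̄)(t ^ e) / θ σ̄`. -/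
theorem ratio_mem_bigBall (e : ℕ) [NeZero e] {σ y : LaurentSeries L} (hσ : σ ∈ bigBall A π)
    (h0 : thetaOp (bigResFun A π σ) ≠ 0) (hy : y * thetaOp σ = qExpand L e (thetaOp σ)) :
    y ∈ bigBall A π ∧ y⁻¹ ∈ bigBall A π ∧
      bigResFun A π y =
        qExpand k e (thetaOp (bigResFun A π σ)) / thetaOp (bigResFun A π σ) ∧
      bigResFun A π y ≠ 0 := by
  have hg : thetaOp σ ∈ bigBall A π := thetaOp_mem_bigBall hσ
  have hgres : bigResFun A π (thetaOp σ) = thetaOp (bigResFun A π σ) := bigResFun_thetaOp hσ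
  have hh : qExpand L e (thetaOp σ) ∈ bigBall A π := qExpand_mem_bigBall e hg
  have hhres : bigResFun A π (qExpand L e (thetaOp σ)) =
      qExpand k e (thetaOp (bigResFun A π σ)) := by
    rw [bigResFun_qExpand e hg, hgres]
  have hg0 : bigResFun A π (thetaOp σ) ≠ 0 := by rw [hgres]; exact h0
  obtain ⟨h1, h2⟩ := mem_bigBall_of_mul_eq hg hh hg0 hy
  rw [hhres, hgres] at h2
  have h3 : bigResFun A π y ≠ 0 := by
    rw [h2]
    exact div_ne_zero ((map_ne_zero_iff _ (qExpand_injective' k e)).mpr h0) h0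
  exact ⟨h1, inv_mem_bigBall h1 h3, h2, h3⟩

end Fermat.Agent.CA.H92
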