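import Mathlib

/-!
# CA (helper92), Mathlib only: clearing a denominator `p(x)` by an element of `R0[t]`

`x, t` in a field `F` over `R0`, `Ψ ∈ R0[T][Y]` monic in `Y` with `Ψ(t, x) = 0`; `π0 : R0 →+* k`
a reduction to an algebraically closed field such that `Ψ̄(T, ξ) ≠ 0` in `k[T]` for every constant
`ξ : k`.  Then for every `p ∈ R0[Y]` with `p̄ ≠ 0` the resultant `f := Res_Y(p, Ψ) ∈ R0[T]`
satisfies `f̄ ≠ 0` and `f(t) = p(x) · u(t, x)` for some `u ∈ R0[T][Y]`.

Use: `R0 = A₁`, `t = (j j_q)^{±1}`, `x = j^{±1}`: `1 / p(j^{±1})` lies in the localisation of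
`A₁[j^{±1}, J^{±1}]` at the multiplicative set `A₁[J^{±1}] ∖ (q)`.
-/

set_option autoImplicit false

namespace Fermat.Agent.CA.H92

open Polynomial

section

variable {R0 k F : Type*} [CommRing R0] [Field k] [Field F] [Algebra R0 F]

/-- bivariate evaluation `R0[T][Y] → F`, `T ↦ t`, `Y ↦ x`. -/
noncomputable def ev2F (t x : F) : R0[X][X] →+* F :=
  eval₂RingHom ((aeval t : R0[X] →ₐ[R0] F) : R0[X] →+* F) x

theorem ev2F_apply (t x : F) (g : R0[X][X]) :
    ev2F t x g = g.eval₂ ((aeval t : R0[X] →ₐ[R0] F) : R0[X] →+* F) x := rfl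

theorem ev2F_C (t x : F) (f : R0[X]) : ev2F t x (C f) = aeval t f := by
  rw [ev2F_apply, eval₂_C]; rfl

theorem ev2F_map_C (t x : F) (p : R0[X]) :
    ev2F t x (p.map (C : R0 →+* R0[X])) = aeval x p := by
  rw [ev2F_apply, eval₂_map, aeval_def]
  congr 1
  ext r
  simp

theorem map_mapRingHom_map_C (π0 : R0 →+* k) (p : R0[X]) :
    (p.map (C : R0 →+* R0[X])).map (mapRingHom π0) = (p.map π0).map (C : k →+* k[X]) := by
  rw [Polynomial.map_map, Polynomial.map_map]
  congr 1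
  ext r
  simp

/-- the resultant of a nonzero split constant-coefficient polynomial with a monic `Ψ̄` having no
constant roots is nonzero. -/
theorem resultant_map_C_ne_zero [IsAlgClosed k] (pb : k[X]) (hpb : pb ≠ 0) (Ψb : k[X][X])
    (hΨb : Ψb.Monic) (hcop : ∀ ξ : k, Ψb.eval (C ξ) ≠ 0) (m : ℕ) (hm : pb.natDegree ≤ m) :
    resultant (pb.map (C : k →+* k[X])) Ψb m Ψb.natDegree ≠ 0 := by
  have hCinj : Function.Injective (C : k →+* k[X]) := C_injective
  have hdeg : (pb.map (C : k →+* k[X])).natDegree = pb.natDegree :=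
    natDegree_map_eq_of_injective hCinj pb
  obtain ⟨d, rfl⟩ := Nat.exists_eq_add_of_le hm
  rw [resultant_add_left_deg _ _ _ _ _ (le_of_eq hdeg)]
  have hcoeff : Ψb.coeff Ψb.natDegree = 1 := hΨb.coeff_natDegree
  rw [hcoeff, one_pow, mul_one]
  have hsplit : (pb.map (C : k →+* k[X])).Splits := (IsAlgClosed.splits pb).map _
  have key := resultant_eq_prod_eval (pb.map (C : k →+* k[X])) Ψb Ψb.natDegree le_rfl hsplit
  rw [hdeg] at key
  rw [key]
  refine mul_ne_zero (pow_ne_zero _ (by simp)) (mul_ne_zero (pow_ne_zero _ ?_) ?_)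
  · rw [Ne, leadingCoeff_eq_zero, ← Ne]
    exact (Polynomial.map_ne_zero_iff hCinj).2 hpb
  · apply Multiset.prod_ne_zero
    rw [(IsAlgClosed.splits pb).roots_map_of_injective hCinj, Multiset.map_map]
    intro h0
    rw [Multiset.mem_map] at h0
    obtain ⟨ξ, -, hξ⟩ := h0
    exact hcop ξ hξ

/-- **Clearing the denominator `p(x)` by a resultant.** -/
theorem exists_resultant_denominator [IsAlgClosed k] (π0 : R0 →+* k) (Ψ : R0[X][X])
    (hΨ : Ψ.Monic) (t x : F) (hroot : ev2F t x Ψ = 0)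
    (hcop : ∀ ξ : k, (Ψ.map (mapRingHom π0)).eval (C ξ) ≠ 0)
    (p : R0[X]) (hp : p.map π0 ≠ 0) :
    ∃ f : R0[X], f.map π0 ≠ 0 ∧ ∃ u : R0[X][X], aeval t f = aeval x p * ev2F t x u := by
  have hn : Ψ.natDegree ≠ 0 := by
    intro h0
    have h1 : Ψ = 1 := eq_one_of_monic_natDegree_zero hΨ h0
    rw [h1, map_one] at hroot
    exact one_ne_zero hroot
  set p' : R0[X][X] := p.map (C : R0 →+* R0[X]) with hp'def
  have hp'deg : p'.natDegree ≤ p.natDegree := natDegree_map_le
  obtain ⟨a, b, -, -, e⟩ := exists_mul_add_mul_eq_C_resultant (m := p.natDegree)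
    (n := Ψ.natDegree) p' Ψ hp'deg le_rfl (Or.inr hn)
  refine ⟨p'.resultant Ψ p.natDegree Ψ.natDegree, ?_, a, ?_⟩
  · have h1 : (p'.resultant Ψ p.natDegree Ψ.natDegree).map π0 =
        resultant (p'.map (mapRingHom π0)) (Ψ.map (mapRingHom π0)) p.natDegree Ψ.natDegree := by
      rw [resultant_map_map]; rfl
    rw [h1, hp'def, map_mapRingHom_map_C]
    have hΨb : (Ψ.map (mapRingHom π0)).Monic := hΨ.map _
    have hdegb : (Ψ.map (mapRingHom π0)).natDegree = Ψ.natDegree := hΨ.natDegree_map _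
    rw [← hdegb]
    exact resultant_map_C_ne_zero (p.map π0) hp _ hΨb hcop p.natDegree natDegree_map_le
  · have h2 := congrArg (ev2F t x) e
    rw [map_add, map_mul, map_mul, hroot, zero_mul, add_zero, ev2F_C, hp'def, ev2F_map_C] at h2
    exact h2.symm

end

end Fermat.Agent.CA.H92
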