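import Mathlib
import Fermat.Agent.CA.H92_ResultantDenom

/-!
# CA (helper92), Mathlib only: the chart `(a b)⁻¹` of a correspondence `Φ(a, b) = 0`

`Φ ∈ R0[X][Y]` monic in `Y` of degree `n`, all `X`-degrees `≤ D`, `Φ(a, b) = 0` in a field `F`
(`a, b ≠ 0`).  Then `x := a⁻¹` is a root of the monic polynomial
`Ψ(T, Y) := Y^D T^n Φ(1/Y, Y/T) = ∑_k (reflect D Φ_k)(Y) Y^k T^(n-k)` at `T := (a b)⁻¹`, and if the
`X^D`-coefficient of `Φ(X, 0)` does not vanish under `π0 : R0 →+* k`, then `Ψ̄(T, ξ) ≠ 0` for every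
constant `ξ : k`.  Hence (`CA.H92.exists_resultant_denominator`): for `p ∈ R0[X]`, `p̄ ≠ 0`, there is
`f ∈ R0[T]`, `f̄ ≠ 0`, with `f((a b)⁻¹) = p(a⁻¹) · u((a b)⁻¹, a⁻¹)`.
-/

set_option autoImplicit false

namespace Fermat.Agent.CA.H92

open Polynomial

section

variable {R0 k F : Type*} [CommRing R0] [Field k] [Field F] [Algebra R0 F]

/-- `Ψ(T, Y) = ∑_{k ≤ n} (reflect D Φ_k)(Y) · Y^k · T^(n-k)` (inner variable `T`, outer `Y`). -/
noncomputable def psiInv (D n : ℕ) (Φ : R0[X][X]) : R0[X][X] :=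
  ∑ i ∈ Finset.range (n + 1),
    ((Φ.coeff i).reflect D).map (C : R0 →+* R0[X]) * X ^ i * C (X ^ (n - i))

theorem reflect_one' (D : ℕ) : (1 : R0[X]).reflect D = X ^ D := by
  rw [← C_1, reflect_C, C_1, one_mul]

theorem psiInv_monic (D : ℕ) (Φ : R0[X][X]) (hΦ : Φ.Monic)
    (hD : ∀ i, (Φ.coeff i).natDegree ≤ D) : (psiInv D Φ.natDegree Φ).Monic := by
  nontriviality R0
  unfold psiInv
  rw [Finset.sum_range_succ, hΦ.coeff_natDegree, reflect_one', Nat.sub_self, pow_zero, C_1,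
    mul_one, Polynomial.map_pow, map_X, ← pow_add, add_comm]
  apply monic_X_pow_add
  refine (degree_sum_le _ _).trans_lt ?_
  rw [Finset.sup_lt_iff (WithBot.bot_lt_coe _)]
  intro i hi
  rw [Finset.mem_range] at hi
  refine (degree_le_natDegree).trans_lt ?_
  rw [Nat.cast_lt]
  have h1 : (((Φ.coeff i).reflect D).map (C : R0 →+* R0[X])).natDegree ≤ D :=
    natDegree_map_le.trans (natDegree_reflect_le.trans (max_le le_rfl (hD i)))
  have h2 : (((Φ.coeff i).reflect D).map (C : R0 →+* R0[X]) * X ^ i *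
      C (X ^ (Φ.natDegree - i))).natDegree ≤ D + i + 0 := by
    refine natDegree_mul_le.trans (add_le_add (natDegree_mul_le.trans (add_le_add h1 ?_)) ?_)
    · exact natDegree_X_pow_le i
    · exact le_of_eq (natDegree_C _)
  omega

theorem ev2F_psiInv (D : ℕ) (Φ : R0[X][X]) (hD : ∀ i, (Φ.coeff i).natDegree ≤ D) (a b : F)
    (ha : a ≠ 0) (hb : b ≠ 0)
    (hab : Φ.eval₂ ((aeval a : R0[X] →ₐ[R0] F) : R0[X] →+* F) b = 0) :
    ev2F (a * b)⁻¹ a⁻¹ (psiInv D Φ.natDegree Φ) = 0 := by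
  have hab0 : a * b ≠ 0 := mul_ne_zero ha hb
  have hne : a ^ D * (a * b) ^ Φ.natDegree ≠ 0 := mul_ne_zero (pow_ne_zero _ ha) (pow_ne_zero _ hab0)
  apply (mul_right_injective₀ hne)
  simp only [mul_zero]
  rw [← hab, eval₂_eq_sum_range, psiInv, map_sum, Finset.mul_sum]
  apply Finset.sum_congr rfl
  intro i hi
  rw [Finset.mem_range, Nat.lt_succ_iff] at hi
  rw [map_mul, map_mul, map_pow, ev2F_map_C, ev2F_C, map_pow, aeval_X]
  have hX : ev2F (R0 := R0) (a * b)⁻¹ a⁻¹ X = a⁻¹ := by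
    rw [ev2F_apply, eval₂_X]
  rw [hX]
  letI : Invertible a := invertibleOfNonzero ha
  have hrefl : aeval a⁻¹ ((Φ.coeff i).reflect D) * a ^ D = aeval a (Φ.coeff i) := by
    have := eval₂_reflect_mul_pow (algebraMap R0 F) a D (Φ.coeff i) (hD i)
    rw [invOf_eq_inv] at this
    exact this
  rw [RingHom.coe_coe, ← hrefl]
  have hsplit : (a * b) ^ Φ.natDegree = (a * b) ^ i * (a * b) ^ (Φ.natDegree - i) := by
    rw [← pow_add, Nat.add_sub_cancel' hi]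
  rw [hsplit, mul_pow a b i]
  have e1 : a⁻¹ ^ i * a ^ i = 1 := by rw [← mul_pow, inv_mul_cancel₀ ha, one_pow]
  have e2 : (a * b)⁻¹ ^ (Φ.natDegree - i) * (a * b) ^ (Φ.natDegree - i) = 1 := by
    rw [← mul_pow, inv_mul_cancel₀ hab0, one_pow]
  calc a ^ D * (a ^ i * b ^ i * (a * b) ^ (Φ.natDegree - i)) *
        (aeval a⁻¹ ((Φ.coeff i).reflect D) * a⁻¹ ^ i * (a * b)⁻¹ ^ (Φ.natDegree - i))
      = aeval a⁻¹ ((Φ.coeff i).reflect D) * a ^ D * b ^ i * (a⁻¹ ^ i * a ^ i) *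
          ((a * b)⁻¹ ^ (Φ.natDegree - i) * (a * b) ^ (Φ.natDegree - i)) := by ring
    _ = aeval a⁻¹ ((Φ.coeff i).reflect D) * a ^ D * b ^ i := by rw [e1, e2, mul_one, mul_one]

theorem map_psiInv (π0 : R0 →+* k) (D n : ℕ) (Φ : R0[X][X]) :
    (psiInv D n Φ).map (mapRingHom π0) = psiInv D n (Φ.map (mapRingHom π0)) := by
  unfold psiInv
  rw [Polynomial.map_sum]
  apply Finset.sum_congr rfl
  intro i _
  rw [Polynomial.map_mul, Polynomial.map_mul, Polynomial.map_pow, map_X, map_C, coe_mapRingHom,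
    Polynomial.map_pow, map_X, coeff_map, coe_mapRingHom, reflect_map, map_mapRingHom_map_C]

theorem eval_C_psiInv (D n : ℕ) (Φb : k[X][X]) (ξ : k) :
    (psiInv D n Φb).eval (C ξ) =
      ∑ i ∈ Finset.range (n + 1), C (((Φb.coeff i).reflect D).eval ξ * ξ ^ i) * X ^ (n - i) := by
  unfold psiInv
  rw [eval_finset_sum]
  apply Finset.sum_congr rfl
  intro i _
  rw [eval_mul, eval_mul, eval_pow, eval_X, eval_C, eval_map, eval₂_at_apply, ← C_pow, ← C_mul]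

theorem coeff_sum_C_mul_X_pow_sub (n : ℕ) (e : ℕ → k) (j : ℕ) (hj : j ≤ n) :
    (∑ i ∈ Finset.range (n + 1), C (e i) * (X : k[X]) ^ (n - i)).coeff j = e (n - j) := by
  rw [finset_sum_coeff, Finset.sum_eq_single (n - j)]
  · rw [coeff_C_mul_X_pow, if_pos (by omega)]
  · intro i hi hne
    rw [Finset.mem_range] at hi
    rw [coeff_C_mul_X_pow, if_neg (by omega)]
  · intro h
    exfalso; apply h
    rw [Finset.mem_range]; omega

theorem eval_C_psiInv_ne_zero (π0 : R0 →+* k) (D : ℕ) (Φ : R0[X][X]) (hΦ : Φ.Monic)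
    (hD0 : π0 ((Φ.coeff 0).coeff D) ≠ 0) (ξ : k) :
    ((psiInv D Φ.natDegree Φ).map (mapRingHom π0)).eval (C ξ) ≠ 0 := by
  rw [map_psiInv, eval_C_psiInv]
  set n := Φ.natDegree with hn
  by_cases hξ : ξ = 0
  · intro h0
    have h1 := congrArg (fun g : k[X] => g.coeff n) h0
    simp only [coeff_zero] at h1
    rw [coeff_sum_C_mul_X_pow_sub n _ n le_rfl, Nat.sub_self, pow_zero, mul_one, hξ,
      ← coeff_zero_eq_eval_zero, coeff_reflect, revAt_zero, coeff_map, coe_mapRingHom,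
      coeff_map] at h1
    exact hD0 h1
  · intro h0
    have h1 := congrArg (fun g : k[X] => g.coeff 0) h0
    simp only [coeff_zero] at h1
    rw [coeff_sum_C_mul_X_pow_sub n _ 0 (Nat.zero_le _), Nat.sub_zero, coeff_map, hn,
      hΦ.coeff_natDegree, coe_mapRingHom, Polynomial.map_one, reflect_one', eval_pow, eval_X,
      ← pow_add] at h1
    exact pow_ne_zero _ hξ h1

/-- **The chart `(a b)⁻¹`**: clearing the denominator `p(a⁻¹)` by an element of `R0[(a b)⁻¹]`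
which is nonzero modulo `π0`. -/
theorem exists_denominator_inv [IsAlgClosed k] (π0 : R0 →+* k) (Φ : R0[X][X]) (hΦ : Φ.Monic)
    (D : ℕ) (hD : ∀ i, (Φ.coeff i).natDegree ≤ D) (hD0 : π0 ((Φ.coeff 0).coeff D) ≠ 0)
    (a b : F) (ha : a ≠ 0) (hb : b ≠ 0)
    (hab : Φ.eval₂ ((aeval a : R0[X] →ₐ[R0] F) : R0[X] →+* F) b = 0)
    (p : R0[X]) (hp : p.map π0 ≠ 0) :
    ∃ f : R0[X], f.map π0 ≠ 0 ∧ ∃ u : R0[X][X],
      aeval (a * b)⁻¹ f = aeval a⁻¹ p * ev2F (a * b)⁻¹ a⁻¹ u :=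
  exists_resultant_denominator π0 (psiInv D Φ.natDegree Φ) (psiInv_monic D Φ hΦ hD) _ _
    (ev2F_psiInv D Φ hD a b ha hb hab) (eval_C_psiInv_ne_zero π0 D Φ hΦ hD0) p hp

end

end Fermat.Agent.CA.H92
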