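import Mathlib
import Fermat.Agent.CA.H92_ResultantDenomInv

/-!
# CA (helper92), Mathlib only: `(T4)` at infinity and saturation denominators in `R0[(a b)⁻¹]`

* `isIntegral_mul_inv_pow` : `Φ(x, θ) = 0` monic, `X`-degrees `≤ m` ⟹ `θ x⁻ᵐ` integral over
  `R0[x⁻¹]`;
* `isIntegral_inv_pow_mul_eval₂` : `x⁻ᵉ g(x, θ)` integral over `R0[x⁻¹]` for `e` large;
* `exists_isIntegral_inv_repr` : `s(x) y = g(x, θ)` ⟹ `(reflect e s)(x⁻¹) · y` integral over
  `R0[x⁻¹]`;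
* `exists_isIntegral_mul_inv_chart` : with a correspondence `Φq(a, b) = 0` as in
  `exists_denominator_inv`: `∃ f ∈ R0[T], f̄ ≠ 0 ∧ f((a b)⁻¹) · y` integral over `R0[(a b)⁻¹]`.
-/

set_option autoImplicit false

namespace Fermat.Agent.CA.H92

open Polynomial

section

variable {R0 F : Type*} [CommRing R0] [Field F] [Algebra R0 F]

/-- integrality over `R0[u]` in polynomial form. -/
theorem isIntegral_adjoin_of_monic' (u b : F) (G : R0[X][X]) (hG : G.Monic)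
    (h0 : G.eval₂ ((aeval u : R0[X] →ₐ[R0] F) : R0[X] →+* F) b = 0) :
    IsIntegral (Algebra.adjoin R0 {u}) b := by
  let c : R0[X] →+* Algebra.adjoin R0 {u} :=
    ((aeval u : R0[X] →ₐ[R0] F) : R0[X] →+* F).codRestrict (Algebra.adjoin R0 {u}).toSubring
      fun _ => aeval_mem_adjoin_singleton R0 u
  refine ⟨G.map c, hG.map _, ?_⟩
  rw [eval₂_map]
  exact h0

theorem isIntegral_aeval_adjoin (u : F) (p : R0[X]) :
    IsIntegral (Algebra.adjoin R0 {u}) (aeval u p) := by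
  have h : aeval u p ∈ Algebra.adjoin R0 {u} := aeval_mem_adjoin_singleton R0 u
  exact isIntegral_algebraMap (R := Algebra.adjoin R0 {u}) (x := ⟨aeval u p, h⟩)

theorem aeval_inv_reflect (x : F) (hx : x ≠ 0) (N : ℕ) (p : R0[X]) (hp : p.natDegree ≤ N) :
    aeval x⁻¹ (p.reflect N) * x ^ N = aeval x p := by
  letI : Invertible x := invertibleOfNonzero hx
  have := eval₂_reflect_mul_pow (algebraMap R0 F) x N p hp
  rw [invOf_eq_inv] at this
  exact this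

theorem aeval_inv_reflect' (x : F) (hx : x ≠ 0) (N : ℕ) (p : R0[X]) (hp : p.natDegree ≤ N) :
    aeval x⁻¹ (p.reflect N) = aeval x p * x⁻¹ ^ N := by
  rw [← aeval_inv_reflect x hx N p hp, mul_assoc, ← mul_pow, mul_inv_cancel₀ hx, one_pow, mul_one]

/-- the polynomial `∑ᵢ (reflect (m (ψ - i)) Φᵢ)(X') Wⁱ` satisfied by `θ x⁻ᵐ` over `R0[x⁻¹]`. -/
noncomputable def shiftPoly (m : ℕ) (Φ : R0[X][X]) : R0[X][X] :=
  ∑ i ∈ Finset.range (Φ.natDegree + 1),
    C ((Φ.coeff i).reflect (m * (Φ.natDegree - i))) * X ^ i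

theorem shiftPoly_monic (m : ℕ) (Φ : R0[X][X]) (hΦ : Φ.Monic) : (shiftPoly m Φ).Monic := by
  nontriviality R0
  unfold shiftPoly
  rw [Finset.sum_range_succ, hΦ.coeff_natDegree, Nat.sub_self, mul_zero, reflect_one', pow_zero,
    C_1, one_mul, add_comm]
  apply monic_X_pow_add
  refine (degree_sum_le _ _).trans_lt ?_
  rw [Finset.sup_lt_iff (WithBot.bot_lt_coe _)]
  intro i hi
  rw [Finset.mem_range] at hi
  exact (degree_C_mul_X_pow_le _ _).trans_lt (by exact_mod_cast hi)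

theorem eval₂_shiftPoly (m : ℕ) (Φ : R0[X][X]) (hΦ : Φ.Monic)
    (hm : ∀ i, (Φ.coeff i).natDegree ≤ m) (x θ : F) (hx : x ≠ 0)
    (hroot : Φ.eval₂ ((aeval x : R0[X] →ₐ[R0] F) : R0[X] →+* F) θ = 0) :
    (shiftPoly m Φ).eval₂ ((aeval x⁻¹ : R0[X] →ₐ[R0] F) : R0[X] →+* F) (θ * x⁻¹ ^ m) = 0 := by
  have hne : x ^ (m * Φ.natDegree) ≠ 0 := pow_ne_zero _ hx
  apply mul_right_injective₀ hne
  simp only [mul_zero]
  rw [← hroot]
  conv_rhs => rw [eval₂_eq_sum_range]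
  rw [shiftPoly, eval₂_finset_sum, Finset.mul_sum]
  apply Finset.sum_congr rfl
  intro i hi
  rw [Finset.mem_range, Nat.lt_succ_iff] at hi
  rw [eval₂_mul, eval₂_C, eval₂_X_pow]
  simp only [RingHom.coe_coe]
  have hdeg : (Φ.coeff i).natDegree ≤ m * (Φ.natDegree - i) := by
    rcases Nat.eq_or_lt_of_le hi with h | h
    · rw [h, hΦ.coeff_natDegree, natDegree_one]; exact Nat.zero_le _
    · calc (Φ.coeff i).natDegree ≤ m := hm i
        _ = m * 1 := (mul_one m).symm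
        _ ≤ m * (Φ.natDegree - i) := Nat.mul_le_mul_left m (by omega)
  rw [← aeval_inv_reflect x hx _ _ hdeg]
  have hsplit : x ^ (m * Φ.natDegree) = x ^ (m * (Φ.natDegree - i)) * (x ^ m) ^ i := by
    rw [← pow_mul, ← pow_add, ← Nat.mul_add, Nat.sub_add_cancel hi]
  rw [hsplit, mul_pow θ]
  have e1 : (x ^ m) ^ i * (x⁻¹ ^ m) ^ i = 1 := by
    rw [← mul_pow, ← mul_pow, mul_inv_cancel₀ hx, one_pow, one_pow]
  calc x ^ (m * (Φ.natDegree - i)) * (x ^ m) ^ i *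
        (aeval x⁻¹ ((Φ.coeff i).reflect (m * (Φ.natDegree - i))) * (θ ^ i * (x⁻¹ ^ m) ^ i))
      = aeval x⁻¹ ((Φ.coeff i).reflect (m * (Φ.natDegree - i))) * x ^ (m * (Φ.natDegree - i)) *
          θ ^ i * ((x ^ m) ^ i * (x⁻¹ ^ m) ^ i) := by ring
    _ = _ := by rw [e1, mul_one]

/-- `θ x⁻ᵐ` is integral over `R0[x⁻¹]`. -/
theorem isIntegral_mul_inv_pow (m : ℕ) (Φ : R0[X][X]) (hΦ : Φ.Monic)
    (hm : ∀ i, (Φ.coeff i).natDegree ≤ m) (x θ : F) (hx : x ≠ 0)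
    (hroot : Φ.eval₂ ((aeval x : R0[X] →ₐ[R0] F) : R0[X] →+* F) θ = 0) :
    IsIntegral (Algebra.adjoin R0 {x⁻¹}) (θ * x⁻¹ ^ m) :=
  isIntegral_adjoin_of_monic' _ _ (shiftPoly m Φ) (shiftPoly_monic m Φ hΦ)
    (eval₂_shiftPoly m Φ hΦ hm x θ hx hroot)

/-- `x⁻ᵉ g(x, θ)` is integral over `R0[x⁻¹]` for `e` large. -/
theorem isIntegral_inv_pow_mul_eval₂ (m : ℕ) (Φ : R0[X][X]) (hΦ : Φ.Monic)
    (hm : ∀ i, (Φ.coeff i).natDegree ≤ m) (x θ : F) (hx : x ≠ 0)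
    (hroot : Φ.eval₂ ((aeval x : R0[X] →ₐ[R0] F) : R0[X] →+* F) θ = 0)
    (g : R0[X][X]) (e : ℕ) (he : ∀ i ≤ g.natDegree, (g.coeff i).natDegree + m * i ≤ e) :
    IsIntegral (Algebra.adjoin R0 {x⁻¹})
      (x⁻¹ ^ e * g.eval₂ ((aeval x : R0[X] →ₐ[R0] F) : R0[X] →+* F) θ) := by
  rw [eval₂_eq_sum_range, Finset.mul_sum]
  refine IsIntegral.sum _ fun i hi => ?_
  rw [Finset.mem_range, Nat.lt_succ_iff] at hi
  have hdeg : (g.coeff i).natDegree ≤ e - m * i := by have := he i hi; omega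
  have hle : m * i ≤ e := by have := he i hi; omega
  have h1 : x⁻¹ ^ e * (((aeval x : R0[X] →ₐ[R0] F) : R0[X] →+* F) (g.coeff i) * θ ^ i) =
      aeval x⁻¹ ((g.coeff i).reflect (e - m * i)) * (θ * x⁻¹ ^ m) ^ i := by
    rw [RingHom.coe_coe, aeval_inv_reflect' x hx _ _ hdeg, mul_pow θ, ← pow_mul]
    have : x⁻¹ ^ e = x⁻¹ ^ (e - m * i) * x⁻¹ ^ (m * i) := by
      rw [← pow_add, Nat.sub_add_cancel hle]
    rw [this]
    ring
  rw [h1]
  exact (isIntegral_aeval_adjoin _ _).mul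
    ((isIntegral_mul_inv_pow m Φ hΦ hm x θ hx hroot).pow i)

/-- **`(T4)` at infinity**: `s(x) y = g(x, θ)` ⟹ `(reflect e s)(x⁻¹) · y` is integral over
`R0[x⁻¹]` for `e` large. -/
theorem isIntegral_reflect_mul_of_repr (m : ℕ) (Φ : R0[X][X]) (hΦ : Φ.Monic)
    (hm : ∀ i, (Φ.coeff i).natDegree ≤ m) (x θ : F) (hx : x ≠ 0)
    (hroot : Φ.eval₂ ((aeval x : R0[X] →ₐ[R0] F) : R0[X] →+* F) θ = 0)
    (s : R0[X]) (g : R0[X][X]) (y : F)
    (hy : aeval x s * y = g.eval₂ ((aeval x : R0[X] →ₐ[R0] F) : R0[X] →+* F) θ)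
    (e : ℕ) (hes : s.natDegree ≤ e)
    (he : ∀ i ≤ g.natDegree, (g.coeff i).natDegree + m * i ≤ e) :
    IsIntegral (Algebra.adjoin R0 {x⁻¹}) (aeval x⁻¹ (s.reflect e) * y) := by
  have h1 : aeval x⁻¹ (s.reflect e) * y =
      x⁻¹ ^ e * g.eval₂ ((aeval x : R0[X] →ₐ[R0] F) : R0[X] →+* F) θ := by
    rw [aeval_inv_reflect' x hx e s hes, ← hy]; ring
  rw [h1]
  exact isIntegral_inv_pow_mul_eval₂ m Φ hΦ hm x θ hx hroot g e he

/-- a uniform bound `e` for `isIntegral_reflect_mul_of_repr`. -/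
theorem exists_bound (m : ℕ) (s : R0[X]) (g : R0[X][X]) :
    ∃ e : ℕ, s.natDegree ≤ e ∧ ∀ i ≤ g.natDegree, (g.coeff i).natDegree + m * i ≤ e := by
  refine ⟨s.natDegree + ((Finset.range (g.natDegree + 1)).sup fun i => (g.coeff i).natDegree) +
    m * g.natDegree, by omega, fun i hi => ?_⟩
  have h1 : (g.coeff i).natDegree ≤
      (Finset.range (g.natDegree + 1)).sup fun i => (g.coeff i).natDegree :=
    Finset.le_sup (f := fun i => (g.coeff i).natDegree)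
      (Finset.mem_range.mpr (Nat.lt_succ_of_le hi))
  have h2 : m * i ≤ m * g.natDegree := Nat.mul_le_mul_left m hi
  omega

/-- transitivity of integrality along `R0[t] ⊆ R0[t][x] ∋ z`. -/
theorem isIntegral_adjoin_trans {t x z : F} (hx : IsIntegral (Algebra.adjoin R0 {t}) x)
    (hz : IsIntegral (Algebra.adjoin R0 {x}) z) : IsIntegral (Algebra.adjoin R0 {t}) z := by
  have hle : Algebra.adjoin R0 {x} ≤
      (integralClosure (Algebra.adjoin R0 {t}) F).restrictScalars R0 := by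
    apply Algebra.adjoin_le
    intro u hu
    rw [Set.mem_singleton_iff] at hu
    subst hu
    exact hx
  obtain ⟨P, hP, hPz⟩ := hz
  let c : Algebra.adjoin R0 {x} →+* integralClosure (Algebra.adjoin R0 {t}) F :=
    { toFun := fun w => ⟨w.1, hle w.2⟩
      map_one' := rfl
      map_mul' := fun _ _ => rfl
      map_zero' := rfl
      map_add' := fun _ _ => rfl }
  have hzS : IsIntegral (integralClosure (Algebra.adjoin R0 {t}) F) z := by
    refine ⟨P.map c, hP.map _, ?_⟩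
    rw [eval₂_map]
    exact hPz
  exact isIntegral_trans z hzS

end

section Final

variable {R0 k F : Type*} [CommRing R0] [Field k] [Field F] [Algebra R0 F]

/-- `a⁻¹` is integral over `R0[(a b)⁻¹]`. -/
theorem isIntegral_inv_adjoin_mul_inv (Φq : R0[X][X]) (hΦq : Φq.Monic) (D : ℕ)
    (hD : ∀ i, (Φq.coeff i).natDegree ≤ D) (a b : F) (ha : a ≠ 0) (hb : b ≠ 0)
    (hab : Φq.eval₂ ((aeval a : R0[X] →ₐ[R0] F) : R0[X] →+* F) b = 0) :
    IsIntegral (Algebra.adjoin R0 {(a * b)⁻¹}) a⁻¹ :=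
  isIntegral_adjoin_of_monic' _ _ (psiInv D Φq.natDegree Φq) (psiInv_monic D Φq hΦq hD)
    (ev2F_psiInv D Φq hD a b ha hb hab)

/-- bivariate polynomial expressions in `t` and an element integral over `R0[t]`. -/
theorem isIntegral_ev2F {t x : F} (hx : IsIntegral (Algebra.adjoin R0 {t}) x) (u : R0[X][X]) :
    IsIntegral (Algebra.adjoin R0 {t}) (ev2F t x u) := by
  rw [ev2F_apply, eval₂_eq_sum_range]
  refine IsIntegral.sum _ fun i _ => ?_
  exact (isIntegral_aeval_adjoin t _).mul (hx.pow i)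

/-- **Saturation denominators in `R0[(a b)⁻¹]`.**  `Φq(a, b) = 0` a correspondence (monic in `b`,
`X`-degrees `≤ D`, the `X^D`-coefficient of `Φq(X, 0)` a unit modulo `π0`), `Φ(a, θ) = 0` monic, and
`s(a) y = g(a, θ)` with `s̄ ≠ 0`.  Then `f((a b)⁻¹) · y` is integral over `R0[(a b)⁻¹]` for some
`f ∈ R0[T]` with `f̄ ≠ 0`. -/
theorem exists_isIntegral_mul_inv_chart [IsAlgClosed k] (π0 : R0 →+* k)
    (Φq : R0[X][X]) (hΦq : Φq.Monic) (D : ℕ) (hD : ∀ i, (Φq.coeff i).natDegree ≤ D)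
    (hD0 : π0 ((Φq.coeff 0).coeff D) ≠ 0) (a b : F) (ha : a ≠ 0) (hb : b ≠ 0)
    (hab : Φq.eval₂ ((aeval a : R0[X] →ₐ[R0] F) : R0[X] →+* F) b = 0)
    (Φ : R0[X][X]) (hΦ : Φ.Monic) (θ : F)
    (hroot : Φ.eval₂ ((aeval a : R0[X] →ₐ[R0] F) : R0[X] →+* F) θ = 0)
    (s : R0[X]) (hs : s.map π0 ≠ 0) (g : R0[X][X]) (y : F)
    (hy : aeval a s * y = g.eval₂ ((aeval a : R0[X] →ₐ[R0] F) : R0[X] →+* F) θ) :
    ∃ f : R0[X], f.map π0 ≠ 0 ∧
      IsIntegral (Algebra.adjoin R0 {(a * b)⁻¹}) (aeval (a * b)⁻¹ f * y) := by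
  -- a bound for the `X`-degrees of `Φ`
  set m := (Finset.range (Φ.natDegree + 1)).sup fun i => (Φ.coeff i).natDegree with hm_def
  have hm : ∀ i, (Φ.coeff i).natDegree ≤ m := by
    intro i
    by_cases hi : i ≤ Φ.natDegree
    · exact Finset.le_sup (f := fun i => (Φ.coeff i).natDegree)
        (Finset.mem_range.mpr (Nat.lt_succ_of_le hi))
    · rw [coeff_eq_zero_of_natDegree_lt (not_le.mp hi), natDegree_zero]; exact Nat.zero_le _
  obtain ⟨e, hes, he⟩ := exists_bound m s g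
  have hint1 : IsIntegral (Algebra.adjoin R0 {a⁻¹}) (aeval a⁻¹ (s.reflect e) * y) :=
    isIntegral_reflect_mul_of_repr m Φ hΦ hm a θ ha hroot s g y hy e hes he
  have hainv : IsIntegral (Algebra.adjoin R0 {(a * b)⁻¹}) a⁻¹ :=
    isIntegral_inv_adjoin_mul_inv Φq hΦq D hD a b ha hb hab
  have hint2 : IsIntegral (Algebra.adjoin R0 {(a * b)⁻¹}) (aeval a⁻¹ (s.reflect e) * y) :=
    isIntegral_adjoin_trans hainv hint1
  have hp : (s.reflect e).map π0 ≠ 0 := by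
    rw [← reflect_map, Ne, reflect_eq_zero_iff]
    exact hs
  obtain ⟨f, hf, u, hfu⟩ :=
    exists_denominator_inv π0 Φq hΦq D hD hD0 a b ha hb hab (s.reflect e) hp
  refine ⟨f, hf, ?_⟩
  have : aeval (a * b)⁻¹ f * y =
      ev2F (a * b)⁻¹ a⁻¹ u * (aeval a⁻¹ (s.reflect e) * y) := by
    rw [hfu]; ring
  rw [this]
  exact (isIntegral_ev2F hainv u).mul hint2

end Final

end Fermat.Agent.CA.H92
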