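import Mathlib

/-!
# A separating variable is not a `p`-th power (helper92)

Generic, Mathlib only.  Let `E / k(x)` be a separable algebraic extension in characteristic `p`
(`x` transcendental over `k`).  Then `x` is not a `p`-th power in `E`
(`pow_ne_of_isSeparable_of_transcendental`), hence `X ^ p - C x` is irreducible over `E`
(`irreducible_X_pow_sub_C_of_isSeparable`).

Application (S34, row L0): `jK k M` is not a `q`-th power in `Fk(M) = modularFunctionFieldFullC k M`
(`char k = q ∤ M`, `S18.H16.isSeparable_fullC_gen`), so the second factor `X ^ q - j̄` of Kronecker's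
congruence `Φ_q(X, j) ≡ (X - j ^ q)(X ^ q - j)` is irreducible over `Fk(M)`.
-/

set_option autoImplicit false

open Polynomial IntermediateField

namespace Fermat.Agent.CA.H92

variable {k E : Type*} [Field k] [Field E] [Algebra k E]

/-- A transcendental element is not a `p`-th power (`p ≥ 2`) in the simple extension it generates:
degree count. -/
theorem pow_ne_of_mem_adjoin_simple {p : ℕ} (hp : 2 ≤ p) {x : E} (hx : Transcendental k x)
    {b : E} (hb : b ∈ k⟮x⟯) : b ^ p ≠ x := by
  intro hbx
  obtain ⟨r, s, rfl⟩ := (mem_adjoin_simple_iff k b).mp hb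
  have hinj : Function.Injective (aeval x : k[X] →ₐ[k] E) :=
    transcendental_iff_injective.mp hx
  have hx0 : x ≠ 0 := by
    rintro rfl
    exact hx ⟨X, X_ne_zero, by simp⟩
  have hs0 : aeval x s ≠ 0 := by
    intro h
    rw [h, div_zero, zero_pow (by omega)] at hbx
    exact hx0 hbx.symm
  have hs : s ≠ 0 := by
    rintro rfl
    exact hs0 (map_zero _)
  have hr : r ≠ 0 := by
    rintro rfl
    rw [map_zero, zero_div, zero_pow (by omega)] at hbx
    exact hx0 hbx.symm
  have hpoly : r ^ p = X * s ^ p := by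
    apply hinj
    rw [map_pow, map_mul, map_pow, aeval_X]
    rw [div_pow, div_eq_iff (pow_ne_zero _ hs0)] at hbx
    exact hbx
  have hdeg := congrArg natDegree hpoly
  rw [natDegree_pow, natDegree_mul X_ne_zero (pow_ne_zero _ hs), natDegree_X, natDegree_pow] at hdeg
  have h1 : p ∣ 1 := by
    have : (1 : ℕ) = p * r.natDegree - p * s.natDegree := by omega
    rw [this]
    exact Nat.dvd_sub (Dvd.intro _ rfl) (Dvd.intro _ rfl)
  have := Nat.le_of_dvd one_pos h1
  omega

/-- **A separating variable is not a `p`-th power.** -/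
theorem pow_ne_of_isSeparable_of_transcendental (p : ℕ) [hp : Fact p.Prime] [CharP k p]
    {x : E} (hx : Transcendental k x) [Algebra.IsSeparable k⟮x⟯ E] (b : E) : b ^ p ≠ x := by
  intro hbx
  haveI : CharP k⟮x⟯ p := charP_of_injective_algebraMap (algebraMap k k⟮x⟯).injective p
  haveI : ExpChar k⟮x⟯ p := ExpChar.prime hp.out
  have h1 : k⟮x⟯⟮b⟯ = k⟮x⟯⟮b ^ p⟯ :=
    adjoin_simple_eq_adjoin_pow_expChar_of_isSeparable' k⟮x⟯ E b p
  have h2 : b ^ p ∈ (⊥ : IntermediateField k⟮x⟯ E) := by
    rw [hbx, IntermediateField.mem_bot]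
    exact ⟨⟨x, mem_adjoin_simple_self k x⟩, rfl⟩
  have h3 : k⟮x⟯⟮b ^ p⟯ = ⊥ := adjoin_simple_eq_bot_iff.mpr h2
  have h4 : b ∈ (⊥ : IntermediateField k⟮x⟯ E) := by
    rw [← h3, ← h1]
    exact mem_adjoin_simple_self _ b
  obtain ⟨⟨b', hb'⟩, rfl⟩ := IntermediateField.mem_bot.mp h4
  exact pow_ne_of_mem_adjoin_simple hp.out.two_le hx hb' hbx

/-- `X ^ p - C x` is irreducible over a separable extension of `k(x)` in characteristic `p`. -/
theorem irreducible_X_pow_sub_C_of_isSeparable (p : ℕ) [hp : Fact p.Prime] [CharP k p]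
    {x : E} (hx : Transcendental k x) [Algebra.IsSeparable k⟮x⟯ E] :
    Irreducible (X ^ p - C x : E[X]) :=
  X_pow_sub_C_irreducible_of_prime hp.out (pow_ne_of_isSeparable_of_transcendental p hx)

end Fermat.Agent.CA.H92
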