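import Mathlib
import Fermat.Agent.S18.H16_FKGen
import Fermat.Agent.CA.H92_NotPthPower

/-!
# `j` is not a `q`-th power in the level-`M` function field in characteristic `q ∤ M` (helper92)

Instance of `CA.H92.pow_ne_of_isSeparable_of_transcendental` at `Fk(M) = modularFunctionFieldFullC k M`
(`S18.H16.isSeparable_fullC_gen`, `S18.H16.transcendental_jK`): for a field `k : Type` of
characteristic `q` with `(M : k) ≠ 0`,

* `jK_pow_ne`  : `∀ b : Fk(M), b ^ q ≠ jK k M`;
* `irreducible_X_pow_sub_C_jK` : `X ^ q - C (jK k M)` is irreducible over `Fk(M)`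

(the second factor of Kronecker's congruence `Φ_q(X, j) ≡ (X - j ^ q)(X ^ q - j) mod q`; S34 row L0).
-/

set_option autoImplicit false
set_option synthInstance.maxHeartbeats 400000

open Polynomial ModularCurve

namespace Fermat.Agent.CA.H92

variable (M : ℕ) [NeZero M] (k : Type) [Field k] (q : ℕ) [Fact q.Prime] [CharP k q]

theorem jK_pow_ne (hMk : ((M : ℕ) : k) ≠ 0) (b : modularFunctionFieldFullC k M) :
    b ^ q ≠ Fermat.Agent.S18.H16.jK k M := by
  haveI := Fermat.Agent.S18.H16.isSeparable_fullC_gen M k hMk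
  exact pow_ne_of_isSeparable_of_transcendental q
    (Fermat.Agent.S18.H16.transcendental_jK k M) b

theorem irreducible_X_pow_sub_C_jK (hMk : ((M : ℕ) : k) ≠ 0) :
    Irreducible (X ^ q - C (Fermat.Agent.S18.H16.jK k M) :
      (modularFunctionFieldFullC k M)[X]) :=
  X_pow_sub_C_irreducible_of_prime (Fact.out : q.Prime) (jK_pow_ne M k q hMk)

end Fermat.Agent.CA.H92
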