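import Mathlib

/-!
# Constants of a Kummer cover (helper92)

Generic, Mathlib only.  Let `K ⊆ F ⊆ E` be fields, `ℓ` a prime, `ζ ∈ K` a primitive `ℓ`-th root of
unity, `K` algebraically closed in `F`, `u ∈ F` **not** of the form `c * g ^ ℓ` with `c ∈ K`,
`g ∈ F`, and `E = F[U]` with `U ^ ℓ = u`.  Then `K` is algebraically closed in `E`
(`kummer_constants`), and if `R` is an integrally closed domain with fraction field `K`, every element
of `E` integral over `R` comes from `R` (`kummer_constants_integral`: this is the `hconst` input of the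
no-split lemma for the Kummer cover).

The proof is elementary (no Galois theory, no linear disjointness): every `z ∈ E` is `p(U)` with
`deg p < ℓ`; if `p(U)` is algebraic over `K` then so is `p(ζ U)` (because `ζ U` is a root of the
minimal polynomial `X ^ ℓ - u` of `U`), hence so are the polynomials obtained from `p` by deleting one
monomial; by induction on the number of monomials one reaches a single monomial `c U ^ i`, whose `ℓ`-th
power `c ^ ℓ u ^ i` lies in `F`, hence in `K`, which for `0 < i < ℓ` contradicts the hypothesis on `u`.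
-/

set_option autoImplicit false

open Polynomial

namespace Fermat.Agent.CA.H92

section Kummer

variable {K F E : Type*} [Field K] [Field F] [Field E] [Algebra K F] [Algebra F E] [Algebra K E]
  [IsScalarTower K F E]

/-- If `u` is not a constant times an `ℓ`-th power, it is not an `ℓ`-th power. -/
theorem pow_ne_of_not_const_mul_pow {ℓ : ℕ} {u : F}
    (hu : ∀ (c : K) (g : F), u ≠ algebraMap K F c * g ^ ℓ) (b : F) : b ^ ℓ ≠ u := by
  intro h
  exact hu 1 b (by rw [map_one, one_mul, h])

/-- The minimal polynomial of an `ℓ`-th root of `u`. -/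
theorem minpoly_eq_X_pow_sub_C {ℓ : ℕ} (hℓ : ℓ.Prime) {u : F}
    (hu : ∀ b : F, b ^ ℓ ≠ u) {U : E} (hU : U ^ ℓ = algebraMap F E u) :
    minpoly F U = X ^ ℓ - C u := by
  symm
  refine minpoly.eq_of_irreducible_of_monic (X_pow_sub_C_irreducible_of_prime hℓ hu) ?_
    (monic_X_pow_sub_C u hℓ.ne_zero)
  simp [hU]

/-- Another root of `X ^ ℓ - u` kills every polynomial killed by `U`. -/
theorem aeval_mul_eq_zero {ℓ : ℕ} (hℓ : ℓ.Prime) {u : F}
    (hu : ∀ b : F, b ^ ℓ ≠ u) {U : E} (hU : U ^ ℓ = algebraMap F E u) {ξ : E} (hξ : ξ ^ ℓ = 1)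
    {q : F[X]} (hq : aeval U q = 0) : aeval (ξ * U) q = 0 := by
  obtain ⟨r, hr⟩ := minpoly.dvd F U hq
  rw [minpoly_eq_X_pow_sub_C hℓ hu hU] at hr
  rw [hr, map_mul]
  have : aeval (ξ * U) (X ^ ℓ - C u : F[X]) = 0 := by
    simp [mul_pow, hξ, hU]
  rw [this, zero_mul]

/-- Algebraicity over `K` is preserved by `U ↦ ξ U`. -/
theorem isAlgebraic_aeval_mul {ℓ : ℕ} (hℓ : ℓ.Prime) {u : F}
    (hu : ∀ b : F, b ^ ℓ ≠ u) {U : E} (hU : U ^ ℓ = algebraMap F E u) {ξ : E} (hξ : ξ ^ ℓ = 1)
    (p : F[X]) (hp : IsAlgebraic K (aeval U p)) : IsAlgebraic K (aeval (ξ * U) p) := by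
  obtain ⟨g, hg0, hg⟩ := hp
  refine ⟨g, hg0, ?_⟩
  have key : ∀ x : E, aeval x ((g.map (algebraMap K F)).comp p) = aeval (aeval x p) g := by
    intro x
    rw [aeval_comp, aeval_map_algebraMap]
  have h1 : aeval U ((g.map (algebraMap K F)).comp p) = 0 := by rw [key, hg]
  have h2 := aeval_mul_eq_zero hℓ hu hU hξ h1
  rwa [key] at h2

end Kummer

section Main

variable {K F E : Type*} [Field K] [Field F] [Field E] [Algebra K F] [Algebra F E] [Algebra K E]
  [IsScalarTower K F E]

/-- The support induction: a polynomial of degree `< ℓ` whose value at `U` is algebraic over `K`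
is constant. -/
theorem support_subset_of_isAlgebraic {ℓ : ℕ} (hℓ : ℓ.Prime) {ζ : K} (hζ : IsPrimitiveRoot ζ ℓ)
    (hcl : ∀ z : F, IsAlgebraic K z → z ∈ Set.range (algebraMap K F))
    {u : F} (hu : ∀ (c : K) (g : F), u ≠ algebraMap K F c * g ^ ℓ)
    {U : E} (hU : U ^ ℓ = algebraMap F E u) :
    ∀ (n : ℕ) (p : F[X]), p.support.card = n → p.natDegree < ℓ → IsAlgebraic K (aeval U p) →
      p.support ⊆ {0} := by
  have hu' : ∀ b : F, b ^ ℓ ≠ u := pow_ne_of_not_const_mul_pow hu
  have hu0 : u ≠ 0 := by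
    intro h
    exact hu' 0 (by rw [h, zero_pow hℓ.ne_zero])
  have hζF : IsPrimitiveRoot (algebraMap K F ζ) ℓ := hζ.map_of_injective (algebraMap K F).injective
  have hξ : (algebraMap K E ζ) ^ ℓ = 1 := by rw [← map_pow, hζ.pow_eq_one, map_one]
  intro n
  induction n using Nat.strong_induction_on with
  | _ n ih =>
    intro p hcard hdeg halg i hi
    rw [Finset.mem_singleton]
    by_contra hi0
    have hil : i < ℓ := lt_of_le_of_lt (le_natDegree_of_mem_supp i hi) hdeg
    by_cases hsingle : ∃ j ∈ p.support, j ≠ i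
    · -- delete the monomial of degree `j`
      obtain ⟨j, hj, hji⟩ := hsingle
      have hjl : j < ℓ := lt_of_le_of_lt (le_natDegree_of_mem_supp j hj) hdeg
      set a : F := algebraMap K F ζ with ha
      set p' : F[X] := p.comp (C a * X) - C (a ^ j) * p with hp'
      have hcoeff : ∀ m, p'.coeff m = p.coeff m * (a ^ m - a ^ j) := by
        intro m
        rw [hp', coeff_sub, comp_C_mul_X_coeff, coeff_C_mul]
        ring
      have hpow_inj : ∀ m, m < ℓ → (a ^ m = a ^ j ↔ m = j) := by
        intro m hm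
        constructor
        · intro h
          exact hζF.pow_inj hm hjl h
        · intro h; rw [h]
      have hsupp : p'.support = p.support.erase j := by
        ext m
        rw [mem_support_iff, Finset.mem_erase, mem_support_iff, hcoeff]
        constructor
        · intro h
          have h1 : p.coeff m ≠ 0 := left_ne_zero_of_mul h
          have h2 : a ^ m - a ^ j ≠ 0 := right_ne_zero_of_mul h
          refine ⟨fun hmj => h2 ?_, h1⟩
          rw [hmj, sub_self]
        · rintro ⟨hmj, h1⟩
          have hml : m < ℓ :=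
            lt_of_le_of_lt (le_natDegree_of_mem_supp m (mem_support_iff.mpr h1)) hdeg
          refine mul_ne_zero h1 (sub_ne_zero.mpr fun h => hmj ((hpow_inj m hml).mp h))
      have hcard' : p'.support.card < n := by
        rw [hsupp, Finset.card_erase_of_mem hj, hcard]
        have : 0 < p.support.card := Finset.card_pos.mpr ⟨j, hj⟩
        omega
      have hdeg' : p'.natDegree < ℓ := by
        by_cases hp0 : p' = 0
        · rw [hp0, natDegree_zero]; exact hℓ.pos
        · have hmem : p'.natDegree ∈ p'.support := natDegree_mem_support_of_nonzero hp0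
          rw [hsupp] at hmem
          exact lt_of_le_of_lt (le_natDegree_of_mem_supp _ (Finset.mem_of_mem_erase hmem)) hdeg
      have halg' : IsAlgebraic K (aeval U p') := by
        have e1 : aeval U p' = aeval (algebraMap K E ζ * U) p
            - algebraMap K E (ζ ^ j) * aeval U p := by
          rw [hp', map_sub, aeval_comp, map_mul, map_mul, aeval_C, aeval_X, aeval_C, ha,
            ← IsScalarTower.algebraMap_apply, ← map_pow, ← IsScalarTower.algebraMap_apply]
        rw [e1]
        exact (isAlgebraic_aeval_mul hℓ hu' hU hξ p halg).sub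
          ((isAlgebraic_algebraMap _).mul halg)
      have hi' : i ∈ p'.support := by
        rw [hsupp]; exact Finset.mem_erase.mpr ⟨fun h => hji h.symm, hi⟩
      have := ih _ hcard' p' rfl hdeg' halg' hi'
      exact hi0 (Finset.mem_singleton.mp this)
    · -- `p` is the single monomial `c X ^ i`, `0 < i < ℓ`
      have hsupp : p.support = {i} := by
        refine Finset.eq_singleton_iff_unique_mem.mpr ⟨hi, fun j hj => ?_⟩
        by_contra hji
        exact hsingle ⟨j, hj, hji⟩
      set c : F := p.coeff i with hc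
      have hc0 : c ≠ 0 := mem_support_iff.mp hi
      have hp : p = C c * X ^ i := by
        ext m
        rw [coeff_C_mul, coeff_X_pow]
        by_cases hm : m = i
        · rw [hm, if_pos rfl, mul_one]
        · rw [if_neg hm, mul_zero]
          have : m ∉ p.support := by rw [hsupp, Finset.mem_singleton]; exact hm
          exact notMem_support_iff.mp this
      have hz : aeval U p = algebraMap F E c * U ^ i := by
        rw [hp, map_mul, aeval_C, map_pow, aeval_X]
      have hzl : (aeval U p) ^ ℓ = algebraMap F E (c ^ ℓ * u ^ i) := by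
        rw [hz, mul_pow, ← pow_mul, mul_comm i ℓ, pow_mul, hU, map_mul, map_pow, map_pow]
      have halgF : IsAlgebraic K (c ^ ℓ * u ^ i) := by
        have h1 : IsAlgebraic K (algebraMap F E (c ^ ℓ * u ^ i)) := by
          rw [← hzl]; exact halg.pow ℓ
        exact (isAlgebraic_algebraMap_iff (algebraMap F E).injective).mp h1
      obtain ⟨k0, hk0⟩ := hcl _ halgF
      -- `u ^ i = k0 * (c⁻¹) ^ ℓ`
      have hui : u ^ i = algebraMap K F k0 * (c⁻¹) ^ ℓ := by
        rw [hk0, inv_pow]
        field_simp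
      -- Bezout: `i * s = 1 + ℓ * t` for naturals `s, t`
      have hcop : Nat.Coprime i ℓ :=
        (Nat.coprime_of_lt_prime hi0 hil hℓ).symm
      obtain ⟨s, -, hs⟩ := Nat.exists_mul_mod_eq_one_of_coprime hcop hℓ.one_lt
      have hdiv : i * s = 1 + ℓ * (i * s / ℓ) := by
        have h1 := Nat.div_add_mod (i * s) ℓ
        rw [hs] at h1
        omega
      set t := i * s / ℓ with ht
      -- `u * (u ^ t) ^ ℓ = (u ^ i) ^ s = k0 ^ s * ((c⁻¹) ^ s) ^ ℓ`
      have h1 : u * (u ^ t) ^ ℓ = algebraMap K F (k0 ^ s) * ((c⁻¹) ^ s) ^ ℓ := by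
        calc u * (u ^ t) ^ ℓ = u ^ (1 + ℓ * t) := by
              rw [pow_add, pow_one, ← pow_mul, mul_comm t ℓ]
          _ = (u ^ i) ^ s := by rw [← hdiv, pow_mul]
          _ = algebraMap K F (k0 ^ s) * ((c⁻¹) ^ s) ^ ℓ := by
              rw [hui, mul_pow, map_pow, ← pow_mul, ← pow_mul, mul_comm ℓ s]
      have hut : (u ^ t) ^ ℓ ≠ 0 := pow_ne_zero _ (pow_ne_zero _ hu0)
      refine hu (k0 ^ s) ((c⁻¹) ^ s * (u ^ t)⁻¹) ?_
      rw [mul_pow, ← mul_assoc, ← h1, inv_pow, mul_assoc, mul_inv_cancel₀ hut, mul_one]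

/-- **Constants of a Kummer cover.**  `K` is algebraically closed in `E = F[U]`, `U ^ ℓ = u`, as
soon as it is in `F` and `u ∉ K^× · F^{× ℓ}`. -/
theorem kummer_constants {ℓ : ℕ} (hℓ : ℓ.Prime) {ζ : K} (hζ : IsPrimitiveRoot ζ ℓ)
    (hcl : ∀ z : F, IsAlgebraic K z → z ∈ Set.range (algebraMap K F))
    {u : F} (hu : ∀ (c : K) (g : F), u ≠ algebraMap K F c * g ^ ℓ)
    {U : E} (hU : U ^ ℓ = algebraMap F E u) (hgen : ∀ z : E, ∃ p : F[X], aeval U p = z)
    (z : E) (hz : IsAlgebraic K z) : z ∈ Set.range (algebraMap K E) := by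
  obtain ⟨p0, rfl⟩ := hgen z
  have hmonic : (X ^ ℓ - C u : F[X]).Monic := monic_X_pow_sub_C u hℓ.ne_zero
  set p := p0 %ₘ (X ^ ℓ - C u) with hp
  have hdeg : p.natDegree < ℓ := by
    have h1 := natDegree_modByMonic_lt p0 hmonic (by
      intro h
      have := congrArg natDegree h
      rw [natDegree_X_pow_sub_C, natDegree_one] at this
      exact hℓ.ne_zero this)
    rwa [natDegree_X_pow_sub_C] at h1
  have hval : aeval U p0 = aeval U p := by
    conv_lhs => rw [← modByMonic_add_div p0 (X ^ ℓ - C u)]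
    rw [map_add, map_mul]
    have : aeval U (X ^ ℓ - C u : F[X]) = 0 := by simp [hU]
    rw [this, zero_mul, add_zero]
  rw [hval] at hz ⊢
  have hsupp := support_subset_of_isAlgebraic hℓ hζ hcl hu hU _ p rfl hdeg hz
  have hpC : p = C (p.coeff 0) := by
    ext m
    rw [coeff_C]
    by_cases hm : m = 0
    · rw [hm, if_pos rfl]
    · rw [if_neg hm]
      by_contra h
      exact hm (Finset.mem_singleton.mp (hsupp (mem_support_iff.mpr h)))
  rw [hpC, aeval_C] at hz ⊢
  have hzF : IsAlgebraic K (p.coeff 0) :=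
    (isAlgebraic_algebraMap_iff (algebraMap F E).injective).mp hz
  obtain ⟨k0, hk0⟩ := hcl _ hzF
  exact ⟨k0, by rw [IsScalarTower.algebraMap_apply K F E, hk0]⟩

/-- Version with `F⟮U⟯ = ⊤`. -/
theorem kummer_constants_of_adjoin_eq_top {ℓ : ℕ} (hℓ : ℓ.Prime) {ζ : K}
    (hζ : IsPrimitiveRoot ζ ℓ)
    (hcl : ∀ z : F, IsAlgebraic K z → z ∈ Set.range (algebraMap K F))
    {u : F} (hu : ∀ (c : K) (g : F), u ≠ algebraMap K F c * g ^ ℓ)
    {U : E} (hU : U ^ ℓ = algebraMap F E u) (hgen : IntermediateField.adjoin F {U} = ⊤)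
    (z : E) (hz : IsAlgebraic K z) : z ∈ Set.range (algebraMap K E) := by
  refine kummer_constants hℓ hζ hcl hu hU (fun z => ?_) z hz
  have hint : IsIntegral F U := by
    refine ⟨X ^ ℓ - C u, monic_X_pow_sub_C u hℓ.ne_zero, ?_⟩
    simp [hU]
  have h1 : z ∈ (IntermediateField.adjoin F {U}).toSubalgebra := by
    rw [hgen]; exact Algebra.mem_top
  rw [IntermediateField.adjoin_simple_toSubalgebra_of_isAlgebraic hint.isAlgebraic,
    Algebra.adjoin_singleton_eq_range_aeval] at h1
  exact h1

/-- **`hconst` for the Kummer cover**: over an integrally closed domain `R` with fraction field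
`K`, the elements of `E` integral over `R` are the elements of `R`. -/
theorem kummer_constants_integral {R : Type*} [CommRing R] [IsDomain R] [IsIntegrallyClosed R]
    [Algebra R K] [IsFractionRing R K] [Algebra R E] [IsScalarTower R K E]
    {ℓ : ℕ} (hℓ : ℓ.Prime) {ζ : K} (hζ : IsPrimitiveRoot ζ ℓ)
    (hcl : ∀ z : F, IsAlgebraic K z → z ∈ Set.range (algebraMap K F))
    {u : F} (hu : ∀ (c : K) (g : F), u ≠ algebraMap K F c * g ^ ℓ)
    {U : E} (hU : U ^ ℓ = algebraMap F E u) (hgen : ∀ z : E, ∃ p : F[X], aeval U p = z)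
    (z : E) (hz : IsIntegral R z) : ∃ r : R, algebraMap R E r = z := by
  have hzK : IsAlgebraic K z := (hz.tower_top (A := K)).isAlgebraic
  obtain ⟨c, rfl⟩ := kummer_constants hℓ hζ hcl hu hU hgen z hzK
  have hc : IsIntegral R c := (isIntegral_algebraMap_iff (algebraMap K E).injective).mp hz
  obtain ⟨r, rfl⟩ := IsIntegrallyClosed.isIntegral_iff.mp hc
  exact ⟨r, by rw [← IsScalarTower.algebraMap_apply]⟩

end Main

end Fermat.Agent.CA.H92
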