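import Mathlib

/-!
# A field is algebraically closed in its field of Laurent series (helper92)

Generic, Mathlib only.  For any field `K`, an element of `K((t))` algebraic over `K` is a constant
(`mem_range_of_isAlgebraic_laurentSeries`); hence `K` is algebraically closed in every intermediate
field of `K((t))/K` (`mem_range_of_isAlgebraic_intermediateField`), e.g. in the modular function field
`modularFunctionFieldFullC K N ⊆ K((t))` for **any** field `K` (this is the hypothesis `hcl` of
`Fermat.Agent.CA.H92.kummer_constants`).

Proof: `K⟦t⟧` is integrally closed with fraction field `K((t))`; an algebraic `f` is integral over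
`K ⊆ K⟦t⟧`, so `f` and (if `f ≠ 0`) `f⁻¹` are power series; apply this to `f - f(0)`.
-/

set_option autoImplicit false

open PowerSeries

namespace Fermat.Agent.CA.H92

variable {K : Type*} [Field K]

theorem algebraMap_laurent_eq (c : K) : algebraMap K (LaurentSeries K) c =
    algebraMap (PowerSeries K) (LaurentSeries K) (algebraMap K (PowerSeries K) c) := rfl

/-- An element of `K((t))` integral over `K` is a power series. -/
theorem exists_powerSeries_of_isIntegral {f : LaurentSeries K} (hf : IsIntegral K f) :
    ∃ p : PowerSeries K, algebraMap (PowerSeries K) (LaurentSeries K) p = f := by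
  have h : IsIntegral (PowerSeries K) f := by
    obtain ⟨P, hP, hPf⟩ := hf
    refine ⟨P.map (algebraMap K (PowerSeries K)), hP.map _, ?_⟩
    rw [Polynomial.eval₂_map]
    exact hPf
  exact IsIntegrallyClosed.isIntegral_iff.mp h

/-- A nonzero element of `K((t))` algebraic over `K` is a power series with nonzero constant
coefficient. -/
theorem exists_powerSeries_unit_of_isAlgebraic {f : LaurentSeries K} (hf : IsAlgebraic K f)
    (hf0 : f ≠ 0) :
    ∃ p : PowerSeries K, algebraMap (PowerSeries K) (LaurentSeries K) p = f ∧
      PowerSeries.constantCoeff p ≠ 0 := by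
  obtain ⟨p, hp⟩ := exists_powerSeries_of_isIntegral hf.isIntegral
  obtain ⟨p', hp'⟩ := exists_powerSeries_of_isIntegral hf.inv.isIntegral
  refine ⟨p, hp, fun h0 => ?_⟩
  have hinj : Function.Injective (algebraMap (PowerSeries K) (LaurentSeries K)) :=
    IsFractionRing.injective _ _
  have h1 : p * p' = 1 := by
    apply hinj
    rw [map_mul, hp, hp', map_one, mul_inv_cancel₀ hf0]
  have := congrArg PowerSeries.constantCoeff h1
  rw [map_mul, h0, zero_mul, map_one] at this
  exact zero_ne_one this

/-- **`K` is algebraically closed in `K((t))`.** -/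
theorem mem_range_of_isAlgebraic_laurentSeries {f : LaurentSeries K} (hf : IsAlgebraic K f) :
    f ∈ Set.range (algebraMap K (LaurentSeries K)) := by
  by_cases hf0 : f = 0
  · exact ⟨0, by rw [map_zero, hf0]⟩
  obtain ⟨p, hp, -⟩ := exists_powerSeries_unit_of_isAlgebraic hf hf0
  set a : K := PowerSeries.constantCoeff p with ha
  refine ⟨a, ?_⟩
  by_contra hne
  have hg : IsAlgebraic K (f - algebraMap K (LaurentSeries K) a) :=
    hf.sub (isAlgebraic_algebraMap a)
  have hg0 : f - algebraMap K (LaurentSeries K) a ≠ 0 := sub_ne_zero.mpr (Ne.symm hne)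
  obtain ⟨p₁, hp₁, hc⟩ := exists_powerSeries_unit_of_isAlgebraic hg hg0
  have hinj : Function.Injective (algebraMap (PowerSeries K) (LaurentSeries K)) :=
    IsFractionRing.injective _ _
  have h2 : p₁ = p - algebraMap K (PowerSeries K) a := by
    apply hinj
    rw [hp₁, map_sub, hp, ← algebraMap_laurent_eq]
  apply hc
  rw [h2, map_sub]
  have : PowerSeries.constantCoeff (algebraMap K (PowerSeries K) a) = a := by
    show PowerSeries.constantCoeff (PowerSeries.C a) = a
    simp
  rw [this, ha, sub_self]

/-- `K` is algebraically closed in every intermediate field of `K((t))/K`. -/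
theorem mem_range_of_isAlgebraic_intermediateField (F : IntermediateField K (LaurentSeries K))
    (z : F) (hz : IsAlgebraic K z) : z ∈ Set.range (algebraMap K F) := by
  have h1 : IsAlgebraic K (z : LaurentSeries K) := by
    have := hz.algebraMap (A := LaurentSeries K)
    exact this
  obtain ⟨c, hc⟩ := mem_range_of_isAlgebraic_laurentSeries h1
  exact ⟨c, Subtype.ext hc⟩

end Fermat.Agent.CA.H92
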