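/-
helper93, brick (E5-abs) of the S36 project (requested by helper16, Mathlib only).

`1 + z` with `z` in the radical of `π` has norm in `1 + π O`:
if `O` is a DVR with fraction field `K`, `L/K` finite separable, `z, y ∈ L` integral over `O`
and `z ^ n = π * y` with `(π)` a radical ideal (e.g. `π` irreducible), then
`N_{L/K}(1 + z) ∈ 1 + π O`.

Proof: the integral closure `W` of `O` in `L` is finite free over `O`, `N_{L/K}` restricted to `W`
is `N_{W/O}` (localisation), which is `det (1 + Z)` for the matrix `Z` of multiplication by `z`;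
`Z ^ n ≡ 0` modulo `π`, and `det (1 + N) - 1` is nilpotent for every nilpotent matrix `N`.
-/
import Mathlib

set_option autoImplicit false

namespace Fermat.Agent.CA.H93

open scoped nonZeroDivisors
open Polynomial

section Matrix

variable {S : Type*} [CommRing S] {ι : Type*} [Fintype ι] [DecidableEq ι]

/-- For a nilpotent matrix `N` over a commutative ring, `det (1 + N) - 1` is nilpotent. -/
theorem isNilpotent_det_one_add_sub_one (N : Matrix ι ι S) (hN : IsNilpotent N) :
    IsNilpotent ((1 + N).det - 1) := by
  have hM : IsNilpotent (-N) := hN.neg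
  have h1 := Matrix.isNilpotent_charpoly_sub_pow_of_isNilpotent hM
  have h2 : IsNilpotent (Polynomial.eval 1 ((-N).charpoly - X ^ Fintype.card ι)) :=
    h1.map (Polynomial.evalRingHom (1 : S))
  have h3 : Polynomial.eval 1 ((-N).charpoly - X ^ Fintype.card ι) = (1 + N).det - 1 := by
    rw [Polynomial.eval_sub, Matrix.eval_charpoly, Polynomial.eval_pow, Polynomial.eval_X,
      one_pow, sub_neg_eq_add, map_one]
  rwa [h3] at h2

/-- If `Z ^ n` has all entries in a radical ideal `I`, then `det (1 + Z) - 1 ∈ I`. -/
theorem det_one_add_sub_one_mem {R : Type*} [CommRing R] (I : Ideal R) (hI : I.IsRadical)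
    (Z : Matrix ι ι R) (n : ℕ) (hZ : ∀ i j, (Z ^ n) i j ∈ I) :
    (1 + Z).det - 1 ∈ I := by
  have : IsReduced (R ⧸ I) := (Ideal.isRadical_iff_quotient_reduced I).mp hI
  set φ : R →+* R ⧸ I := Ideal.Quotient.mk I with hφ
  have hZbar : (φ.mapMatrix Z) ^ n = 0 := by
    rw [← map_pow]
    ext i j
    simp only [RingHom.mapMatrix_apply, Matrix.map_apply, Matrix.zero_apply]
    exact Ideal.Quotient.eq_zero_iff_mem.mpr (hZ i j)
  have hnil : IsNilpotent (φ.mapMatrix Z) := ⟨n, hZbar⟩
  have h1 := isNilpotent_det_one_add_sub_one (φ.mapMatrix Z) hnil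
  have h2 : (1 + φ.mapMatrix Z).det - 1 = 0 := h1.eq_zero
  have h3 : φ ((1 + Z).det - 1) = (1 + φ.mapMatrix Z).det - 1 := by
    rw [map_sub, map_one, RingHom.map_det, map_add, map_one]
  rw [← Ideal.Quotient.eq_zero_iff_mem, ← hφ, h3, h2]

end Matrix

section Norm

variable {O K L : Type*} [CommRing O] [IsDomain O] [IsDiscreteValuationRing O]
  [Field K] [Algebra O K] [IsFractionRing O K] [Field L] [Algebra K L] [Algebra O L]
  [IsScalarTower O K L] [FiniteDimensional K L] [Algebra.IsSeparable K L]

/-- **Norm of a one-unit, radical form.**  `(π)` radical, `z ^ n = π * y` with `z, y` integral: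
`N_{L/K}(1 + z) = 1 + π m` for some `m : O`. -/
theorem exists_norm_one_add_eq_of_isRadical (pi : O) (hrad : (Ideal.span {pi}).IsRadical)
    (z y : L) (hz : IsIntegral O z) (hy : IsIntegral O y) (n : ℕ)
    (hzy : z ^ n = algebraMap O L pi * y) :
    ∃ m : O, algebraMap O K (1 + pi * m) = Algebra.norm K (1 + z) := by
  classical
  -- the integral closure `W` of `O` in `L`
  let W := integralClosure O L
  have : Module.IsTorsionFree O L := .trans_faithfulSMul O K L
  have hfree : Module.Free O W := IsIntegralClosure.module_free O K L W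
  have hfin : Module.Finite O W := IsIntegralClosure.finite O K L W
  have hloc : IsLocalization (Algebra.algebraMapSubmonoid W O⁰) L :=
    IsIntegralClosure.isLocalization_of_isSeparable O K L W
  let zW : W := ⟨z, hz⟩
  let yW : W := ⟨y, hy⟩
  have hzyW : zW ^ n = algebraMap O W pi * yW := by
    apply Subtype.ext
    simp only [zW, yW, Subalgebra.coe_mul, Subalgebra.coe_algebraMap]
    exact hzy
  -- the norm of `1 + z` over `K` is the norm of `1 + zW` over `O`
  have hnorm : Algebra.norm K (1 + z) = algebraMap O K (Algebra.norm O (1 + zW)) := by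
    have h := Algebra.norm_localization O (S := W) (Rₘ := K) (Sₘ := L) O⁰ (1 + zW)
    rw [← h]
    congr 1
  -- compute the norm over `O` with a basis
  let b := Module.Free.chooseBasis O W
  let Z := Algebra.leftMulMatrix b zW
  let Y := Algebra.leftMulMatrix b yW
  have hdet : Algebra.norm O (1 + zW) = (1 + Z).det := by
    rw [Algebra.norm_eq_matrix_det b, map_add, map_one]
  have hZn : Z ^ n = pi • Y := by
    show (Algebra.leftMulMatrix b zW) ^ n = pi • Algebra.leftMulMatrix b yW
    rw [← map_pow, hzyW, map_mul, AlgHom.commutes, Algebra.algebraMap_eq_smul_one,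
      smul_mul_assoc, one_mul]
  have hmem : (1 + Z).det - 1 ∈ Ideal.span {pi} := by
    refine det_one_add_sub_one_mem (Ideal.span {pi}) hrad Z n (fun i j => ?_)
    rw [hZn, Matrix.smul_apply, smul_eq_mul]
    exact Ideal.mul_mem_right _ _ (Ideal.subset_span rfl)
  obtain ⟨m, hm⟩ := Ideal.mem_span_singleton'.mp hmem
  refine ⟨m, ?_⟩
  rw [hnorm, hdet]
  congr 1
  rw [mul_comm pi m, hm]
  ring

/-- **Brick (E5-abs).**  `π` irreducible in the DVR `O`, `z ^ n = π * y` with `z, y` integral over
`O`: then `N_{L/K}(1 + z) = 1 + π m` for some `m : O`. -/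
theorem exists_norm_one_add_eq (pi : O) (hpi : Irreducible pi)
    (z y : L) (hz : IsIntegral O z) (hy : IsIntegral O y) (n : ℕ)
    (hzy : z ^ n = algebraMap O L pi * y) :
    ∃ m : O, algebraMap O K (1 + pi * m) = Algebra.norm K (1 + z) := by
  have hprime : Prime pi := hpi.prime
  have hP : (Ideal.span {pi}).IsPrime :=
    (Ideal.span_singleton_prime hprime.ne_zero).mpr hprime
  exact exists_norm_one_add_eq_of_isRadical pi hP.isRadical z y hz hy n hzy

end Norm

end Fermat.Agent.CA.H93
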