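/-
helper94 — generic norm-reduction lemmas (Mathlib only).

* `norm_aeval_eq_resultant` : for a primitive element `θ` of a finite separable field extension
  `L/K`, `N_{L/K}(p(θ)) = Res(minpoly θ, p)`.
* `map_resultant_eq_prod` : a ring hom `ι` into a field over which the monic `f` splits sends
  `Res(f, p)` to `∏ p̄(r)`, `r` running over the roots of `f̄`.
* `exists_norm_aeval_reduction` : the combination, in the shape "norm of a unit of `O[θ]` reduces
  to the product of the residue norms".
-/
import Mathlib

set_option autoImplicit false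

namespace Fermat.Agent.CA.H94

open Polynomial

section NormResultant

variable {K L : Type*} [Field K] [Field L] [Algebra K L] [FiniteDimensional K L]
  [Algebra.IsSeparable K L]

/-- For a primitive element `θ` of the finite separable extension `L/K`:
`N_{L/K}(p(θ)) = Res(minpoly_K θ, p)`. -/
theorem norm_aeval_eq_resultant {θ : L} (hgen : Algebra.adjoin K {θ} = ⊤) (p : K[X]) :
    Algebra.norm K (aeval θ p) = resultant (minpoly K θ) p := by
  classical
  have hint : IsIntegral K θ := Algebra.IsIntegral.isIntegral θ
  let pb : PowerBasis K L := PowerBasis.ofAdjoinEqTop hint hgen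
  have hpbgen : pb.gen = θ := PowerBasis.ofAdjoinEqTop_gen hint hgen
  set f := minpoly K θ with hf
  have hfm : f.Monic := minpoly.monic hint
  let Ω := AlgebraicClosure K
  apply (algebraMap K Ω).injective
  -- left hand side: product over the embeddings
  rw [Algebra.norm_eq_prod_embeddings K Ω (aeval θ p)]
  have hsplit : (f.map (algebraMap K Ω)).Splits := IsAlgClosed.splits _
  have hsep : (f.map (algebraMap K Ω)).Separable :=
    Polynomial.Separable.map (Algebra.IsSeparable.isSeparable K θ)
  -- right hand side: product over the roots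
  have hR : algebraMap K Ω (resultant f p)
      = ((f.map (algebraMap K Ω)).roots.map (p.map (algebraMap K Ω)).eval).prod := by
    rw [← resultant_map_map]
    have h1 := resultant_eq_prod_eval (f.map (algebraMap K Ω)) (p.map (algebraMap K Ω))
      p.natDegree natDegree_map_le hsplit
    rw [hfm.natDegree_map, (hfm.map _).leadingCoeff, one_pow, one_mul] at h1
    exact h1
  rw [hR]
  -- embeddings ↔ roots
  have hσ : ∀ σ : L →ₐ[K] Ω, σ (aeval θ p) = (p.map (algebraMap K Ω)).eval (σ θ) := by
    intro σ
    rw [← aeval_algHom_apply, eval_map_algebraMap]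
  have hpbmin : minpoly K pb.gen = f := by rw [hpbgen]
  have haroots : (minpoly K pb.gen).aroots Ω = (f.map (algebraMap K Ω)).roots := by
    rw [hpbmin]
  have hnodup : ((minpoly K pb.gen).aroots Ω).Nodup := by
    rw [haroots]; exact nodup_roots hsep
  calc ∏ σ : L →ₐ[K] Ω, σ (aeval θ p)
      = ∏ x : {y : Ω // y ∈ (minpoly K pb.gen).aroots Ω},
          (p.map (algebraMap K Ω)).eval (x : Ω) := by
        refine Fintype.prod_equiv pb.liftEquiv' _ _ fun σ => ?_
        rw [hσ σ, PowerBasis.liftEquiv'_apply_coe, hpbgen]
    _ = ∏ x ∈ ((minpoly K pb.gen).aroots Ω).toFinset, (p.map (algebraMap K Ω)).eval x :=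
        Finset.prod_mem_multiset _ _ _ fun x => rfl
    _ = (((minpoly K pb.gen).aroots Ω).map (p.map (algebraMap K Ω)).eval).prod := by
        rw [Finset.prod_eq_multiset_prod, Multiset.toFinset_val,
          Multiset.dedup_eq_self.mpr hnodup]
    _ = _ := by rw [haroots]

end NormResultant

section MapResultant

variable {O Fk : Type*} [CommRing O] [Field Fk]

/-- If the monic `f` splits over the field `Fk` along `ι` with roots `rts`, then
`ι (Res(f, p)) = ∏_{r ∈ rts} p̄(r)`. -/
theorem map_resultant_eq_prod (ι : O →+* Fk) (f p : O[X]) (hf : f.Monic) (rts : Multiset Fk)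
    (hsplit : f.map ι = (rts.map fun r => X - C r).prod) :
    ι (resultant f p) = (rts.map fun r => (p.map ι).eval r).prod := by
  rw [← resultant_map_map]
  have hs : (f.map ι).Splits := by
    rw [hsplit]
    exact Splits.multisetProd fun g hg => by
      obtain ⟨r, -, rfl⟩ := Multiset.mem_map.mp hg
      exact Splits.X_sub_C r
  have h1 := resultant_eq_prod_eval (f.map ι) (p.map ι) p.natDegree natDegree_map_le hs
  rw [hf.natDegree_map, (hf.map _).leadingCoeff, one_pow, one_mul] at h1
  rw [h1, hsplit, roots_multiset_prod_X_sub_C]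

end MapResultant

section Reduction

variable {O K L Fk : Type*} [CommRing O] [Field K] [Algebra O K] [Field L] [Algebra K L]
  [Algebra O L] [IsScalarTower O K L] [FiniteDimensional K L] [Algebra.IsSeparable K L]
  [Field Fk]

/-- **Norm reduction.**  `O ⊆ K`, `L = K(θ)` finite separable, `θ` a root of the monic
`f ∈ O[X]` of degree `[L : K]`; `ι : O → Fk` a ring hom into a field over which `f̄` splits with
roots `rts`.  Then for every `p ∈ O[X]` the norm `N_{L/K}(p(θ))` lies in `O` and
`ι (N(p(θ))) = ∏_{r ∈ rts} p̄(r)`. -/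
theorem exists_norm_aeval_reduction (hinj : Function.Injective (algebraMap O K))
    (ι : O →+* Fk) (f : O[X]) (hf : f.Monic) {θ : L} (hθ : aeval θ f = 0)
    (hdeg : f.natDegree = Module.finrank K L) (hgen : Algebra.adjoin K {θ} = ⊤)
    (rts : Multiset Fk) (hsplit : f.map ι = (rts.map fun r => X - C r).prod) (p : O[X]) :
    ∃ n : O, algebraMap O K n = Algebra.norm K (aeval θ p) ∧
      ι n = (rts.map fun r => (p.map ι).eval r).prod := by
  have hint : IsIntegral K θ := Algebra.IsIntegral.isIntegral θ
  -- the minimal polynomial of `θ` is `f`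
  have hmin : minpoly K θ = f.map (algebraMap O K) := by
    have hroot : aeval θ (f.map (algebraMap O K)) = 0 := by
      rw [aeval_map_algebraMap]; exact hθ
    have hdvd : minpoly K θ ∣ f.map (algebraMap O K) := minpoly.dvd K θ hroot
    have hdegmin : (minpoly K θ).natDegree = Module.finrank K L := by
      have := PowerBasis.ofAdjoinEqTop_dim hint hgen
      rw [← this]
      exact (PowerBasis.finrank _).symm
    have hfm : (f.map (algebraMap O K)).Monic := hf.map _
    refine (eq_of_monic_of_dvd_of_natDegree_le (minpoly.monic hint) hfm hdvd ?_).symm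
    rw [hf.natDegree_map, hdeg, hdegmin]
  refine ⟨resultant f p, ?_, map_resultant_eq_prod ι f p hf rts hsplit⟩
  have h1 := norm_aeval_eq_resultant hgen (p.map (algebraMap O K))
  rw [aeval_map_algebraMap] at h1
  rw [h1, hmin, ← resultant_map_map, hf.natDegree_map,
    natDegree_map_eq_of_injective hinj]

/-- **Norm reduction, Kronecker shape.**  If `f̄ = (X - θ₁)(X^q - θ₂^q)` over a field `Fk` of
characteristic `q` (so `f̄ = (X - θ₁)(X - θ₂)^q`: one place of residue degree `1`, one purely
inseparable place of residue degree `q`), then `ι (N(p(θ))) = p̄(θ₁) · p̄(θ₂)^q`. -/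
theorem exists_norm_aeval_reduction_kronecker (hinj : Function.Injective (algebraMap O K))
    (ι : O →+* Fk) (q : ℕ) [Fact q.Prime] [CharP Fk q]
    (f : O[X]) (hf : f.Monic) {θ : L} (hθ : aeval θ f = 0)
    (hdeg : f.natDegree = Module.finrank K L) (hgen : Algebra.adjoin K {θ} = ⊤)
    (θ₁ θ₂ : Fk) (hsplit : f.map ι = (X - C θ₁) * (X ^ q - C (θ₂ ^ q))) (p : O[X]) :
    ∃ n : O, algebraMap O K n = Algebra.norm K (aeval θ p) ∧
      ι n = (p.map ι).eval θ₁ * (p.map ι).eval θ₂ ^ q := by
  have hsplit' : f.map ι
      = ((θ₁ ::ₘ Multiset.replicate q θ₂).map fun r => X - C r).prod := by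
    rw [Multiset.map_cons, Multiset.prod_cons, Multiset.map_replicate, Multiset.prod_replicate,
      hsplit, sub_pow_char, ← C_pow]
  obtain ⟨n, hn1, hn2⟩ :=
    exists_norm_aeval_reduction hinj ι f hf hθ hdeg hgen _ hsplit' p
  refine ⟨n, hn1, ?_⟩
  rw [hn2, Multiset.map_cons, Multiset.prod_cons, Multiset.map_replicate,
    Multiset.prod_replicate]

end Reduction

end Fermat.Agent.CA.H94
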