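/-
helper95: automorphisms congruent to the identity modulo `π` (Mathlib + helper42's `H42_KrullDvr`).

Generic commutative algebra for the "(D1)/(D2) dictionary":

* a ring automorphism `sB` of `B` with `sB b - b ∈ (π)` preserves every ideal containing `π`
  (`map_mem_iff`), and so does its inverse (`symm_sub_mem`);
* (D1) it extends to the localisation at every prime `n ∋ π` (`atPrimeEquiv`), compatibly with a
  given automorphism `s` of the fraction field, and the extension is again congruent to the
  identity modulo `π` (`atPrimeEquiv_sub_mem`);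
* (D2) at a height-one prime `p ∋ π` of a noetherian integrally closed domain, `s φ / φ` is a
  unit of `B_p` for every `φ ≠ 0` of the fraction field (`isUnitAt_map_div_self`): the vertical
  valuations are automatically `s`-invariant;
* (D1, field → chart) an automorphism of a ring `F` moving the generators of a subring by
  multiples of `π` moves every element by a multiple of `π` (`closure_congr`).
-/
import Fermat.Agent.CA.H42_KrullDvr

set_option autoImplicit false

namespace Fermat.Agent.CA.H95

open Ideal

/-! ## Automorphisms congruent to the identity modulo `π` -/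

section Congr

variable {B : Type*} [CommRing B] {π : B} {sB : B ≃+* B}

/-- If `sB ≡ id` modulo `π`, then so is `sB.symm`. -/
theorem symm_sub_mem (hsπ : ∀ b, sB b - b ∈ Ideal.span {π}) (b : B) :
    sB.symm b - b ∈ Ideal.span {π} := by
  have h := hsπ (sB.symm b)
  rw [RingEquiv.apply_symm_apply] at h
  have h2 := (Ideal.span {π}).neg_mem h
  rwa [neg_sub] at h2

/-- An automorphism congruent to the identity modulo `π` preserves every ideal containing `π`. -/
theorem map_mem_iff (hsπ : ∀ b, sB b - b ∈ Ideal.span {π}) {p : Ideal B} (hπp : π ∈ p) (b : B) :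
    sB b ∈ p ↔ b ∈ p := by
  have hle : Ideal.span {π} ≤ p := (Ideal.span_singleton_le_iff_mem _).2 hπp
  have h := hle (hsπ b)
  constructor
  · intro hb
    have := p.sub_mem hb h
    rwa [sub_sub_cancel] at this
  · intro hb
    have := p.add_mem h hb
    rwa [sub_add_cancel] at this

theorem comap_eq (hsπ : ∀ b, sB b - b ∈ Ideal.span {π}) {p : Ideal B} (hπp : π ∈ p) :
    p.comap (sB : B →+* B) = p := by
  ext b
  rw [Ideal.mem_comap]
  exact map_mem_iff hsπ hπp b

theorem map_primeCompl_eq (hsπ : ∀ b, sB b - b ∈ Ideal.span {π}) (n : Ideal B) [n.IsPrime]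
    (hπn : π ∈ n) :
    Submonoid.map sB.toMonoidHom n.primeCompl = n.primeCompl := by
  ext x
  constructor
  · rintro ⟨y, hy, rfl⟩
    intro hx
    exact hy ((map_mem_iff hsπ hπn y).1 hx)
  · intro hx
    refine ⟨sB.symm x, ?_, sB.apply_symm_apply x⟩
    intro hy
    exact hx ((map_mem_iff (symm_sub_mem hsπ) hπn x).1 hy)

end Congr

/-! ## (D1) Extension to the localisation at a prime containing `π` -/

section AtPrime

variable {R : Type*} [CommRing R] {π : R} {sR : R ≃+* R}
  (hsπ : ∀ b, sR b - b ∈ Ideal.span {π}) (n : Ideal R) [n.IsPrime] (hπn : π ∈ n)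
  (B : Type*) [CommRing B] [Algebra R B] [IsLocalization.AtPrime B n]

/-- The automorphism of the localisation `B = R_n` induced by an automorphism `sR` of `R`
congruent to the identity modulo `π ∈ n`. -/
noncomputable def atPrimeEquiv : B ≃+* B :=
  IsLocalization.ringEquivOfRingEquiv (M := n.primeCompl) B (T := n.primeCompl) B sR
    (map_primeCompl_eq hsπ n hπn)

@[simp]
theorem atPrimeEquiv_algebraMap (r : R) :
    atPrimeEquiv hsπ n hπn B (algebraMap R B r) = algebraMap R B (sR r) := by
  unfold atPrimeEquiv
  exact IsLocalization.ringEquivOfRingEquiv_eq _ _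

/-- The induced automorphism of `R_n` is again congruent to the identity modulo `π`. -/
theorem atPrimeEquiv_sub_mem (x : B) :
    atPrimeEquiv hsπ n hπn B x - x ∈ Ideal.span {algebraMap R B π} := by
  obtain ⟨r, u, rfl⟩ := IsLocalization.exists_mk'_eq n.primeCompl x
  have hu : IsUnit (algebraMap R B (u : R)) := IsLocalization.map_units B u
  have hsu : IsUnit (algebraMap R B (sR (u : R))) := by
    have hmem : sR (u : R) ∈ n.primeCompl := by
      intro h
      exact u.2 ((map_mem_iff hsπ hπn _).1 h)
    exact IsLocalization.map_units B (⟨_, hmem⟩ : n.primeCompl)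
  set x := IsLocalization.mk' B r u with hx
  have h1 : x * algebraMap R B (u : R) = algebraMap R B r := IsLocalization.mk'_spec B r u
  have h2 : atPrimeEquiv hsπ n hπn B x * algebraMap R B (sR (u : R)) = algebraMap R B (sR r) := by
    rw [← atPrimeEquiv_algebraMap hsπ n hπn B, ← map_mul, h1, atPrimeEquiv_algebraMap]
  obtain ⟨c, hc⟩ := Ideal.mem_span_singleton.1 (hsπ r)
  obtain ⟨d, hd⟩ := Ideal.mem_span_singleton.1 (hsπ (u : R))
  have h3 : (atPrimeEquiv hsπ n hπn B x - x) *
      (algebraMap R B (u : R) * algebraMap R B (sR (u : R))) =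
      algebraMap R B π * algebraMap R B (c * (u : R) - r * d) := by
    have e1 : sR r = r + π * c := by rw [← hc]; ring
    have e2 : sR (u : R) = (u : R) + π * d := by rw [← hd]; ring
    have : (atPrimeEquiv hsπ n hπn B x - x) *
        (algebraMap R B (u : R) * algebraMap R B (sR (u : R))) =
        (atPrimeEquiv hsπ n hπn B x * algebraMap R B (sR (u : R))) * algebraMap R B (u : R) -
        (x * algebraMap R B (u : R)) * algebraMap R B (sR (u : R)) := by ring
    rw [this, h1, h2, ← map_mul, ← map_mul, ← map_sub, ← map_mul]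
    congr 1
    rw [e1, e2]
    ring
  obtain ⟨w, hw⟩ := (hu.mul hsu)
  rw [Ideal.mem_span_singleton]
  refine ⟨algebraMap R B (c * (u : R) - r * d) * ((w⁻¹ : Bˣ) : B), ?_⟩
  rw [← mul_assoc, ← h3, ← hw, mul_assoc, Units.mul_inv, mul_one]

variable {K : Type*} [CommRing K] [Algebra R K] [Algebra B K] [IsScalarTower R B K]
  {s : K ≃+* K} (hs : ∀ b, s (algebraMap R K b) = algebraMap R K (sR b))

include hs in
/-- The induced automorphism of `R_n` is compatible with `s` on the fraction field. -/
theorem map_algebraMap_atPrime (x : B) :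
    s (algebraMap B K x) = algebraMap B K (atPrimeEquiv hsπ n hπn B x) := by
  have h : ((s : K →+* K).comp (algebraMap B K)) =
      (algebraMap B K).comp (atPrimeEquiv hsπ n hπn B : B →+* B) := by
    refine IsLocalization.ringHom_ext n.primeCompl ?_
    ext r
    simp only [RingHom.comp_apply, RingEquiv.coe_toRingHom, RingHom.coe_coe,
      atPrimeEquiv_algebraMap]
    rw [← IsScalarTower.algebraMap_apply, ← IsScalarTower.algebraMap_apply, hs]
  exact RingHom.congr_fun h x

end AtPrime

/-! ## (D2) Vertical height-one primes: `s φ / φ` is a unit -/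

section Vertical

variable {B : Type*} [CommRing B] [IsDomain B] {K : Type*} [Field K] [Algebra B K]
  [IsFractionRing B K]

/-- A ring automorphism of a discrete valuation ring preserves the valuation: `σ x` and `x` are
associated. -/
theorem associated_map_self {D : Type*} [CommRing D] [IsDomain D] [IsDiscreteValuationRing D]
    (σ : D ≃+* D) {x : D} (hx : x ≠ 0) : Associated (σ x) x := by
  obtain ⟨ϖ, hϖ⟩ := IsDiscreteValuationRing.exists_irreducible D
  obtain ⟨k, u, rfl⟩ := IsDiscreteValuationRing.eq_unit_mul_pow_irreducible hx hϖ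
  have hσϖ : Irreducible (σ ϖ) := (MulEquiv.irreducible_iff σ).2 hϖ
  have h1 : Associated (σ ϖ) ϖ := IsDiscreteValuationRing.associated_of_irreducible D hσϖ hϖ
  have h2 : Associated (σ (u : D)) (u : D) := by
    have hu : IsUnit (σ (u : D)) := u.isUnit.map σ
    exact (associated_one_iff_isUnit.2 hu).trans (associated_one_iff_isUnit.2 u.isUnit).symm
  rw [map_mul, map_pow]
  exact h2.mul_mul (h1.pow_pow)

variable [IsNoetherianRing B] [IsIntegrallyClosed B]
  {π : B} {sB : B ≃+* B} {s : K ≃+* K}

/-- **(D2)**: let `sB` be an automorphism of the noetherian normal domain `B`, congruent to the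
identity modulo `π`, and `s` the induced automorphism of the fraction field. At every height-one
prime `p` containing `π`, the quotient `s φ / φ` is a unit of `B_p`, for every `φ ≠ 0`. -/
theorem isUnitAt_map_div_self
    (hs : ∀ b, s (algebraMap B K b) = algebraMap B K (sB b))
    (hsπ : ∀ b, sB b - b ∈ Ideal.span {π})
    (p : Ideal B) [p.IsPrime] (hp1 : p.height = 1) (hπp : π ∈ p) (φ : K) (hφ : φ ≠ 0) :
    ∃ a b : B, a ∉ p ∧ b ∉ p ∧ (s φ / φ) * algebraMap B K b = algebraMap B K a := by
  -- the localisation `B_p` as a subalgebra of `K`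
  let Bp := Localization.subalgebra.ofField K p.primeCompl p.primeCompl_le_nonZeroDivisors
  haveI : IsLocalization.AtPrime Bp p :=
    Localization.subalgebra.isLocalization_ofField K p.primeCompl p.primeCompl_le_nonZeroDivisors
  haveI : IsFractionRing Bp K :=
    Localization.subalgebra.isFractionRing_ofField K p.primeCompl p.primeCompl_le_nonZeroDivisors
  haveI : IsDiscreteValuationRing Bp := H42.isDiscreteValuationRing_of_height_eq_one p hp1 Bp
  let σ : Bp ≃+* Bp := atPrimeEquiv hsπ p hπp Bp
  have hσ : ∀ x : Bp, s (algebraMap Bp K x) = algebraMap Bp K (σ x) :=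
    map_algebraMap_atPrime hsπ p hπp Bp hs
  -- `s φ / φ` is the image of a unit of `B_p`
  obtain ⟨x, y, hy0, rfl⟩ := IsFractionRing.div_surjective (A := Bp) φ
  have hy : y ≠ 0 := nonZeroDivisors.ne_zero hy0
  have hx : x ≠ 0 := by
    rintro rfl
    apply hφ
    simp
  obtain ⟨u, hu⟩ := (associated_map_self σ hx).symm
  obtain ⟨v, hv⟩ := (associated_map_self σ hy).symm
  have hKy : algebraMap Bp K y ≠ 0 := by
    simpa using (IsFractionRing.injective Bp K).ne hy
  have hKx : algebraMap Bp K x ≠ 0 := by
    simpa using (IsFractionRing.injective Bp K).ne hx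
  have hKv : algebraMap Bp K (v : Bp) ≠ 0 := by
    have := (IsFractionRing.injective Bp K).ne v.ne_zero
    simpa using this
  have key : s (algebraMap Bp K x / algebraMap Bp K y) / (algebraMap Bp K x / algebraMap Bp K y)
      = algebraMap Bp K ((u * v⁻¹ : Bpˣ) : Bp) := by
    rw [map_div₀, hσ, hσ, ← hu, ← hv, map_mul, map_mul, Units.val_mul, map_mul]
    have hvinv : algebraMap Bp K ((v⁻¹ : Bpˣ) : Bp) = (algebraMap Bp K (v : Bp))⁻¹ := by
      apply eq_inv_of_mul_eq_one_left
      rw [← map_mul, Units.inv_mul, map_one]
    rw [hvinv]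
    field_simp
  rw [key]
  -- a unit of `B_p` is a quotient of two elements outside `p`
  obtain ⟨⟨a, b⟩, hab⟩ := IsLocalization.surj p.primeCompl (((u * v⁻¹ : Bpˣ) : Bp))
  have ha : a ∉ p := by
    have hunit : IsUnit (algebraMap B Bp a) := by
      rw [← hab]
      exact (Units.isUnit _).mul (IsLocalization.map_units Bp b)
    exact (IsLocalization.AtPrime.isUnit_to_map_iff Bp p a).1 hunit
  refine ⟨a, b, ha, b.2, ?_⟩
  have := congrArg (algebraMap Bp K) hab
  rw [map_mul, ← IsScalarTower.algebraMap_apply, ← IsScalarTower.algebraMap_apply] at this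
  exact this

end Vertical

/-! ## (D1, field → chart) Congruence on generators suffices -/

section Closure

variable {F : Type*} [CommRing F] (s : F →+* F) (S : Set F) (π : F)

/-- If a ring endomorphism `s` of `F` moves every generator of the subring `C = closure S` by an
element of `π C`, then it moves every element of `C` by an element of `π C`. -/
theorem closure_congr
    (hS : ∀ x ∈ S, ∃ c ∈ Subring.closure S, s x - x = π * c) (hπ : π ∈ Subring.closure S)
    {c : F} (hc : c ∈ Subring.closure S) :
    ∃ c' ∈ Subring.closure S, s c - c = π * c' := by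
  induction hc using Subring.closure_induction with
  | mem x hx => exact hS x hx
  | zero => exact ⟨0, Subring.zero_mem _, by simp⟩
  | one => exact ⟨0, Subring.zero_mem _, by simp⟩
  | add x y _ _ hx hy =>
    obtain ⟨x', hx', ex⟩ := hx
    obtain ⟨y', hy', ey⟩ := hy
    refine ⟨x' + y', Subring.add_mem _ hx' hy', ?_⟩
    rw [map_add, mul_add, ← ex, ← ey]
    ring
  | neg x _ hx =>
    obtain ⟨x', hx', ex⟩ := hx
    refine ⟨-x', Subring.neg_mem _ hx', ?_⟩
    rw [map_neg, mul_neg, ← ex]
    ring
  | mul x y hxm hym hx hy =>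
    obtain ⟨x', hx', ex⟩ := hx
    obtain ⟨y', hy', ey⟩ := hy
    refine ⟨x * y' + π * x' * y' + x' * y, ?_, ?_⟩
    · exact Subring.add_mem _ (Subring.add_mem _ (Subring.mul_mem _ hxm hy')
        (Subring.mul_mem _ (Subring.mul_mem _ hπ hx') hy')) (Subring.mul_mem _ hx' hym)
    · have e1 : s x = x + π * x' := by rw [← ex]; ring
      have e2 : s y = y + π * y' := by rw [← ey]; ring
      rw [map_mul, e1, e2]
      ring

/-- Under the hypotheses of `closure_congr`, `s` maps `closure S` into itself. -/
theorem map_mem_closure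
    (hS : ∀ x ∈ S, ∃ c ∈ Subring.closure S, s x - x = π * c) (hπ : π ∈ Subring.closure S)
    {c : F} (hc : c ∈ Subring.closure S) : s c ∈ Subring.closure S := by
  obtain ⟨c', hc', e⟩ := closure_congr s S π hS hπ hc
  have : s c = c + π * c' := by rw [← e]; ring
  rw [this]
  exact Subring.add_mem _ hc (Subring.mul_mem _ hπ hc')

end Closure

section ClosureEquiv

variable {F : Type*} [CommRing F] (s : F ≃+* F) (S : Set F) (π : F)
  (hS : ∀ x ∈ S, ∃ c ∈ Subring.closure S, s x - x = π * c)
  (hS' : ∀ x ∈ S, ∃ c ∈ Subring.closure S, s.symm x - x = π * c)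
  (hπ : π ∈ Subring.closure S)

/-- The automorphism of `C = closure S` induced by an automorphism `s` of `F` which, together
with its inverse, moves the generators by elements of `π C`. -/
noncomputable def closureEquiv : Subring.closure S ≃+* Subring.closure S where
  toFun c := ⟨s c, map_mem_closure (s : F →+* F) S π hS hπ c.2⟩
  invFun c := ⟨s.symm c, map_mem_closure (s.symm : F →+* F) S π hS' hπ c.2⟩
  left_inv c := by ext; simp
  right_inv c := by ext; simp
  map_mul' a b := by ext; simp
  map_add' a b := by ext; simp

@[simp]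
theorem coe_closureEquiv (c : Subring.closure S) :
    ((closureEquiv s S π hS hS' hπ c : Subring.closure S) : F) = s (c : F) := rfl

theorem closureEquiv_sub_mem (c : Subring.closure S) :
    closureEquiv s S π hS hS' hπ c - c ∈ Ideal.span {(⟨π, hπ⟩ : Subring.closure S)} := by
  obtain ⟨c', hc', e⟩ := closure_congr (s : F →+* F) S π hS hπ c.2
  rw [Ideal.mem_span_singleton]
  refine ⟨⟨c', hc'⟩, ?_⟩
  ext
  simpa using e

end ClosureEquiv

end Fermat.Agent.CA.H95
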