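/-
helper95: automorphisms stabilising a prime (Mathlib + `H95_AutLocal`).

Variant of `H95_AutLocal` (D1)/(D2) with the hypothesis "`sB` stabilises `p`" in place of
"`sB ≡ id` modulo `π ∈ p`": at a height-one prime `p` of a noetherian integrally closed domain
which is stable under the automorphism `sB`, the quotient `s φ / φ` is a unit of `B_p` for every
`φ ≠ 0` of the fraction field.  This covers the vertical primes (`π ∈ p`) *and* the horizontal
primes of inertia-fixed points.
-/
import Fermat.Agent.CA.H95_AutLocal

set_option autoImplicit false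

namespace Fermat.Agent.CA.H95

open Ideal

section Stable

variable {R : Type*} [CommRing R] {sR : R ≃+* R} (n : Ideal R) [n.IsPrime]
  (hstab : ∀ b, sR b ∈ n ↔ b ∈ n)
  (B : Type*) [CommRing B] [Algebra R B] [IsLocalization.AtPrime B n]

include hstab in
theorem map_primeCompl_eq_of_stable :
    Submonoid.map sR.toMonoidHom n.primeCompl = n.primeCompl := by
  ext x
  constructor
  · rintro ⟨y, hy, rfl⟩
    intro hx
    exact hy ((hstab y).1 hx)
  · intro hx
    refine ⟨sR.symm x, ?_, sR.apply_symm_apply x⟩
    intro hy
    apply hx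
    have := (hstab (sR.symm x)).2 hy
    rwa [RingEquiv.apply_symm_apply] at this

/-- The automorphism of the localisation `B = R_n` induced by an automorphism `sR` of `R`
stabilising the prime `n`. -/
noncomputable def stableEquiv : B ≃+* B :=
  IsLocalization.ringEquivOfRingEquiv (M := n.primeCompl) B (T := n.primeCompl) B sR
    (map_primeCompl_eq_of_stable n hstab)

@[simp]
theorem stableEquiv_algebraMap (r : R) :
    stableEquiv n hstab B (algebraMap R B r) = algebraMap R B (sR r) := by
  unfold stableEquiv
  exact IsLocalization.ringEquivOfRingEquiv_eq _ _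

variable {K : Type*} [CommRing K] [Algebra R K] [Algebra B K] [IsScalarTower R B K]
  {s : K ≃+* K} (hs : ∀ b, s (algebraMap R K b) = algebraMap R K (sR b))

include hs in
/-- The induced automorphism of `R_n` is compatible with `s` on the fraction field. -/
theorem map_algebraMap_stable (x : B) :
    s (algebraMap B K x) = algebraMap B K (stableEquiv n hstab B x) := by
  have h : ((s : K →+* K).comp (algebraMap B K)) =
      (algebraMap B K).comp (stableEquiv n hstab B : B →+* B) := by
    refine IsLocalization.ringHom_ext n.primeCompl ?_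
    ext r
    simp only [RingHom.comp_apply, RingEquiv.coe_toRingHom, RingHom.coe_coe,
      stableEquiv_algebraMap]
    rw [← IsScalarTower.algebraMap_apply, ← IsScalarTower.algebraMap_apply, hs]
  exact RingHom.congr_fun h x

end Stable

section StableUnit

variable {B : Type*} [CommRing B] [IsDomain B] {K : Type*} [Field K] [Algebra B K]
  [IsFractionRing B K] [IsNoetherianRing B] [IsIntegrallyClosed B]
  {sB : B ≃+* B} {s : K ≃+* K}

/-- Let `sB` be an automorphism of the noetherian normal domain `B` and `s` the induced
automorphism of the fraction field. At every height-one prime `p` stable under `sB`, the quotient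
`s φ / φ` is a unit of `B_p`, for every `φ ≠ 0`. -/
theorem isUnitAt_map_div_self_of_stable
    (hs : ∀ b, s (algebraMap B K b) = algebraMap B K (sB b))
    (p : Ideal B) [p.IsPrime] (hp1 : p.height = 1) (hstab : ∀ b, sB b ∈ p ↔ b ∈ p)
    (φ : K) (hφ : φ ≠ 0) :
    ∃ a b : B, a ∉ p ∧ b ∉ p ∧ (s φ / φ) * algebraMap B K b = algebraMap B K a := by
  let Bp := Localization.subalgebra.ofField K p.primeCompl p.primeCompl_le_nonZeroDivisors
  haveI : IsLocalization.AtPrime Bp p :=
    Localization.subalgebra.isLocalization_ofField K p.primeCompl p.primeCompl_le_nonZeroDivisors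
  haveI : IsFractionRing Bp K :=
    Localization.subalgebra.isFractionRing_ofField K p.primeCompl p.primeCompl_le_nonZeroDivisors
  haveI : IsDiscreteValuationRing Bp := H42.isDiscreteValuationRing_of_height_eq_one p hp1 Bp
  let σ : Bp ≃+* Bp := stableEquiv p hstab Bp
  have hσ : ∀ x : Bp, s (algebraMap Bp K x) = algebraMap Bp K (σ x) :=
    map_algebraMap_stable p hstab Bp hs
  obtain ⟨x, y, hy0, rfl⟩ := IsFractionRing.div_surjective (A := Bp) φ
  have hy : y ≠ 0 := nonZeroDivisors.ne_zero hy0
  have hx : x ≠ 0 := by
    rintro rfl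
    apply hφ
    simp
  obtain ⟨u, hu⟩ := (associated_map_self σ hx).symm
  obtain ⟨v, hv⟩ := (associated_map_self σ hy).symm
  have hKy : algebraMap Bp K y ≠ 0 := by
    simpa using (IsFractionRing.injective Bp K).ne hy
  have hKx : algebraMap Bp K x ≠ 0 := by
    simpa using (IsFractionRing.injective Bp K).ne hx
  have hKv : algebraMap Bp K (v : Bp) ≠ 0 := by
    have := (IsFractionRing.injective Bp K).ne v.ne_zero
    simpa using this
  have key : s (algebraMap Bp K x / algebraMap Bp K y) / (algebraMap Bp K x / algebraMap Bp K y)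
      = algebraMap Bp K ((u * v⁻¹ : Bpˣ) : Bp) := by
    rw [map_div₀, hσ, hσ, ← hu, ← hv, map_mul, map_mul, Units.val_mul, map_mul]
    have hvinv : algebraMap Bp K ((v⁻¹ : Bpˣ) : Bp) = (algebraMap Bp K (v : Bp))⁻¹ := by
      apply eq_inv_of_mul_eq_one_left
      rw [← map_mul, Units.inv_mul, map_one]
    rw [hvinv]
    field_simp
  rw [key]
  obtain ⟨⟨a, b⟩, hab⟩ := IsLocalization.surj p.primeCompl (((u * v⁻¹ : Bpˣ) : Bp))
  have ha : a ∉ p := by
    have hunit : IsUnit (algebraMap B Bp a) := by
      rw [← hab]
      exact (Units.isUnit _).mul (IsLocalization.map_units Bp b)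
    exact (IsLocalization.AtPrime.isUnit_to_map_iff Bp p a).1 hunit
  refine ⟨a, b, ha, b.2, ?_⟩
  have := congrArg (algebraMap Bp K) hab
  rw [map_mul, ← IsScalarTower.algebraMap_apply, ← IsScalarTower.algebraMap_apply] at this
  exact this

/-- Stability of `p.comap sB = p` form. -/
theorem isUnitAt_map_div_self_of_comap_eq
    (hs : ∀ b, s (algebraMap B K b) = algebraMap B K (sB b))
    (p : Ideal B) [p.IsPrime] (hp1 : p.height = 1) (hstab : p.comap (sB : B →+* B) = p)
    (φ : K) (hφ : φ ≠ 0) :
    ∃ a b : B, a ∉ p ∧ b ∉ p ∧ (s φ / φ) * algebraMap B K b = algebraMap B K a := by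
  refine isUnitAt_map_div_self_of_stable hs p hp1 (fun b => ?_) φ hφ
  conv_rhs => rw [← hstab]
  rw [Ideal.mem_comap]
  rfl

end StableUnit

end Fermat.Agent.CA.H95
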