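import Mathlib

/-!
# Exact coordinates at a node, algebraically  (helper97; generic spare for S34 L2/L3)

Board post #2533.  Let `R` be a local domain (the Zariski local ring `B_n` of the normal model
of `X₀(qM)` over the DVR `A₁` at a crossing point `n` of the two components of the special fibre),
`v₁, v₂` the two vertical valuations (`≤ 1` on `R`), `q` the uniformiser.  Assume

* `hker` : an element with `v₁ < 1` and `v₂ < 1` is divisible by `q` (special fibre reduced);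
* `x, y` with `v₁ x = 1 > v₂ x`, `v₂ y = 1 > v₁ y` and `𝔪 = (x, y, q)` (ordinary double point);
* a global function `U` with `U * U' = q ^ N`, `v₁ U = 1`, `v₂ U' = 1` and
  `U ≡ x ^ ν * unit` modulo `{v₁ < 1}` (for `X₀(qM)`: `U = Δ(z)/Δ(qz)`, `N = 12`).

Then the "Morse iteration" `x ↦ x - q^e β`, `y ↦ y - q^e α` terminates inside `R`:
there are `x', y'` with `x' * y' = q ^ e` **exactly**, `1 ≤ e`, `e * ν ≤ N`, and still
`𝔪 = (x', y', q)`  (`exists_exact_coord`).  No completion, no excellence.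

Second part (`algHom_eq_of_apply_eq`): with exact coordinates, a local `A₁`-algebra homomorphism
`R → S` (a point of the residue class of the node with values in a Noetherian local domain `S`)
is determined by the value of `x`.  Hence `x - x(P)` has no zero on the residue class except `P`.
-/

set_option autoImplicit false

namespace Fermat.Agent.CA.H97

open IsLocalRing

/-! ## 1. Divisibility by powers of `q` from the two valuations -/

section Div

variable {R : Type*} [CommRing R] {Γ₀ : Type*} [LinearOrderedCommGroupWithZero Γ₀]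
  (v₁ v₂ : Valuation R Γ₀) (q : R)

theorem pow_dvd_of_val_le (hq₁ : v₁ q < 1) (hq₂ : v₂ q < 1) (hq₁0 : v₁ q ≠ 0) (hq₂0 : v₂ q ≠ 0)
    (hker : ∀ z : R, v₁ z < 1 → v₂ z < 1 → q ∣ z) :
    ∀ (N : ℕ) (z : R), v₁ z ≤ v₁ q ^ N → v₂ z ≤ v₂ q ^ N → q ^ N ∣ z := by
  intro N
  induction N with
  | zero => intro z _ _; simp
  | succ N ih =>
    intro z h₁ h₂
    have hlt : ∀ (v : Valuation R Γ₀), v q < 1 → v z ≤ v q ^ (N + 1) → v z < 1 := by
      intro v hq h
      calc v z ≤ v q ^ (N + 1) := h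
        _ ≤ v q ^ 1 := pow_le_pow_of_le_one zero_le hq.le (by omega)
        _ = v q := pow_one _
        _ < 1 := hq
    obtain ⟨z', rfl⟩ := hker z (hlt v₁ hq₁ h₁) (hlt v₂ hq₂ h₂)
    have hcancel : ∀ (v : Valuation R Γ₀), v q ≠ 0 → v (q * z') ≤ v q ^ (N + 1) →
        v z' ≤ v q ^ N := by
      intro v hq0 h
      rw [map_mul, pow_succ'] at h
      exact (mul_le_mul_iff_right₀ (zero_lt_iff.mpr hq0)).mp h
    rw [pow_succ']
    exact mul_dvd_mul_left q (ih z' (hcancel v₁ hq₁0 h₁) (hcancel v₂ hq₂0 h₂))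

end Div

/-! ## 2. The Morse step -/

theorem morse_step {R : Type*} [CommRing R] (q x y w : R) (e : ℕ) (he : 1 ≤ e)
    (h : x * y = q ^ e * w) (hw : w ∈ Ideal.span ({x, y, q} : Set R)) :
    ∃ a b c : R, (x - q ^ e * b) * (y - q ^ e * a) = q ^ (e + 1) * c := by
  obtain ⟨a, b, g, rfl⟩ : ∃ a b g : R, a * x + b * y + g * q = w := by
    rw [Ideal.mem_span_insert] at hw
    obtain ⟨a, z, hz, rfl⟩ := hw
    rw [Ideal.mem_span_pair] at hz
    obtain ⟨b, g, rfl⟩ := hz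
    exact ⟨a, b, g, by ring⟩
  obtain ⟨k, rfl⟩ : ∃ k, e = k + 1 := ⟨e - 1, by omega⟩
  refine ⟨a, b, g + q ^ k * a * b, ?_⟩
  have : x * y = q ^ (k + 1) * (a * x + b * y + g * q) := h
  linear_combination this

/-! ## 3. Termination: exact coordinates -/

section Exact

variable {R : Type*} [CommRing R] [IsDomain R] [IsLocalRing R]
  {Γ₀ : Type*} [LinearOrderedCommGroupWithZero Γ₀]
  (v₁ v₂ : Valuation R Γ₀)

omit [IsDomain R] [IsLocalRing R] in
theorem val_eq_one_of_isUnit (v : Valuation R Γ₀) (hv : ∀ z, v z ≤ 1) {c : R} (hc : IsUnit c) :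
    v c = 1 := by
  obtain ⟨d, hd⟩ := hc.exists_right_inv
  have h := congrArg v hd
  rw [map_mul, map_one] at h
  refine le_antisymm (hv c) ?_
  by_contra hlt
  rw [not_le] at hlt
  have : v c * v d < 1 := by
    calc v c * v d ≤ v c * 1 := by gcongr; exact hv d
      _ = v c := mul_one _
      _ < 1 := hlt
  rw [h] at this
  exact lt_irrefl _ this

omit [IsDomain R] in
theorem mem_maximalIdeal_of_val_lt (v : Valuation R Γ₀) (hv : ∀ z, v z ≤ 1) {c : R}
    (hc : v c < 1) : c ∈ maximalIdeal R := by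
  rw [mem_maximalIdeal, mem_nonunits_iff]
  intro hu
  rw [val_eq_one_of_isUnit v hv hu] at hc
  exact lt_irrefl _ hc

variable (q : R)

include v₁ v₂ in
/-- The bound: if `q ^ e ∣ x₀ * y₀` then `e * ν ≤ N`. -/
theorem mul_le_of_pow_dvd (hv₁ : ∀ z, v₁ z ≤ 1) (hv₂ : ∀ z, v₂ z ≤ 1)
    (hq₁ : v₁ q < 1) (hq₂ : v₂ q < 1) (hq₁0 : v₁ q ≠ 0) (hq₂0 : v₂ q ≠ 0)
    (hker : ∀ z : R, v₁ z < 1 → v₂ z < 1 → q ∣ z)
    (U U' : R) (N : ℕ) (hUU : U * U' = q ^ N) (hU₁ : v₁ U = 1) (hU'₂ : v₂ U' = 1)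
    (ν : ℕ) (u : R)
    (x₀ y₀ : R) (e : ℕ) (hx₀ : v₁ x₀ = 1) (hy₀ : v₂ y₀ = 1)
    (hUx : v₁ (U - x₀ ^ ν * u) < 1) (hdvd : q ^ e ∣ x₀ * y₀) : e * ν ≤ N := by
  by_contra hlt
  rw [not_le] at hlt
  have hq0 : q ≠ 0 := by
    rintro rfl
    exact hq₁0 (map_zero v₁)
  -- `v₂ x₀ ≤ v₂ q ^ e`
  obtain ⟨c, hc⟩ := hdvd
  have hx₀2 : v₂ x₀ ≤ v₂ q ^ e := by
    have h := congrArg v₂ hc
    rw [map_mul, map_mul, hy₀, mul_one, map_pow] at h
    rw [h]
    calc v₂ q ^ e * v₂ c ≤ v₂ q ^ e * 1 := by gcongr; exact hv₂ c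
      _ = v₂ q ^ e := mul_one _
  -- `T = x₀ ^ ν * U'`
  have hU'1 : v₁ U' = v₁ q ^ N := by
    have h := congrArg v₁ hUU
    rw [map_mul, hU₁, one_mul, map_pow] at h
    exact h
  have hT₁ : v₁ (x₀ ^ ν * U') ≤ v₁ q ^ N := by
    rw [map_mul, map_pow, hx₀, one_pow, one_mul, hU'1]
  have hT₂' : v₂ (x₀ ^ ν * U') ≤ v₂ q ^ (N + 1) := by
    rw [map_mul, map_pow, hU'₂, mul_one]
    calc v₂ x₀ ^ ν ≤ (v₂ q ^ e) ^ ν := by gcongr
      _ = v₂ q ^ (e * ν) := by rw [← pow_mul]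
      _ ≤ v₂ q ^ (N + 1) := pow_le_pow_of_le_one zero_le hq₂.le (by omega)
  have hT₂ : v₂ (x₀ ^ ν * U') ≤ v₂ q ^ N :=
    hT₂'.trans (pow_le_pow_of_le_one zero_le hq₂.le (by omega))
  obtain ⟨T', hT'⟩ := pow_dvd_of_val_le v₁ v₂ q hq₁ hq₂ hq₁0 hq₂0 hker N _ hT₁ hT₂
  -- `v₂ T' < 1`
  have hT'2 : v₂ T' < 1 := by
    rw [hT', map_mul, map_pow, pow_succ, mul_comm (v₂ q ^ N) (v₂ q)] at hT₂'
    have hpos : 0 < v₂ q ^ N := pow_pos (zero_lt_iff.mpr hq₂0) N
    have h2 : v₂ q ^ N * v₂ T' ≤ v₂ q ^ N * v₂ q := by rwa [mul_comm (v₂ q) (v₂ q ^ N)] at hT₂'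
    exact ((mul_le_mul_iff_right₀ hpos).mp h2).trans_lt hq₂
  -- `T' * U = x₀ ^ ν`
  have hT'U : T' * U = x₀ ^ ν := by
    have hqN : q ^ N ≠ 0 := pow_ne_zero _ hq0
    apply mul_left_cancel₀ hqN
    calc q ^ N * (T' * U) = (q ^ N * T') * U := by ring
      _ = x₀ ^ ν * U' * U := by rw [← hT']
      _ = x₀ ^ ν * (U * U') := by ring
      _ = q ^ N * x₀ ^ ν := by rw [hUU]; ring
  -- `1 - T' * u` has `v₁ < 1`
  have h1 : v₁ (1 - T' * u) < 1 := by
    have hid : x₀ ^ ν * (1 - T' * u) = T' * (U - x₀ ^ ν * u) := by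
      rw [← hT'U]; ring
    have h := congrArg v₁ hid
    rw [map_mul, map_pow, hx₀, one_pow, one_mul, map_mul] at h
    rw [h]
    calc v₁ T' * v₁ (U - x₀ ^ ν * u) ≤ 1 * v₁ (U - x₀ ^ ν * u) := by gcongr; exact hv₁ T'
      _ = v₁ (U - x₀ ^ ν * u) := one_mul _
      _ < 1 := hUx
  have hm1 : 1 - T' * u ∈ maximalIdeal R := mem_maximalIdeal_of_val_lt v₁ hv₁ h1
  have hm2 : T' * u ∈ maximalIdeal R :=
    Ideal.mul_mem_right _ _ (mem_maximalIdeal_of_val_lt v₂ hv₂ hT'2)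
  have : (1 : R) ∈ maximalIdeal R := by
    have h := Ideal.add_mem _ hm1 hm2
    rwa [sub_add_cancel] at h
  exact (Ideal.ne_top_iff_one _).mp (maximalIdeal.isMaximal R).ne_top this

omit [IsDomain R] [IsLocalRing R] in
theorem span_triple_sub (x y q a b : R) (e : ℕ) (he : 1 ≤ e) :
    Ideal.span ({x - q ^ e * b, y - q ^ e * a, q} : Set R) = Ideal.span {x, y, q} := by
  obtain ⟨k, rfl⟩ : ∃ k, e = k + 1 := ⟨e - 1, by omega⟩
  have hq : ∀ s : Set R, q ∈ Ideal.span (insert q s) := fun s =>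
    Ideal.subset_span (Set.mem_insert _ _)
  apply le_antisymm
  · rw [Ideal.span_le]
    have hqm : q ∈ Ideal.span ({x, y, q} : Set R) := Ideal.subset_span (by simp)
    have hxm : x ∈ Ideal.span ({x, y, q} : Set R) := Ideal.subset_span (by simp)
    have hym : y ∈ Ideal.span ({x, y, q} : Set R) := Ideal.subset_span (by simp)
    intro z hz
    simp only [Set.mem_insert_iff, Set.mem_singleton_iff] at hz
    rcases hz with rfl | rfl | rfl
    · refine Ideal.sub_mem _ hxm ?_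
      rw [pow_succ, mul_assoc]
      exact Ideal.mul_mem_left _ _ (Ideal.mul_mem_right _ _ hqm)
    · refine Ideal.sub_mem _ hym ?_
      rw [pow_succ, mul_assoc]
      exact Ideal.mul_mem_left _ _ (Ideal.mul_mem_right _ _ hqm)
    · exact hqm
  · rw [Ideal.span_le]
    set I := Ideal.span ({x - q ^ (k + 1) * b, y - q ^ (k + 1) * a, q} : Set R) with hI
    have hqm : q ∈ I := Ideal.subset_span (by simp)
    have hxm : x - q ^ (k + 1) * b ∈ I := Ideal.subset_span (by simp)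
    have hym : y - q ^ (k + 1) * a ∈ I := Ideal.subset_span (by simp)
    intro z hz
    simp only [Set.mem_insert_iff, Set.mem_singleton_iff] at hz
    rcases hz with rfl | rfl | rfl
    · have : z = (z - q ^ (k + 1) * b) + q ^ k * b * q := by ring
      rw [this]
      exact Ideal.add_mem _ hxm (Ideal.mul_mem_left _ _ hqm)
    · have : z = (z - q ^ (k + 1) * a) + q ^ k * a * q := by ring
      rw [this]
      exact Ideal.add_mem _ hym (Ideal.mul_mem_left _ _ hqm)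
    · exact hqm

omit [IsDomain R] [IsLocalRing R] in
theorem span_triple_mul_unit (x y q c : R) (hc : IsUnit c) :
    Ideal.span ({x * c, y, q} : Set R) = Ideal.span {x, y, q} := by
  obtain ⟨d, hd⟩ := hc.exists_right_inv
  apply le_antisymm
  · rw [Ideal.span_le]
    intro z hz
    simp only [Set.mem_insert_iff, Set.mem_singleton_iff] at hz
    rcases hz with rfl | rfl | rfl
    · exact Ideal.mul_mem_right _ _ (Ideal.subset_span (by simp))
    · exact Ideal.subset_span (by simp)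
    · exact Ideal.subset_span (by simp)
  · rw [Ideal.span_le]
    intro z hz
    simp only [Set.mem_insert_iff, Set.mem_singleton_iff] at hz
    rcases hz with rfl | rfl | rfl
    · have hmem : z * c ∈ Ideal.span ({z * c, y, q} : Set R) := Ideal.subset_span (by simp)
      have h2 := Ideal.mul_mem_right d _ hmem
      rwa [mul_assoc, hd, mul_one] at h2
    · exact Ideal.subset_span (by simp)
    · exact Ideal.subset_span (by simp)

include v₁ v₂ in
/-- **Exact coordinates at a node.** -/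
theorem exists_exact_coord (hv₁ : ∀ z, v₁ z ≤ 1) (hv₂ : ∀ z, v₂ z ≤ 1)
    (hq₁ : v₁ q < 1) (hq₂ : v₂ q < 1) (hq₁0 : v₁ q ≠ 0) (hq₂0 : v₂ q ≠ 0)
    (hker : ∀ z : R, v₁ z < 1 → v₂ z < 1 → q ∣ z)
    (x y : R) (hx₁ : v₁ x = 1) (hx₂ : v₂ x < 1) (hy₁ : v₁ y < 1) (hy₂ : v₂ y = 1)
    (hmax : maximalIdeal R = Ideal.span {x, y, q})
    (U U' : R) (N : ℕ) (hUU : U * U' = q ^ N) (hU₁ : v₁ U = 1) (hU'₂ : v₂ U' = 1)
    (ν : ℕ) (hν : 1 ≤ ν) (u : R) (hUx : v₁ (U - x ^ ν * u) < 1) :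
    ∃ (x' y' : R) (e : ℕ), 1 ≤ e ∧ e * ν ≤ N ∧ x' * y' = q ^ e ∧
      maximalIdeal R = Ideal.span {x', y', q} ∧
      v₁ x' = 1 ∧ v₂ x' < 1 ∧ v₁ y' < 1 ∧ v₂ y' = 1 := by
  have hq0 : q ≠ 0 := by
    rintro rfl
    exact hq₁0 (map_zero v₁)
  -- the induction
  have key : ∀ (k : ℕ) (x₀ y₀ c : R) (e : ℕ), N ≤ e + k → 1 ≤ e → x₀ * y₀ = q ^ e * c →
      v₁ x₀ = 1 → v₂ x₀ < 1 → v₁ y₀ < 1 → v₂ y₀ = 1 →
      maximalIdeal R = Ideal.span {x₀, y₀, q} → v₁ (U - x₀ ^ ν * u) < 1 →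
      ∃ (x' y' : R) (e : ℕ), 1 ≤ e ∧ e * ν ≤ N ∧ x' * y' = q ^ e ∧
        maximalIdeal R = Ideal.span {x', y', q} ∧
        v₁ x' = 1 ∧ v₂ x' < 1 ∧ v₁ y' < 1 ∧ v₂ y' = 1 := by
    intro k
    induction k with
    | zero =>
      intro x₀ y₀ c e hNe he hxy h1 h2 h3 h4 hm hU
      have hbound := mul_le_of_pow_dvd v₁ v₂ q hv₁ hv₂ hq₁ hq₂ hq₁0 hq₂0 hker U U' N hUU hU₁ hU'₂
        ν u x₀ y₀ e h1 h4 hU ⟨c, hxy⟩
      by_cases hc : IsUnit c
      · obtain ⟨d, hd⟩ := hc.exists_right_inv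
        have hdu : IsUnit d := .of_mul_eq_one_right _ hd
        refine ⟨x₀ * d, y₀, e, he, hbound, ?_, ?_, ?_, ?_, h3, h4⟩
        · calc x₀ * d * y₀ = (x₀ * y₀) * d := by ring
            _ = q ^ e * (c * d) := by rw [hxy]; ring
            _ = q ^ e := by rw [hd, mul_one]
        · rw [span_triple_mul_unit x₀ y₀ q d hdu]; exact hm
        · rw [map_mul, h1, one_mul, val_eq_one_of_isUnit v₁ hv₁ hdu]
        · rw [map_mul, val_eq_one_of_isUnit v₂ hv₂ hdu, mul_one]; exact h2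
      · exfalso
        have hcm : c ∈ Ideal.span ({x₀, y₀, q} : Set R) := by
          rw [← hm]; exact (mem_maximalIdeal c).mpr hc
        obtain ⟨a, b, c', hstep⟩ := morse_step q x₀ y₀ c e he hxy hcm
        have h1' : v₁ (x₀ - q ^ e * b) = 1 := by
          have hlt : v₁ (q ^ e * b) < v₁ x₀ := by
            rw [h1, map_mul, map_pow]
            calc v₁ q ^ e * v₁ b ≤ v₁ q ^ e * 1 := by gcongr; exact hv₁ b
              _ = v₁ q ^ e := mul_one _
              _ ≤ v₁ q ^ 1 := pow_le_pow_of_le_one zero_le hq₁.le he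
              _ = v₁ q := pow_one _
              _ < 1 := hq₁
          rw [Valuation.map_sub_eq_of_lt_left v₁ hlt, h1]
        have h4' : v₂ (y₀ - q ^ e * a) = 1 := by
          have hlt : v₂ (q ^ e * a) < v₂ y₀ := by
            rw [h4, map_mul, map_pow]
            calc v₂ q ^ e * v₂ a ≤ v₂ q ^ e * 1 := by gcongr; exact hv₂ a
              _ = v₂ q ^ e := mul_one _
              _ ≤ v₂ q ^ 1 := pow_le_pow_of_le_one zero_le hq₂.le he
              _ = v₂ q := pow_one _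
              _ < 1 := hq₂
          rw [Valuation.map_sub_eq_of_lt_left v₂ hlt, h4]
        have hU' : v₁ (U - (x₀ - q ^ e * b) ^ ν * u) < 1 := by
          have hdvd : x₀ - (x₀ - q ^ e * b) ∣ x₀ ^ ν - (x₀ - q ^ e * b) ^ ν :=
            sub_dvd_pow_sub_pow _ _ ν
          obtain ⟨r, hr⟩ := hdvd
          have hid : U - (x₀ - q ^ e * b) ^ ν * u =
              (U - x₀ ^ ν * u) + (x₀ ^ ν - (x₀ - q ^ e * b) ^ ν) * u := by ring
          rw [hid, hr]
          refine lt_of_le_of_lt (v₁.map_add _ _) (max_lt hU ?_)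
          have : x₀ - (x₀ - q ^ e * b) = q ^ e * b := by ring
          rw [this, map_mul, map_mul, map_mul, map_pow]
          calc v₁ q ^ e * v₁ b * v₁ r * v₁ u ≤ v₁ q ^ e * 1 * 1 * 1 := by
                gcongr
                · exact hv₁ b
                · exact hv₁ r
                · exact hv₁ u
            _ = v₁ q ^ e := by simp
            _ ≤ v₁ q ^ 1 := pow_le_pow_of_le_one zero_le hq₁.le he
            _ = v₁ q := pow_one _
            _ < 1 := hq₁
        have hbound' := mul_le_of_pow_dvd v₁ v₂ q hv₁ hv₂ hq₁ hq₂ hq₁0 hq₂0 hker U U' N hUU hU₁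
          hU'₂ ν u _ _ (e + 1) h1' h4' hU' ⟨c', hstep⟩
        have : (e + 1) * 1 ≤ (e + 1) * ν := Nat.mul_le_mul_left _ hν
        omega
    | succ k ih =>
      intro x₀ y₀ c e hNe he hxy h1 h2 h3 h4 hm hU
      have hbound := mul_le_of_pow_dvd v₁ v₂ q hv₁ hv₂ hq₁ hq₂ hq₁0 hq₂0 hker U U' N hUU hU₁ hU'₂
        ν u x₀ y₀ e h1 h4 hU ⟨c, hxy⟩
      by_cases hc : IsUnit c
      · obtain ⟨d, hd⟩ := hc.exists_right_inv
        have hdu : IsUnit d := .of_mul_eq_one_right _ hd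
        refine ⟨x₀ * d, y₀, e, he, hbound, ?_, ?_, ?_, ?_, h3, h4⟩
        · calc x₀ * d * y₀ = (x₀ * y₀) * d := by ring
            _ = q ^ e * (c * d) := by rw [hxy]; ring
            _ = q ^ e := by rw [hd, mul_one]
        · rw [span_triple_mul_unit x₀ y₀ q d hdu]; exact hm
        · rw [map_mul, h1, one_mul, val_eq_one_of_isUnit v₁ hv₁ hdu]
        · rw [map_mul, val_eq_one_of_isUnit v₂ hv₂ hdu, mul_one]; exact h2
      · have hcm : c ∈ Ideal.span ({x₀, y₀, q} : Set R) := by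
          rw [← hm]; exact (mem_maximalIdeal c).mpr hc
        obtain ⟨a, b, c', hstep⟩ := morse_step q x₀ y₀ c e he hxy hcm
        have hqe₁ : ∀ r : R, v₁ (q ^ e * r) < 1 := by
          intro r
          rw [map_mul, map_pow]
          calc v₁ q ^ e * v₁ r ≤ v₁ q ^ e * 1 := by gcongr; exact hv₁ r
            _ = v₁ q ^ e := mul_one _
            _ ≤ v₁ q ^ 1 := pow_le_pow_of_le_one zero_le hq₁.le he
            _ = v₁ q := pow_one _
            _ < 1 := hq₁
        have hqe₂ : ∀ r : R, v₂ (q ^ e * r) < 1 := by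
          intro r
          rw [map_mul, map_pow]
          calc v₂ q ^ e * v₂ r ≤ v₂ q ^ e * 1 := by gcongr; exact hv₂ r
            _ = v₂ q ^ e := mul_one _
            _ ≤ v₂ q ^ 1 := pow_le_pow_of_le_one zero_le hq₂.le he
            _ = v₂ q := pow_one _
            _ < 1 := hq₂
        have h1' : v₁ (x₀ - q ^ e * b) = 1 := by
          rw [Valuation.map_sub_eq_of_lt_left v₁ (by rw [h1]; exact hqe₁ b), h1]
        have h2' : v₂ (x₀ - q ^ e * b) < 1 :=
          lt_of_le_of_lt (v₂.map_sub _ _) (max_lt h2 (hqe₂ b))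
        have h3' : v₁ (y₀ - q ^ e * a) < 1 :=
          lt_of_le_of_lt (v₁.map_sub _ _) (max_lt h3 (hqe₁ a))
        have h4' : v₂ (y₀ - q ^ e * a) = 1 := by
          rw [Valuation.map_sub_eq_of_lt_left v₂ (by rw [h4]; exact hqe₂ a), h4]
        have hU' : v₁ (U - (x₀ - q ^ e * b) ^ ν * u) < 1 := by
          have hdvd : x₀ - (x₀ - q ^ e * b) ∣ x₀ ^ ν - (x₀ - q ^ e * b) ^ ν :=
            sub_dvd_pow_sub_pow _ _ ν
          obtain ⟨r, hr⟩ := hdvd
          have hid : U - (x₀ - q ^ e * b) ^ ν * u =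
              (U - x₀ ^ ν * u) + (x₀ ^ ν - (x₀ - q ^ e * b) ^ ν) * u := by ring
          rw [hid, hr]
          refine lt_of_le_of_lt (v₁.map_add _ _) (max_lt hU ?_)
          have : x₀ - (x₀ - q ^ e * b) = q ^ e * b := by ring
          rw [this, mul_assoc, mul_assoc]
          exact hqe₁ _
        have hm' : maximalIdeal R = Ideal.span {x₀ - q ^ e * b, y₀ - q ^ e * a, q} := by
          rw [span_triple_sub x₀ y₀ q a b e he]; exact hm
        exact ih _ _ c' (e + 1) (by omega) (by omega) hstep h1' h2' h3' h4' hm' hU'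
  -- start: `q ∣ x * y`
  obtain ⟨c, hc⟩ : q ∣ x * y := by
    apply hker
    · rw [map_mul, hx₁, one_mul]; exact hy₁
    · rw [map_mul, hy₂, mul_one]; exact hx₂
  exact key N x y c 1 (by omega) le_rfl (by rw [pow_one]; exact hc) hx₁ hx₂ hy₁ hy₂ hmax hUx

end Exact

/-! ## 4. Points of the residue class of the node are determined by the value of `x` -/

section Points

variable {A₁ R : Type*} [CommRing A₁] [CommRing R] [IsLocalRing R] [Algebra A₁ R]

/-- Elements of `𝔪 ^ k` are polynomials in `x, y, q` over `A₁` modulo `𝔪 ^ (k + 1)`. -/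
theorem exists_adjoin_sub_mem_pow_succ
    (hres : ∀ f : R, ∃ a : A₁, f - algebraMap A₁ R a ∈ maximalIdeal R)
    (q : A₁) (x y : R) (hmax : maximalIdeal R = Ideal.span {x, y, algebraMap A₁ R q}) :
    ∀ (k : ℕ) (f : R), f ∈ maximalIdeal R ^ k →
      ∃ g ∈ Algebra.adjoin A₁ ({x, y} : Set R), g ∈ maximalIdeal R ^ k ∧
        f - g ∈ maximalIdeal R ^ (k + 1) := by
  set 𝔪 := maximalIdeal R with h𝔪
  set S₀ := Algebra.adjoin A₁ ({x, y} : Set R) with hS₀
  have hxS : x ∈ S₀ := Algebra.subset_adjoin (by simp)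
  have hyS : y ∈ S₀ := Algebra.subset_adjoin (by simp)
  have hx𝔪 : x ∈ 𝔪 := by rw [hmax]; exact Ideal.subset_span (by simp)
  have hy𝔪 : y ∈ 𝔪 := by rw [hmax]; exact Ideal.subset_span (by simp)
  have hq𝔪 : algebraMap A₁ R q ∈ 𝔪 := by rw [hmax]; exact Ideal.subset_span (by simp)
  -- the case `k = 1`
  have h1 : ∀ b ∈ 𝔪, ∃ g ∈ S₀, g ∈ 𝔪 ∧ b - g ∈ 𝔪 ^ 2 := by
    intro b hb
    rw [hmax, Ideal.mem_span_insert] at hb
    obtain ⟨r₁, z, hz, rfl⟩ := hb
    rw [Ideal.mem_span_pair] at hz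
    obtain ⟨r₂, r₃, rfl⟩ := hz
    obtain ⟨a₁, ha₁⟩ := hres r₁
    obtain ⟨a₂, ha₂⟩ := hres r₂
    obtain ⟨a₃, ha₃⟩ := hres r₃
    refine ⟨algebraMap A₁ R a₁ * x + (algebraMap A₁ R a₂ * y +
      algebraMap A₁ R a₃ * algebraMap A₁ R q), ?_, ?_, ?_⟩
    · exact S₀.add_mem (S₀.mul_mem (S₀.algebraMap_mem _) hxS)
        (S₀.add_mem (S₀.mul_mem (S₀.algebraMap_mem _) hyS)
          (S₀.mul_mem (S₀.algebraMap_mem _) (S₀.algebraMap_mem _)))
    · exact 𝔪.add_mem (𝔪.mul_mem_left _ hx𝔪)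
        (𝔪.add_mem (𝔪.mul_mem_left _ hy𝔪) (𝔪.mul_mem_left _ hq𝔪))
    · have : r₁ * x + (r₂ * y + r₃ * algebraMap A₁ R q) -
          (algebraMap A₁ R a₁ * x + (algebraMap A₁ R a₂ * y +
            algebraMap A₁ R a₃ * algebraMap A₁ R q)) =
          (r₁ - algebraMap A₁ R a₁) * x + ((r₂ - algebraMap A₁ R a₂) * y +
            (r₃ - algebraMap A₁ R a₃) * algebraMap A₁ R q) := by ring
      rw [this, pow_two]
      exact Ideal.add_mem _ (Ideal.mul_mem_mul ha₁ hx𝔪)
        (Ideal.add_mem _ (Ideal.mul_mem_mul ha₂ hy𝔪) (Ideal.mul_mem_mul ha₃ hq𝔪))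
  intro k
  induction k with
  | zero =>
    intro f _
    obtain ⟨a, ha⟩ := hres f
    refine ⟨algebraMap A₁ R a, S₀.algebraMap_mem _, by simp, ?_⟩
    simpa using ha
  | succ k ih =>
    intro f hf
    rw [pow_succ] at hf
    refine Submodule.mul_induction_on hf ?_ ?_
    · intro a ha b hb
      obtain ⟨ga, hgaS, hga𝔪, hga⟩ := ih a ha
      obtain ⟨gb, hgbS, hgb𝔪, hgb⟩ := h1 b hb
      refine ⟨ga * gb, S₀.mul_mem hgaS hgbS, ?_, ?_⟩
      · rw [pow_succ]; exact Ideal.mul_mem_mul hga𝔪 hgb𝔪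
      · have : a * b - ga * gb = (a - ga) * b + ga * (b - gb) := by ring
        rw [this]
        refine Ideal.add_mem _ ?_ ?_
        · rw [pow_succ (n := k + 1)]; exact Ideal.mul_mem_mul hga hb
        · have h2 : ga * (b - gb) ∈ 𝔪 ^ k * 𝔪 ^ 2 := Ideal.mul_mem_mul hga𝔪 hgb
          rwa [← pow_add] at h2
    · intro a b ⟨ga, hgaS, hga𝔪, hga⟩ ⟨gb, hgbS, hgb𝔪, hgb⟩
      refine ⟨ga + gb, S₀.add_mem hgaS hgbS, Ideal.add_mem _ hga𝔪 hgb𝔪, ?_⟩
      have : a + b - (ga + gb) = (a - ga) + (b - gb) := by ring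
      rw [this]
      exact Ideal.add_mem _ hga hgb

/-- Every element of `R` is a polynomial in `x, y` over `A₁` modulo `𝔪 ^ k`. -/
theorem exists_adjoin_sub_mem_pow
    (hres : ∀ f : R, ∃ a : A₁, f - algebraMap A₁ R a ∈ maximalIdeal R)
    (q : A₁) (x y : R) (hmax : maximalIdeal R = Ideal.span {x, y, algebraMap A₁ R q})
    (k : ℕ) (f : R) :
    ∃ g ∈ Algebra.adjoin A₁ ({x, y} : Set R), f - g ∈ maximalIdeal R ^ k := by
  induction k with
  | zero => exact ⟨0, Subalgebra.zero_mem _, by simp⟩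
  | succ k ih =>
    obtain ⟨g, hgS, hg⟩ := ih
    obtain ⟨g', hg'S, _, hg'⟩ := exists_adjoin_sub_mem_pow_succ hres q x y hmax k (f - g) hg
    refine ⟨g + g', Subalgebra.add_mem _ hgS hg'S, ?_⟩
    have : f - (g + g') = f - g - g' := by ring
    rw [this]; exact hg'

variable {S : Type*} [CommRing S] [IsDomain S] [IsLocalRing S] [IsNoetherianRing S] [Algebra A₁ S]

/-- **A point of the residue class of the node is determined by its `x`-coordinate.** -/
theorem algHom_eq_of_apply_eq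
    (hres : ∀ f : R, ∃ a : A₁, f - algebraMap A₁ R a ∈ maximalIdeal R)
    (q : A₁) (x y : R) (e : ℕ) (hxy : x * y = algebraMap A₁ R q ^ e)
    (hmax : maximalIdeal R = Ideal.span {x, y, algebraMap A₁ R q})
    (hq : algebraMap A₁ S q ≠ 0)
    (φ ψ : R →ₐ[A₁] S)
    (hφ : ∀ z ∈ maximalIdeal R, φ z ∈ maximalIdeal S)
    (hψ : ∀ z ∈ maximalIdeal R, ψ z ∈ maximalIdeal S)
    (hx : φ x = ψ x) : φ = ψ := by
  -- `φ y = ψ y`
  have hφxy : φ x * φ y = algebraMap A₁ S q ^ e := by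
    rw [← map_mul, hxy, map_pow, AlgHom.commutes]
  have hψxy : ψ x * ψ y = algebraMap A₁ S q ^ e := by
    rw [← map_mul, hxy, map_pow, AlgHom.commutes]
  have hφx0 : φ x ≠ 0 := by
    intro h0
    rw [h0, zero_mul] at hφxy
    exact pow_ne_zero e hq hφxy.symm
  have hy : φ y = ψ y := by
    apply mul_left_cancel₀ hφx0
    rw [hφxy, hx, hψxy]
  -- agreement on the adjoin
  have hagree : ∀ g ∈ Algebra.adjoin A₁ ({x, y} : Set R), φ g = ψ g := by
    intro g hg
    induction hg using Algebra.adjoin_induction with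
    | mem z hz =>
      simp only [Set.mem_insert_iff, Set.mem_singleton_iff] at hz
      rcases hz with rfl | rfl
      · exact hx
      · exact hy
    | algebraMap a => rw [AlgHom.commutes, AlgHom.commutes]
    | add a b _ _ ha hb => rw [map_add, map_add, ha, hb]
    | mul a b _ _ ha hb => rw [map_mul, map_mul, ha, hb]
  -- powers of the maximal ideal
  have hpow : ∀ (χ : R →ₐ[A₁] S), (∀ z ∈ maximalIdeal R, χ z ∈ maximalIdeal S) →
      ∀ (k : ℕ) (z : R), z ∈ maximalIdeal R ^ k → χ z ∈ maximalIdeal S ^ k := by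
    intro χ hχ k z hz
    have hle : Ideal.map χ (maximalIdeal R) ≤ maximalIdeal S := by
      rw [Ideal.map_le_iff_le_comap]
      intro w hw
      exact hχ w hw
    have : χ z ∈ Ideal.map χ (maximalIdeal R ^ k) := Ideal.mem_map_of_mem _ hz
    rw [Ideal.map_pow] at this
    exact Ideal.pow_right_mono hle k this
  apply AlgHom.ext
  intro f
  have hzero : φ f - ψ f ∈ (⨅ k : ℕ, maximalIdeal S ^ k : Ideal S) := by
    rw [Ideal.mem_iInf]
    intro k
    obtain ⟨g, hgS, hg⟩ := exists_adjoin_sub_mem_pow hres q x y hmax k f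
    have h1 := hpow φ hφ k _ hg
    have h2 := hpow ψ hψ k _ hg
    have : φ f - ψ f = φ (f - g) - ψ (f - g) := by
      rw [map_sub, map_sub, hagree g hgS]; ring
    rw [this]
    exact Ideal.sub_mem _ h1 h2
  rw [Ideal.iInf_pow_eq_bot_of_isLocalRing _ (maximalIdeal.isMaximal S).ne_top] at hzero
  exact sub_eq_zero.mp hzero

end Points

end Fermat.Agent.CA.H97
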