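import Mathlib
import Fermat.Agent.CA.H99_TwoPlaces

/-!
# Places of `K(θ)` over a DVR with an arbitrary uniformiser (ramified Kummer–Dedekind, hands-on)

`CA.H99.PlaceOver ϖ θ ι θb` hard-codes `kernel of the reduction = ϖ · O1` (ramification index one).
Here is the sibling structure `PlaceOverU t θ ι θb` with an arbitrary uniformiser `t : L`, which also
records discreteness (`exists_pow`), together with

* `nonempty_placeOverU_of_principal`: the general construction: `f` monic generating the relations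
  of `θ`, `θb` a root of `f` under `ι`, `τ : O[X]` with `τ(θb) = 0`, `τ(θ) ≠ 0`, such that every `p`
  with `p(θb) = 0` satisfies `s(θ) p(θ) = τ(θ) a(θ)` for some `s` with `s(θb) ≠ 0`.  Then the
  localisation of `O[θ]` at the kernel of `θ ↦ θb` is a DVR with uniformiser `τ(θ)`.
* `nonempty_placeOverU_unram`: the unramified instance (`τ = ϖ`; same hypotheses as
  `nonempty_placeOver`).
* `nonempty_placeOverU_eisenstein`: the **Eisenstein localisation** instance:
  `f = X ^ n * h1 + ϖ * r` with `h1(0)`, `r(0)` units: the place `θ ↦ 0` has uniformiser `θ`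
  and `ϖ * r(θ) = - θ ^ n * h1(θ)` (ramification index `n`, residue degree one).
* `PlaceOverU.isDiscreteValuationRing`, `PlaceOverU.isFractionRing`: `O1` is a DVR with fraction
  field `L` (so that the construction can be iterated in towers).
-/

set_option autoImplicit false
set_option linter.unusedSectionVars false
set_option linter.style.haveILetI false

open Polynomial IsLocalRing

namespace Fermat.Agent.CA.H99

/-- A **place of `L` over `O`** with prescribed reduction and uniformiser `t`. -/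
structure PlaceOverU {O : Type*} [CommRing O] {L : Type*} [Field L] [Algebra O L] {Fk : Type*}
    [Field Fk] (t : L) (θ : L) (ι : O →+* Fk) (θb : Fk) where
  /-- the valuation ring -/
  O1 : Subring L
  /-- its reduction map -/
  res1 : O1 →+* Fk
  algebraMap_mem : ∀ a : O, algebraMap O L a ∈ O1
  res1_algebraMap : ∀ a : O, res1 ⟨algebraMap O L a, algebraMap_mem a⟩ = ι a
  θ_mem : θ ∈ O1
  res1_θ : res1 ⟨θ, θ_mem⟩ = θb
  t_mem : t ∈ O1
  t_ne_zero : t ≠ 0
  res1_eq_zero_iff : ∀ (y : L) (hy : y ∈ O1),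
    res1 ⟨y, hy⟩ = 0 ↔ ∃ z ∈ O1, y = t * z
  inv_mem : ∀ (y : L) (hy : y ∈ O1), res1 ⟨y, hy⟩ ≠ 0 → y⁻¹ ∈ O1
  mem_or_inv_mem : ∀ y : L, y ∈ O1 ∨ y⁻¹ ∈ O1
  exists_repr : ∀ y ∈ O1, ∃ a s : O[X], s.eval₂ ι θb ≠ 0 ∧ y * aeval θ s = aeval θ a
  exists_pow : ∀ y ∈ O1, y ≠ 0 → ∃ (n : ℕ) (z : L), z ∈ O1 ∧ z⁻¹ ∈ O1 ∧ y = t ^ n * z

section Construction

variable {O : Type*} [CommRing O] [IsDomain O] [IsDiscreteValuationRing O]
variable {K : Type*} [Field K] [Algebra O K] [IsFractionRing O K]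
variable {L : Type*} [Field L] [Algebra O L] [Algebra K L] [IsScalarTower O K L]
variable {Fk : Type*} [Field Fk]

set_option maxHeartbeats 1600000 in
/-- **General construction**: a place with uniformiser `τ(θ)`. -/
theorem nonempty_placeOverU_of_principal {f τ : O[X]} (hf : f.Monic)
    (θ : L) (hθ : aeval θ f = 0) (hmin : ∀ p : O[X], aeval θ p = 0 → f ∣ p)
    (hgen : Algebra.adjoin K {θ} = ⊤)
    (ι : O →+* Fk) (θb : Fk) (hfθb : f.eval₂ ι θb = 0)
    (hτb : τ.eval₂ ι θb = 0) (hτ0 : aeval θ τ ≠ 0)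
    (hprinc : ∀ p : O[X], p.eval₂ ι θb = 0 →
      ∃ s a : O[X], s.eval₂ ι θb ≠ 0 ∧ f ∣ s * p - τ * a) :
    Nonempty (PlaceOverU (aeval θ τ) θ ι θb) := by
  have hOL : Function.Injective (algebraMap O L) := S28.H98.algebraMap_injective_of_tower K
  set φ : AdjoinRoot f →ₐ[O] L := S28.H98.evalRoot f θ hθ with hφ
  have hinj : Function.Injective φ := evalRoot_injective_of_min θ hθ hmin
  haveI hdom : IsDomain (AdjoinRoot f) := hinj.isDomain (φ : AdjoinRoot f →+* L)
  haveI hnoeth : IsNoetherianRing (AdjoinRoot f) := S28.H98.isNoetherianRing_adjoinRoot hf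
  set ρ : AdjoinRoot f →+* Fk := AdjoinRoot.lift ι θb hfθb with hρ
  have hρmk : ∀ p : O[X], ρ (AdjoinRoot.mk f p) = p.eval₂ ι θb := fun p => AdjoinRoot.lift_mk hfθb p
  set P : Ideal (AdjoinRoot f) := RingHom.ker ρ with hP
  haveI hPprime : P.IsPrime := RingHom.ker_isPrime ρ
  have hmemP : ∀ a, a ∈ P ↔ ρ a = 0 := fun a => RingHom.mem_ker
  -- the localisation
  let Λ := Localization.AtPrime P
  haveI hΛdom : IsDomain Λ :=
    IsLocalization.isDomain_of_le_nonZeroDivisors (M := P.primeCompl) Λ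
      P.primeCompl_le_nonZeroDivisors
  haveI hΛnoeth : IsNoetherianRing Λ := IsLocalization.isNoetherianRing P.primeCompl Λ hnoeth
  have hAΛinj : Function.Injective (algebraMap (AdjoinRoot f) Λ) :=
    IsLocalization.injective Λ P.primeCompl_le_nonZeroDivisors
  have hφunit : ∀ s : P.primeCompl, IsUnit ((φ : AdjoinRoot f →+* L) s) := by
    intro s
    apply IsUnit.mk0
    intro h0
    have : (s : AdjoinRoot f) = 0 := hinj (by rw [map_zero]; exact h0)
    exact s.2 (by rw [this]; exact P.zero_mem)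
  have hρunit : ∀ s : P.primeCompl, IsUnit (ρ s) := by
    intro s
    apply IsUnit.mk0
    intro h0
    exact s.2 ((hmemP _).2 h0)
  let Φ : Λ →+* L := IsLocalization.lift (M := P.primeCompl) hφunit
  let ρΛ : Λ →+* Fk := IsLocalization.lift (M := P.primeCompl) hρunit
  have hΦalg : ∀ a : AdjoinRoot f, Φ (algebraMap (AdjoinRoot f) Λ a) = φ a :=
    fun a => IsLocalization.lift_eq hφunit a
  have hρalg : ∀ a : AdjoinRoot f, ρΛ (algebraMap (AdjoinRoot f) Λ a) = ρ a :=
    fun a => IsLocalization.lift_eq hρunit a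
  have hΦinj : Function.Injective Φ := by
    rw [IsLocalization.lift_injective_iff]
    intro x y
    exact ⟨fun hxy => congrArg _ (hAΛinj hxy), fun hxy => congrArg _ (hinj hxy)⟩
  -- the uniformiser
  set τA : AdjoinRoot f := AdjoinRoot.mk f τ with hτA
  set τΛ : Λ := algebraMap (AdjoinRoot f) Λ τA with hτΛ
  have hρτ : ρ τA = 0 := by rw [hτA, hρmk, hτb]
  have hτP : τA ∈ P := (hmemP _).2 hρτ
  have hφτ : φ τA = aeval θ τ := S28.H98.evalRoot_mk f θ hθ τ
  have hΦτ : Φ τΛ = aeval θ τ := by rw [hτΛ, hΦalg, hφτ]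
  have hτΛ0 : τΛ ≠ 0 := by
    intro h0
    apply hτ0
    rw [← hΦτ, h0, map_zero]
  -- the maximal ideal of `Λ` is `(τ)`
  have hmax : maximalIdeal Λ = Ideal.span {τΛ} := by
    apply le_antisymm
    · rw [← IsLocalization.AtPrime.map_eq_maximalIdeal P Λ, Ideal.map_le_iff_le_comap]
      intro a ha
      rw [Ideal.mem_comap]
      obtain ⟨p, rfl⟩ := AdjoinRoot.mk_surjective a
      rw [hmemP, hρmk] at ha
      obtain ⟨s, a', hs, hdvd⟩ := hprinc p ha
      have hsP : AdjoinRoot.mk f s ∉ P := by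
        rw [hmemP, hρmk]; exact hs
      have hsunit : IsUnit (algebraMap (AdjoinRoot f) Λ (AdjoinRoot.mk f s)) :=
        IsLocalization.map_units Λ (⟨AdjoinRoot.mk f s, hsP⟩ : P.primeCompl)
      have h1 : AdjoinRoot.mk f s * AdjoinRoot.mk f p = τA * AdjoinRoot.mk f a' := by
        have h0 : AdjoinRoot.mk f (s * p - τ * a') = 0 := AdjoinRoot.mk_eq_zero.mpr hdvd
        rw [map_sub, map_mul, map_mul, sub_eq_zero] at h0
        exact h0
      obtain ⟨u, hu⟩ := hsunit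
      rw [Ideal.mem_span_singleton]
      refine ⟨algebraMap (AdjoinRoot f) Λ (AdjoinRoot.mk f a') * ((u⁻¹ : Λˣ) : Λ), ?_⟩
      have h2 := congrArg (algebraMap (AdjoinRoot f) Λ) h1
      rw [map_mul, map_mul, ← hu] at h2
      calc algebraMap (AdjoinRoot f) Λ (AdjoinRoot.mk f p)
          = (u : Λ) * algebraMap (AdjoinRoot f) Λ (AdjoinRoot.mk f p) * ((u⁻¹ : Λˣ) : Λ) := by
            rw [mul_comm (u : Λ), mul_assoc, Units.mul_inv, mul_one]
        _ = τΛ * (algebraMap (AdjoinRoot f) Λ (AdjoinRoot.mk f a') * ((u⁻¹ : Λˣ) : Λ)) := by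
            rw [h2, hτΛ, mul_assoc]
    · rw [Ideal.span_singleton_le_iff_mem, ← IsLocalization.AtPrime.map_eq_maximalIdeal P Λ]
      exact Ideal.mem_map_of_mem _ hτP
  have hnf : ¬ IsField Λ := by
    intro hF
    have h0 : maximalIdeal Λ = ⊥ := IsLocalRing.isField_iff_maximalIdeal_eq.mp hF
    have : τΛ ∈ maximalIdeal Λ := by rw [hmax]; exact Ideal.mem_span_singleton_self _
    rw [h0, Ideal.mem_bot] at this
    exact hτΛ0 this
  haveI hdvr : IsDiscreteValuationRing Λ := by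
    have hprinc' : (maximalIdeal Λ).IsPrincipal := by rw [hmax]; exact ⟨⟨_, rfl⟩⟩
    exact ((IsDiscreteValuationRing.TFAE Λ hnf).out 4 0).mp hprinc'
  have hτirr : Irreducible τΛ :=
    (IsDiscreteValuationRing.irreducible_iff_uniformizer τΛ).2 hmax
  -- kernel of the reduction on `Λ`
  have hker : ∀ x : Λ, ρΛ x = 0 ↔ ∃ z : Λ, x = τΛ * z := by
    intro x
    have hk : RingHom.ker ρΛ = maximalIdeal Λ := by
      apply le_antisymm
      · exact IsLocalRing.le_maximalIdeal (RingHom.ker_ne_top ρΛ)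
      · rw [hmax, Ideal.span_singleton_le_iff_mem, RingHom.mem_ker, hτΛ, hρalg, hρτ]
    rw [← RingHom.mem_ker, hk, hmax, Ideal.mem_span_singleton]
    rfl
  have hunitΛ : ∀ x : Λ, ρΛ x ≠ 0 → IsUnit x := by
    intro x hx
    by_contra hnu
    have : x ∈ maximalIdeal Λ := (IsLocalRing.mem_maximalIdeal x).mpr hnu
    rw [hmax, Ideal.mem_span_singleton] at this
    exact hx ((hker x).2 this)
  -- transport to the subring `Φ(Λ) ⊆ L`
  have hbij : Function.Bijective Φ.rangeRestrict :=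
    ⟨fun a b hab => hΦinj (congrArg Subtype.val hab), Φ.rangeRestrict_surjective⟩
  let e : Λ ≃+* Φ.range := RingEquiv.ofBijective Φ.rangeRestrict hbij
  have he : ∀ x : Λ, ((e x : Φ.range) : L) = Φ x := fun x => rfl
  have hes : ∀ (x : Λ) (hx : Φ x ∈ Φ.range), e.symm ⟨Φ x, hx⟩ = x := by
    intro x hx
    apply e.injective
    rw [RingEquiv.apply_symm_apply]
    exact Subtype.ext (he x).symm
  let res1 : Φ.range →+* Fk := ρΛ.comp (e.symm : Φ.range →+* Λ)
  have hres : ∀ (x : Λ) (hx : Φ x ∈ Φ.range), res1 ⟨Φ x, hx⟩ = ρΛ x := by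
    intro x hx
    change ρΛ (e.symm ⟨Φ x, hx⟩) = ρΛ x
    rw [hes]
  have hmemr : ∀ x : Λ, Φ x ∈ Φ.range := fun x => ⟨x, rfl⟩
  have hunitinv : ∀ u : Λˣ, (Φ (u : Λ))⁻¹ = Φ ((u⁻¹ : Λˣ) : Λ) := by
    intro u
    have h1 : Φ (u : Λ) * Φ ((u⁻¹ : Λˣ) : Λ) = 1 := by rw [← map_mul, Units.mul_inv, map_one]
    exact (eq_inv_of_mul_eq_one_right h1).symm
  refine ⟨⟨Φ.range, res1, ?_, ?_, ?_, ?_, ?_, hτ0, ?_, ?_, ?_, ?_, ?_⟩⟩
  · intro a
    have h1 : Φ (algebraMap (AdjoinRoot f) Λ (AdjoinRoot.of f a)) = algebraMap O L a := by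
      rw [hΦalg]; exact S28.H98.evalRoot_of f θ hθ a
    exact h1 ▸ hmemr _
  · intro a
    have h1 : Φ (algebraMap (AdjoinRoot f) Λ (AdjoinRoot.of f a)) = algebraMap O L a := by
      rw [hΦalg]; exact S28.H98.evalRoot_of f θ hθ a
    have h2 := hres (algebraMap (AdjoinRoot f) Λ (AdjoinRoot.of f a)) (hmemr _)
    rw [hρalg, hρ, AdjoinRoot.lift_of] at h2
    rw [← h2]
    congr 1
    exact Subtype.ext h1.symm
  · have h1 : Φ (algebraMap (AdjoinRoot f) Λ (AdjoinRoot.root f)) = θ := by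
      rw [hΦalg]; exact S28.H98.evalRoot_root f θ hθ
    exact h1 ▸ hmemr _
  · have h1 : Φ (algebraMap (AdjoinRoot f) Λ (AdjoinRoot.root f)) = θ := by
      rw [hΦalg]; exact S28.H98.evalRoot_root f θ hθ
    have h2 := hres (algebraMap (AdjoinRoot f) Λ (AdjoinRoot.root f)) (hmemr _)
    rw [hρalg, hρ, AdjoinRoot.lift_root] at h2
    rw [← h2]
    congr 1
    exact Subtype.ext h1.symm
  · exact hΦτ ▸ hmemr _
  · rintro y ⟨x, rfl⟩
    rw [hres x, hker x]
    constructor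
    · rintro ⟨z, rfl⟩
      exact ⟨Φ z, hmemr z, by rw [map_mul, hΦτ]⟩
    · rintro ⟨_, ⟨z, rfl⟩, hz⟩
      refine ⟨z, hΦinj ?_⟩
      rw [hz, map_mul, hΦτ]
  · rintro y ⟨x, rfl⟩ hne
    rw [hres x] at hne
    obtain ⟨u, rfl⟩ := hunitΛ x hne
    exact ⟨((u⁻¹ : Λˣ) : Λ), (hunitinv u).symm⟩
  · intro y
    obtain ⟨s, hs0, gy, hsg⟩ := S28.H98.exists_smul_mem_adjoin (O := O) (K := K) θ
      (show y ∈ Algebra.adjoin K {θ} by rw [hgen]; trivial)
    have hsL : algebraMap O L s ≠ 0 := fun h0 => hs0 (hOL (by rw [h0, map_zero]))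
    set a : Λ := algebraMap (AdjoinRoot f) Λ (AdjoinRoot.mk f gy) with ha
    set b : Λ := algebraMap (AdjoinRoot f) Λ (AdjoinRoot.of f s) with hb
    have hΦa : Φ a = aeval θ gy := by rw [ha, hΦalg]; rfl
    have hΦb : Φ b = algebraMap O L s := by rw [hb, hΦalg]; exact S28.H98.evalRoot_of f θ hθ s
    have hy : y = Φ a / Φ b := by
      rw [hΦa, hΦb, ← hsg, mul_div_cancel_left₀ _ hsL]
    rcases ValuationRing.dvd_total a b with ⟨c, hc⟩ | ⟨c, hc⟩
    · by_cases ha0 : Φ a = 0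
      · left
        rw [hy, ha0, zero_div]
        exact Subring.zero_mem _
      · right
        refine ⟨c, ?_⟩
        rw [hy, inv_div, hc, map_mul, mul_div_cancel_left₀ _ ha0]
    · left
      refine ⟨c, ?_⟩
      have hb0 : Φ b ≠ 0 := by rw [hΦb]; exact hsL
      rw [hy, hc, map_mul, mul_div_cancel_left₀ _ hb0]
  · rintro y ⟨x, rfl⟩
    obtain ⟨⟨a, s⟩, rfl⟩ := IsLocalization.mk'_surjective P.primeCompl x
    obtain ⟨pa, rfl⟩ := AdjoinRoot.mk_surjective a
    obtain ⟨ps, hps⟩ := AdjoinRoot.mk_surjective (s : AdjoinRoot f)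
    refine ⟨pa, ps, ?_, ?_⟩
    · rw [← hρmk, hps]
      exact fun h0 => s.2 ((hmemP _).2 h0)
    · have h1 := congrArg Φ (IsLocalization.mk'_spec Λ (AdjoinRoot.mk f pa) s)
      rw [map_mul, hΦalg, hΦalg, ← hps] at h1
      exact h1
  · rintro y ⟨x, rfl⟩ hy0
    have hx0 : x ≠ 0 := by
      rintro rfl
      exact hy0 (map_zero Φ)
    obtain ⟨n, u, hu⟩ := IsDiscreteValuationRing.eq_unit_mul_pow_irreducible hx0 hτirr
    refine ⟨n, Φ (u : Λ), hmemr _, ?_, ?_⟩
    · rw [hunitinv u]; exact hmemr _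
    · rw [hu, map_mul, map_pow, hΦτ, mul_comm]

/-- **Unramified instance** (`τ = ϖ`): same hypotheses as `nonempty_placeOver`. -/
theorem nonempty_placeOverU_unram {f g h : O[X]} (hf : f.Monic)
    (hfac : f.map (residue O) = g.map (residue O) * h.map (residue O))
    (hirr : Irreducible (g.map (residue O)))
    (hcop : IsCoprime (g.map (residue O)) (h.map (residue O)))
    {ϖ : O} (hϖ : maximalIdeal O = Ideal.span {ϖ})
    (θ : L) (hθ : aeval θ f = 0) (hmin : ∀ p : O[X], aeval θ p = 0 → f ∣ p)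
    (hgen : Algebra.adjoin K {θ} = ⊤)
    (ι : O →+* Fk) (hιϖ : ι ϖ = 0) (θb : Fk) (hθb : g.eval₂ ι θb = 0) :
    Nonempty (PlaceOverU (algebraMap O L ϖ) θ ι θb) := by
  have hOL : Function.Injective (algebraMap O L) := S28.H98.algebraMap_injective_of_tower K
  have hϖ0 : ϖ ≠ 0 := by
    rintro rfl
    have : maximalIdeal O = ⊥ := by rw [hϖ]; simp
    exact IsDiscreteValuationRing.not_a_field O this
  have hϖL : algebraMap O L ϖ ≠ 0 := fun h0 => hϖ0 (hOL (by rw [h0, map_zero]))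
  have hfθb : f.eval₂ ι θb = 0 := eval₂_eq_zero_of_factor hfac hϖ ι hιϖ θb hθb
  obtain ⟨r, hr⟩ := exists_mul_eq_add hfac hϖ
  have key := nonempty_placeOverU_of_principal (K := K) (τ := C ϖ) hf θ hθ hmin hgen ι θb hfθb
    (by rw [eval₂_C, hιϖ]) (by rw [aeval_C]; exact hϖL) (by
      intro p hp0
      obtain ⟨W, p', hp⟩ := exists_eq_mul_add_of_eval₂_eq_zero hirr hϖ ι hιϖ θb hθb hp0
      refine ⟨h, r * W + h * p', eval₂_ne_zero_of_isCoprime hcop hϖ ι hιϖ θb hθb, W, ?_⟩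
      rw [hp]
      linear_combination W * hr)
  rwa [aeval_C] at key

/-- **Eisenstein localisation**: `f = X ^ n * h1 + ϖ * r`, `n > 0`, `r(0)` a unit: the place
`θ ↦ 0` has uniformiser `θ`. -/
theorem nonempty_placeOverU_eisenstein {f h1 r : O[X]} (hf : f.Monic) {n : ℕ} (hn : 0 < n)
    {ϖ : O} (hϖ : maximalIdeal O = Ideal.span {ϖ})
    (hfac : f = X ^ n * h1 + C ϖ * r)
    (θ : L) (hθ : aeval θ f = 0) (hmin : ∀ p : O[X], aeval θ p = 0 → f ∣ p)
    (hgen : Algebra.adjoin K {θ} = ⊤) (hθ0 : θ ≠ 0)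
    (ι : O →+* Fk) (hιϖ : ι ϖ = 0) (hr : ι (r.coeff 0) ≠ 0) :
    Nonempty (PlaceOverU θ θ ι (0 : Fk)) := by
  obtain ⟨m, rfl⟩ := Nat.exists_eq_succ_of_ne_zero hn.ne'
  have hfθb : f.eval₂ ι (0 : Fk) = 0 := by
    rw [hfac, eval₂_add, eval₂_mul, eval₂_mul, eval₂_pow, eval₂_X, eval₂_C, hιϖ, zero_mul,
      zero_pow (Nat.succ_ne_zero m), zero_mul, add_zero]
  have key := nonempty_placeOverU_of_principal (K := K) (τ := X) hf θ hθ hmin hgen ι (0 : Fk) hfθb
    (by rw [eval₂_X]) (by rw [aeval_X]; exact hθ0) (by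
      intro p hp0
      rw [eval₂_at_zero] at hp0
      have hmem : p.coeff 0 ∈ maximalIdeal O := by
        rw [IsLocalRing.mem_maximalIdeal, mem_nonunits_iff]
        intro hu
        exact (hu.map ι).ne_zero hp0
      rw [hϖ, Ideal.mem_span_singleton] at hmem
      obtain ⟨c, hc⟩ := hmem
      obtain ⟨d, hd⟩ : ∃ d : O[X], p = d * X + C ϖ * C c :=
        ⟨p.divX, by rw [← C_mul, ← hc, divX_mul_X_add]⟩
      subst hd
      refine ⟨r, r * d - C c * X ^ m * h1, ?_, C c, ?_⟩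
      · rw [eval₂_at_zero]; exact hr
      · rw [hfac, Nat.succ_eq_add_one]
        ring)
  rwa [aeval_X] at key

/-- the ramification relation in the Eisenstein case. -/
theorem eisenstein_relation {f h1 r : O[X]} {n : ℕ} {ϖ : O}
    (hfac : f = X ^ n * h1 + C ϖ * r) (θ : L) (hθ : aeval θ f = 0) :
    algebraMap O L ϖ * aeval θ r = - (θ ^ n * aeval θ h1) := by
  rw [hfac, map_add, map_mul, map_mul, map_pow, aeval_X, aeval_C] at hθ
  linear_combination hθ

end Construction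

section Consequences

variable {O : Type*} [CommRing O] {L : Type*} [Field L] [Algebra O L] {Fk : Type*} [Field Fk]
variable {t θ : L} {ι : O →+* Fk} {θb : Fk}

/-- every `PlaceOver` is a `PlaceOverU` once discreteness is known. -/
def PlaceOver.toPlaceOverU {ϖ : O} (P : PlaceOver ϖ θ ι θb) (hϖL : algebraMap O L ϖ ≠ 0)
    (hpow : ∀ y ∈ P.O1, y ≠ 0 → ∃ (n : ℕ) (z : L), z ∈ P.O1 ∧ z⁻¹ ∈ P.O1 ∧
      y = algebraMap O L ϖ ^ n * z) : PlaceOverU (algebraMap O L ϖ) θ ι θb where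
  O1 := P.O1
  res1 := P.res1
  algebraMap_mem := P.algebraMap_mem
  res1_algebraMap := P.res1_algebraMap
  θ_mem := P.θ_mem
  res1_θ := P.res1_θ
  t_mem := P.algebraMap_mem ϖ
  t_ne_zero := hϖL
  res1_eq_zero_iff := P.res1_eq_zero_iff
  inv_mem := P.inv_mem
  mem_or_inv_mem := P.mem_or_inv_mem
  exists_repr := P.exists_repr
  exists_pow := hpow

namespace PlaceOverU

variable (P : PlaceOverU t θ ι θb)

/-- the reduction of a polynomial expression in `θ`. -/
theorem aeval_mem (p : O[X]) : aeval θ p ∈ P.O1 := by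
  induction p using Polynomial.induction_on' with
  | add p q hp hq => rw [map_add]; exact P.O1.add_mem hp hq
  | monomial n a =>
    rw [← C_mul_X_pow_eq_monomial, map_mul, aeval_C, map_pow, aeval_X]
    exact P.O1.mul_mem (P.algebraMap_mem a) (P.O1.pow_mem P.θ_mem n)

theorem res1_aeval (p : O[X]) : P.res1 ⟨aeval θ p, P.aeval_mem p⟩ = p.eval₂ ι θb := by
  induction p using Polynomial.induction_on' with
  | add p q hp hq =>
    have h1 : (⟨aeval θ (p + q), P.aeval_mem (p + q)⟩ : P.O1)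
        = ⟨aeval θ p, P.aeval_mem p⟩ + ⟨aeval θ q, P.aeval_mem q⟩ :=
      Subtype.ext (map_add _ _ _)
    rw [h1, map_add, hp, hq, eval₂_add]
  | monomial n a =>
    have h1 : (⟨aeval θ (monomial n a), P.aeval_mem (monomial n a)⟩ : P.O1)
        = ⟨algebraMap O L a, P.algebraMap_mem a⟩ * ⟨θ, P.θ_mem⟩ ^ n := by
      apply Subtype.ext
      change aeval θ (monomial n a) = algebraMap O L a * θ ^ n
      rw [← C_mul_X_pow_eq_monomial, map_mul, aeval_C, map_pow, aeval_X]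
    rw [h1, map_mul, map_pow, P.res1_algebraMap, P.res1_θ, eval₂_monomial]

theorem res1_t : P.res1 ⟨t, P.t_mem⟩ = 0 :=
  (P.res1_eq_zero_iff t P.t_mem).2 ⟨1, P.O1.one_mem, (mul_one t).symm⟩

/-- the uniformiser as an element of `O1`. -/
def tt : P.O1 := ⟨t, P.t_mem⟩

theorem tt_ne_zero : P.tt ≠ 0 := fun h => P.t_ne_zero (congrArg Subtype.val h)

theorem ker_res1 : RingHom.ker P.res1 = Ideal.span {P.tt} := by
  ext ⟨y, hy⟩
  rw [RingHom.mem_ker, P.res1_eq_zero_iff y hy, Ideal.mem_span_singleton]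
  constructor
  · rintro ⟨z, hz, rfl⟩
    exact ⟨⟨z, hz⟩, rfl⟩
  · rintro ⟨⟨z, hz⟩, hyz⟩
    exact ⟨z, hz, congrArg Subtype.val hyz⟩

theorem prime_tt : Prime P.tt := by
  rw [← Ideal.span_singleton_prime P.tt_ne_zero, ← P.ker_res1]
  exact RingHom.ker_isPrime P.res1

/-- **`O1` is a discrete valuation ring.** -/
theorem isDiscreteValuationRing : IsDiscreteValuationRing P.O1 := by
  apply IsDiscreteValuationRing.ofHasUnitMulPowIrreducibleFactorization
  refine ⟨P.tt, P.prime_tt.irreducible, ?_⟩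
  intro x hx0
  obtain ⟨n, z, hz, hzi, hxz⟩ := P.exists_pow x.1 x.2 (fun h => hx0 (Subtype.ext h))
  have hz0 : z ≠ 0 := by
    rintro rfl
    apply hx0
    apply Subtype.ext
    rw [hxz, mul_zero]; rfl
  refine ⟨n, ⟨⟨⟨z, hz⟩, ⟨z⁻¹, hzi⟩, Subtype.ext (mul_inv_cancel₀ hz0),
    Subtype.ext (inv_mul_cancel₀ hz0)⟩, ?_⟩⟩
  apply Subtype.ext
  rw [hxz]
  rfl

/-- **`L` is the fraction field of `O1`.** -/
theorem isFractionRing : IsFractionRing P.O1 L := by
  apply IsFractionRing.of_field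
  intro y
  rcases P.mem_or_inv_mem y with hy | hy
  · exact ⟨⟨y, hy⟩, 1, by rw [map_one, div_one]; rfl⟩
  · refine ⟨1, ⟨y⁻¹, hy⟩, ?_⟩
    rw [map_one, one_div]
    exact (inv_inv y).symm

/-- the associated valuation subring. -/
def toValuationSubring : ValuationSubring L :=
  { P.O1 with mem_or_inv_mem' := P.mem_or_inv_mem }

theorem mem_toValuationSubring (y : L) : y ∈ P.toValuationSubring ↔ y ∈ P.O1 := Iff.rfl

/-- residue-units are units. -/
theorem isUnit_of_res1_ne_zero (y : P.O1) (hy : P.res1 y ≠ 0) : IsUnit y := by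
  have hinv := P.inv_mem y.1 y.2 hy
  have hy0 : (y : L) ≠ 0 := by
    intro h0
    apply hy
    have : y = 0 := Subtype.ext h0
    rw [this, map_zero]
  exact ⟨⟨y, ⟨(y : L)⁻¹, hinv⟩, Subtype.ext (mul_inv_cancel₀ hy0),
    Subtype.ext (inv_mul_cancel₀ hy0)⟩, rfl⟩

end PlaceOverU

end Consequences

end Fermat.Agent.CA.H99
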