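import Mathlib
import Fermat.Agent.CA.H99_TwoPlacesThm
import Fermat.Agent.CA.H99_PlaceOverU

/-!
# Uniqueness of places with an arbitrary uniformiser, and "exactly two places" with multiplicity

* `PlaceOverU.eq_of_le`: a valuation subring `V ⊇ P.O1` in which the uniformiser `t` is a non-unit
  is `P.O1`.
* `PlaceOverU.le_of_eisenstein`: for an Eisenstein place (`θ ↦ 0`, uniformiser `θ`), every valuation
  subring containing `O` in which `θ` is a non-unit contains `P.O1`.
* `PlaceOverU.le_of_unram`: the same for the place attached to an irreducible factor `ḡ`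
  (non-unit `ϖ` and `g(θ)`).
* `eq_or_eq_of_valuationSubring_mult`: if `f ≡ (X - a) ^ n * g₂ mod ϖ` (`g₂` irreducible mod `ϖ`),
  a valuation subring containing `O` in which `ϖ` is a non-unit is the Eisenstein place at
  `θ - a` or the unramified place of `g₂`.
-/

set_option autoImplicit false
set_option linter.unusedSectionVars false
set_option linter.style.haveILetI false

open Polynomial IsLocalRing

namespace Fermat.Agent.CA.H99

namespace PlaceOverU

section Generic

variable {O : Type*} [CommRing O] {L : Type*} [Field L] [Algebra O L] {Fk : Type*} [Field Fk]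
variable {t θ : L} {ι : O →+* Fk} {θb : Fk} (P : PlaceOverU t θ ι θb)

/-- **Uniqueness, generic half**: a valuation subring containing `P.O1` in which `t` is a
non-unit equals `P.O1`. -/
theorem eq_of_le (V : ValuationSubring L) (hle : P.O1 ≤ V.toSubring) (htV : t ∈ V.nonunits) :
    V.toSubring = P.O1 := by
  rw [ValuationSubring.mem_nonunits_iff] at htV
  apply le_antisymm _ hle
  intro y hy
  by_contra hyO
  have hyinv : y⁻¹ ∈ P.O1 := (P.mem_or_inv_mem y).resolve_left hyO
  have hres : P.res1 ⟨y⁻¹, hyinv⟩ = 0 := by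
    by_contra hne
    have := P.inv_mem _ hyinv hne
    rw [inv_inv] at this
    exact hyO this
  obtain ⟨z, hz, e⟩ := (P.res1_eq_zero_iff _ hyinv).1 hres
  have hy0 : y ≠ 0 := by
    rintro rfl
    exact hyO (Subring.zero_mem _)
  have h1 : V.valuation y⁻¹ < 1 := by
    rw [e, map_mul]
    exact mul_lt_one_of_lt_of_le htV ((V.valuation_le_one_iff _).2 (hle hz))
  have h2 : V.valuation y ≤ 1 := (V.valuation_le_one_iff _).2 hy
  rw [map_inv₀] at h1
  have h3 : V.valuation y ≠ 0 := (Valuation.ne_zero_iff _).2 hy0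
  have h4 : (1 : _) < V.valuation y := by
    by_contra hle1
    replace hle1 := not_lt.1 hle1
    have : 1 ≤ (V.valuation y)⁻¹ := by
      rw [one_le_inv₀ (zero_lt_iff.2 h3)]
      exact hle1
    exact absurd h1 (not_lt.2 this)
  exact absurd h2 (not_le.2 h4)

/-- generic containment: if every denominator `s(θ)` (`s(θb) ≠ 0`) has `V`-valuation one, then
`P.O1 ≤ V`. -/
theorem le_of_denominators (V : ValuationSubring L) (hS : ∀ p : O[X], aeval θ p ∈ V)
    (hden : ∀ s : O[X], s.eval₂ ι θb ≠ 0 → V.valuation (aeval θ s) = 1) :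
    P.O1 ≤ V.toSubring := by
  intro y hy
  obtain ⟨a, s, hs, e⟩ := P.exists_repr y hy
  have hs1 := hden s hs
  have hs0 : aeval θ s ≠ 0 := by
    intro h0
    rw [h0, map_zero] at hs1
    exact zero_ne_one hs1
  have hy' : y = aeval θ a * (aeval θ s)⁻¹ := by
    rw [← e, mul_assoc, mul_inv_cancel₀ hs0, mul_one]
  change y ∈ V
  rw [hy', ← V.valuation_le_one_iff, map_mul, map_inv₀, hs1, inv_one, mul_one]
  exact (V.valuation_le_one_iff _).2 (hS a)

end Generic

section DVR

variable {O : Type*} [CommRing O] [IsDomain O] [IsDiscreteValuationRing O]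
variable {L : Type*} [Field L] [Algebra O L] {Fk : Type*} [Field Fk]

/-- units of `O` have valuation one in any valuation subring containing `O`. -/
theorem valuation_algebraMap_eq_one (V : ValuationSubring L)
    (hOV : ∀ a : O, algebraMap O L a ∈ V) {a : O} (ha : IsUnit a) :
    V.valuation (algebraMap O L a) = 1 := by
  obtain ⟨u, rfl⟩ := ha
  have h1 : V.valuation (algebraMap O L (u : O)) ≤ 1 := (V.valuation_le_one_iff _).2 (hOV _)
  have h2 : V.valuation (algebraMap O L ((u⁻¹ : Oˣ) : O)) ≤ 1 :=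
    (V.valuation_le_one_iff _).2 (hOV _)
  have h3 : V.valuation (algebraMap O L (u : O)) * V.valuation (algebraMap O L ((u⁻¹ : Oˣ) : O))
      = 1 := by
    rw [← map_mul, ← map_mul, Units.mul_inv, map_one, map_one]
  apply le_antisymm h1
  calc (1 : _) = V.valuation (algebraMap O L (u : O)) *
        V.valuation (algebraMap O L ((u⁻¹ : Oˣ) : O)) := h3.symm
    _ ≤ V.valuation (algebraMap O L (u : O)) * 1 := mul_le_mul' le_rfl h2
    _ = V.valuation (algebraMap O L (u : O)) := mul_one _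

/-- `ι a ≠ 0` forces `a` to be a unit of `O`. -/
theorem isUnit_of_map_ne_zero {ϖ : O} (hϖ : maximalIdeal O = Ideal.span {ϖ}) (ι : O →+* Fk)
    (hιϖ : ι ϖ = 0) {a : O} (ha : ι a ≠ 0) : IsUnit a := by
  by_contra hnu
  have hmem : a ∈ maximalIdeal O := (IsLocalRing.mem_maximalIdeal a).2 hnu
  exact ha (map_eq_zero_of_mem_maximalIdeal hϖ ι hιϖ a hmem)

/-- **Eisenstein place, containment**: `θ` a non-unit of `V ⊇ O` ⟹ `P.O1 ≤ V`. -/
theorem le_of_eisenstein {θ : L} {ι : O →+* Fk} (P : PlaceOverU θ θ ι (0 : Fk))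
    {ϖ : O} (hϖ : maximalIdeal O = Ideal.span {ϖ}) (hιϖ : ι ϖ = 0)
    (V : ValuationSubring L) (hOV : ∀ a : O, algebraMap O L a ∈ V) (hθV : θ ∈ V.nonunits) :
    P.O1 ≤ V.toSubring := by
  have hθlt : V.valuation θ < 1 := (ValuationSubring.mem_nonunits_iff V).1 hθV
  have hθmem : θ ∈ V := (V.valuation_le_one_iff _).1 hθlt.le
  have hS : ∀ p : O[X], aeval θ p ∈ V := aeval_mem_valuationSubring V hOV hθmem
  apply P.le_of_denominators V hS
  intro s hs
  rw [eval₂_at_zero] at hs
  have hu : IsUnit (s.coeff 0) := isUnit_of_map_ne_zero hϖ ι hιϖ hs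
  have h1 : V.valuation (algebraMap O L (s.coeff 0)) = 1 := valuation_algebraMap_eq_one V hOV hu
  have hdec : aeval θ s = aeval θ s.divX * θ + algebraMap O L (s.coeff 0) := by
    conv_lhs => rw [← divX_mul_X_add s]
    rw [map_add, map_mul, aeval_X, aeval_C]
  have hlt : V.valuation (aeval θ s.divX * θ) < V.valuation (algebraMap O L (s.coeff 0)) := by
    rw [h1, map_mul, mul_comm]
    exact mul_lt_one_of_lt_of_le hθlt ((V.valuation_le_one_iff _).2 (hS _))
  rw [hdec, Valuation.map_add_eq_of_lt_right _ hlt, h1]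

/-- **Eisenstein place, uniqueness.** -/
theorem eq_of_eisenstein {θ : L} {ι : O →+* Fk} (P : PlaceOverU θ θ ι (0 : Fk))
    {ϖ : O} (hϖ : maximalIdeal O = Ideal.span {ϖ}) (hιϖ : ι ϖ = 0)
    (V : ValuationSubring L) (hOV : ∀ a : O, algebraMap O L a ∈ V) (hθV : θ ∈ V.nonunits) :
    V.toSubring = P.O1 :=
  P.eq_of_le V (P.le_of_eisenstein hϖ hιϖ V hOV hθV) hθV

/-- **Unramified place, containment** (the Bezout argument of `eq_of_valuationSubring`). -/
theorem le_of_unram {t θ : L} {ι : O →+* Fk} {θb : Fk} (P : PlaceOverU t θ ι θb)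
    {g : O[X]} (hirr : Irreducible (g.map (residue O)))
    {ϖ : O} (hϖ : maximalIdeal O = Ideal.span {ϖ}) (hι : ι ϖ = 0) (hθb : g.eval₂ ι θb = 0)
    (V : ValuationSubring L) (hOV : ∀ a : O, algebraMap O L a ∈ V) (hθV : θ ∈ V)
    (hϖV : algebraMap O L ϖ ∈ V.nonunits) (hgV : aeval θ g ∈ V.nonunits) :
    P.O1 ≤ V.toSubring := by
  have hS : ∀ p : O[X], aeval θ p ∈ V := aeval_mem_valuationSubring V hOV hθV
  rw [ValuationSubring.mem_nonunits_iff] at hϖV hgV
  apply P.le_of_denominators V hS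
  intro s hs
  obtain ⟨u, v', w, hb⟩ := exists_bezout_of_eval₂_ne_zero hirr hϖ ι hι θb hθb hs
  have hb' := congrArg (aeval θ) hb
  rw [map_add, map_mul, map_mul, map_add, map_one, map_mul, aeval_C] at hb'
  have hn : V.valuation (algebraMap O L ϖ * aeval θ w - aeval θ v' * aeval θ g) < 1 := by
    apply Valuation.map_sub_lt
    · rw [map_mul]
      exact mul_lt_one_of_lt_of_le hϖV ((V.valuation_le_one_iff _).2 (hS w))
    · rw [map_mul]
      calc V.valuation (aeval θ v') * V.valuation (aeval θ g)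
          ≤ 1 * V.valuation (aeval θ g) :=
            mul_le_mul' ((V.valuation_le_one_iff _).2 (hS v')) le_rfl
        _ < 1 := by rw [one_mul]; exact hgV
  have hus : aeval θ u * aeval θ s =
      1 + (algebraMap O L ϖ * aeval θ w - aeval θ v' * aeval θ g) := by
    rw [← sub_eq_zero] at hb' ⊢
    rw [← hb']; ring
  have hval : V.valuation (aeval θ u) * V.valuation (aeval θ s) = 1 := by
    rw [← map_mul, hus]
    exact Valuation.map_one_add_of_lt _ hn
  apply le_antisymm ((V.valuation_le_one_iff _).2 (hS s))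
  calc (1 : _) = V.valuation (aeval θ u) * V.valuation (aeval θ s) := hval.symm
    _ ≤ 1 * V.valuation (aeval θ s) :=
        mul_le_mul' ((V.valuation_le_one_iff _).2 (hS u)) le_rfl
    _ = V.valuation (aeval θ s) := one_mul _

/-- **Unramified place, uniqueness** (`PlaceOverU` form of `eq_of_valuationSubring`). -/
theorem eq_of_unram {θ : L} {ι : O →+* Fk} {θb : Fk} {ϖ : O}
    (P : PlaceOverU (algebraMap O L ϖ) θ ι θb)
    {g : O[X]} (hirr : Irreducible (g.map (residue O)))
    (hϖ : maximalIdeal O = Ideal.span {ϖ}) (hι : ι ϖ = 0) (hθb : g.eval₂ ι θb = 0)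
    (V : ValuationSubring L) (hOV : ∀ a : O, algebraMap O L a ∈ V) (hθV : θ ∈ V)
    (hϖV : algebraMap O L ϖ ∈ V.nonunits) (hgV : aeval θ g ∈ V.nonunits) :
    V.toSubring = P.O1 :=
  P.eq_of_le V (P.le_of_unram hirr hϖ hι hθb V hOV hθV hϖV hgV) hϖV

/-- **Only one place** when the reduction of `f` is irreducible. -/
theorem eq_of_irreducible {θ : L} {ι : O →+* Fk} {θb : Fk} {ϖ : O}
    (P : PlaceOverU (algebraMap O L ϖ) θ ι θb)
    {f : O[X]} (hf : f.Monic) (hirr : Irreducible (f.map (residue O)))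
    (hϖ : maximalIdeal O = Ideal.span {ϖ}) (hθ : aeval θ f = 0)
    (hι : ι ϖ = 0) (hθb : f.eval₂ ι θb = 0)
    (V : ValuationSubring L) (hOV : ∀ a : O, algebraMap O L a ∈ V)
    (hϖV : algebraMap O L ϖ ∈ V.nonunits) : V.toSubring = P.O1 := by
  have hθV : θ ∈ V := mem_valuationSubring_of_isIntegral V hOV ⟨f, hf, hθ⟩
  refine P.eq_of_unram hirr hϖ hι hθb V hOV hθV hϖV ?_
  rw [hθ, ValuationSubring.mem_nonunits_iff, map_zero]
  exact zero_lt_one

/-- **Exactly two places, with multiplicity**: `f ≡ (X - a) ^ n * g₂ mod ϖ`, `g₂` irreducible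
mod `ϖ`: a valuation subring containing `O` in which `ϖ` is a non-unit is the Eisenstein place at
`θ - a` or the unramified place of `g₂`. -/
theorem eq_or_eq_of_valuationSubring_mult {Fk₁ Fk₂ : Type*} [Field Fk₁] [Field Fk₂]
    {f g₂ : O[X]} {a : O} {n : ℕ} (hf : f.Monic)
    (hfac : f.map (residue O) = ((X - C a) ^ n).map (residue O) * g₂.map (residue O))
    (hirr₂ : Irreducible (g₂.map (residue O)))
    {ϖ : O} (hϖ : maximalIdeal O = Ideal.span {ϖ})
    (θ : L) (hθ : aeval θ f = 0)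
    {ι₁ : O →+* Fk₁} (hι₁ : ι₁ ϖ = 0)
    {ι₂ : O →+* Fk₂} (hι₂ : ι₂ ϖ = 0) {θb₂ : Fk₂} (hθb₂ : g₂.eval₂ ι₂ θb₂ = 0)
    (P₁ : PlaceOverU (θ - algebraMap O L a) (θ - algebraMap O L a) ι₁ (0 : Fk₁))
    (P₂ : PlaceOverU (algebraMap O L ϖ) θ ι₂ θb₂) (V : ValuationSubring L)
    (hOV : ∀ a : O, algebraMap O L a ∈ V) (hϖV : algebraMap O L ϖ ∈ V.nonunits) :
    V.toSubring = P₁.O1 ∨ V.toSubring = P₂.O1 := by
  have hθV : θ ∈ V := mem_valuationSubring_of_isIntegral V hOV ⟨f, hf, hθ⟩
  have hS : ∀ p : O[X], aeval θ p ∈ V := aeval_mem_valuationSubring V hOV hθV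
  obtain ⟨r, hr⟩ := exists_mul_eq_add hfac hϖ
  have h1 := congrArg (aeval θ) hr
  rw [map_mul, map_add, hθ, zero_add, map_mul, aeval_C, map_pow, map_sub, aeval_X, aeval_C] at h1
  have hlt : V.valuation (θ - algebraMap O L a) ^ n * V.valuation (aeval θ g₂) < 1 := by
    rw [← map_pow, ← map_mul, h1, map_mul]
    exact mul_lt_one_of_lt_of_le ((ValuationSubring.mem_nonunits_iff V).1 hϖV)
      ((V.valuation_le_one_iff _).2 (hS r))
  have hmem : θ - algebraMap O L a ∈ V := V.toSubring.sub_mem hθV (hOV a)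
  by_cases hg1 : V.valuation (θ - algebraMap O L a) < 1
  · left
    exact P₁.eq_of_eisenstein hϖ hι₁ V hOV ((ValuationSubring.mem_nonunits_iff V).2 hg1)
  · right
    have hg1' : V.valuation (θ - algebraMap O L a) = 1 :=
      le_antisymm ((V.valuation_le_one_iff _).2 hmem) (not_lt.1 hg1)
    rw [hg1', one_pow, one_mul] at hlt
    exact P₂.eq_of_unram hirr₂ hϖ hι₂ hθb₂ V hOV hθV hϖV
      ((ValuationSubring.mem_nonunits_iff V).2 hlt)

end DVR

end PlaceOverU

end Fermat.Agent.CA.H99
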