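import Mathlib
import Fermat.Agent.CA.H99_PlaceOverUUnique

/-!
# The intersection of the places over a non-squarefree reduction `f̄ = ḡ₁ ^ n * ḡ₂` is `O[θ]`

Generic form (no place structures): if `y * s₁(θ) = a₁(θ)` with `s₁(θb₁) ≠ 0` and
`y * s₂(θ) = a₂(θ)` with `s₂(θb₂) ≠ 0`, where `θb₁`, `θb₂` are roots of the coprime irreducible
factors `ḡ₁`, `ḡ₂` and `f̄ = ḡ₁ ^ n * ḡ₂`, then `y ∈ O[θ]`.
Instance: the Eisenstein place at `θ - a` and the unramified place of `g₂`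
(`exists_eq_aeval_of_mem_eisenstein_of_mem_unram`): `O[θ]` is the intersection of the two valuation
rings, i.e. `O[θ]` is integrally closed although the reduction is not squarefree.
-/

set_option autoImplicit false
set_option linter.unusedSectionVars false
set_option linter.style.haveILetI false

open Polynomial IsLocalRing

namespace Fermat.Agent.CA.H99

section Mult

variable {O : Type*} [CommRing O] [IsDomain O] [IsDiscreteValuationRing O]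
variable {K : Type*} [Field K] [Algebra O K] [IsFractionRing O K]
variable {L : Type*} [Field L] [Algebra O L] [Algebra K L] [IsScalarTower O K L]
variable {Fk₁ Fk₂ : Type*} [Field Fk₁] [Field Fk₂]

/-- `u d + v g = 1 + ϖ w` ⟹ `u' d + v ^ n g ^ n = 1 + ϖ w'`. -/
theorem exists_bezout_pow {R : Type*} [CommRing R] {u d v g w ϖ : R} (n : ℕ)
    (h : u * d + v * g = 1 + ϖ * w) :
    ∃ u' w' : R, u' * d + v ^ n * g ^ n = 1 + ϖ * w' := by
  obtain ⟨S, hS⟩ := sub_dvd_pow_sub_pow (u * d + v * g) (v * g) n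
  obtain ⟨T, hT⟩ := sub_dvd_pow_sub_pow (1 + ϖ * w) 1 n
  refine ⟨u * S, w * T, ?_⟩
  have h1 : (u * d + v * g) ^ n = (1 + ϖ * w) ^ n := by rw [h]
  rw [one_pow] at hT
  linear_combination (-1 : R) * hS + hT + h1

set_option maxHeartbeats 800000 in
/-- **Generic intersection lemma with multiplicity.** -/
theorem exists_eq_aeval_of_repr_mult {f g₁ g₂ : O[X]} {n : ℕ}
    (hfac : f.map (residue O) = (g₁ ^ n).map (residue O) * g₂.map (residue O))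
    (hirr₁ : Irreducible (g₁.map (residue O))) (hirr₂ : Irreducible (g₂.map (residue O)))
    (hcop : IsCoprime (g₁.map (residue O)) (g₂.map (residue O)))
    {ϖ : O} (hϖ : maximalIdeal O = Ideal.span {ϖ})
    (θ : L) (hθ : aeval θ f = 0) (hgen : Algebra.adjoin K {θ} = ⊤)
    {ι₁ : O →+* Fk₁} (hι₁ : ι₁ ϖ = 0) {θb₁ : Fk₁} (hθb₁ : g₁.eval₂ ι₁ θb₁ = 0)
    {ι₂ : O →+* Fk₂} (hι₂ : ι₂ ϖ = 0) {θb₂ : Fk₂} (hθb₂ : g₂.eval₂ ι₂ θb₂ = 0)
    {y : L} {a1 s1 a2 s2 : O[X]}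
    (hs1 : s1.eval₂ ι₁ θb₁ ≠ 0) (e1 : y * aeval θ s1 = aeval θ a1)
    (hs2 : s2.eval₂ ι₂ θb₂ ≠ 0) (e2 : y * aeval θ s2 = aeval θ a2) :
    ∃ p : O[X], y = aeval θ p := by
  have hg21 : g₂.eval₂ ι₁ θb₁ ≠ 0 := eval₂_ne_zero_of_isCoprime hcop hϖ ι₁ hι₁ θb₁ hθb₁
  have hg12 : g₁.eval₂ ι₂ θb₂ ≠ 0 := eval₂_ne_zero_of_isCoprime hcop.symm hϖ ι₂ hι₂ θb₂ hθb₂
  set d : O[X] := s1 * g₂ + s2 * g₁ with hd
  have hd1 : d.eval₂ ι₁ θb₁ ≠ 0 := by
    rw [hd, eval₂_add, eval₂_mul, eval₂_mul, hθb₁, mul_zero, add_zero]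
    exact mul_ne_zero hs1 hg21
  have hd2 : d.eval₂ ι₂ θb₂ ≠ 0 := by
    rw [hd, eval₂_add, eval₂_mul, eval₂_mul, hθb₂, mul_zero, zero_add]
    exact mul_ne_zero hs2 hg12
  obtain ⟨u1, v1, w1, hb1⟩ := exists_bezout_of_eval₂_ne_zero hirr₁ hϖ ι₁ hι₁ θb₁ hθb₁ hd1
  obtain ⟨u2, v2, w2, hb2⟩ := exists_bezout_of_eval₂_ne_zero hirr₂ hϖ ι₂ hι₂ θb₂ hθb₂ hd2
  obtain ⟨u1', w1', hb1'⟩ := exists_bezout_pow n hb1
  obtain ⟨r, hr⟩ := exists_mul_eq_add hfac hϖ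
  -- `d E + v1^n v2 f = 1 - ϖ Wn`
  set E : O[X] := u1' * u2 * d + u1' * v2 * g₂ + v1 ^ n * u2 * g₁ ^ n with hE
  set Wn : O[X] := -(w1' + w2 + C ϖ * w1' * w2 - v1 ^ n * v2 * r) with hWn
  have hkey : d * E + v1 ^ n * v2 * f = 1 - C ϖ * Wn := by
    have h3 : (u1' * d + v1 ^ n * g₁ ^ n) * (u2 * d + v2 * g₂)
        = (1 + C ϖ * w1') * (1 + C ϖ * w2) := by
      rw [hb1', hb2]
    have h4 : v1 ^ n * v2 * (g₁ ^ n * g₂) = v1 ^ n * v2 * (f + C ϖ * r) := by rw [hr]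
    rw [hE, hWn]
    linear_combination h3 - h4
  -- evaluate at `θ`
  set x : L := aeval θ (C ϖ * Wn) with hx
  have hyd : y * aeval θ d = aeval θ (a1 * g₂ + a2 * g₁) := by
    rw [hd, map_add, map_mul, map_mul, map_add, map_mul, map_mul, ← e1, ← e2]
    ring
  have hdE : aeval θ d * aeval θ E = 1 - x := by
    have := congrArg (aeval θ) hkey
    rw [map_add, map_mul, map_mul (aeval θ) (v1 ^ n * v2) f, hθ, mul_zero, add_zero, map_sub,
      map_one] at this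
    rw [this]
  have hy1 : y * (1 - x) = aeval θ ((a1 * g₂ + a2 * g₁) * E) := by
    rw [← hdE, ← mul_assoc, hyd, map_mul]
  obtain ⟨m, p2, hp2⟩ := exists_pow_mul_eq_aeval (K := K) hϖ θ hgen y
  refine ⟨(a1 * g₂ + a2 * g₁) * E * (∑ i ∈ Finset.range m, (C ϖ * Wn) ^ i) + p2 * Wn ^ m, ?_⟩
  rw [map_add, map_mul, ← hy1, map_sum, map_mul, ← hp2, map_pow]
  have h5 : ∑ i ∈ Finset.range m, aeval θ ((C ϖ * Wn) ^ i) = ∑ i ∈ Finset.range m, x ^ i := by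
    apply Finset.sum_congr rfl
    intro i _
    rw [map_pow]
  have h6 : x ^ m = algebraMap O L ϖ ^ m * aeval θ Wn ^ m := by
    rw [hx, map_mul, aeval_C, mul_pow]
  rw [h5, mul_assoc, mul_neg_geom_sum, h6]
  ring

/-- **Instance**: the Eisenstein place at `θ - a` and the unramified place of `g₂`: their
intersection is `O[θ]` (so `O[θ]` is integrally closed although `f̄ = (X - ā) ^ n * ḡ₂` is not
squarefree). -/
theorem exists_eq_aeval_of_mem_eisenstein_of_mem_unram {f g₂ : O[X]} {a : O} {n : ℕ}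
    (hfac : f.map (residue O) = ((X - C a) ^ n).map (residue O) * g₂.map (residue O))
    (hirr₂ : Irreducible (g₂.map (residue O)))
    (hcop : IsCoprime ((X - C a).map (residue O)) (g₂.map (residue O)))
    {ϖ : O} (hϖ : maximalIdeal O = Ideal.span {ϖ})
    (θ : L) (hθ : aeval θ f = 0) (hgen : Algebra.adjoin K {θ} = ⊤)
    {ι₁ : O →+* Fk₁} (hι₁ : ι₁ ϖ = 0)
    {ι₂ : O →+* Fk₂} (hι₂ : ι₂ ϖ = 0) {θb₂ : Fk₂} (hθb₂ : g₂.eval₂ ι₂ θb₂ = 0)
    {t₂ : L}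
    (P₁ : PlaceOverU (θ - algebraMap O L a) (θ - algebraMap O L a) ι₁ (0 : Fk₁))
    (P₂ : PlaceOverU t₂ θ ι₂ θb₂) {y : L}
    (h₁ : y ∈ P₁.O1) (h₂ : y ∈ P₂.O1) : ∃ p : O[X], y = aeval θ p := by
  obtain ⟨a1, s1, hs1, e1⟩ := P₁.exists_repr y h₁
  obtain ⟨a2, s2, hs2, e2⟩ := P₂.exists_repr y h₂
  have hirr₁ : Irreducible ((X - C a).map (residue O)) := by
    rw [Polynomial.map_sub, Polynomial.map_X, Polynomial.map_C]
    exact Polynomial.irreducible_X_sub_C _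
  have hθb₁ : (X - C a).eval₂ ι₁ (ι₁ a) = 0 := by
    rw [eval₂_sub, eval₂_X, eval₂_C, sub_self]
  have hcomp : ∀ s : O[X], aeval θ (s.comp (X - C a)) = aeval (θ - algebraMap O L a) s := by
    intro s
    rw [aeval_comp, map_sub, aeval_X, aeval_C]
  have hcompb : ∀ s : O[X], (s.comp (X - C a)).eval₂ ι₁ (ι₁ a) = s.eval₂ ι₁ (0 : Fk₁) := by
    intro s
    rw [eval₂_comp, hθb₁]
  have hfac' : f.map (residue O) = ((X - C a) ^ n).map (residue O) * g₂.map (residue O) := hfac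
  refine exists_eq_aeval_of_repr_mult (K := K) (g₁ := X - C a) (n := n) hfac' hirr₁ hirr₂ hcop hϖ θ hθ
    hgen hι₁ (θb₁ := ι₁ a) hθb₁ hι₂ hθb₂ (a1 := a1.comp (X - C a)) (s1 := s1.comp (X - C a))
    (a2 := a2) (s2 := s2) ?_ ?_ hs2 e2
  · rw [hcompb]; exact hs1
  · rw [hcomp, hcomp]; exact e1

end Mult

end Fermat.Agent.CA.H99
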