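import Mathlib
import Fermat.Agent.CA.H99_TwoPlacesThm

/-!
# (P-B) semi-abstract instance: the two places for a polynomial with Kronecker reduction

`O` a DVR with uniformiser `ϖ`, `K = Frac O`, `L = K(θ)`, `θ` a root of a monic `f : O[X]`
generating the relations, with **Kronecker reduction** `f̄ = (X - x̄^q)(X^q - x̄)` for some `x : O`
(`q` prime). `res : O →+* Fk` a reduction into a field of characteristic `q` with `res ϖ = 0`,
in which `res x` is not a `q`-th power; `Vq : Fk →+* Fk` with `Vq (res x) = (res x)^q`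
(e.g. the substitution `t ↦ t^q` on Laurent series when `res x` has coefficients in `𝔽_q`).

Then `L` has exactly two places over `O`:
* `P∞ : PlaceOver ϖ θ res ((res x)^q)` (`θ ≡ x^q`), and
* `P₀ : PlaceOver ϖ θ (Vq.comp res) (res x)` (`θ^q ≡ x`),
whose intersection is `O[θ]`, with `O[θ]/ϖ` reduced.
-/

set_option autoImplicit false
set_option linter.unusedSectionVars false
set_option linter.style.haveILetI false

open Polynomial IsLocalRing

namespace Fermat.Agent.CA.H99

section Kronecker

variable {O : Type*} [CommRing O] [IsDomain O] [IsDiscreteValuationRing O]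
variable {Fk : Type*} [Field Fk]

/-- the "infinity" factor `X - x^q`. -/
noncomputable def gInf (q : ℕ) (x : O) : O[X] := X - C (x ^ q)

/-- the "zero" factor `X^q - x`. -/
noncomputable def gZero (q : ℕ) (x : O) : O[X] := X ^ q - C x

theorem gInf_map (q : ℕ) (x : O) :
    (gInf q x).map (residue O) = X - C (residue O x ^ q) := by
  rw [gInf, Polynomial.map_sub, Polynomial.map_X, Polynomial.map_C, map_pow]

theorem gZero_map (q : ℕ) (x : O) :
    (gZero q x).map (residue O) = X ^ q - C (residue O x) := by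
  rw [gZero, Polynomial.map_sub, Polynomial.map_pow, Polynomial.map_X, Polynomial.map_C]

theorem eval₂_gInf (q : ℕ) (x : O) (ι : O →+* Fk) (y : Fk) :
    (gInf q x).eval₂ ι y = y - ι x ^ q := by
  rw [gInf, eval₂_sub, eval₂_X, eval₂_C, map_pow]

theorem eval₂_gZero (q : ℕ) (x : O) (ι : O →+* Fk) (y : Fk) :
    (gZero q x).eval₂ ι y = y ^ q - ι x := by
  rw [gZero, eval₂_sub, eval₂_pow, eval₂_X, eval₂_C]

/-- `x̄` is not a `q`-th power in the residue field if `res x` is not one in `Fk`. -/
theorem residue_pow_ne {ϖ : O} (hϖ : maximalIdeal O = Ideal.span {ϖ}) (res : O →+* Fk)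
    (hresϖ : res ϖ = 0) (q : ℕ) (x : O) (hnp : ∀ b : Fk, b ^ q ≠ res x) :
    ∀ b : ResidueField O, b ^ q ≠ residue O x := by
  intro b hb
  have := congrArg (resLift hϖ res hresϖ) hb
  rw [map_pow] at this
  exact hnp _ this

theorem irreducible_gInf_map (q : ℕ) (x : O) : Irreducible ((gInf q x).map (residue O)) := by
  rw [gInf_map]
  exact Polynomial.irreducible_X_sub_C _

theorem irreducible_gZero_map {ϖ : O} (hϖ : maximalIdeal O = Ideal.span {ϖ}) (res : O →+* Fk)
    (hresϖ : res ϖ = 0) (q : ℕ) [hq : Fact q.Prime] (x : O) (hnp : ∀ b : Fk, b ^ q ≠ res x) :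
    Irreducible ((gZero q x).map (residue O)) := by
  rw [gZero_map]
  exact X_pow_sub_C_irreducible_of_prime hq.out (residue_pow_ne hϖ res hresϖ q x hnp)

theorem isCoprime_gInf_gZero {ϖ : O} (hϖ : maximalIdeal O = Ideal.span {ϖ}) (res : O →+* Fk)
    (hresϖ : res ϖ = 0) (q : ℕ) [hq : Fact q.Prime] (x : O) (hnp : ∀ b : Fk, b ^ q ≠ res x) :
    IsCoprime ((gInf q x).map (residue O)) ((gZero q x).map (residue O)) := by
  rw [(irreducible_gInf_map q x).coprime_iff_not_dvd, gInf_map, gZero_map,
    Polynomial.dvd_iff_isRoot, Polynomial.IsRoot, eval_sub, eval_pow, eval_X, eval_C, sub_eq_zero]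
  intro h
  exact residue_pow_ne hϖ res hresϖ q x hnp _ h

end Kronecker

section Places

variable {O : Type*} [CommRing O] [IsDomain O] [IsDiscreteValuationRing O]
variable {K : Type*} [Field K] [Algebra O K] [IsFractionRing O K]
variable {L : Type*} [Field L] [Algebra O L] [Algebra K L] [IsScalarTower O K L]
variable {Fk : Type*} [Field Fk]

/-- **The place at infinity** (`θ ≡ x^q`). -/
theorem nonempty_placeInf {ϖ : O} (hϖ : maximalIdeal O = Ideal.span {ϖ}) (res : O →+* Fk)
    (hresϖ : res ϖ = 0) (q : ℕ) [hq : Fact q.Prime] (x : O) (hnp : ∀ b : Fk, b ^ q ≠ res x)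
    {f : O[X]} (hf : f.Monic)
    (hKr : f.map (residue O) = (gInf q x).map (residue O) * (gZero q x).map (residue O))
    (θ : L) (hθ : aeval θ f = 0) (hmin : ∀ p : O[X], aeval θ p = 0 → f ∣ p)
    (hgen : Algebra.adjoin K {θ} = ⊤) :
    Nonempty (PlaceOver ϖ θ res (res x ^ q)) :=
  nonempty_placeOver (K := K) hf hKr (irreducible_gInf_map q x)
    (isCoprime_gInf_gZero hϖ res hresϖ q x hnp) hϖ θ hθ hmin hgen res hresϖ (res x ^ q)
    (by rw [eval₂_gInf, sub_self])

/-- **The place at zero** (`θ^q ≡ x`), with reduction twisted by `Vq`. -/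
theorem nonempty_placeZero {ϖ : O} (hϖ : maximalIdeal O = Ideal.span {ϖ}) (res : O →+* Fk)
    (hresϖ : res ϖ = 0) (q : ℕ) [hq : Fact q.Prime] (x : O) (hnp : ∀ b : Fk, b ^ q ≠ res x)
    (Vq : Fk →+* Fk) (hVq : Vq (res x) = res x ^ q)
    {f : O[X]} (hf : f.Monic)
    (hKr : f.map (residue O) = (gInf q x).map (residue O) * (gZero q x).map (residue O))
    (θ : L) (hθ : aeval θ f = 0) (hmin : ∀ p : O[X], aeval θ p = 0 → f ∣ p)
    (hgen : Algebra.adjoin K {θ} = ⊤) :
    Nonempty (PlaceOver ϖ θ (Vq.comp res) (res x)) := by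
  have hKr' : f.map (residue O) = (gZero q x).map (residue O) * (gInf q x).map (residue O) := by
    rw [hKr, mul_comm]
  refine nonempty_placeOver (K := K) hf hKr' (irreducible_gZero_map hϖ res hresϖ q x hnp)
    (isCoprime_gInf_gZero hϖ res hresϖ q x hnp).symm hϖ θ hθ hmin hgen (Vq.comp res) ?_ (res x) ?_
  · rw [RingHom.comp_apply, hresϖ, map_zero]
  · rw [eval₂_gZero, RingHom.comp_apply, hVq, sub_self]

end Places

section Hmin

open IntermediateField

variable {O : Type*} [CommRing O] [IsDomain O]
variable {K : Type*} [Field K] [Algebra O K] [IsFractionRing O K]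
variable {L : Type*} [Field L] [Algebra O L] [Algebra K L] [IsScalarTower O K L]

/-- **Minimality from a degree count**: if `L = K[θ]` has degree `deg f` over `K`, then the monic
`f : O[X]` with `f(θ) = 0` generates the relations of `θ` over `O`. -/
theorem dvd_of_aeval_eq_zero_of_finrank {f : O[X]} (hf : f.Monic) (θ : L) (hθ : aeval θ f = 0)
    (hgen : Algebra.adjoin K {θ} = ⊤) (hdeg : Module.finrank K L = f.natDegree) :
    ∀ p : O[X], aeval θ p = 0 → f ∣ p := by
  have hOK : Function.Injective (algebraMap O K) := IsFractionRing.injective O K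
  have hθK : aeval θ (f.map (algebraMap O K)) = 0 := by rw [aeval_map_algebraMap, hθ]
  have hint : IsIntegral K θ := ⟨f.map (algebraMap O K), hf.map _, hθK⟩
  -- `K⟮θ⟯ = ⊤`
  have htop : K⟮θ⟯ = ⊤ := by
    apply IntermediateField.toSubalgebra_injective
    rw [IntermediateField.adjoin_simple_toSubalgebra_of_isAlgebraic hint.isAlgebraic, hgen,
      IntermediateField.top_toSubalgebra]
  have hmindeg : (minpoly K θ).natDegree = f.natDegree := by
    rw [← IntermediateField.adjoin.finrank hint, htop, IntermediateField.finrank_top', hdeg]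
  intro p hp
  rw [← Polynomial.modByMonic_eq_zero_iff_dvd hf]
  by_contra hne
  have hr : aeval θ (p %ₘ f) = 0 := by
    have h1 := congrArg (aeval θ) (Polynomial.modByMonic_add_div p f)
    rw [map_add, map_mul, hθ, zero_mul, add_zero, hp] at h1
    exact h1
  have hrK : aeval θ ((p %ₘ f).map (algebraMap O K)) = 0 := by rw [aeval_map_algebraMap, hr]
  have hne' : (p %ₘ f).map (algebraMap O K) ≠ 0 := by
    intro h0
    exact hne (Polynomial.map_injective _ hOK (by rw [h0, Polynomial.map_zero]))
  have h1 := minpoly.degree_le_of_ne_zero K θ hne' hrK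
  have h2 : ((p %ₘ f).map (algebraMap O K)).degree < f.degree := by
    rw [Polynomial.degree_map_eq_of_injective hOK]
    exact Polynomial.degree_modByMonic_lt p hf
  have h3 : (minpoly K θ).degree = f.degree := by
    rw [Polynomial.degree_eq_natDegree (minpoly.ne_zero hint), hmindeg,
      Polynomial.degree_eq_natDegree hf.ne_zero]
  rw [h3] at h1
  exact absurd h2 (not_lt.2 h1)

end Hmin

end Fermat.Agent.CA.H99
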