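import Mathlib
import Fermat.Agent.CA.H99_TwoPlacesThm
import Fermat.Agent.CA.H99_PlaceOverU

/-!
# A place of `K(θ)` over a noetherian base is a discrete valuation ring (intrinsic proof)

`O` a noetherian ring, `O1 ⊆ L` a subring containing the image of `O` and `θ`, with a reduction map
`res1 : O1 →+* Fk` into a field whose kernel is `τ · O1` (`τ ≠ 0`), in which residue-units are
invertible, and such that every element of `O1` is `a(θ) / s(θ)` with `s(θ)` a unit of `O1`.  Then
`O1` is noetherian (every ideal is extended from `O[X]`), local, with principal maximal ideal: a DVR.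

Corollaries: `PlaceOver.isDiscreteValuationRing` for the frozen structure `CA.H99.PlaceOver`
(no factorisation data needed), `PlaceOver.isFractionRing`, and the conversion
`PlaceOver.toPlaceOverU'` (discreteness for free).
-/

set_option autoImplicit false
set_option linter.unusedSectionVars false
set_option linter.style.haveILetI false

open Polynomial IsLocalRing

namespace Fermat.Agent.CA.H99

section Generic

variable {O : Type*} [CommRing O] [IsNoetherianRing O]
variable {L : Type*} [Field L] [Algebra O L]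
variable {Fk : Type*} [Field Fk]

/-- **Generic criterion**: a "place with representatives" over a noetherian base is a DVR. -/
theorem isDiscreteValuationRing_of_repr (θ : L)
    (O1 : Subring L) (res1 : O1 →+* Fk) (hO : ∀ a : O, algebraMap O L a ∈ O1) (hθ1 : θ ∈ O1)
    (τ : L) (hτ : τ ∈ O1) (hτ0 : τ ≠ 0)
    (hker : ∀ (y : L) (hy : y ∈ O1), res1 ⟨y, hy⟩ = 0 ↔ ∃ z ∈ O1, y = τ * z)
    (hinv : ∀ (y : L) (hy : y ∈ O1), res1 ⟨y, hy⟩ ≠ 0 → y⁻¹ ∈ O1)
    (hrepr : ∀ y ∈ O1, ∃ a s : O[X], aeval θ s ≠ 0 ∧ (aeval θ s)⁻¹ ∈ O1 ∧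
      y * aeval θ s = aeval θ a) :
    IsDiscreteValuationRing O1 := by
  have haev : ∀ p : O[X], aeval θ p ∈ O1 := by
    intro p
    rw [aeval_def, eval₂_eq_sum_range]
    exact Subring.sum_mem _ fun i _ => Subring.mul_mem _ (hO _) (Subring.pow_mem _ hθ1 _)
  let ψ : O[X] →+* O1 := ((aeval θ : O[X] →ₐ[O] L) : O[X] →+* L).codRestrict O1 haev
  have hψ : ∀ p : O[X], ((ψ p : O1) : L) = aeval θ p := fun p => rfl
  -- noetherian
  haveI hnoeth : IsNoetherianRing O1 := by
    rw [isNoetherianRing_iff_ideal_fg]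
    intro I
    have hI : I = (I.comap ψ).map ψ := by
      apply le_antisymm
      · intro y hy
        obtain ⟨a, s, hs0, hsinv, hys⟩ := hrepr y.1 y.2
        have hya : y * ψ s = ψ a := Subtype.ext hys
        have haI : a ∈ I.comap ψ := by
          rw [Ideal.mem_comap, ← hya]
          exact I.mul_mem_right _ hy
        have hy' : y = ψ a * ⟨(aeval θ s)⁻¹, hsinv⟩ := by
          apply Subtype.ext
          change (y : L) = aeval θ a * (aeval θ s)⁻¹
          rw [← hys, mul_assoc, mul_inv_cancel₀ hs0, mul_one]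
        rw [hy']
        exact Ideal.mul_mem_right _ _ (Ideal.mem_map_of_mem ψ haI)
      · exact Ideal.map_comap_le
    rw [hI]
    exact Ideal.FG.map (IsNoetherian.noetherian (I.comap ψ)) ψ
  -- units
  have hunit : ∀ x : O1, res1 x ≠ 0 → IsUnit x := by
    intro x hx
    have hinv' := hinv x.1 x.2 hx
    have hx0 : (x : L) ≠ 0 := by
      intro h0
      apply hx
      have : x = 0 := Subtype.ext h0
      rw [this, map_zero]
    exact ⟨⟨x, ⟨(x : L)⁻¹, hinv'⟩, Subtype.ext (mul_inv_cancel₀ hx0),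
      Subtype.ext (inv_mul_cancel₀ hx0)⟩, rfl⟩
  haveI hloc : IsLocalRing O1 := by
    apply IsLocalRing.of_isUnit_or_isUnit_one_sub_self
    intro a
    by_cases ha : res1 a = 0
    · right
      apply hunit
      rw [map_sub, map_one, ha, sub_zero]
      exact one_ne_zero
    · left
      exact hunit a ha
  set τ1 : O1 := ⟨τ, hτ⟩ with hτ1
  have hτ10 : τ1 ≠ 0 := fun h => hτ0 (congrArg Subtype.val h)
  have hmax : maximalIdeal O1 = Ideal.span {τ1} := by
    ext x
    rw [IsLocalRing.mem_maximalIdeal, mem_nonunits_iff, Ideal.mem_span_singleton]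
    constructor
    · intro hx
      have h0 : res1 x = 0 := by
        by_contra h
        exact hx (hunit x h)
      obtain ⟨z, hz, hxz⟩ := (hker x.1 x.2).1 h0
      exact ⟨⟨z, hz⟩, Subtype.ext hxz⟩
    · rintro ⟨z, rfl⟩ hu
      have h0 : res1 (τ1 * z) = 0 :=
        (hker (τ1 * z : O1).1 (τ1 * z : O1).2).2 ⟨z.1, z.2, rfl⟩
      exact (hu.map res1).ne_zero h0
  have hnf : ¬ IsField O1 := by
    intro hF
    have h0 : maximalIdeal O1 = ⊥ := IsLocalRing.isField_iff_maximalIdeal_eq.mp hF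
    have : τ1 ∈ maximalIdeal O1 := by rw [hmax]; exact Ideal.mem_span_singleton_self _
    rw [h0, Ideal.mem_bot] at this
    exact hτ10 this
  have hprinc : (maximalIdeal O1).IsPrincipal := by rw [hmax]; exact ⟨⟨_, rfl⟩⟩
  exact ((IsDiscreteValuationRing.TFAE O1 hnf).out 4 0).mp hprinc

/-- in the situation of `isDiscreteValuationRing_of_repr`, `τ` generates the maximal ideal. -/
theorem maximalIdeal_eq_span_of_repr
    (O1 : Subring L) [IsLocalRing O1] (res1 : O1 →+* Fk)
    (τ : L) (hτ : τ ∈ O1)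
    (hker : ∀ (y : L) (hy : y ∈ O1), res1 ⟨y, hy⟩ = 0 ↔ ∃ z ∈ O1, y = τ * z)
    (hinv : ∀ (y : L) (hy : y ∈ O1), res1 ⟨y, hy⟩ ≠ 0 → y⁻¹ ∈ O1) :
    maximalIdeal O1 = Ideal.span {(⟨τ, hτ⟩ : O1)} := by
  ext x
  rw [IsLocalRing.mem_maximalIdeal, mem_nonunits_iff, Ideal.mem_span_singleton]
  constructor
  · intro hx
    have h0 : res1 x = 0 := by
      by_contra h
      apply hx
      have hinv' := hinv x.1 x.2 h
      have hx0 : (x : L) ≠ 0 := by
        intro h0
        apply h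
        have : x = 0 := Subtype.ext h0
        rw [this, map_zero]
      exact ⟨⟨x, ⟨(x : L)⁻¹, hinv'⟩, Subtype.ext (mul_inv_cancel₀ hx0),
        Subtype.ext (inv_mul_cancel₀ hx0)⟩, rfl⟩
    obtain ⟨z, hz, hxz⟩ := (hker x.1 x.2).1 h0
    exact ⟨⟨z, hz⟩, Subtype.ext hxz⟩
  · rintro ⟨z, rfl⟩ hu
    have h0 : res1 ((⟨τ, hτ⟩ : O1) * z) = 0 :=
      (hker ((⟨τ, hτ⟩ : O1) * z : O1).1 ((⟨τ, hτ⟩ : O1) * z : O1).2).2 ⟨z.1, z.2, rfl⟩
    exact (hu.map res1).ne_zero h0

end Generic

namespace PlaceOver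

variable {O : Type*} [CommRing O] [IsNoetherianRing O] {L : Type*} [Field L] [Algebra O L]
  {Fk : Type*} [Field Fk] {ϖ : O} {θ : L} {ι : O →+* Fk} {θb : Fk} (P : PlaceOver ϖ θ ι θb)

/-- **The frozen places are DVRs** (as soon as `ϖ ≠ 0` in `L`). -/
theorem isDiscreteValuationRing (hϖL : algebraMap O L ϖ ≠ 0) : IsDiscreteValuationRing P.O1 := by
  refine isDiscreteValuationRing_of_repr (O := O) θ P.O1 P.res1 P.algebraMap_mem P.θ_mem
    (algebraMap O L ϖ) (P.algebraMap_mem ϖ) hϖL P.res1_eq_zero_iff P.inv_mem ?_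
  intro y hy
  obtain ⟨a, s, hs, hys⟩ := P.exists_repr y hy
  have hres : P.res1 ⟨aeval θ s, P.aeval_mem s⟩ ≠ 0 := by rw [P.res1_aeval]; exact hs
  refine ⟨a, s, ?_, P.inv_mem _ (P.aeval_mem s) hres, hys⟩
  intro h0
  apply hres
  have : (⟨aeval θ s, P.aeval_mem s⟩ : P.O1) = 0 := Subtype.ext h0
  rw [this, map_zero]

/-- the uniformiser of a frozen place, as an element of `O1`. -/
def ϖ1 : P.O1 := ⟨algebraMap O L ϖ, P.algebraMap_mem ϖ⟩

theorem maximalIdeal_eq (hϖL : algebraMap O L ϖ ≠ 0) :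
    letI := (P.isDiscreteValuationRing hϖL).toIsLocalRing
    maximalIdeal P.O1 = Ideal.span {P.ϖ1} := by
  letI := (P.isDiscreteValuationRing hϖL).toIsLocalRing
  exact maximalIdeal_eq_span_of_repr P.O1 P.res1 (algebraMap O L ϖ) (P.algebraMap_mem ϖ)
    P.res1_eq_zero_iff P.inv_mem

/-- **`L` is the fraction field of a frozen place.** -/
theorem isFractionRing : IsFractionRing P.O1 L := by
  apply IsFractionRing.of_field
  intro y
  rcases P.mem_or_inv_mem y with hy | hy
  · exact ⟨⟨y, hy⟩, 1, by rw [map_one, div_one]; rfl⟩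
  · refine ⟨1, ⟨y⁻¹, hy⟩, ?_⟩
    rw [map_one, one_div]
    exact (inv_inv y).symm

/-- discreteness of a frozen place. -/
theorem exists_pow (hϖL : algebraMap O L ϖ ≠ 0) (y : L) (hy : y ∈ P.O1) (hy0 : y ≠ 0) :
    ∃ (n : ℕ) (z : L), z ∈ P.O1 ∧ z⁻¹ ∈ P.O1 ∧ y = algebraMap O L ϖ ^ n * z := by
  haveI := P.isDiscreteValuationRing hϖL
  have hirr : Irreducible P.ϖ1 :=
    (IsDiscreteValuationRing.irreducible_iff_uniformizer P.ϖ1).2 (P.maximalIdeal_eq hϖL)
  have hy1 : (⟨y, hy⟩ : P.O1) ≠ 0 := fun h => hy0 (congrArg Subtype.val h)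
  obtain ⟨n, u, hu⟩ := IsDiscreteValuationRing.eq_unit_mul_pow_irreducible hy1 hirr
  refine ⟨n, ((u : P.O1) : L), (u : P.O1).2, ?_, ?_⟩
  · have h1 : ((u : P.O1) : L) * (((u⁻¹ : (P.O1)ˣ) : P.O1) : L) = 1 := by
      have := congrArg Subtype.val (Units.mul_inv u)
      exact this
    rw [← eq_inv_of_mul_eq_one_right h1]
    exact ((u⁻¹ : (P.O1)ˣ) : P.O1).2
  · have := congrArg Subtype.val hu
    change y = ((u : P.O1) : L) * (algebraMap O L ϖ) ^ n at this
    rw [this, mul_comm]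

/-- every frozen place is a `PlaceOverU` (discreteness for free). -/
def toPlaceOverU' (hϖL : algebraMap O L ϖ ≠ 0) : PlaceOverU (algebraMap O L ϖ) θ ι θb :=
  P.toPlaceOverU hϖL (P.exists_pow hϖL)

end PlaceOver

end Fermat.Agent.CA.H99
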