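import Mathlib

/-!
# "Exactly these places" in a two-step tower of fields

`F1 → F2` fields.  If every valuation subring of `F1` containing `S0` in which `ϖ` is a non-unit is
`Oi` or `O0` (bottom step), every valuation subring of `F2` containing the image of `Oi` in which
`ϖ` is a non-unit is `PB` or `PC`, and the only one containing the image of `O0` is `PA` (top
step), then every valuation subring of `F2` containing the image of `S0` in which `ϖ` is a non-unit
is `PA`, `PB` or `PC`.
-/

set_option autoImplicit false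

namespace Fermat.Agent.CA.H99

section Tower

variable {F1 F2 : Type*} [Field F1] [Field F2]

/-- `v(y) < 1` iff `y⁻¹` is not in the valuation ring (`y ≠ 0`). -/
theorem valuation_lt_one_iff_inv_not_mem {K : Type*} [Field K] (A : ValuationSubring K) (y : K)
    (hy : y ≠ 0) : A.valuation y < 1 ↔ y⁻¹ ∉ A := by
  rw [← A.valuation_le_one_iff, map_inv₀, not_le]
  have hv : A.valuation y ≠ 0 := (Valuation.ne_zero_iff _).2 hy
  rw [one_lt_inv₀ (zero_lt_iff.2 hv)]

/-- non-units of a pulled-back valuation subring. -/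
theorem mem_nonunits_comap_iff (ι2 : F1 →+* F2) (W : ValuationSubring F2) (x : F1) :
    x ∈ (W.comap ι2).nonunits ↔ ι2 x ∈ W.nonunits := by
  rw [ValuationSubring.mem_nonunits_iff, ValuationSubring.mem_nonunits_iff]
  by_cases hx : x = 0
  · subst hx
    rw [map_zero, map_zero, map_zero]
    exact ⟨fun _ => zero_lt_one, fun _ => zero_lt_one⟩
  · have hx2 : ι2 x ≠ 0 := (map_ne_zero ι2).2 hx
    rw [valuation_lt_one_iff_inv_not_mem _ x hx, valuation_lt_one_iff_inv_not_mem _ (ι2 x) hx2,
      ValuationSubring.mem_comap, map_inv₀]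

/-- **Exactly three places in a two-step tower.** -/
theorem eq_or_eq_or_eq_of_tower (ι2 : F1 →+* F2) (S0 : Set F1) (ϖ : F1)
    (Oi O0 : Subring F1) (PA PB PC : Subring F2)
    (hbot : ∀ W1 : ValuationSubring F1, (∀ a ∈ S0, a ∈ W1) → ϖ ∈ W1.nonunits →
      W1.toSubring = Oi ∨ W1.toSubring = O0)
    (htopi : ∀ W : ValuationSubring F2, (∀ a ∈ Oi, ι2 a ∈ W) → ι2 ϖ ∈ W.nonunits →
      W.toSubring = PB ∨ W.toSubring = PC)
    (htop0 : ∀ W : ValuationSubring F2, (∀ a ∈ O0, ι2 a ∈ W) → ι2 ϖ ∈ W.nonunits →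
      W.toSubring = PA)
    (W : ValuationSubring F2) (hW : ∀ a ∈ S0, ι2 a ∈ W) (hϖ : ι2 ϖ ∈ W.nonunits) :
    W.toSubring = PA ∨ W.toSubring = PB ∨ W.toSubring = PC := by
  have h1 : ∀ a ∈ S0, a ∈ W.comap ι2 := fun a ha => hW a ha
  have h2 : ϖ ∈ (W.comap ι2).nonunits := (mem_nonunits_comap_iff ι2 W ϖ).2 hϖ
  rcases hbot (W.comap ι2) h1 h2 with h | h
  · right
    refine htopi W ?_ hϖ
    intro a ha
    have : a ∈ (W.comap ι2).toSubring := h ▸ ha
    exact this
  · left
    refine htop0 W ?_ hϖ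
    intro a ha
    have : a ∈ (W.comap ι2).toSubring := h ▸ ha
    exact this

end Tower

end Fermat.Agent.CA.H99
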