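import Mathlib

/-!
CA / H9_DerivationLocal (helper9): a derivation of a field that is "bounded" on a local subring
with residue field the constants preserves that subring.  Mathlib only, generic.

Setting: `k ⊆ κ` fields, `D : Derivation k κ κ`, `O : Subring κ`, `s ∈ O` (a uniformiser in the
applications: `O = 𝔇_a`, `𝔇` a Dedekind chart ring of a curve over `k`, `a` a `k`-rational point,
`s` a local parameter at `a`, `D = d/ds`).

* `derivation_mem_of_pow_mul_mem` : if every `g ∈ O` is `c + s * g₁` with `c ∈ k`, `g₁ ∈ O`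
  (residue field `k`, maximal ideal `(s)`), `D s ∈ O`, and denominators are bounded
  (`s ^ N * D g ∈ O` for all `g ∈ O`), then `D g ∈ O` for all `g ∈ O`.
* `exists_pow_mul_derivation_mem` : bounded denominators when `O` consists of fractions `a * u⁻¹`
  of a finitely generated `k`-subalgebra `A ≤ O` (with `u⁻¹ ∈ O`) and `s` is a "uniformiser"
  (every nonzero `x : κ` has `x * s ^ n` a unit of `O` for some `n : ℤ`).
* `derivation_mem` : the combination.
* `not_mem_of_derivation_not_mem` : the contrapositive used for pole arguments.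
-/

set_option autoImplicit false

namespace Fermat.Agent.CA.H9

variable {k κ : Type*} [Field k] [Field κ] [Algebra k κ]

/-- Descent of the exponent of the denominator: if `O = k + s O`, `D s ∈ O` and
`s ^ N * D g ∈ O` for all `g ∈ O`, then `D` maps `O` into `O`. -/
theorem derivation_mem_of_pow_mul_mem (D : Derivation k κ κ) (O : Subring κ) {s : κ}
    (hs : s ∈ O) (hDs : D s ∈ O)
    (hres : ∀ g ∈ O, ∃ (c : k) (g₁ : κ), g₁ ∈ O ∧ g = algebraMap k κ c + s * g₁)
    (N : ℕ) (hN : ∀ g ∈ O, s ^ N * D g ∈ O) : ∀ g ∈ O, D g ∈ O := by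
  induction N with
  | zero => intro g hg; simpa using hN g hg
  | succ n ih =>
    apply ih
    intro g hg
    obtain ⟨c, g₁, hg₁, rfl⟩ := hres g hg
    have h1 : D (algebraMap k κ c + s * g₁) = s * D g₁ + g₁ * D s := by
      rw [map_add, Derivation.map_algebraMap, zero_add, Derivation.leibniz]
      simp [smul_eq_mul]
    rw [h1, mul_add]
    refine O.add_mem ?_ ?_
    · have := hN g₁ hg₁
      rwa [pow_succ, mul_assoc] at this
    · exact O.mul_mem (O.pow_mem hs n) (O.mul_mem hg₁ hDs)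

/-- Bounded denominators: `O` is made of fractions of a finitely generated `k`-subalgebra
`A ≤ O`, and `s` is a uniformiser of `O`. -/
theorem exists_pow_mul_derivation_mem (D : Derivation k κ κ) (O : Subring κ) {s : κ}
    (hs : s ∈ O)
    (hunif : ∀ x : κ, x ≠ 0 → ∃ n : ℤ, x * s ^ n ∈ O ∧ (x * s ^ n)⁻¹ ∈ O)
    (A : Subalgebra k κ) (hAfg : A.FG) (hAO : ∀ a ∈ A, a ∈ O)
    (hfrac : ∀ g ∈ O, ∃ a ∈ A, ∃ u ∈ A, u ≠ 0 ∧ u⁻¹ ∈ O ∧ g = a * u⁻¹) :
    ∃ N : ℕ, ∀ g ∈ O, s ^ N * D g ∈ O := by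
  classical
  by_cases hs0 : s = 0
  · subst hs0
    refine ⟨1, fun g _ => ?_⟩
    simp
  -- a single element
  have hone : ∀ x : κ, ∃ n : ℕ, ∀ m : ℕ, n ≤ m → s ^ m * x ∈ O := by
    intro x
    by_cases hx : x = 0
    · exact ⟨0, fun m _ => by simp [hx]⟩
    obtain ⟨n, hn, -⟩ := hunif x hx
    refine ⟨n.toNat, fun m hm => ?_⟩
    have hm' : (n : ℤ) ≤ (m : ℤ) := le_trans (Int.self_le_toNat n) (by exact_mod_cast hm)
    obtain ⟨d, hd⟩ := Int.eq_ofNat_of_zero_le (sub_nonneg.mpr hm')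
    have : s ^ m * x = s ^ d * (x * s ^ n) := by
      have h1 : (s ^ m : κ) = s ^ ((m : ℤ)) := (zpow_natCast s m).symm
      have h2 : (s ^ d : κ) = s ^ ((d : ℤ)) := (zpow_natCast s d).symm
      rw [h1, h2, ← hd, zpow_sub₀ hs0]
      field_simp
    rw [this]
    exact O.mul_mem (O.pow_mem hs d) hn
  obtain ⟨T, hT⟩ := hAfg
  choose nT hnT using hone
  -- uniform exponent on the generators
  let N : ℕ := T.sup fun t => nT (D t)
  have hgen : ∀ t ∈ T, s ^ N * D t ∈ O := fun t ht =>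
    hnT (D t) N (Finset.le_sup (f := fun t => nT (D t)) ht)
  -- the subalgebra of good elements
  let G : Subalgebra k κ :=
    { carrier := {a | a ∈ O ∧ s ^ N * D a ∈ O}
      mul_mem' := by
        rintro a b ⟨ha, ha'⟩ ⟨hb, hb'⟩
        refine ⟨O.mul_mem ha hb, ?_⟩
        have : s ^ N * D (a * b) = a * (s ^ N * D b) + b * (s ^ N * D a) := by
          rw [Derivation.leibniz]; simp only [smul_eq_mul]; ring
        rw [this]
        exact O.add_mem (O.mul_mem ha hb') (O.mul_mem hb ha')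
      add_mem' := by
        rintro a b ⟨ha, ha'⟩ ⟨hb, hb'⟩
        refine ⟨O.add_mem ha hb, ?_⟩
        rw [map_add, mul_add]
        exact O.add_mem ha' hb'
      algebraMap_mem' := by
        intro c
        refine ⟨hAO _ (A.algebraMap_mem c), ?_⟩
        rw [Derivation.map_algebraMap, mul_zero]
        exact O.zero_mem }
  have hAG : A ≤ G := by
    rw [← hT]
    refine Algebra.adjoin_le ?_
    intro t ht
    have htA : t ∈ A := by rw [← hT]; exact Algebra.subset_adjoin ht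
    exact ⟨hAO t htA, hgen t ht⟩
  refine ⟨N, fun g hg => ?_⟩
  obtain ⟨a, ha, u, hu, hu0, huinv, rfl⟩ := hfrac g hg
  obtain ⟨haO, haD⟩ := hAG ha
  obtain ⟨huO, huD⟩ := hAG hu
  have hD : D (a * u⁻¹) = D a * u⁻¹ - a * u⁻¹ * u⁻¹ * D u := by
    have h1 : D a = D (a * u⁻¹ * u) := by
      rw [mul_assoc, inv_mul_cancel₀ hu0, mul_one]
    rw [Derivation.leibniz] at h1
    simp only [smul_eq_mul] at h1
    have h3 : u * D (a * u⁻¹) = D a - a * u⁻¹ * D u := by
      rw [h1]; ring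
    have h4 : D (a * u⁻¹) = u⁻¹ * (u * D (a * u⁻¹)) := by
      rw [← mul_assoc, inv_mul_cancel₀ hu0, one_mul]
    rw [h4, h3]; ring
  have : s ^ N * D (a * u⁻¹) =
      (s ^ N * D a) * u⁻¹ - a * u⁻¹ * u⁻¹ * (s ^ N * D u) := by
    rw [hD]; ring
  rw [this]
  exact O.sub_mem (O.mul_mem haD huinv)
    (O.mul_mem (O.mul_mem (O.mul_mem haO huinv) huinv) huD)

/-- A `k`-derivation `D` of `κ` with `D s ∈ O` preserves the local subring `O` with uniformiser
`s`, residue field `k`, which is a ring of fractions of a finitely generated `k`-algebra. -/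
theorem derivation_mem (D : Derivation k κ κ) (O : Subring κ) {s : κ}
    (hs : s ∈ O) (hDs : D s ∈ O)
    (hres : ∀ g ∈ O, ∃ (c : k) (g₁ : κ), g₁ ∈ O ∧ g = algebraMap k κ c + s * g₁)
    (hunif : ∀ x : κ, x ≠ 0 → ∃ n : ℤ, x * s ^ n ∈ O ∧ (x * s ^ n)⁻¹ ∈ O)
    (A : Subalgebra k κ) (hAfg : A.FG) (hAO : ∀ a ∈ A, a ∈ O)
    (hfrac : ∀ g ∈ O, ∃ a ∈ A, ∃ u ∈ A, u ≠ 0 ∧ u⁻¹ ∈ O ∧ g = a * u⁻¹) :
    ∀ g ∈ O, D g ∈ O := by
  obtain ⟨N, hN⟩ := exists_pow_mul_derivation_mem D O hs hunif A hAfg hAO hfrac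
  exact derivation_mem_of_pow_mul_mem D O hs hDs hres N hN

/-- Contrapositive (pole form): if `D g` has a pole (`D g ∉ O`) then so has `g`. -/
theorem not_mem_of_derivation_not_mem (D : Derivation k κ κ) (O : Subring κ) {s : κ}
    (hs : s ∈ O) (hDs : D s ∈ O)
    (hres : ∀ g ∈ O, ∃ (c : k) (g₁ : κ), g₁ ∈ O ∧ g = algebraMap k κ c + s * g₁)
    (hunif : ∀ x : κ, x ≠ 0 → ∃ n : ℤ, x * s ^ n ∈ O ∧ (x * s ^ n)⁻¹ ∈ O)
    (A : Subalgebra k κ) (hAfg : A.FG) (hAO : ∀ a ∈ A, a ∈ O)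
    (hfrac : ∀ g ∈ O, ∃ a ∈ A, ∃ u ∈ A, u ≠ 0 ∧ u⁻¹ ∈ O ∧ g = a * u⁻¹)
    {g : κ} (hg : D g ∉ O) : g ∉ O :=
  fun h => hg (derivation_mem D O hs hDs hres hunif A hAfg hAO hfrac g h)

end Fermat.Agent.CA.H9
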