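import Mathlib

/-!
CA / H9_DerivationLocal2 (helper9): S36 bricks (Der-1) + (Der-2) of coordination note 3.
Mathlib only, generic.  A derivation `del` of a field `F` preserves a local subring `O` whose
"residue field consists of constants" as soon as it has bounded denominators on `O`.

Setting: `A` a commutative ring, `F` a field, `Algebra A F`, `del : Derivation A F F`,
`O : Subring F`.  `F` is an `O`-module (`a • y = a * y`).

* (Der-2) `derivation_mem_span_of_fractions` : if `O` consists of fractions `c * u⁻¹`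
  (`c u ∈ C := Algebra.adjoin A G`, `G` a finite set, `C ⊆ O`, `u⁻¹ ∈ O`) then
  `del x ∈ span_O (del '' G)` for every `x ∈ O`;
  `exists_mul_derivation_mem` : hence bounded denominators `∃ d ≠ 0, ∀ x ∈ O, d * del x ∈ O`
  (the `hbdd` of the DVR lemmas (Der-3)).
* (Der-1) `derivation_mem_of_span` (no noetherian hypothesis, takes the strong output of
  (Der-2)) and `derivation_mem_of_bdd` (noetherian `O`, takes `hbdd`): if `T ⊆ O` generates an
  ideal inside the Jacobson radical, `del t ∈ O` for `t ∈ T`, and every `x ∈ O` is congruent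
  modulo `(T)` to a constant (`del c = 0`), then `del O ⊆ O`.  Proof: Nakayama for the finitely
  generated `O`-module spanned by `1` and `del O`.
  Local forms: `derivation_mem_of_span_local`, `derivation_mem_of_bdd_local` (`T` in the maximal
  ideal), and `derivation_mem_of_fin` (generators indexed by a `Fintype`, explicit sums).
* `derivation_mem_of_localisation` : quotient rule, `del O ⊆ O` passes to rings of fractions.
* `derivation_mem_local` : the combination (Der-2) + (Der-1).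
-/

set_option autoImplicit false

namespace Fermat.Agent.CA.H9

open Submodule

variable {A F : Type*} [CommRing A] [Field F] [Algebra A F]

/-! ### (Der-2): bounded denominators -/

/-- `del c` lies in the `O`-span of `del '' G` for `c` in the `A`-algebra generated by `G`. -/
theorem derivation_mem_span_of_mem_adjoin (del : Derivation A F F) (O : Subring F) (G : Set F)
    (hCO : ∀ c ∈ Algebra.adjoin A G, c ∈ O) :
    ∀ c ∈ Algebra.adjoin A G, del c ∈ Submodule.span O (del '' G) := by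
  intro c hc
  induction hc using Algebra.adjoin_induction with
  | mem x hx => exact Submodule.subset_span ⟨x, hx, rfl⟩
  | algebraMap r => rw [Derivation.map_algebraMap]; exact Submodule.zero_mem _
  | add x y _ _ hx hy => rw [map_add]; exact Submodule.add_mem _ hx hy
  | mul x y hx' hy' hx hy =>
    rw [Derivation.leibniz]
    refine Submodule.add_mem _ ?_ ?_
    · have : x • del y = (⟨x, hCO x hx'⟩ : O) • del y := rfl
      rw [this]
      exact Submodule.smul_mem _ _ hy
    · have : y • del x = (⟨y, hCO y hy'⟩ : O) • del x := rfl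
      rw [this]
      exact Submodule.smul_mem _ _ hx

/-- Quotient rule in the form used below. -/
theorem derivation_mul_inv (del : Derivation A F F) (c u : F) (hu : u ≠ 0) :
    del (c * u⁻¹) = u⁻¹ * del c - c * u⁻¹ * u⁻¹ * del u := by
  have h1 : del c = del (c * u⁻¹ * u) := by
    rw [mul_assoc, inv_mul_cancel₀ hu, mul_one]
  rw [Derivation.leibniz] at h1
  simp only [smul_eq_mul] at h1
  have h3 : u * del (c * u⁻¹) = del c - c * u⁻¹ * del u := by
    rw [h1]; ring
  have h4 : del (c * u⁻¹) = u⁻¹ * (u * del (c * u⁻¹)) := by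
    rw [← mul_assoc, inv_mul_cancel₀ hu, one_mul]
  rw [h4, h3]; ring

/-- **(Der-2), strong form.** If `O` is a ring of fractions of `C = A[G]` inside `F`, then
`del O` lies in the `O`-submodule of `F` spanned by `del '' G`. -/
theorem derivation_mem_span_of_fractions (del : Derivation A F F) (O : Subring F) (G : Set F)
    (hCO : ∀ c ∈ Algebra.adjoin A G, c ∈ O)
    (hfrac : ∀ x ∈ O, ∃ c ∈ Algebra.adjoin A G, ∃ u ∈ Algebra.adjoin A G,
      u ≠ 0 ∧ u⁻¹ ∈ O ∧ x = c * u⁻¹) :
    ∀ x ∈ O, del x ∈ Submodule.span O (del '' G) := by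
  intro x hx
  obtain ⟨c, hc, u, hu, hu0, huinv, rfl⟩ := hfrac x hx
  rw [derivation_mul_inv del c u hu0]
  refine Submodule.sub_mem _ ?_ ?_
  · have : u⁻¹ * del c = (⟨u⁻¹, huinv⟩ : O) • del c := rfl
    rw [this]
    exact Submodule.smul_mem _ _ (derivation_mem_span_of_mem_adjoin del O G hCO c hc)
  · have : c * u⁻¹ * u⁻¹ * del u =
        (⟨c * u⁻¹ * u⁻¹, O.mul_mem (O.mul_mem (hCO c hc) huinv) huinv⟩ : O) • del u := rfl
    rw [this]
    exact Submodule.smul_mem _ _ (derivation_mem_span_of_mem_adjoin del O G hCO u hu)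

/-- From a finite spanning set with denominators to one common denominator. -/
theorem exists_mul_mem_of_mem_span (O : Subring F) (S : Finset F)
    (hden : ∀ y ∈ S, ∃ d : F, d ∈ O ∧ d ≠ 0 ∧ d * y ∈ O) :
    ∃ d : F, d ∈ O ∧ d ≠ 0 ∧ ∀ y ∈ Submodule.span O (S : Set F), d * y ∈ O := by
  classical
  induction S using Finset.induction_on with
  | empty =>
    refine ⟨1, O.one_mem, one_ne_zero, fun y hy => ?_⟩
    simp only [Finset.coe_empty, Submodule.span_empty, Submodule.mem_bot] at hy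
    rw [hy, mul_zero]; exact O.zero_mem
  | insert a S _ ih =>
    obtain ⟨d₁, hd₁O, hd₁, h₁⟩ := ih fun y hy => hden y (Finset.mem_insert_of_mem hy)
    obtain ⟨d₂, hd₂O, hd₂, h₂⟩ := hden a (Finset.mem_insert_self a S)
    refine ⟨d₁ * d₂, O.mul_mem hd₁O hd₂O, mul_ne_zero hd₁ hd₂, fun y hy => ?_⟩
    rw [Finset.coe_insert, Submodule.mem_span_insert] at hy
    obtain ⟨r, z, hz, rfl⟩ := hy
    have : d₁ * d₂ * (r • a + z) = d₁ * (r : F) * (d₂ * a) + d₂ * (d₁ * z) := by
      rw [Subring.smul_def, smul_eq_mul]; ring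
    rw [this]
    exact O.add_mem (O.mul_mem (O.mul_mem hd₁O r.2) h₂) (O.mul_mem hd₂O (h₁ z hz))

/-- **(Der-2), weak form (`hbdd`).** If `O` is a ring of fractions of `C = A[G]`, `G` finite, and
each `del g` (`g ∈ G`) has a denominator in `O`, then `del` has bounded denominators on `O`. -/
theorem exists_mul_derivation_mem (del : Derivation A F F) (O : Subring F) (G : Finset F)
    (hCO : ∀ c ∈ Algebra.adjoin A (G : Set F), c ∈ O)
    (hfrac : ∀ x ∈ O, ∃ c ∈ Algebra.adjoin A (G : Set F), ∃ u ∈ Algebra.adjoin A (G : Set F),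
      u ≠ 0 ∧ u⁻¹ ∈ O ∧ x = c * u⁻¹)
    (hden : ∀ g ∈ G, ∃ d : F, d ∈ O ∧ d ≠ 0 ∧ d * del g ∈ O) :
    ∃ d : F, d ∈ O ∧ d ≠ 0 ∧ ∀ x ∈ O, d * del x ∈ O := by
  classical
  obtain ⟨d, hdO, hd, h⟩ := exists_mul_mem_of_mem_span O (G.image del) (by
    intro y hy
    obtain ⟨g, hg, rfl⟩ := Finset.mem_image.mp hy
    exact hden g hg)
  refine ⟨d, hdO, hd, fun x hx => h _ ?_⟩
  have := derivation_mem_span_of_fractions del O (G : Set F) hCO hfrac x hx
  rwa [Finset.coe_image]

/-- (Der-2) when `F` is the field of fractions of `O` in the weak sense that every element has a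
denominator in `O`. -/
theorem exists_mul_derivation_mem' (del : Derivation A F F) (O : Subring F) (G : Finset F)
    (hCO : ∀ c ∈ Algebra.adjoin A (G : Set F), c ∈ O)
    (hfrac : ∀ x ∈ O, ∃ c ∈ Algebra.adjoin A (G : Set F), ∃ u ∈ Algebra.adjoin A (G : Set F),
      u ≠ 0 ∧ u⁻¹ ∈ O ∧ x = c * u⁻¹)
    (hF : ∀ y : F, ∃ d : F, d ∈ O ∧ d ≠ 0 ∧ d * y ∈ O) :
    ∃ d : F, d ∈ O ∧ d ≠ 0 ∧ ∀ x ∈ O, d * del x ∈ O :=
  exists_mul_derivation_mem del O G hCO hfrac fun g _ => hF (del g)

/-! ### (Der-1): the Nakayama trick -/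

/-- Key computation: modulo constants and `I • M`, where `I = (T)` and `M ⊇ del O`. -/
theorem derivation_mem_sup_smul (del : Derivation A F F) (O : Subring F) (T : Set O)
    (hdT : ∀ t ∈ T, del (t : F) ∈ O)
    (hres : ∀ x : O, ∃ c : O, del (c : F) = 0 ∧ x - c ∈ Ideal.span T)
    (M : Submodule O F) (hM : ∀ x : O, del (x : F) ∈ M) (x : O) :
    del (x : F) ∈ Submodule.span O {(1 : F)} ⊔ Ideal.span T • M := by
  have hO : ∀ y : F, y ∈ O → y ∈ Submodule.span O {(1 : F)} := by
    intro y hy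
    have : y = (⟨y, hy⟩ : O) • (1 : F) := by rw [Subring.smul_def, smul_eq_mul, mul_one]
    rw [this]
    exact Submodule.smul_mem _ _ (Submodule.subset_span rfl)
  -- elements of the ideal
  have key : ∀ y : O, y ∈ Ideal.span T →
      del (y : F) ∈ Submodule.span O {(1 : F)} ⊔ Ideal.span T • M := by
    intro y hy
    induction hy using Submodule.span_induction with
    | mem t ht => exact Submodule.mem_sup_left (hO _ (hdT t ht))
    | zero => simp
    | add a b _ _ ha hb =>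
      rw [Subring.coe_add, map_add]
      exact Submodule.add_mem _ ha hb
    | smul a b hb ih =>
      rw [smul_eq_mul, Subring.coe_mul, Derivation.leibniz]
      refine Submodule.add_mem _ ?_ ?_
      · have : (a : F) • del (b : F) = a • del (b : F) := rfl
        rw [this]
        exact Submodule.smul_mem _ _ ih
      · refine Submodule.mem_sup_right ?_
        have : (b : F) • del (a : F) = b • del (a : F) := rfl
        rw [this]
        exact Submodule.smul_mem_smul hb (hM a)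
  obtain ⟨c, hc, hxc⟩ := hres x
  have h := key (x - c) hxc
  have hcoe : ((x - c : O) : F) = (x : F) - (c : F) := rfl
  rwa [hcoe, map_sub, hc, sub_zero] at h

/-- **(Der-1), no noetherian hypothesis.** `T ⊆ O` generates an ideal inside the Jacobson
radical, `del T ⊆ O`, every element of `O` is a constant modulo `(T)`, and `del O` lies in the
`O`-span of `del '' G` for a finite `G ⊆ O` (strong output of (Der-2)).  Then `del O ⊆ O`. -/
theorem derivation_mem_of_span (del : Derivation A F F) (O : Subring F) (T : Set O)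
    (hJ : Ideal.span T ≤ Ideal.jacobson ⊥)
    (hdT : ∀ t ∈ T, del (t : F) ∈ O)
    (hres : ∀ x : O, ∃ c : O, del (c : F) = 0 ∧ x - c ∈ Ideal.span T)
    (G : Finset F) (hG : ∀ g ∈ G, g ∈ O)
    (hfin : ∀ x ∈ O, del x ∈ Submodule.span O (del '' (G : Set F))) :
    ∀ x ∈ O, del x ∈ O := by
  classical
  set M : Submodule O F := Submodule.span O (del '' (G : Set F)) with hMdef
  have hMfg : M.FG := by
    refine ⟨G.image del, ?_⟩
    rw [hMdef, Finset.coe_image]
  have hM : ∀ x : O, del (x : F) ∈ M := fun x => hfin x x.2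
  have hle : M ≤ Submodule.span O {(1 : F)} ⊔ Ideal.span T • M := by
    rw [hMdef, Submodule.span_le]
    rintro y ⟨g, hg, rfl⟩
    exact derivation_mem_sup_smul del O T hdT hres M hM ⟨g, hG g hg⟩
  have hfinal := Submodule.le_of_le_smul_of_le_jacobson_bot hMfg hJ hle
  intro x hx
  have h1 := hfinal (hM ⟨x, hx⟩)
  rw [Submodule.mem_span_singleton] at h1
  obtain ⟨a, ha⟩ := h1
  rw [Subring.smul_def, smul_eq_mul, mul_one] at ha
  have ha' : del x = (a : F) := ha.symm
  rw [ha']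
  exact a.2

/-- **(Der-1), noetherian form.** As `derivation_mem_of_span`, with `O` noetherian and the weak
boundedness `∃ d ≠ 0, ∀ x ∈ O, d * del x ∈ O` (`d` need not lie in `O`). -/
theorem derivation_mem_of_bdd (del : Derivation A F F) (O : Subring F) [IsNoetherianRing O]
    (T : Set O) (hJ : Ideal.span T ≤ Ideal.jacobson ⊥)
    (hdT : ∀ t ∈ T, del (t : F) ∈ O)
    (hres : ∀ x : O, ∃ c : O, del (c : F) = 0 ∧ x - c ∈ Ideal.span T)
    (hbdd : ∃ d : F, d ≠ 0 ∧ ∀ x ∈ O, d * del x ∈ O) :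
    ∀ x ∈ O, del x ∈ O := by
  classical
  obtain ⟨d, hd, hbd⟩ := hbdd
  set M : Submodule O F :=
    Submodule.span O (Set.range fun x : O => del (x : F)) with hMdef
  have hM : ∀ x : O, del (x : F) ∈ M := fun x => Submodule.subset_span ⟨x, rfl⟩
  -- `M` is finitely generated: `d • M` lands in `O`.
  have hMfg : M.FG := by
    -- multiplication by `d` (an `O`-linear injective map `F → F`)
    let ℓ : F →ₗ[O] F :=
      { toFun := fun y => d * y
        map_add' := fun y z => mul_add d y z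
        map_smul' := fun a y => by
          simp only [Subring.smul_def, smul_eq_mul, RingHom.id_apply]; ring }
    have hℓ : Function.Injective ℓ := fun y z h => mul_left_cancel₀ hd h
    -- the image of `O` in `F`
    let j : O →ₗ[O] F := Algebra.linearMap O F
    have hmap : M.map ℓ ≤ LinearMap.range j := by
      rw [hMdef, Submodule.map_span, Submodule.span_le]
      rintro _ ⟨y, ⟨x, rfl⟩, rfl⟩
      exact ⟨⟨d * del (x : F), hbd x x.2⟩, rfl⟩
    have h1 : ((M.map ℓ).comap j).FG := IsNoetherian.noetherian _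
    have h2 : (((M.map ℓ).comap j).map j).FG := h1.map j
    rw [Submodule.map_comap_eq_self hmap] at h2
    exact Submodule.fg_of_fg_map_injective ℓ hℓ h2
  have hle : M ≤ Submodule.span O {(1 : F)} ⊔ Ideal.span T • M := by
    rw [hMdef, Submodule.span_le]
    rintro y ⟨x, rfl⟩
    exact derivation_mem_sup_smul del O T hdT hres M hM x
  have hfinal := Submodule.le_of_le_smul_of_le_jacobson_bot hMfg hJ hle
  intro x hx
  have h1 := hfinal (hM ⟨x, hx⟩)
  rw [Submodule.mem_span_singleton] at h1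
  obtain ⟨a, ha⟩ := h1
  rw [Subring.smul_def, smul_eq_mul, mul_one] at ha
  have ha' : del x = (a : F) := ha.symm
  rw [ha']
  exact a.2

/-! ### Local forms -/

/-- In a subring `O` of a field, an element whose inverse is not in `O` is a non-unit of `O`. -/
theorem not_isUnit_of_inv_not_mem (O : Subring F) (t : O) (ht : (t : F)⁻¹ ∉ O) : ¬ IsUnit t := by
  rintro ⟨u, rfl⟩
  apply ht
  have h1 : ((u : O) : F) * (((u⁻¹ : Oˣ) : O) : F) = 1 := by
    rw [← Subring.coe_mul, Units.mul_inv, Subring.coe_one]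
  have h2 : (((u : O) : F))⁻¹ = (((u⁻¹ : Oˣ) : O) : F) := inv_eq_of_mul_eq_one_right h1
  rw [h2]
  exact ((u⁻¹ : Oˣ) : O).2

theorem span_le_jacobson_bot_of_local (O : Subring F) [IsLocalRing O] (T : Set O)
    (hT : ∀ t ∈ T, ¬ IsUnit t) : Ideal.span T ≤ Ideal.jacobson ⊥ := by
  rw [IsLocalRing.jacobson_eq_maximalIdeal ⊥ bot_ne_top, Ideal.span_le]
  intro t ht
  exact (IsLocalRing.mem_maximalIdeal t).mpr (hT t ht)

/-- (Der-1), local form, strong boundedness, no noetherian hypothesis. -/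
theorem derivation_mem_of_span_local (del : Derivation A F F) (O : Subring F) [IsLocalRing O]
    (T : Set O) (hT : ∀ t ∈ T, ¬ IsUnit t)
    (hdT : ∀ t ∈ T, del (t : F) ∈ O)
    (hres : ∀ x : O, ∃ c : O, del (c : F) = 0 ∧ x - c ∈ Ideal.span T)
    (G : Finset F) (hG : ∀ g ∈ G, g ∈ O)
    (hfin : ∀ x ∈ O, del x ∈ Submodule.span O (del '' (G : Set F))) :
    ∀ x ∈ O, del x ∈ O :=
  derivation_mem_of_span del O T (span_le_jacobson_bot_of_local O T hT) hdT hres G hG hfin

/-- (Der-1), local noetherian form, weak boundedness `hbdd`. -/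
theorem derivation_mem_of_bdd_local (del : Derivation A F F) (O : Subring F) [IsLocalRing O]
    [IsNoetherianRing O] (T : Set O) (hT : ∀ t ∈ T, ¬ IsUnit t)
    (hdT : ∀ t ∈ T, del (t : F) ∈ O)
    (hres : ∀ x : O, ∃ c : O, del (c : F) = 0 ∧ x - c ∈ Ideal.span T)
    (hbdd : ∃ d : F, d ≠ 0 ∧ ∀ x ∈ O, d * del x ∈ O) :
    ∀ x ∈ O, del x ∈ O :=
  derivation_mem_of_bdd del O T (span_le_jacobson_bot_of_local O T hT) hdT hres hbdd

/-- Translation of the explicit-sum form of `hres` / the generators. -/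
theorem hres_of_fin (del : Derivation A F F) (O : Subring F) {ι : Type*} [Fintype ι]
    (t : ι → F) (htO : ∀ i, t i ∈ O)
    (hres : ∀ x ∈ O, ∃ c : F, c ∈ O ∧ del c = 0 ∧
      ∃ g : ι → F, (∀ i, g i ∈ O) ∧ x = c + ∑ i, t i * g i) :
    ∀ x : O, ∃ c : O, del (c : F) = 0 ∧
      x - c ∈ Ideal.span (Set.range fun i => (⟨t i, htO i⟩ : O)) := by
  intro x
  obtain ⟨c, hc, hdc, g, hg, hx⟩ := hres x x.2
  refine ⟨⟨c, hc⟩, hdc, ?_⟩
  have : x - ⟨c, hc⟩ = ∑ i, (⟨g i, hg i⟩ : O) * (⟨t i, htO i⟩ : O) := by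
    apply Subtype.ext
    have hcoe : ((x - ⟨c, hc⟩ : O) : F) = (x : F) - c := rfl
    rw [hcoe, hx, add_sub_cancel_left]
    have : ((∑ i, (⟨g i, hg i⟩ : O) * (⟨t i, htO i⟩ : O) : O) : F) =
        ∑ i, ((⟨g i, hg i⟩ : O) * (⟨t i, htO i⟩ : O) : O).1 :=
      map_sum O.subtype _ _
    rw [this]
    refine Finset.sum_congr rfl fun i _ => ?_
    simp [mul_comm]
  rw [this]
  exact Ideal.sum_mem _ fun i _ =>
    Ideal.mul_mem_left _ _ (Ideal.subset_span ⟨i, rfl⟩)

/-- **(Der-1) as stated in coordination note 3.** `O` a noetherian local subring of the field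
`F`, `t i` (`i : ι`, finite) in the maximal ideal of `O` (`(t i)⁻¹ ∉ O`) with `del (t i) ∈ O`,
every `x ∈ O` of the form `c + ∑ t i * g i` with `c ∈ O` a constant (`del c = 0`), `g i ∈ O`,
and bounded denominators: then `del O ⊆ O`. -/
theorem derivation_mem_of_fin (del : Derivation A F F) (O : Subring F) [IsLocalRing O]
    [IsNoetherianRing O] {ι : Type*} [Fintype ι]
    (t : ι → F) (htO : ∀ i, t i ∈ O) (htm : ∀ i, (t i)⁻¹ ∉ O) (hdt : ∀ i, del (t i) ∈ O)
    (hres : ∀ x ∈ O, ∃ c : F, c ∈ O ∧ del c = 0 ∧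
      ∃ g : ι → F, (∀ i, g i ∈ O) ∧ x = c + ∑ i, t i * g i)
    (hbdd : ∃ d : F, d ≠ 0 ∧ ∀ x ∈ O, d * del x ∈ O) :
    ∀ x ∈ O, del x ∈ O := by
  refine derivation_mem_of_bdd_local del O (Set.range fun i => (⟨t i, htO i⟩ : O)) ?_ ?_
    (hres_of_fin del O t htO hres) hbdd
  · rintro _ ⟨i, rfl⟩
    exact not_isUnit_of_inv_not_mem O _ (htm i)
  · rintro _ ⟨i, rfl⟩
    exact hdt i

/-- (Der-1), explicit-sum form without noetherian hypothesis (strong boundedness). -/
theorem derivation_mem_of_fin_span (del : Derivation A F F) (O : Subring F) [IsLocalRing O]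
    {ι : Type*} [Fintype ι]
    (t : ι → F) (htO : ∀ i, t i ∈ O) (htm : ∀ i, (t i)⁻¹ ∉ O) (hdt : ∀ i, del (t i) ∈ O)
    (hres : ∀ x ∈ O, ∃ c : F, c ∈ O ∧ del c = 0 ∧
      ∃ g : ι → F, (∀ i, g i ∈ O) ∧ x = c + ∑ i, t i * g i)
    (G : Finset F) (hG : ∀ g ∈ G, g ∈ O)
    (hfin : ∀ x ∈ O, del x ∈ Submodule.span O (del '' (G : Set F))) :
    ∀ x ∈ O, del x ∈ O := by
  refine derivation_mem_of_span_local del O (Set.range fun i => (⟨t i, htO i⟩ : O)) ?_ ?_
    (hres_of_fin del O t htO hres) G hG hfin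
  · rintro _ ⟨i, rfl⟩
    exact not_isUnit_of_inv_not_mem O _ (htm i)
  · rintro _ ⟨i, rfl⟩
    exact hdt i

/-! ### Localisation and the combination -/

/-- Quotient rule: if `del O ⊆ O` and `O'` is a ring of fractions of `O` inside `F`, then
`del O' ⊆ O'`. -/
theorem derivation_mem_of_localisation (del : Derivation A F F) (O O' : Subring F)
    (h : ∀ x ∈ O, del x ∈ O) (hOO' : O ≤ O')
    (hfrac : ∀ x ∈ O', ∃ c ∈ O, ∃ u ∈ O, u ≠ 0 ∧ u⁻¹ ∈ O' ∧ x = c * u⁻¹) :
    ∀ x ∈ O', del x ∈ O' := by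
  intro x hx
  obtain ⟨c, hc, u, hu, hu0, huinv, rfl⟩ := hfrac x hx
  rw [derivation_mul_inv del c u hu0]
  exact O'.sub_mem (O'.mul_mem huinv (hOO' (h c hc)))
    (O'.mul_mem (O'.mul_mem (O'.mul_mem (hOO' hc) huinv) huinv) (hOO' (h u hu)))

/-- **(Der-2) + (Der-1).** `O` a local subring of `F` which is a ring of fractions of the finitely
generated `A`-algebra `A[G] ⊆ O`; `t i` in the maximal ideal of `O` with `del (t i) ∈ O`; every
element of `O` is a constant modulo `(t i)`.  Then `del O ⊆ O`.  (No noetherian hypothesis, no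
denominators needed.) -/
theorem derivation_mem_local (del : Derivation A F F) (O : Subring F) [IsLocalRing O]
    {ι : Type*} [Fintype ι]
    (t : ι → F) (htO : ∀ i, t i ∈ O) (htm : ∀ i, (t i)⁻¹ ∉ O) (hdt : ∀ i, del (t i) ∈ O)
    (hres : ∀ x ∈ O, ∃ c : F, c ∈ O ∧ del c = 0 ∧
      ∃ g : ι → F, (∀ i, g i ∈ O) ∧ x = c + ∑ i, t i * g i)
    (G : Finset F)
    (hCO : ∀ c ∈ Algebra.adjoin A (G : Set F), c ∈ O)
    (hfrac : ∀ x ∈ O, ∃ c ∈ Algebra.adjoin A (G : Set F), ∃ u ∈ Algebra.adjoin A (G : Set F),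
      u ≠ 0 ∧ u⁻¹ ∈ O ∧ x = c * u⁻¹) :
    ∀ x ∈ O, del x ∈ O :=
  derivation_mem_of_fin_span del O t htO htm hdt hres G
    (fun g hg => hCO g (Algebra.subset_adjoin hg))
    (derivation_mem_span_of_fractions del O (G : Set F) hCO hfrac)

/-! ### Variants for a finitely generated subalgebra `C` (instead of `A[G]`) -/

/-- (Der-2), weak form, for a finitely generated subalgebra `C ≤ O` of which `O` is a ring of
fractions, `F` being a field of fractions of `O` in the weak sense `hF`.  The conclusion is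
literally the hypothesis `hbdd` of `derivation_mem_of_bdd` / of the DVR lemmas (Der-3). -/
theorem exists_mul_derivation_mem_of_fg (del : Derivation A F F) (O : Subring F)
    (C : Subalgebra A F) (hfg : C.FG) (hCO : ∀ c ∈ C, c ∈ O)
    (hfrac : ∀ x ∈ O, ∃ c ∈ C, ∃ u ∈ C, u ≠ 0 ∧ u⁻¹ ∈ O ∧ x = c * u⁻¹)
    (hF : ∀ y : F, ∃ d : F, d ∈ O ∧ d ≠ 0 ∧ d * y ∈ O) :
    ∃ d : F, d ≠ 0 ∧ ∀ x ∈ O, d * del x ∈ O := by
  obtain ⟨G, rfl⟩ := hfg
  obtain ⟨d, -, hd, h⟩ := exists_mul_derivation_mem' del O G hCO hfrac hF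
  exact ⟨d, hd, h⟩

/-- (Der-2), weak form, for the image of a finite type `A`-algebra `B` in `F`. -/
theorem exists_mul_derivation_mem_of_finiteType (del : Derivation A F F) (O : Subring F)
    {B : Type*} [CommRing B] [Algebra A B] [Algebra.FiniteType A B] (f : B →ₐ[A] F)
    (hCO : ∀ b : B, f b ∈ O)
    (hfrac : ∀ x ∈ O, ∃ c u : B, f u ≠ 0 ∧ (f u)⁻¹ ∈ O ∧ x = f c * (f u)⁻¹)
    (hF : ∀ y : F, ∃ d : F, d ∈ O ∧ d ≠ 0 ∧ d * y ∈ O) :
    ∃ d : F, d ≠ 0 ∧ ∀ x ∈ O, d * del x ∈ O := by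
  refine exists_mul_derivation_mem_of_fg del O f.range ?_ ?_ ?_ hF
  · rw [← Algebra.map_top]
    exact (Algebra.FiniteType.out : (⊤ : Subalgebra A B).FG).map f
  · rintro _ ⟨b, rfl⟩
    exact hCO b
  · intro x hx
    obtain ⟨c, u, hu0, huinv, rfl⟩ := hfrac x hx
    exact ⟨f c, ⟨c, rfl⟩, f u, ⟨u, rfl⟩, hu0, huinv, rfl⟩

/-- (Der-2) + (Der-1) for a finitely generated subalgebra `C ≤ O`. -/
theorem derivation_mem_local_of_fg (del : Derivation A F F) (O : Subring F) [IsLocalRing O]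
    {ι : Type*} [Fintype ι]
    (t : ι → F) (htO : ∀ i, t i ∈ O) (htm : ∀ i, (t i)⁻¹ ∉ O) (hdt : ∀ i, del (t i) ∈ O)
    (hres : ∀ x ∈ O, ∃ c : F, c ∈ O ∧ del c = 0 ∧
      ∃ g : ι → F, (∀ i, g i ∈ O) ∧ x = c + ∑ i, t i * g i)
    (C : Subalgebra A F) (hfg : C.FG) (hCO : ∀ c ∈ C, c ∈ O)
    (hfrac : ∀ x ∈ O, ∃ c ∈ C, ∃ u ∈ C, u ≠ 0 ∧ u⁻¹ ∈ O ∧ x = c * u⁻¹) :
    ∀ x ∈ O, del x ∈ O := by
  obtain ⟨G, rfl⟩ := hfg
  exact derivation_mem_local del O t htO htm hdt hres G hCO hfrac

/-- (Der-2) + (Der-1) for the image of a finite type `A`-algebra `B` in `F`: the local ring `O`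
of `B` at a point (inside `F`) is preserved by `del` as soon as `del` maps a system of generators
`t i` of an ideal of definition with constant residues into `O`. -/
theorem derivation_mem_local_of_finiteType (del : Derivation A F F) (O : Subring F)
    [IsLocalRing O] {ι : Type*} [Fintype ι]
    (t : ι → F) (htO : ∀ i, t i ∈ O) (htm : ∀ i, (t i)⁻¹ ∉ O) (hdt : ∀ i, del (t i) ∈ O)
    (hres : ∀ x ∈ O, ∃ c : F, c ∈ O ∧ del c = 0 ∧
      ∃ g : ι → F, (∀ i, g i ∈ O) ∧ x = c + ∑ i, t i * g i)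
    {B : Type*} [CommRing B] [Algebra A B] [Algebra.FiniteType A B] (f : B →ₐ[A] F)
    (hCO : ∀ b : B, f b ∈ O)
    (hfrac : ∀ x ∈ O, ∃ c u : B, f u ≠ 0 ∧ (f u)⁻¹ ∈ O ∧ x = f c * (f u)⁻¹) :
    ∀ x ∈ O, del x ∈ O := by
  refine derivation_mem_local_of_fg del O t htO htm hdt hres f.range ?_ ?_ ?_
  · rw [← Algebra.map_top]
    exact (Algebra.FiniteType.out : (⊤ : Subalgebra A B).FG).map f
  · rintro _ ⟨b, rfl⟩
    exact hCO b
  · intro x hx
    obtain ⟨c, u, hu0, huinv, rfl⟩ := hfrac x hx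
    exact ⟨f c, ⟨c, rfl⟩, f u, ⟨u, rfl⟩, hu0, huinv, rfl⟩

end Fermat.Agent.CA.H9
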