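import Fermat.Agent.CA.H49_DerivDVRZero
import Fermat.Agent.CA.H9_DerivationLocal2

/-!
CA / H9_OmegaHorizontal (helper9): the abstract assembly of S36 row (A-hor).

`K` a field of characteristic `0`, `F' ⊆ F` function fields over `K` with two `K`-embeddings
`ι V : F' →ₐ[K] F` (the two degeneracy maps), `del'` the `K`-derivation of `F'` with `del' s = 1`,
`delι`, `delV` its extensions to `F` along `ι` and along `V`, proportional to each other (the
space of `K`-derivations of `F` is one-dimensional).  `Ω := delι (V s)`.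

Let `O ⊆ F` be a discrete valuation ring over `K` (a horizontal height-one prime of the model)
such that `F / ι F'` and `F / V F'` are both unramified at `O` (`ι π'`, `V π''` uniformisers of
`O` for suitable `π' π'' : F'`), `del'` maps `π'`, `π''` into the corresponding DVRs downstairs
(so `ι (del' π') ∈ O`, `V (del' π'') ∈ O`), `delι`, `delV` have bounded denominators on `O`, and
`ι s, V s ∈ O`.  Then `Ω` is a unit of `O`.

Everything is spelled by membership in a `Subring F` (vocabulary of `CA.H49_DerivDVRZero`).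
-/

set_option autoImplicit false

namespace Fermat.Agent.CA.H9

open Polynomial

/-- `O` is a discrete valuation ring of `F` over `K` with uniformiser `π`, in elementary
membership form (the four hypotheses of `CA.H49` plus separatedness). -/
structure IsDVROver (K : Type*) {F : Type*} [Field K] [Field F] [Algebra K F] (O : Subring F)
    (π : F) : Prop where
  hK : ∀ c : K, algebraMap K F c ∈ O
  hπ : π ∈ O
  hπ1 : ∀ y ∈ O, π * y ≠ 1
  hloc : ∀ x ∈ O, (∃ y ∈ O, x = π * y) ∨ x⁻¹ ∈ O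
  halg : ∀ x ∈ O, ∃ p : K[X], p ≠ 0 ∧ ∃ z ∈ O, aeval x p = π * z
  hsep : ∀ d ∈ O, d ≠ 0 → ∃ N : ℕ, ∃ u ∈ O, π ^ N = d * u

variable {K F' F : Type*} [Field K] [CharZero K] [Field F'] [Field F] [Algebra K F']
  [Algebra K F]

omit [CharZero K] in
/-- From a common denominator to a bound by a power of the uniformiser. -/
theorem IsDVROver.exists_pow_mul_mem {O : Subring F} {π : F} (h : IsDVROver K O π)
    (D : F → F) (hbdd : ∃ d : F, d ∈ O ∧ d ≠ 0 ∧ ∀ x ∈ O, d * D x ∈ O) :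
    ∃ N : ℕ, ∀ x ∈ O, π ^ N * D x ∈ O := by
  obtain ⟨d, hdO, hd0, hd⟩ := hbdd
  obtain ⟨N, u, hu, hN⟩ := h.hsep d hdO hd0
  refine ⟨N, fun x hx => ?_⟩
  have : π ^ N * D x = u * (d * D x) := by rw [hN]; ring
  rw [this]
  exact O.mul_mem hu (hd x hx)

/-- **(Der-3) in the `IsDVROver` vocabulary.** A `K`-derivation with `del π ∈ O` and bounded
denominators on `O` preserves `O`. -/
theorem IsDVROver.derivation_mem {O : Subring F} {π : F} (h : IsDVROver K O π)
    (del : Derivation K F F) (hdπ : del π ∈ O)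
    (hbdd : ∃ d : F, d ∈ O ∧ d ≠ 0 ∧ ∀ x ∈ O, d * del x ∈ O) :
    ∀ x ∈ O, del x ∈ O := by
  obtain ⟨N, hN⟩ := h.exists_pow_mul_mem del hbdd
  exact H49.derivation_mem_of_pow_mul_mem del O h.hπ hdπ h.hK h.hπ1 h.hloc h.halg N hN

/-- **(Der-4) in the `IsDVROver` vocabulary.** If `del` preserves `O` and `del s = 1` for some
`s ∈ O` then `del π` is a unit of `O`. -/
theorem IsDVROver.derivation_uniformiser_unit {O : Subring F} {π : F} (h : IsDVROver K O π)
    (del : Derivation K F F) (hdel : ∀ x ∈ O, del x ∈ O) {s : F} (hs : s ∈ O)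
    (hds : del s = 1) : del π ≠ 0 ∧ (del π)⁻¹ ∈ O :=
  H49.inv_derivation_uniformiser_mem_of_eq_one del O h.hK h.hπ1 h.hloc h.halg hdel hs hds h.hπ

/-- **Extension step.** `ι : F' →ₐ[K] F`, `delι` extends `del'` along `ι`, `ι π'` is a
uniformiser of `O` (no ramification along `ι`), `ι (del' π') ∈ O`, bounded denominators: then
`delι` preserves `O`. -/
theorem derivation_mem_of_unramified (ι : F' →ₐ[K] F) (del' : Derivation K F' F')
    (delι : Derivation K F F) (hι : ∀ x, delι (ι x) = ι (del' x)) {O : Subring F} {π' : F'}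
    (h : IsDVROver K O (ι π')) (hdπ : ι (del' π') ∈ O)
    (hbdd : ∃ d : F, d ∈ O ∧ d ≠ 0 ∧ ∀ x ∈ O, d * delι x ∈ O) :
    ∀ x ∈ O, delι x ∈ O :=
  h.derivation_mem delι (by rw [hι]; exact hdπ) hbdd

omit [CharZero K] in
/-- Proportional derivations preserving `O`, normalised by `d₁ b = 1`, `d₂ a = 1`, `a b ∈ O`:
`Ω := d₁ a` is a unit of `O` (and `Ω⁻¹ = d₂ b`). -/
theorem unit_of_proportional (O : Subring F) {d₁ d₂ : Derivation K F F}
    (h₁ : ∀ x ∈ O, d₁ x ∈ O) (h₂ : ∀ x ∈ O, d₂ x ∈ O) {c : F} (hc : ∀ x : F, d₂ x = c * d₁ x)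
    {a b : F} (ha : a ∈ O) (hb : b ∈ O) (hb1 : d₁ b = 1) (ha1 : d₂ a = 1) :
    d₁ a ∈ O ∧ (d₁ a)⁻¹ ∈ O ∧ d₁ a ≠ 0 ∧ (d₁ a)⁻¹ = d₂ b := by
  have h1 : c = d₂ b := by rw [hc b, hb1, mul_one]
  have h2 : c * d₁ a = 1 := by rw [← hc a, ha1]
  have h3 : (d₁ a)⁻¹ = c := (eq_inv_of_mul_eq_one_left h2).symm
  refine ⟨h₁ a ha, ?_, right_ne_zero_of_mul_eq_one h2, ?_⟩
  · rw [h3, h1]; exact h₂ b hb
  · rw [h3, h1]

/-- **(A-hor), abstract assembly.** `Ω = delι (V s)` is a unit of every DVR `O` of `F` over `K`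
at which both `ι` and `V` are unramified and whose restrictions downstairs are preserved by
`del'` (in the weak form `ι (del' π') ∈ O`, `V (del' π'') ∈ O`). -/
theorem omega_unit_of_horizontal (ι V : F' →ₐ[K] F) (del' : Derivation K F' F') {s : F'}
    (hs : del' s = 1) (delι delV : Derivation K F F)
    (hι : ∀ x, delι (ι x) = ι (del' x)) (hV : ∀ x, delV (V x) = V (del' x))
    {c : F} (hprop : ∀ x : F, delV x = c * delι x)
    {O : Subring F} {π' π'' : F'}
    (hOι : IsDVROver K O (ι π')) (hOV : IsDVROver K O (V π''))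
    (hdι : ι (del' π') ∈ O) (hdV : V (del' π'') ∈ O)
    (hbι : ∃ d : F, d ∈ O ∧ d ≠ 0 ∧ ∀ x ∈ O, d * delι x ∈ O)
    (hbV : ∃ d : F, d ∈ O ∧ d ≠ 0 ∧ ∀ x ∈ O, d * delV x ∈ O)
    (hsι : ι s ∈ O) (hsV : V s ∈ O) :
    delι (V s) ∈ O ∧ (delι (V s))⁻¹ ∈ O ∧ delι (V s) ≠ 0 ∧ (delι (V s))⁻¹ = delV (ι s) ∧
      (∀ x ∈ O, delι x ∈ O) ∧ (∀ x ∈ O, delV x ∈ O) := by
  have h₁ := derivation_mem_of_unramified ι del' delι hι hOι hdι hbι
  have h₂ := derivation_mem_of_unramified V del' delV hV hOV hdV hbV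
  have hb1 : delι (ι s) = 1 := by rw [hι, hs, map_one]
  have ha1 : delV (V s) = 1 := by rw [hV, hs, map_one]
  obtain ⟨k1, k2, k3, k4⟩ := unit_of_proportional O h₁ h₂ hprop hsV hsι hb1 ha1
  exact ⟨k1, k2, k3, k4, h₁, h₂⟩

/-- The proportionality factor comes for free when every `K`-derivation of `F` is determined by
its value at `ι s` (e.g. `F` finite separable over `K(ι s)`): uniqueness hypothesis `huniq`. -/
theorem omega_unit_of_horizontal' (ι V : F' →ₐ[K] F) (del' : Derivation K F' F') {s : F'}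
    (hs : del' s = 1) (delι delV : Derivation K F F)
    (hι : ∀ x, delι (ι x) = ι (del' x)) (hV : ∀ x, delV (V x) = V (del' x))
    (huniq : ∀ D₁ D₂ : Derivation K F F, D₁ (ι s) = D₂ (ι s) → D₁ = D₂)
    {O : Subring F} {π' π'' : F'}
    (hOι : IsDVROver K O (ι π')) (hOV : IsDVROver K O (V π''))
    (hdι : ι (del' π') ∈ O) (hdV : V (del' π'') ∈ O)
    (hbι : ∃ d : F, d ∈ O ∧ d ≠ 0 ∧ ∀ x ∈ O, d * delι x ∈ O)
    (hbV : ∃ d : F, d ∈ O ∧ d ≠ 0 ∧ ∀ x ∈ O, d * delV x ∈ O)
    (hsι : ι s ∈ O) (hsV : V s ∈ O) :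
    delι (V s) ∈ O ∧ (delι (V s))⁻¹ ∈ O ∧ delι (V s) ≠ 0 ∧ (delι (V s))⁻¹ = delV (ι s) ∧
      (∀ x ∈ O, delι x ∈ O) ∧ (∀ x ∈ O, delV x ∈ O) := by
  have hb1 : delι (ι s) = 1 := by rw [hι, hs, map_one]
  have hprop : ∀ x : F, delV x = delV (ι s) * delι x := by
    have : delV = delV (ι s) • delι := by
      apply huniq
      rw [Derivation.smul_apply, hb1, smul_eq_mul, mul_one]
    intro x
    conv_lhs => rw [this]
    rw [Derivation.smul_apply, smul_eq_mul]
  exact omega_unit_of_horizontal ι V del' hs delι delV hι hV hprop hOι hOV hdι hdV hbι hbV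
    hsι hsV

/-! ### Constructor from a discrete valuation subring -/

omit [CharZero K] in
/-- A discrete valuation subring `A` of `F` containing `K`, with uniformiser `π` and residue field
algebraic over `K` (valuation form), is a DVR over `K` in the sense of `IsDVROver`. -/
theorem isDVROver_of_valuationSubring (A : ValuationSubring F) [IsDiscreteValuationRing A]
    (hK : ∀ c : K, algebraMap K F c ∈ A) {π : F} (hπ : π ∈ A)
    (hirr : Irreducible (⟨π, hπ⟩ : A))
    (halg : ∀ x ∈ A, ∃ p : K[X], p ≠ 0 ∧ A.valuation (aeval x p) < 1) :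
    IsDVROver K A.toSubring π := by
  have hmax : IsLocalRing.maximalIdeal A = Ideal.span {(⟨π, hπ⟩ : A)} :=
    (IsDiscreteValuationRing.irreducible_iff_uniformizer _).mp hirr
  -- non-units are multiples of `π`
  have hmul : ∀ x : A, ¬ IsUnit x → ∃ y ∈ A.toSubring, (x : F) = π * y := by
    intro x hx
    have hxm : x ∈ IsLocalRing.maximalIdeal A := (IsLocalRing.mem_maximalIdeal x).mpr hx
    rw [hmax, Ideal.mem_span_singleton'] at hxm
    obtain ⟨a, ha⟩ := hxm
    refine ⟨a, a.2, ?_⟩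
    rw [← ha]
    simp [mul_comm]
  -- units have their inverse in `A`
  have hunit : ∀ x : A, IsUnit x → ((x : F))⁻¹ ∈ A.toSubring := by
    rintro _ ⟨u, rfl⟩
    have h1 : ((u : A) : F) * (((u⁻¹ : Aˣ) : A) : F) = 1 := by
      have : ((u : A) * ((u⁻¹ : Aˣ) : A) : A) = 1 := Units.mul_inv u
      exact_mod_cast congrArg (Subtype.val) this
    rw [inv_eq_of_mul_eq_one_right h1]
    exact ((u⁻¹ : Aˣ) : A).2
  refine ⟨hK, hπ, ?_, ?_, ?_, ?_⟩
  · intro y hy h1
    apply hirr.not_isUnit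
    refine IsUnit.of_mul_eq_one ⟨y, hy⟩ ?_
    exact Subtype.ext h1
  · intro x hx
    by_cases hu : IsUnit (⟨x, hx⟩ : A)
    · exact Or.inr (hunit _ hu)
    · exact Or.inl (hmul _ hu)
  · intro x hx
    obtain ⟨p, hp0, hp⟩ := halg x hx
    refine ⟨p, hp0, ?_⟩
    have hmem : aeval x p ∈ A := (A.valuation_le_one_iff _).mp hp.le
    have hnu : ¬ IsUnit (⟨aeval x p, hmem⟩ : A) := by
      have : (⟨aeval x p, hmem⟩ : A) ∈ IsLocalRing.maximalIdeal A :=
        (A.valuation_lt_one_iff _).mpr hp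
      exact (IsLocalRing.mem_maximalIdeal _).mp this
    exact hmul _ hnu
  · intro d hd hd0
    have hd0' : (⟨d, hd⟩ : A) ≠ 0 := fun h => hd0 (congrArg Subtype.val h)
    obtain ⟨n, u, hu⟩ := IsDiscreteValuationRing.eq_unit_mul_pow_irreducible hd0' hirr
    refine ⟨n, ((u⁻¹ : Aˣ) : A), ((u⁻¹ : Aˣ) : A).2, ?_⟩
    have h1 : ((⟨π, hπ⟩ : A) ^ n : A) = (⟨d, hd⟩ : A) * ((u⁻¹ : Aˣ) : A) := by
      rw [hu, mul_comm ((u : A)) _, mul_assoc, Units.mul_inv, mul_one]
    have := congrArg (Subtype.val) h1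
    simpa using this

end Fermat.Agent.CA.H9
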